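/-
Local structure at `q ≠ p` and Taylor-Wiles primes for the level lowering tangent bound.
-/
import Fermat.Agent.Galois.TamePrimitiveRoot
import Fermat.Agent.TW.GlobalDefs
import Fermat.Agent.TW.LocalConditions
import Fermat.Agent.TW.Engine
import Fermat.Agent.TW.LocalGlobal
import Fermat.Agent.PoitouTate.GlobalPrincipalize
import Fermat.Prelude.Def_GaloisRep_Residual
import Fermat.Prelude.Def_GaloisRep_LocalConditions
import Fermat.Agent.TW.LocalFlatBound

set_option autoImplicit false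

noncomputable section

namespace Fermat.Agent.Ribet

open Polynomial IsLocalRing
open Fermat.Agent

local notation "ℚbar" => AlgebraicClosure ℚ
local notation "Γℚ" => AlgebraicClosure ℚ ≃ₐ[ℚ] AlgebraicClosure ℚ

/-- A Frobenius element and an inertia element at `q` which generate the decomposition group in
every finite quotient where inertia is a `p`-group. -/
theorem exists_tame_generators {p q : ℕ} (hp : p.Prime) (hq : q.Prime) (hqp : q ≠ p)
    (A : ValuationSubring ℚbar) (hA : A.LiesOverPrime q) :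
    ∃ σ τ : Γℚ, A.IsFrobeniusAt σ q ∧ σ ∈ A.decompositionSubgroup ℚ ∧
      τ ∈ A.inertiaSubgroupIn ℚ ∧
      (∃ c : ℕ, (∀ μ : ℚbar, μ ^ q = 1 → τ μ = μ ^ c) ∧ orderOf (c : ZMod q) = q - 1) ∧
      ∀ (H : Type) [Group H] [Finite H] (f : Γℚ →* H),
        (∃ E : IntermediateField ℚ ℚbar, FiniteDimensional ℚ E ∧
          ∀ g : Γℚ, (∀ x ∈ E, g x = x) → f g = 1) →
        (∀ g ∈ A.inertiaSubgroupIn ℚ, ∃ n : ℕ, f g ^ p ^ n = 1) →
        f σ * f τ * (f σ)⁻¹ = f τ ^ q ∧
          (∀ g ∈ A.inertiaSubgroupIn ℚ, f g ∈ Subgroup.zpowers (f τ)) ∧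
          ∀ g ∈ A.decompositionSubgroup ℚ, f g ∈ Subgroup.closure {f σ, f τ} := by
  obtain ⟨σ, hσ⟩ := Galois.exists_isFrobeniusAt hq hA
  obtain ⟨τ, hτI, hτ⟩ := Galois.exists_generatesLayer hq hA
  exact ⟨σ, τ, hσ, hσ.mem_decompositionSubgroup, hτI,
    Galois.exists_primitiveRoot_of_generatesLayer hq hA hτ,
    fun H _ _ f hf hpI => Galois.tame_relations hp hq hqp hA hτI hτ hσ f hf hpI⟩

section bridges

variable {k : Type} [Field k] (ρ : ResidualGaloisRep k) (q : ℕ) [Fact q.Prime]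

theorem padicPlace_liesOver : (padicPlace q).LiesOverPrime q :=
  PoitouTate.liesOverPrime_padicPlace ⟨q, Fact.out⟩

theorem isFiniteLevel_locRep : TW.IsFiniteLevel q (TW.locRep ρ q) := by
  obtain ⟨E, hE, h⟩ := TW.matRep_factorsThroughFiniteLevel ρ
  obtain ⟨E', hE', hfix⟩ := TW.exists_localLevel q E
  refine ⟨E', hE', fun g s hs => ?_⟩
  have h1 : TW.locRep ρ q s = 1 := h _ (hfix s hs)
  rw [map_mul, h1, mul_one]

theorem resLoc_mem_ctsCocycles {T : Finset ℕ}
    {c : Γℚ → Matrix (Fin 2) (Fin 2) k} (hc : c ∈ TW.globalCocycles ρ T) :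
    TW.resLoc q c ∈ TW.ctsCocycles q (TW.locRep ρ q) := by
  obtain ⟨⟨⟨htr, hcoc⟩, E, hE, h⟩, -⟩ := hc
  obtain ⟨E', hE', hfix⟩ := TW.exists_localLevel q E
  refine (TW.mem_ctsCocycles_iff q _ _).mpr ⟨⟨fun g => htr _, fun g g' => ?_⟩,
    E', hE', fun g s hs => ?_⟩
  · change c (localGaloisToGlobal q (g * g')) = c (localGaloisToGlobal q g) +
      TW.matRep ρ (localGaloisToGlobal q g) * c (localGaloisToGlobal q g') *
        TW.matRep ρ (localGaloisToGlobal q g⁻¹)
    rw [map_mul, map_inv]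
    exact hcoc _ _
  · change c (localGaloisToGlobal q (g * s)) = c (localGaloisToGlobal q g)
    rw [map_mul]
    exact h _ _ (hfix s hs)

theorem det_locRep_eq (p : ℕ) [Fact p.Prime] [CharP k p]
    (hdet : (GaloisRepAdic.ofResidualGaloisRep ρ).DetIsCyclotomic p) (g : TW.GalQp p) :
    (TW.locRep ρ p g).det = ((TW.localCyclo p g : ZMod p).val : k) := by
  have hμ : ∀ μ : ℚbar, μ ^ p ^ 1 = 1 →
      localGaloisToGlobal p g μ = μ ^ (TW.localCyclo p g : ZMod p).val := by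
    intro μ hμ
    rw [pow_one] at hμ
    apply (padicEmbedding p).toRingHom.injective
    show padicEmbedding p (localGaloisToGlobal p g μ) = padicEmbedding p (μ ^ _)
    rw [padicEmbedding_localGaloisToGlobal, map_pow]
    exact TW.localCyclo_spec p g _ (by rw [← map_pow, hμ, map_one])
  have h := hdet.2 1 (localGaloisToGlobal p g) _ hμ
  rw [pow_one, CharP.cast_eq_zero k p, Ideal.span_singleton_zero, Ideal.mem_bot, sub_eq_zero] at h
  rw [← h]
  exact TW.det_matRep ρ _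

theorem exists_locRep_ne_one (h : ¬ ρ.IsUnramifiedAt q) :
    ∃ g ∈ TW.inertiaQp q, TW.locRep ρ q g ≠ 1 := by
  simp only [ResidualGaloisRep.IsUnramifiedAt, not_forall] at h
  obtain ⟨P, hP, σ, hσ, hne⟩ := h
  obtain ⟨s, rfl⟩ :=
    Galois.exists_smul_eq_of_liesOverPrime Fact.out (padicPlace_liesOver q) hP
  obtain ⟨g, hg, hgeq⟩ := TW.exists_inertiaQp_eq q (Galois.conj_mem_inertia_of_smul hσ)
  refine ⟨g, hg, fun h1 => hne ?_⟩
  have h2 : TW.matRep ρ (s⁻¹ * σ * s) = 1 := hgeq ▸ h1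
  rw [TW.matRep_eq_one_iff, map_mul, map_mul] at h2
  calc ρ.ρ σ = ρ.ρ s * (ρ.ρ s⁻¹ * ρ.ρ σ * ρ.ρ s) * ρ.ρ s⁻¹ := by
        rw [← map_mul, ← map_mul, ← map_mul, ← map_mul]; congr 1; group
    _ = 1 := by rw [h2, mul_one, ← map_mul, mul_inv_cancel, map_one]

theorem adCoboundaries_eq_bot_of_scalar
    (h : ∀ g ∈ (padicPlace q).decompositionSubgroup ℚ, ∃ ε : k, TW.matRep ρ g = ε • 1) :
    TW.adCoboundaries (TW.locRep ρ q) = ⊥ := by
  rw [eq_bot_iff]
  rintro _ ⟨M, -, rfl⟩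
  rw [Submodule.mem_bot]
  funext g
  obtain ⟨ε, hε⟩ := h _ (localGaloisToGlobal_mem_decompositionSubgroup q g)
  have hg : TW.locRep ρ q g = ε • 1 := hε
  have hcomm : TW.locRep ρ q g * M = M * TW.locRep ρ q g := by
    rw [hg, smul_mul_assoc, one_mul, mul_smul_comm, mul_one]
  rw [TW.adD_apply, hcomm, mul_assoc, ← map_mul, mul_inv_cancel, map_one, mul_one, sub_self]
  rfl

end bridges

/-- Taylor-Wiles primes for the level lowering argument: the classes flat at `p`, unipotent at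
the other primes of `Smin`, trivial at the primes of `Ssc` and free at the new primes form a space
of dimension at most `r - 3 #Ssc`. -/
theorem exists_taylorWilesPrimes_zeroAt {𝒪 : Type} [CommRing 𝒪] [IsDomain 𝒪]
    [IsDiscreteValuationRing 𝒪] [IsAdicComplete (maximalIdeal 𝒪) 𝒪] [Finite (ResidueField 𝒪)]
    (p : ℕ) [Fact p.Prime] (hp2 : p ≠ 2) (hp𝒪 : (p : 𝒪) ∈ maximalIdeal 𝒪)
    (ρbar : ResidualGaloisRep (ResidueField 𝒪))
    (habs : ρbar.IsAbsolutelyIrreducible)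
    (hdet : (GaloisRepAdic.ofResidualGaloisRep ρbar).DetIsCyclotomic p)
    (hsplit : ∀ σ : Γℚ, ∃ α β : ResidueField 𝒪,
      LinearMap.charpoly (ρbar.ρ σ) = (X - C α) * (X - C β))
    (hTW : ∀ (K : Type) [Field K] [Algebra (ResidueField 𝒪) K] (G : Subgroup Γℚ), G.index = 2 →
      ∀ V : Submodule K (ρbar.baseChange K).V,
        (∀ σ ∈ G, ∀ x ∈ V, (ρbar.baseChange K).ρ σ x ∈ V) → V = ⊥ ∨ V = ⊤)
    (Smin Ssc : Finset ℕ) (hpSmin : p ∈ Smin) (hdisj : Disjoint Smin Ssc)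
    (hprime : ∀ q ∈ Smin ∪ Ssc, q.Prime)
    (hmin : ∀ q : ℕ, q.Prime → q ≠ p → (q ∈ Smin ↔ ¬ ρbar.IsUnramifiedAt q))
    (hunip : ∀ q ∈ Smin, q ≠ p → ∀ P : ValuationSubring ℚbar, P.LiesOverPrime q →
      ∀ g ∈ P.inertiaSubgroupIn ℚ, (TW.matRep ρbar g).charpoly = (X - 1) ^ 2)
    (hone : ∀ q ∈ Ssc, (q : ZMod p) = 1)
    (hscalar : ∀ q ∈ Ssc, ∀ P : ValuationSubring ℚbar, P.LiesOverPrime q →
      ∀ g ∈ P.decompositionSubgroup ℚ, ∃ ε : ResidueField 𝒪, TW.matRep ρbar g = ε • 1) :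
    ∃ r : ℕ, ∀ n : ℕ, ∃ qv : Fin r → ℕ, Function.Injective qv ∧
      (∀ i, (qv i).Prime ∧ qv i ∉ Smin ∪ Ssc ∧ p ^ (n + 1) ∣ qv i - 1) ∧
      (∀ i, ∀ P : ValuationSubring ℚbar, P.LiesOverPrime (qv i) →
        ∀ φ : Γℚ, P.IsFrobeniusAt φ (qv i) →
          ∃ α β : ResidueField 𝒪, α ≠ β ∧
            LinearMap.charpoly (ρbar.ρ φ) = (X - C α) * (X - C β)) ∧
      ∀ Z : Submodule (ResidueField 𝒪) (Γℚ → Matrix (Fin 2) (Fin 2) (ResidueField 𝒪)),
        Z ≤ TW.globalCocycles ρbar (Smin ∪ Ssc ∪ Finset.univ.image qv) →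
        (∀ c ∈ Z, TW.resLoc p c ∈ TW.flatLocal p (TW.locRep ρbar p)) →
        (∀ q ∈ Smin, q ≠ p → ∀ P : ValuationSubring ℚbar, P.LiesOverPrime q →
          ∀ g ∈ P.inertiaSubgroupIn ℚ, ∀ c ∈ Z, (c g * TW.matRep ρbar g).trace = 0) →
        (∀ q ∈ Ssc, ∀ P : ValuationSubring ℚbar, P.LiesOverPrime q →
          ∀ g ∈ P.decompositionSubgroup ℚ, ∀ c ∈ Z, c g = 0) →
        FiniteDimensional (ResidueField 𝒪)
            (Z ⊔ TW.adCoboundaries (TW.matRep ρbar) : Submodule (ResidueField 𝒪)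
              (Γℚ → Matrix (Fin 2) (Fin 2) (ResidueField 𝒪))) ∧
          Module.finrank (ResidueField 𝒪)
            (Z ⊔ TW.adCoboundaries (TW.matRep ρbar) : Submodule (ResidueField 𝒪)
              (Γℚ → Matrix (Fin 2) (Fin 2) (ResidueField 𝒪))) + 3 * Ssc.card ≤ r + 3 := by
  classical
  haveI : CharP (ResidueField 𝒪) p := (CharP.charP_iff_prime_eq_zero Fact.out).mpr (by
    rw [← map_natCast (residue 𝒪), residue_eq_zero_iff]; exact hp𝒪)
  obtain ⟨r, hr⟩ := TW.exists_taylorWilesPrimes_finrank_le p hp2 ρbar habs hdet hsplit hTW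
    (Smin ∪ Ssc) (Finset.mem_union_left _ hpSmin) hprime (fun q hq hqS => by
      have hq1 : q ∉ Smin := fun h => hqS (Finset.mem_union_left _ h)
      by_contra hun
      exact hq1 ((hmin q hq fun h => hq1 (h ▸ hpSmin)).mpr hun))
  refine ⟨r, fun n => ?_⟩
  obtain ⟨qv, hinj, hqv, hdist, hW⟩ := hr n ∅
  refine ⟨qv, hinj, fun i => ⟨(hqv i).1, fun h => (hqv i).2.1 (Finset.mem_union_left _ h),
    (hqv i).2.2⟩, hdist, fun Z hZ hflat htr hzero => ?_⟩
  have hsplit' : ∀ g : TW.GalQp p, ∃ α β : ResidueField 𝒪,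
      (TW.locRep ρbar p g).charpoly = (X - C α) * (X - C β) := fun g => by
    obtain ⟨α, β, h⟩ := hsplit (localGaloisToGlobal p g)
    exact ⟨α, β, (TW.charpoly_matRep ρbar _).trans h⟩
  obtain ⟨hpfd, hpdim⟩ := TW.finrank_flatLocal_le p (TW.locRep ρbar p) hp2
    (isFiniteLevel_locRep ρbar p) (det_locRep_eq ρbar p hdet) hsplit'
  set L : ∀ (q : ℕ) [Fact q.Prime],
      Submodule (ResidueField 𝒪) (TW.GalQp q → Matrix (Fin 2) (Fin 2) (ResidueField 𝒪)) :=
    fun q _ => if q = p then TW.flatLocal q (TW.locRep ρbar q)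
      else if q ∈ Smin then TW.unipotentLocal q (TW.locRep ρbar q) else ⊥ with hL
  set δ : ℕ → ℤ := fun q => if q = p then 1 else if q ∈ Smin then 0 else -3 with hδ
  have hbound : ∀ (q : ℕ) [Fact q.Prime], q ∈ Smin ∪ Ssc →
      TW.adCoboundaries (TW.locRep ρbar q) ≤ L q ∧ FiniteDimensional (ResidueField 𝒪) (L q) ∧
        (Module.finrank (ResidueField 𝒪) (L q) : ℤ) ≤ 3 + δ q := by
    intro q _ hqS
    by_cases hqp : q = p
    · subst hqp
      rw [show L q = TW.flatLocal q (TW.locRep ρbar q) from if_pos rfl,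
        show δ q = 1 from if_pos rfl]
      refine ⟨le_sup_right, hpfd, ?_⟩
      have : (Module.finrank (ResidueField 𝒪) (TW.flatLocal q (TW.locRep ρbar q)) : ℤ) ≤ 4 := by
        exact_mod_cast hpdim
      omega
    by_cases hqm : q ∈ Smin
    · rw [show L q = TW.unipotentLocal q (TW.locRep ρbar q) from
          (if_neg hqp).trans (if_pos hqm),
        show δ q = 0 from (if_neg hqp).trans (if_pos hqm)]
      obtain ⟨hfd, hdim⟩ := TW.finrank_unipotentLocal_le p q (TW.locRep ρbar q) hp2 hqp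
        (isFiniteLevel_locRep ρbar q)
        (fun g hg => hunip q hqm hqp _ (padicPlace_liesOver q) _
          (TW.localGaloisToGlobal_mem_inertia q hg))
        (exists_locRep_ne_one ρbar q ((hmin q Fact.out hqp).mp hqm))
      refine ⟨le_sup_right, hfd, ?_⟩
      have : (Module.finrank (ResidueField 𝒪) (TW.unipotentLocal q (TW.locRep ρbar q)) : ℤ)
          ≤ 3 := by exact_mod_cast hdim
      omega
    · rw [show L q = ⊥ from (if_neg hqp).trans (if_neg hqm),
        show δ q = -3 from (if_neg hqp).trans (if_neg hqm)]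
      refine ⟨(adCoboundaries_eq_bot_of_scalar ρbar q (hscalar q
        ((Finset.mem_union.mp hqS).resolve_left hqm) _ (padicPlace_liesOver q))).le,
        inferInstance, ?_⟩
      rw [finrank_bot]
      norm_num
  obtain ⟨hfin, hle⟩ := hW L δ hbound Z hZ fun q _ hqS c hc => by
    by_cases hqp : q = p
    · subst hqp
      rw [show L q = TW.flatLocal q (TW.locRep ρbar q) from if_pos rfl]
      exact hflat c hc
    by_cases hqm : q ∈ Smin
    · rw [show L q = TW.unipotentLocal q (TW.locRep ρbar q) from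
        (if_neg hqp).trans (if_pos hqm)]
      exact Submodule.mem_sup_left ⟨resLoc_mem_ctsCocycles ρbar q (hZ hc),
        fun g hg => htr q hqm hqp _ (padicPlace_liesOver q) _
          (TW.localGaloisToGlobal_mem_inertia q hg) c hc⟩
    · rw [show L q = ⊥ from (if_neg hqp).trans (if_neg hqm), Submodule.mem_bot]
      funext g
      exact hzero q ((Finset.mem_union.mp hqS).resolve_left hqm) _ (padicPlace_liesOver q) _
        (localGaloisToGlobal_mem_decompositionSubgroup q g) c hc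
  refine ⟨hfin, ?_⟩
  have hs1 : ∑ q ∈ Smin, δ q = 1 := by
    rw [Finset.sum_eq_single p (fun q hq hqp => by simp [hδ, hqp, hq])
      (fun h => absurd hpSmin h)]
    simp [hδ]
  have hs2 : ∑ q ∈ Ssc, δ q = -3 * (Ssc.card : ℤ) := by
    rw [Finset.sum_congr rfl (g := fun _ => (-3 : ℤ)) (fun q hq => by
      have hqm : q ∉ Smin := Finset.disjoint_right.mp hdisj hq
      have hqp : q ≠ p := fun h => hqm (h ▸ hpSmin)
      simp [hδ, hqp, hqm]), Finset.sum_const, nsmul_eq_mul, mul_comm]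
  rw [Finset.sum_union hdisj, hs1, hs2] at hle
  omega

end Fermat.Agent.Ribet
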