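import Fermat.Agent.Lifting.BResidual
import Fermat.Agent.Datum.Roots
import Fermat.Agent.Density.Main
import Fermat.Agent.ECRed.Frobenius
import Mathlib.LinearAlgebra.Charpoly.BaseChange
import Mathlib.FieldTheory.Finite.GaloisField

/-!
# Facts about `E[p]` of a semistable curve used by level lowering
-/

set_option autoImplicit false
set_option linter.style.haveILetI false

noncomputable section

namespace Fermat.Agent.Ribet

open Polynomial
open scoped WeierstrassCurve.Affine TensorProduct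

local notation "ℚbar" => AlgebraicClosure ℚ
local notation "Γℚ" => AlgebraicClosure ℚ ≃ₐ[ℚ] AlgebraicClosure ℚ

section LinearAlgebra

variable {F V : Type*} [Field F] [AddCommGroup V] [Module F V]

/-- A unipotent endomorphism of a plane has characteristic polynomial `(X - 1)²`. -/
theorem charpoly_of_sub_one_nilpotent [Module.Finite F V] (hV : Module.finrank F V = 2)
    {f : Module.End F V} (h : IsNilpotent (f - 1)) : f.charpoly = (X - 1) ^ 2 := by
  have h1 := IsNilpotent.charpoly_eq_X_pow_finrank h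
  rw [hV] at h1
  have h2 := LinearMap.charpoly_sub_smul f 1
  rw [one_smul, h1] at h2
  have h3 := congrArg (fun q => q.comp (X - C 1)) h2
  simp only [comp_assoc, add_comp, X_comp, C_comp, sub_add_cancel, comp_X, pow_comp] at h3
  rw [← h3, C_1]

/-- An element with characteristic polynomial `(X - 1)²` has `(f - 1)² = 0`. -/
theorem sq_sub_one_of_charpoly [Module.Finite F V] {f : Module.End F V}
    (h : f.charpoly = (X - 1) ^ 2) : (f - 1) * (f - 1) = 0 := by
  have h1 := LinearMap.aeval_self_charpoly f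
  rw [h, map_pow, map_sub, aeval_X, map_one, pow_two] at h1
  exact h1

/-- Powers of a unipotent element are unipotent. -/
theorem sq_sub_one_pow {f : Module.End F V} (h : (f - 1) * (f - 1) = 0) (k : ℕ) :
    (f ^ k - 1) * (f ^ k - 1) = 0 := by
  set S := ∑ i ∈ Finset.range k, f ^ i
  have e : f ^ k - 1 = S * (f - 1) := (geom_sum_mul f k).symm
  have hc : Commute S (f - 1) := Commute.sum_left _ _ _ fun i _ =>
    ((Commute.refl f).sub_right (Commute.one_right f)).pow_left i
  rw [e, Commute.mul_mul_mul_comm hc.symm, h, mul_zero]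

/-- A group of unipotent automorphisms of a plane fixes a nonzero vector. -/
theorem exists_fixed_of_unipotent (hV : Module.finrank F V = 2) {Γ : Type*} [Monoid Γ]
    (f : Γ →* Module.End F V) (H : Submonoid Γ) (hu : ∀ g ∈ H, (f g - 1) * (f g - 1) = 0) :
    ∃ v : V, v ≠ 0 ∧ ∀ g ∈ H, f g v = v := by
  haveI : Module.Finite F V := Module.finite_of_finrank_eq_succ hV
  haveI : Nontrivial V := Module.nontrivial_of_finrank_eq_succ hV
  by_cases hall : ∀ g ∈ H, f g = 1
  · obtain ⟨v, hv⟩ := exists_ne (0 : V)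
    exact ⟨v, hv, fun g hg => by rw [hall g hg, Module.End.one_apply]⟩
  push Not at hall
  obtain ⟨h, hh, hne⟩ := hall
  set N := f h - 1 with hN
  have hN0 : N ≠ 0 := sub_ne_zero.mpr hne
  obtain ⟨w, hw⟩ : ∃ w, N w ≠ 0 := by
    by_contra hc
    push Not at hc
    exact hN0 (LinearMap.ext hc)
  set v := N w with hv
  have hNv : N v = 0 := by rw [hv, ← Module.End.mul_apply, hu h hh, LinearMap.zero_apply]
  set L := Submodule.span F ({v} : Set V)
  have hL : Module.finrank F L = 1 := finrank_span_singleton hw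
  have hkerL : LinearMap.ker N = L := by
    refine (Submodule.eq_of_le_of_finrank_le
      ((Submodule.span_singleton_le_iff_mem _ _).mpr (LinearMap.mem_ker.mpr hNv)) ?_).symm
    have hlt := Submodule.finrank_lt (s := LinearMap.ker N) (fun h' => hN0 (LinearMap.ker_eq_top.mp h'))
    have hL' : Module.finrank F (Submodule.span F ({v} : Set V)) = 1 := hL
    omega
  have hrange : ∀ x, N x ∈ L := fun x => by
    rw [← hkerL, LinearMap.mem_ker, ← Module.End.mul_apply, hu h hh, LinearMap.zero_apply]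
  have htr0 : ∀ g ∈ H, LinearMap.trace F V (f g - 1) = 0 := fun g hg =>
    (LinearMap.isNilpotent_trace_of_isNilpotent ⟨2, by rw [pow_two]; exact hu g hg⟩).eq_zero
  refine ⟨v, hw, fun g hg => ?_⟩
  set M := f g - 1 with hM
  have htrNM : LinearMap.trace F V (N * M) = 0 := by
    have h1 := htr0 (h * g) (H.mul_mem hh hg)
    have e : f (h * g) - 1 = N + M + N * M := by
      rw [map_mul, hN, hM]; noncomm_ring
    rw [e, map_add, map_add, htr0 h hh, htr0 g hg, zero_add, zero_add] at h1
    exact h1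
  obtain ⟨c, hc⟩ := Submodule.mem_span_singleton.mp (hrange (M v))
  have hmem : ∀ x, (N * M) x ∈ L := fun x => hrange _
  have hres : ((N * M).restrict (p := L) (q := L) fun x _ => hmem x) =
      c • (LinearMap.id : L →ₗ[F] L) := by
    refine LinearMap.ext fun x => Subtype.ext ?_
    obtain ⟨a, ha⟩ := Submodule.mem_span_singleton.mp x.2
    change N (M x) = c • (x : V)
    rw [← ha, map_smul, map_smul, ← hc, smul_comm]
  have htr := LinearMap.trace_restrict_eq_of_forall_mem L (N * M) hmem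
  rw [hres, htrNM, map_smul, LinearMap.trace_id, hL, Nat.cast_one, smul_eq_mul, mul_one] at htr
  have hMv : M v ∈ L := by
    rw [← hkerL, LinearMap.mem_ker, ← hc, htr, zero_smul]
  obtain ⟨d, hd⟩ := Submodule.mem_span_singleton.mp hMv
  have hd2 : (d * d) • v = 0 := by
    have : M (M v) = 0 := by rw [← Module.End.mul_apply, hu g hg, LinearMap.zero_apply]
    rw [← hd, map_smul, ← hd, smul_smul] at this
    exact this
  have hd0 : d = 0 := mul_self_eq_zero.mp ((smul_eq_zero.mp hd2).resolve_right hw)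
  rw [hd0, zero_smul] at hd
  have : f g v - v = 0 := hd.symm
  exact sub_eq_zero.mp this

/-- An irreducible odd representation of a plane does not have abelian image. -/
theorem not_commute_of_irreducible (hV : Module.finrank F V = 2) (h2 : (2 : F) ≠ 0) {Γ : Type*}
    [Group Γ] (f : Γ →* Module.End F V)
    (hirr : ∀ U : Submodule F V, (∀ g, ∀ x ∈ U, f g x ∈ U) → U = ⊥ ∨ U = ⊤)
    {c : Γ} (hc : c * c = 1) (hdet : LinearMap.det (f c) = -1) :
    ¬ ∀ g, f g * f c = f c * f g := by
  intro hcomm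
  haveI : Module.Finite F V := Module.finite_of_finrank_eq_succ hV
  have hcc : f c * f c = 1 := by rw [← map_mul, hc, map_one]
  have hstab : ∀ g, ∀ x ∈ LinearMap.ker (f c - 1), f g x ∈ LinearMap.ker (f c - 1) := by
    intro g x hx
    rw [LinearMap.mem_ker, LinearMap.sub_apply, Module.End.one_apply, sub_eq_zero] at hx ⊢
    rw [← Module.End.mul_apply, ← hcomm, Module.End.mul_apply, hx]
  have hne : (-1 : F) ≠ 1 := fun h => h2 (by linear_combination -h)
  rcases hirr _ hstab with h | h
  · have hneg : f c = (-1 : F) • 1 := by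
      rw [neg_one_smul]
      refine LinearMap.ext fun x => ?_
      have hx : f c x + x ∈ LinearMap.ker (f c - 1) := by
        rw [LinearMap.mem_ker, LinearMap.sub_apply, Module.End.one_apply, map_add,
          ← Module.End.mul_apply, hcc, Module.End.one_apply]
        abel
      rw [h, Submodule.mem_bot] at hx
      exact eq_neg_of_add_eq_zero_left hx
    rw [hneg, LinearMap.det_smul, hV, map_one, mul_one, neg_one_sq] at hdet
    exact hne hdet.symm
  · rw [LinearMap.ker_eq_top, sub_eq_zero] at h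
    rw [h, map_one] at hdet
    exact hne hdet.symm

/-- Extension of scalars of a nonzero endomorphism is nonzero. -/
theorem baseChange_eq_one_iff [Module.Finite F V] (K : Type*) [Field K] [Algebra F K]
    (f : Module.End F V) : f.baseChange K = 1 ↔ f = 1 := by
  refine ⟨fun h => LinearMap.ext fun x => ?_, fun h => by rw [h, LinearMap.baseChange_one]⟩
  have h1 := LinearMap.congr_fun h ((1 : K) ⊗ₜ[F] x)
  rw [LinearMap.baseChange_tmul, Module.End.one_apply] at h1
  let b := Module.finBasis F V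
  refine b.repr.injective (Finsupp.ext fun i => ?_)
  have h2 := congrArg (fun z => (b.baseChange K).repr z i) h1
  simp only [Module.Basis.baseChange_repr_tmul] at h2
  exact (algebraMap F K).injective (by simpa [Algebra.smul_def] using h2)

end LinearAlgebra

/-- Every monic quadratic over `ZMod p` splits over a field with `p²` elements. -/
theorem exists_split_quadratic {p : ℕ} [Fact p.Prime] {k : Type} [Field k] [Algebra (ZMod p) k]
    [Finite k] (hk : Nat.card k = p ^ 2) (g : (ZMod p)[X]) (hg : g.Monic)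
    (hdeg : g.natDegree = 2) :
    ∃ α β : k, g.map (algebraMap (ZMod p) k) = (X - C α) * (X - C β) := by
  classical
  have hroot : ∃ α : k, IsRoot (g.map (algebraMap (ZMod p) k)) α := by
    by_cases hr : ∃ a : ZMod p, g.IsRoot a
    · obtain ⟨a, ha⟩ := hr
      exact ⟨algebraMap _ k a, IsRoot.map ha⟩
    · push Not at hr
      have hirr : Irreducible g := by
        rw [Monic.irreducible_iff_roots_eq_zero_of_degree_le_three hg (by omega) (by omega)]
        exact Multiset.eq_zero_of_forall_notMem fun a ha => hr a (mem_roots'.mp ha).2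
      haveI := Fact.mk hirr
      haveI : Module.Finite (ZMod p) (AdjoinRoot g) := hg.finite_adjoinRoot
      haveI : Finite (AdjoinRoot g) := Module.finite_of_finite (ZMod p)
      letI := Fintype.ofFinite (AdjoinRoot g)
      letI := Fintype.ofFinite k
      have hcard : Fintype.card (AdjoinRoot g) = Fintype.card k := by
        rw [Fintype.card_eq_nat_card, Fintype.card_eq_nat_card, hk,
          Module.natCard_eq_pow_finrank (K := ZMod p), Nat.card_zmod,
          (AdjoinRoot.powerBasis' hg).finrank, AdjoinRoot.powerBasis'_dim, hdeg]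
      let e := FiniteField.ringEquivOfCardEq hcard
      refine ⟨e (AdjoinRoot.root g), ?_⟩
      rw [IsRoot.def, eval_map,
        RingHom.ext_zmod (algebraMap (ZMod p) k)
          (e.toRingHom.comp (AdjoinRoot.of g))]
      rw [show e (AdjoinRoot.root g) = e.toRingHom (AdjoinRoot.root g) from rfl, ← hom_eval₂,
        AdjoinRoot.eval₂_root, map_zero]
  obtain ⟨α, hα⟩ := hroot
  obtain ⟨h, hh⟩ := dvd_iff_isRoot.mpr hα
  have hgm := hg.map (algebraMap (ZMod p) k)
  have hhm : h.Monic := (monic_X_sub_C α).of_mul_monic_left (hh ▸ hgm)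
  have hdh : h.natDegree = 1 := by
    have := congrArg natDegree hh
    rw [hg.natDegree_map, hdeg, natDegree_mul (X_sub_C_ne_zero α) hhm.ne_zero,
      natDegree_X_sub_C] at this
    omega
  obtain ⟨β, hβ⟩ : ∃ β, h = X - C β := by
    refine ⟨-h.coeff 0, ?_⟩
    conv_lhs => rw [eq_X_add_C_of_natDegree_le_one hdh.le]
    rw [show h.coeff 1 = 1 from hdh ▸ hhm.coeff_natDegree, C_1, one_mul, map_neg, sub_neg_eq_add]
  exact ⟨α, β, by rw [hh, hβ]⟩

variable {W : WeierstrassCurve ℤ} {p : ℕ} [Fact p.Prime]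

open Lifting in
/-- Some prime `ℓ ≡ 1` modulo `M`, outside a given finite set, has `a_ℓ ≢ 2 (mod p)`. -/
theorem exists_prime_ap_ne_two (hΔ : W.Δ ≠ 0) (hp2 : p ≠ 2) (hirr : W.ModRepIsIrreducible p)
    (M : ℕ) [NeZero M] (hpM : p ∣ M) (T : Finset ℕ) :
    ∃ ℓ : ℕ, ℓ.Prime ∧ ℓ ∉ T ∧ (ℓ : ZMod M) = 1 ∧ (ℓ : ZMod p) = 1 ∧ W.IsGoodPrimeFor ℓ ∧
      ((W.apOfModel ℓ : ℤ) : ZMod p) ≠ 2 := by
  classical
  have hp : p.Prime := Fact.out
  have hV := finrank_tors (p := p) hΔ
  haveI : Module.Finite (ZMod p) (Tors W p) := Module.finite_of_finrank_eq_succ hV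
  haveI := isElliptic_tors hΔ
  set f := torsRep W p
  obtain ⟨L₁, hL₁, h₁⟩ := EC.exists_finiteDimensional_fixing_torsionBy
    (W := (W.map (Int.castRingHom ℚ)).toAffine) hp.ne_zero
  obtain ⟨L₂, hL₂, h₂⟩ := Datum.exists_level_chiMod M
  set χ := Datum.chiMod M
  have hagree : ∀ σ τ : Γℚ, (∀ x ∈ L₁ ⊔ L₂, σ x = τ x) → f σ = f τ ∧ χ σ = χ τ := by
    intro σ τ h
    have hfix : ∀ x ∈ L₁ ⊔ L₂, (τ⁻¹ * σ) x = x := fun x hx => by
      rw [AlgEquiv.mul_apply, h x hx, ← AlgEquiv.mul_apply, inv_mul_cancel, AlgEquiv.one_apply]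
    have e : σ = τ * (τ⁻¹ * σ) := by group
    constructor
    · have h1 : f (τ⁻¹ * σ) = 1 := LinearMap.ext fun P =>
        h₁ _ (fun x hx => hfix x ((le_sup_left : L₁ ≤ L₁ ⊔ L₂) hx)) P
      conv_lhs => rw [e, map_mul, h1, mul_one]
    · have h1 : χ (τ⁻¹ * σ) = 1 := h₂ _ fun x hx => hfix x ((le_sup_right : L₂ ≤ L₁ ⊔ L₂) hx)
      conv_lhs => rw [e, map_mul, h1, mul_one]
  by_contra hcon
  push Not at hcon
  have hu : ∀ σ : Γℚ, χ σ = 1 → (f σ - 1) * (f σ - 1) = 0 := by
    intro σ hσ
    obtain ⟨ℓ, hℓ, hℓS, A, hA, τ, hτ, ⟨k, hk⟩, ⟨k', hk'⟩⟩ := Density.exists_frobenius_pow σ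
      (L₁ ⊔ L₂) (T ∪ M.primeFactors ∪ W.Δ.natAbs.primeFactors)
    simp only [Finset.mem_union, Nat.mem_primeFactors, not_or, not_and] at hℓS
    obtain ⟨⟨hℓT, hℓM⟩, hℓΔ⟩ := hℓS
    have hℓM' : ¬ ℓ ∣ M := fun h => hℓM hℓ h (NeZero.ne M)
    have hg : W.IsGoodPrimeFor ℓ := fun h =>
      hℓΔ hℓ (Int.natCast_dvd.mp h) (Int.natAbs_ne_zero.mpr hΔ)
    have hℓp : p ≠ ℓ := fun h => hℓM' (h ▸ hpM)
    have hℓ1 : (ℓ : ZMod M) = 1 := by
      rw [← Datum.chiMod_frobenius M hA hτ ((hℓ.coprime_iff_not_dvd).mpr hℓM'),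
        (hagree τ (σ ^ k') hk').2, map_pow, hσ, one_pow]
    have hℓ1p : (ℓ : ZMod p) = 1 := by
      have := congrArg (ZMod.castHom hpM (ZMod p)) hℓ1
      rwa [map_natCast, map_one] at this
    have ha := hcon ℓ hℓ hℓT hℓ1 hℓ1p hg
    have hch : (f τ).charpoly = (X - 1) ^ 2 := by
      rw [show (f τ).charpoly = _ from ECRed.charpoly_frobenius hℓ hA hg hτ hℓp, ha, hℓ1p, map_ofNat,
        map_one]
      ring
    rw [(hagree σ (τ ^ k) hk).1, map_pow]
    exact sq_sub_one_pow (sq_sub_one_of_charpoly hch) k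
  let H : Submonoid Γℚ := MonoidHom.mker χ
  obtain ⟨v, hv, hfix⟩ := exists_fixed_of_unipotent hV f H fun g hg => hu g hg
  let U : Submodule (ZMod p) (Tors W p) := ⨅ g ∈ H, LinearMap.ker (f g - 1)
  have hmemU : ∀ x, x ∈ U ↔ ∀ g ∈ H, f g x = x := fun x => by
    simp [U, Submodule.mem_iInf, sub_eq_zero]
  have hUstab : ∀ σ : Γℚ, ∀ x ∈ U, f σ x ∈ U := by
    intro σ x hx
    rw [hmemU] at hx ⊢
    intro g hg
    have hg' : σ⁻¹ * g * σ ∈ H := by
      rw [MonoidHom.mem_mker] at hg ⊢
      rw [map_mul, map_mul, hg, mul_one, ← map_mul, inv_mul_cancel, map_one]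
    conv_rhs => rw [← hx _ hg']
    rw [← Module.End.mul_apply, ← Module.End.mul_apply, ← map_mul, ← map_mul,
      show σ * (σ⁻¹ * g * σ) = g * σ by group]
  have hUtop : U = ⊤ := (hirr.2 U hUstab).resolve_left fun h =>
    hv ((Submodule.eq_bot_iff U).mp h v ((hmemU v).mpr hfix))
  obtain ⟨c, hcc, hc⟩ := CondLevel.exists_involution
  refine not_commute_of_irreducible hV (two_ne_zero_zmod hp2) f hirr.2 hcc
    (CondLevel.det_torsRep_involution hΔ hp2 c hcc hc) fun g => ?_
  have hmem : g * c * (c * g)⁻¹ ∈ H := by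
    rw [MonoidHom.mem_mker]
    calc χ (g * c * (c * g)⁻¹) = χ (c * g) * χ ((c * g)⁻¹) := by
          rw [map_mul, map_mul, map_mul, mul_comm (χ g)]
      _ = 1 := by rw [← map_mul, mul_inv_cancel, map_one]
  have h1 : f (g * c * (c * g)⁻¹) = 1 := LinearMap.ext fun x =>
    (hmemU x).mp (hUtop ▸ Submodule.mem_top) _ hmem
  rw [← map_mul, ← map_mul]
  calc f (g * c) = f (g * c * (c * g)⁻¹ * (c * g)) := by congr 1; group
    _ = f (c * g) := by rw [map_mul, h1, one_mul]

end Fermat.Agent.Ribet
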