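import Fermat.Agent.Ribet.CyclotomicDVR
import Fermat.Agent.Ribet.FreyTorsion
import Fermat.Agent.Mult.Main
import Fermat.Agent.TW.GlobalDefs
import Fermat.Agent.Lifting.ETransfer
import Fermat.Prelude.Def_GaloisRep_LocalConditions
import Mathlib.FieldTheory.Finite.GaloisField

/-!
# Residual facts for level lowering of a semistable curve, any odd `p`
-/

set_option autoImplicit false
set_option linter.style.haveILetI false

noncomputable section

namespace Fermat.Agent.Ribet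

open Polynomial IsLocalRing WeierstrassCurve.Affine.Point
open scoped WeierstrassCurve.Affine TensorProduct

local notation "ℚbar" => AlgebraicClosure ℚ
local notation "Γℚ" => AlgebraicClosure ℚ ≃ₐ[ℚ] AlgebraicClosure ℚ

variable {W : WeierstrassCurve ℤ} {p : ℕ} [Fact p.Prime]

/-- The residual representation of a semistable curve over a field with `p²` elements satisfies
all the local and global conditions of level lowering. -/
theorem residualSetup_over (hΔ : W.Δ ≠ 0) (hss : W.IsSemistableModel) (hp2 : p ≠ 2)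
    (hirr : W.ModRepIsIrreducible p) {k : Type} [Field k] [Finite k]
    [Algebra (ZMod p) k] (hk : Nat.card k = p ^ 2) :
    ∃ ρbar : ResidualGaloisRep k,
      ρbar.IsAbsolutelyIrreducible ∧ ρbar.IsOdd ∧
      (GaloisRepAdic.ofResidualGaloisRep ρbar).DetIsCyclotomic p ∧
      (∀ σ : Γℚ, ∃ α β : k, LinearMap.charpoly (ρbar.ρ σ) = (X - C α) * (X - C β)) ∧
      (∀ (K : Type) [Field K] [Algebra k K] (G : Subgroup Γℚ), G.index = 2 →
        ∀ V : Submodule K (ρbar.baseChange K).V,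
          (∀ σ ∈ G, ∀ x ∈ V, (ρbar.baseChange K).ρ σ x ∈ V) → V = ⊥ ∨ V = ⊤) ∧
      (∀ q : ℕ, q.Prime → q ≠ p →
        (((q : ℤ) ∣ W.Δ ∧ ¬ p ∣ padicValInt q W.Δ) ↔ ¬ ρbar.IsUnramifiedAt q)) ∧
      (∀ q : ℕ, q.Prime → q ≠ p → (q : ℤ) ∣ W.Δ →
        ∀ A : ValuationSubring ℚbar, A.LiesOverPrime q → ∀ g ∈ A.inertiaSubgroupIn ℚ,
          (Fermat.Agent.TW.matRep ρbar g).charpoly = (X - 1) ^ 2) ∧
      (∀ g : Γℚ, ∀ ε : ℤ, (∀ x : Lifting.Tors W p, g • x = ε • x) →
          Fermat.Agent.TW.matRep ρbar g = (ε : k) • 1) ∧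
      (∀ q : ℕ, q.Prime → q ≠ p → W.IsGoodPrimeFor q →
        ∀ A : ValuationSubring ℚbar, A.LiesOverPrime q → ∀ σ : Γℚ, A.IsFrobeniusAt σ q →
          LinearMap.charpoly (ρbar.ρ σ) = X ^ 2 -
            C ((W.apOfModel q : ℤ) : k) * X + C ((q : k))) ∧
      ((p : ℤ) ∣ W.Δ → (GaloisRepAdic.ofResidualGaloisRep ρbar).IsOrdinaryAt p) := by
  have hp : p.Prime := Fact.out
  haveI : NeZero p := ⟨hp.ne_zero⟩
  haveI := Lifting.isElliptic_tors hΔ
  have hcard : Nat.card (Lifting.Tors W p) = p ^ 2 := EC.card_torsionBy_Qbar hp.ne_zero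
  have hker := EC.galoisFactorsThroughFiniteLevel (W.map (Int.castRingHom ℚ)).toAffine hp.ne_zero
  haveI : Module.Finite (ZMod p) (Lifting.Tors W p) :=
    Module.finite_of_finrank_eq_succ (Lifting.finrank_tors (p := p) hΔ)
  set φ := algebraMap (ZMod p) k
  set ρ₀ := (W.map (Int.castRingHom ℚ)).residualGaloisRepOf p hcard hker
  let ρbar : ResidualGaloisRep k := ρ₀.baseChange k
  have hρ : ∀ σ, ρbar.ρ σ = (Lifting.torsRep W p σ).baseChange k := fun σ => rfl
  have he : ρbar.IsEquiv (ρ₀.baseChangeAlong φ) := by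
    have : ρ₀.baseChangeAlong φ = ρbar := by
      unfold ResidualGaloisRep.baseChangeAlong
      rw [show φ.toAlgebra = ‹Algebra (ZMod p) k› from Algebra.algebra_ext _ _ fun _ => rfl]
    rw [this]
    exact ⟨ResidualGaloisRep.Equiv.refl _⟩
  have hirrW : W.ModRepIsIrreducible p := hirr
  have hchar : ∀ σ, (ρbar.ρ σ).charpoly = (Lifting.torsRep W p σ).charpoly.map φ := fun σ => by
    rw [hρ]; exact LinearMap.charpoly_baseChange (Lifting.torsRep W p σ) k
  have hone : ∀ σ, ρbar.ρ σ = 1 ↔ Lifting.torsRep W p σ = 1 := fun σ => by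
    rw [hρ]; exact baseChange_eq_one_iff k _
  refine ⟨ρbar, Lifting.isAbsolutelyIrreducible_of_isEquiv hcard hker hΔ hp2 hirrW φ ρbar he,
    Lifting.isOdd_of_isEquiv hcard hker hΔ hp2 φ ρbar he, ?_, ?_,
    Lifting.isIrreducibleOnIndexTwo_of_isEquiv hcard hker hΔ hss hp2 hirrW φ ρbar he,
    ?_, ?_, ?_, ?_, ?_⟩
  · -- determinant
    have hp0 : ((p : ℕ) : k) = 0 := by rw [← map_natCast φ, ZMod.natCast_self, _root_.map_zero]
    refine ⟨?_, fun n σ a ha => ?_⟩
    · show ((p : ℕ) : k) ∈ maximalIdeal k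
      rw [hp0]; exact zero_mem _
    rcases Nat.eq_zero_or_pos n with rfl | hn
    · rw [pow_zero, Nat.cast_one, Ideal.span_singleton_one]; exact Submodule.mem_top
    haveI := CondLevel.isElliptic_map hΔ
    have hdet : LinearMap.det (Lifting.torsRep W p σ) = (a : ZMod p) := by
      rw [Lifting.torsRep, Weil.det_galoisRepModuleEnd (W.map (Int.castRingHom ℚ)) p
        (Weil.card_rootsOfUnity_Qbar p) σ]
      refine (Datum.chiMod_eq_natCast p σ fun μ hμ => ha μ ?_ :)
      obtain ⟨m, rfl⟩ := Nat.exists_eq_succ_of_ne_zero hn.ne'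
      rw [pow_succ', pow_mul, hμ, one_pow]
    show LinearMap.det (ρbar.ρ σ) - (a : k) ∈ Ideal.span _
    rw [show LinearMap.det (ρbar.ρ σ) = φ (LinearMap.det (Lifting.torsRep W p σ)) from
      LinearMap.det_baseChange _, hdet, map_natCast, sub_self]
    exact zero_mem _
  · -- splitting
    intro σ
    rw [hchar]
    exact exists_split_quadratic hk _ (LinearMap.charpoly_monic _)
      (by rw [LinearMap.charpoly_natDegree]; exact Lifting.finrank_tors hΔ)
  · -- ramification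
    intro q hq hqp
    have hqn : ¬ q ∣ p := fun h => hqp ((Nat.prime_dvd_prime_iff_eq hq hp).mp h)
    constructor
    · rintro ⟨hbad, hndvd⟩ hun
      obtain ⟨A, hA⟩ := Galois.exists_liesOverPrime hq
      obtain ⟨σ, hσ, x, hx⟩ := Mult.exists_inertia_smul_ne
        (Mult.IsMultPlace.of_semistable hΔ hss hq hbad hA) hp.ne_zero hndvd
      exact hx (LinearMap.congr_fun ((hone σ).mp (hun A hA σ hσ)) x)
    · intro hram
      by_contra hcon
      apply hram
      intro A hA σ hσ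
      rw [hone]
      refine LinearMap.ext fun x => ?_
      by_cases hbad : (q : ℤ) ∣ W.Δ
      · exact Mult.inertia_smul_eq_self_of_dvd
          (Mult.IsMultPlace.of_semistable hΔ hss hq hbad hA) hp.ne_zero hqn
          (by by_contra h; exact hcon ⟨hbad, h⟩) hσ x
      · exact ECRed.galoisRepUnramifiedAt_of_isGoodPrimeFor W hq hbad hqn A hA σ hσ x
  · -- unipotence away from `p`
    intro q hq hqp hbad A hA g hg
    have hqn : ¬ q ∣ p := fun h => hqp ((Nat.prime_dvd_prime_iff_eq hq hp).mp h)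
    have hu := Mult.inertia_sub_one_mul_sub_one
      (Mult.IsMultPlace.of_semistable hΔ hss hq hbad hA) hp.ne_zero hqn hg
    rw [TW.charpoly_matRep, hchar,
      charpoly_of_sub_one_nilpotent (Lifting.finrank_tors hΔ) ⟨2, by rw [pow_two]; exact hu⟩]
    simp
  · -- scalars
    intro g ε hε
    have hf : Lifting.torsRep W p g = (ε : ZMod p) • 1 := LinearMap.ext fun x => by
      rw [LinearMap.smul_apply, Module.End.one_apply, Int.cast_smul_eq_zsmul]
      exact hε x
    show LinearMap.toMatrix _ _ (ρbar.ρ g) = _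
    have hs : ρbar.ρ g = (ε : k) • (1 : Module.End k ρbar.V) := by
      rw [hρ, hf, LinearMap.baseChange_smul, LinearMap.baseChange_one, ← map_intCast φ ε]
      refine LinearMap.ext fun x => ?_
      exact (IsScalarTower.algebraMap_smul k (ε : ZMod p) (x : k ⊗[ZMod p] Lifting.Tors W p)).symm
    rw [hs, map_smul, LinearMap.toMatrix_one]
  · -- Frobenius
    intro q hq hqp hg A hA σ hσ
    rw [hchar, show (Lifting.torsRep W p σ).charpoly = _ from
      ECRed.charpoly_frobenius hq hA hg hσ (Ne.symm hqp)]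
    simp
  · -- ordinary at a multiplicative `p`
    intro hbad A hA
    have hm := Mult.IsMultPlace.of_semistable hΔ hss hp hbad hA
    obtain ⟨hb, -⟩ := Mult.tateLine_ne_bot_and_ne_top hm hp
    obtain ⟨v, hv, hv0⟩ := Submodule.exists_mem_ne_zero_of_ne_bot hb
    have hline : Mult.tateLine W A p = Submodule.span (ZMod p) {v} := by
      refine (Submodule.eq_of_le_of_finrank_le
        ((Submodule.span_singleton_le_iff_mem _ _).mpr hv) ?_).symm
      have h2 := Submodule.finrank_lt (Mult.tateLine_ne_bot_and_ne_top hm hp).2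
      rw [finrank_span_singleton hv0]
      rw [Lifting.finrank_tors hΔ] at h2
      omega
    obtain ⟨b, hb0⟩ : ∃ b : Module.Basis (Fin 2) (ZMod p) (Lifting.Tors W p), b 0 = v := by
      obtain ⟨w, hw⟩ := exists_linearIndependent_pair_of_one_lt_finrank
        (R := ZMod p) (by rw [Lifting.finrank_tors hΔ]; omega) hv0
      exact ⟨basisOfLinearIndependentOfCardEqFinrank hw
        (by rw [Lifting.finrank_tors hΔ]; rfl),
        by rw [coe_basisOfLinearIndependentOfCardEqFinrank]; rfl⟩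
    have hI : ∀ σ ∈ A.inertiaSubgroupIn ℚ, ∀ x,
        Lifting.torsRep W p σ x - x ∈ (ZMod p) ∙ b 0 := fun σ hσ x => by
      rw [hb0, ← hline]; exact Mult.inertia_smul_sub_mem hm hp.ne_zero hσ x
    have hD : ∀ σ ∈ A.decompositionSubgroup ℚ, ∀ x ∈ (ZMod p) ∙ b 0,
        Lifting.torsRep W p σ x ∈ (ZMod p) ∙ b 0 := fun σ hσ x hx => by
      rw [hb0, ← hline] at hx ⊢; exact Mult.smul_mem_tateLine hm hp.ne_zero hσ hx
    obtain ⟨L', hb', hT⟩ := Lifting.ETransfer.exists_line_baseChange (B := k) b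
    refine ⟨L', hb', fun σ hσ => (hT _ (hD σ hσ)).1, fun σ hσ x => ?_⟩
    have := (hT _ (hD σ (Mult.mem_decomposition_of_mem_inertia hσ))).2.2 1
      (fun w => by rw [one_smul]; exact hI σ hσ w) x
    rwa [map_one, one_smul] at this

/-- Coefficients with a primitive `p`-th root of unity `ξ`, `ξ - 1` a uniformiser, and the residual
representation of a semistable curve over them. -/
theorem exists_residualSetup (hΔ : W.Δ ≠ 0) (hss : W.IsSemistableModel) (hp2 : p ≠ 2)
    (hirr : W.ModRepIsIrreducible p) :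
    ∃ (O : Type) (_ : CommRing O) (_ : IsDomain O) (_ : IsDiscreteValuationRing O)
      (_ : IsAdicComplete (maximalIdeal O) O) (_ : Finite (ResidueField O)) (_ : CharZero O)
      (ξ : O) (ρbar : ResidualGaloisRep (ResidueField O)),
      (p : O) ∈ maximalIdeal O ∧ IsPrimitiveRoot ξ p ∧ Irreducible (ξ - 1) ∧
      ρbar.IsAbsolutelyIrreducible ∧ ρbar.IsOdd ∧
      (GaloisRepAdic.ofResidualGaloisRep ρbar).DetIsCyclotomic p ∧
      (∀ σ : Γℚ, ∃ α β : ResidueField O,
        LinearMap.charpoly (ρbar.ρ σ) = (X - C α) * (X - C β)) ∧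
      (∀ (K : Type) [Field K] [Algebra (ResidueField O) K] (G : Subgroup Γℚ), G.index = 2 →
        ∀ V : Submodule K (ρbar.baseChange K).V,
          (∀ σ ∈ G, ∀ x ∈ V, (ρbar.baseChange K).ρ σ x ∈ V) → V = ⊥ ∨ V = ⊤) ∧
      (∀ q : ℕ, q.Prime → q ≠ p →
        (((q : ℤ) ∣ W.Δ ∧ ¬ p ∣ padicValInt q W.Δ) ↔ ¬ ρbar.IsUnramifiedAt q)) ∧
      (∀ q : ℕ, q.Prime → q ≠ p → (q : ℤ) ∣ W.Δ →
        ∀ A : ValuationSubring ℚbar, A.LiesOverPrime q → ∀ g ∈ A.inertiaSubgroupIn ℚ,
          (Fermat.Agent.TW.matRep ρbar g).charpoly = (X - 1) ^ 2) ∧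
      (∀ g : Γℚ, ∀ ε : ℤ, (∀ x : Lifting.Tors W p, g • x = ε • x) →
          Fermat.Agent.TW.matRep ρbar g = (ε : ResidueField O) • 1) ∧
      (∀ q : ℕ, q.Prime → q ≠ p → W.IsGoodPrimeFor q →
        ∀ A : ValuationSubring ℚbar, A.LiesOverPrime q → ∀ σ : Γℚ, A.IsFrobeniusAt σ q →
          LinearMap.charpoly (ρbar.ρ σ) = X ^ 2 -
            C ((W.apOfModel q : ℤ) : ResidueField O) * X + C ((q : ResidueField O))) ∧
      ((p : ℤ) ∣ W.Δ → (GaloisRepAdic.ofResidualGaloisRep ρbar).IsOrdinaryAt p) ∧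
      (∀ (m : ℕ) (T : Finset ℕ), 0 < m → ∃ ℓ : ℕ, ℓ.Prime ∧ ℓ ∉ T ∧ (ℓ : ZMod m) = 1 ∧
        (ℓ : ZMod p) = 1 ∧ W.IsGoodPrimeFor ℓ ∧
        ((W.apOfModel ℓ : ℤ) : ZMod p) ≠ 2) := by
  have hp : p.Prime := Fact.out
  let k := GaloisField p 2
  obtain ⟨O, iO1, iO2, iO3, iO4, iO5, ξ, e, hpO, hξ, hirrξ⟩ := exists_cyclotomicDVR p k
  haveI : Finite (ResidueField O) := Finite.of_equiv k e.symm.toEquiv
  letI : Algebra (ZMod p) (ResidueField O) :=
    ((e.symm.toRingHom).comp (algebraMap (ZMod p) k)).toAlgebra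
  have hk : Nat.card (ResidueField O) = p ^ 2 := by
    rw [Nat.card_congr e.toEquiv]; exact GaloisField.card p 2 two_ne_zero
  obtain ⟨ρbar, h1, h2, h3, h4, h5, h6, h7, h8, h9, h10⟩ := residualSetup_over hΔ hss hp2 hirr hk
  refine ⟨O, iO1, iO2, iO3, iO4, inferInstance, iO5, ξ, ρbar, hpO, hξ, hirrξ, h1, h2, h3, h4, h5,
    h6, h7, h8, h9, h10, fun m T hm => ?_⟩
  haveI : NeZero (m * p) := ⟨Nat.mul_ne_zero hm.ne' hp.ne_zero⟩
  obtain ⟨ℓ, hℓ, hℓT, h1M, h1p, hg, hne⟩ := exists_prime_ap_ne_two hΔ hp2 hirr (m * p)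
    (dvd_mul_left _ _) T
  refine ⟨ℓ, hℓ, hℓT, ?_, h1p, hg, hne⟩
  have := congrArg (ZMod.castHom (dvd_mul_right m p) (ZMod m)) h1M
  rwa [map_natCast, map_one] at this

private theorem zmod3_neg_one_ne_one : (-1 : ZMod 3) ≠ 1 := by decide

private theorem zmod3_unit_cases : ∀ x : ZMod 3, IsUnit x → x = 1 ∨ x = -1 := by decide

private theorem zmod3_neg_one_eq_two : (-1 : ZMod 3) = ((2 : ℕ) : ZMod 3) := by decide

open Lifting in
/-- The auxiliary prime at `p = 3`: some prime `r ≡ -1 (mod p)` outside a given set has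
`a_r ≢ 0 (mod p)`. -/
theorem exists_auxPrime_ap_ne_zero (hΔ : W.Δ ≠ 0) (hss : W.IsSemistableModel) (hp3 : p = 3)
    (hirr : W.ModRepIsIrreducible p) (T : Finset ℕ) :
    ∃ r : ℕ, r.Prime ∧ r ∉ T ∧ r % 3 = 2 ∧ W.IsGoodPrimeFor r ∧
      ((W.apOfModel r : ℤ) : ZMod p) ≠ 0 := by
  classical
  subst hp3
  have hV := finrank_tors (p := 3) hΔ
  haveI : Module.Finite (ZMod 3) (Tors W 3) := Module.finite_of_finrank_eq_succ hV
  haveI := CondLevel.isElliptic_map hΔ
  haveI := isElliptic_tors hΔ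
  set f := torsRep W 3
  have hdet : ∀ σ, LinearMap.det (f σ) = Datum.chiMod 3 σ := fun σ =>
    Weil.det_galoisRepModuleEnd (W.map (Int.castRingHom ℚ)) 3 (Weil.card_rootsOfUnity_Qbar 3) σ
  let G : Subgroup Γℚ :=
    { carrier := {σ | LinearMap.det (f σ) = 1}
      one_mem' := by simp
      mul_mem' := fun {a b} (ha : _ = _) (hb : _ = _) => by
        show LinearMap.det (f (a * b)) = 1
        rw [map_mul, map_mul, ha, hb, one_mul]
      inv_mem' := fun {a} (ha : _ = _) => by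
        show LinearMap.det (f a⁻¹) = 1
        have h := congrArg LinearMap.det (map_mul f a⁻¹ a)
        rw [inv_mul_cancel, map_one, map_one, map_mul, ha, mul_one] at h
        exact h.symm }
  obtain ⟨c, hcc, hc⟩ := CondLevel.exists_involution
  have hdc : LinearMap.det (f c) = -1 := CondLevel.det_torsRep_involution hΔ (by norm_num) c hcc hc
  have hneg : (-1 : ZMod 3) ≠ 1 := zmod3_neg_one_ne_one
  have hcases : ∀ σ, LinearMap.det (f σ) = 1 ∨ LinearMap.det (f σ) = -1 := fun σ => by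
    have hu : IsUnit (LinearMap.det (f σ)) := by
      refine IsUnit.map LinearMap.det ?_
      exact (Group.isUnit σ).map f
    exact zmod3_unit_cases _ hu
  have hG : G.index = 2 := by
    rw [Subgroup.index_eq_two_iff]
    refine ⟨c, fun b => ?_⟩
    have hbc : LinearMap.det (f (b * c)) = - LinearMap.det (f b) := by
      rw [map_mul, map_mul, hdc, mul_neg_one]
    show Xor (LinearMap.det (f (b * c)) = 1) (LinearMap.det (f b) = 1)
    rcases hcases b with hb | hb <;> rw [hbc, hb]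
    · exact Or.inr ⟨rfl, hneg⟩
    · exact Or.inl ⟨neg_neg 1, hneg⟩
  obtain ⟨σ, hσG, htr⟩ := exists_trace_ne_zero hΔ hss (by norm_num) hirr G hG
  have hdσ : LinearMap.det (f σ) = -1 := (hcases σ).resolve_left hσG
  obtain ⟨L, hL, hfix⟩ := EC.exists_finiteDimensional_fixing_torsionBy
    (W := (W.map (Int.castRingHom ℚ)).toAffine) (n := 3) (by norm_num)
  obtain ⟨r, hr, hrS, A, hA, τ, hτ, ⟨k, hk⟩, -⟩ := Density.exists_frobenius_pow σ L
    (T ∪ {3} ∪ W.Δ.natAbs.primeFactors)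
  simp only [Finset.mem_union, Finset.mem_singleton, Nat.mem_primeFactors, not_or, not_and] at hrS
  obtain ⟨⟨hrT, hr3⟩, hrΔ⟩ := hrS
  have hg : W.IsGoodPrimeFor r := fun h =>
    hrΔ hr (Int.natCast_dvd.mp h) (Int.natAbs_ne_zero.mpr hΔ)
  have hfk : f σ = f τ ^ k := by
    have h1 : f ((τ ^ k)⁻¹ * σ) = 1 := LinearMap.ext fun P => hfix _ (fun x hx => by
      rw [AlgEquiv.mul_apply, hk x hx, ← AlgEquiv.mul_apply, inv_mul_cancel, AlgEquiv.one_apply]) P
    rw [← map_pow]
    conv_lhs => rw [← mul_inv_cancel_left (τ ^ k) σ, map_mul, h1, mul_one]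
  have hdr : LinearMap.det (f τ) = (r : ZMod 3) := by
    rw [hdet]
    exact Datum.chiMod_frobenius 3 hA hτ ((Nat.coprime_primes hr Nat.prime_three).mpr hr3)
  have hdτ : LinearMap.det (f τ) = -1 := by
    refine (hcases τ).resolve_left fun h => ?_
    rw [hfk, map_pow, h, one_pow] at hdσ
    exact hneg hdσ.symm
  refine ⟨r, hr, hrT, ?_, hg, fun ha => htr ?_⟩
  · have h : ((r : ℕ) : ZMod 3) = ((2 : ℕ) : ZMod 3) := by
      rw [← hdr, hdτ]; exact zmod3_neg_one_eq_two
    exact (ZMod.natCast_eq_natCast_iff' _ _ _).mp h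
  · have hch : (f τ).charpoly = X ^ 2 - 1 := by
      rw [show (f τ).charpoly = _ from
        ECRed.charpoly_frobenius hr hA hg hτ (Ne.symm hr3), ha, ← hdr, hdτ]
      simp [sub_eq_add_neg]
    have hsq : f τ * f τ = 1 := by
      have h := LinearMap.aeval_self_charpoly (f τ)
      rw [hch, map_sub, map_pow, aeval_X, map_one, sub_eq_zero, pow_two] at h
      exact h
    rcases Nat.even_or_odd k with ⟨j, rfl⟩ | ⟨j, rfl⟩
    · exfalso
      rw [hfk, ← two_mul, pow_mul, pow_two, hsq, one_pow, map_one] at hdσ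
      exact hneg hdσ.symm
    · show LinearMap.trace (ZMod 3) (Tors W 3) (f σ) = 0
      rw [hfk, pow_succ, pow_mul, pow_two, hsq, one_pow, one_mul]
      exact (ECRed.galoisTrace_frobenius_prime hr hA hg hτ Nat.prime_three (Ne.symm hr3)).trans ha

end Fermat.Agent.Ribet
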