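import Fermat.Agent.RepLemmas.DVRExtension
import Mathlib.FieldTheory.IsAlgClosed.AlgebraicClosure
import Mathlib.RingTheory.Adjoin.Field
import Mathlib.RingTheory.Ideal.GoingUp

/-!
# Lifting a prime over the maximal ideal to a point in a finite extension

A prime `Q` over the maximal ideal of a finite torsion-free algebra `A` over a complete discrete
valuation ring `O` is the residual kernel of a point of `A` in a finite extension of `O` inside a
fixed algebraic closure.
-/

set_option autoImplicit false
set_option linter.style.haveILetI false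
set_option linter.style.haveILetI false

noncomputable section

namespace Fermat.Agent.Ribet.Glue

open IsLocalRing

/-- Every prime over the maximal ideal is the residual kernel of a point. -/
theorem exists_point_of_prime (O : Type) [CommRing O] [IsDomain O] [IsDiscreteValuationRing O]
    [IsAdicComplete (maximalIdeal O) O] [Finite (ResidueField O)] [CharZero O]
    {A : Type*} [CommRing A] [Algebra O A] [Module.Finite O A] [Module.IsTorsionFree O A]
    (Q : Ideal A) [Q.IsPrime] (hQ : (maximalIdeal O).map (algebraMap O A) ≤ Q) :
    ∃ (O' : Type) (_ : CommRing O') (_ : IsDomain O') (_ : IsDiscreteValuationRing O')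
      (_ : IsAdicComplete (maximalIdeal O') O') (_ : Finite (ResidueField O')) (_ : CharZero O')
      (_ : Algebra O O') (_ : IsLocalHom (algebraMap O O')) (ψ : A →ₐ[O] O')
      (e : O' →ₐ[O] AlgebraicClosure (FractionRing O)),
      Function.Injective e ∧ (maximalIdeal O').comap ψ = Q := by
  classical
  obtain ⟨P, hP, hPQ⟩ := Ideal.exists_minimalPrimes_le (bot_le : (⊥ : Ideal A) ≤ Q)
  haveI : P.IsPrime := hP.isPrime
  have hinj : Function.Injective (algebraMap O (A ⧸ P)) := by
    rw [injective_iff_map_eq_zero]
    intro c hc
    by_contra hc0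
    have h1 : algebraMap O A c ∈ P := Ideal.Quotient.eq_zero_iff_mem.mp hc
    refine Set.disjoint_left.mp (Ideal.disjoint_nonZeroDivisors_of_mem_minimalPrimes hP) h1 ?_
    refine mem_nonZeroDivisors_iff_right.mpr fun x hx => ?_
    have h2 : c • x = 0 := by rw [Algebra.smul_def, mul_comm]; exact hx
    exact (smul_eq_zero_iff_right hc0).mp h2
  haveI : Module.IsTorsionFree O (A ⧸ P) := by
    haveI := (faithfulSMul_iff_algebraMap_injective O (A ⧸ P)).mpr hinj
    infer_instance
  haveI : Algebra.IsIntegral O (A ⧸ P) := Algebra.IsIntegral.of_finite O (A ⧸ P)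
  haveI : Algebra.IsAlgebraic O (A ⧸ P) := Algebra.IsIntegral.isAlgebraic
  let F := FractionRing O
  let K := AlgebraicClosure F
  have hOK : Function.Injective (algebraMap O K) := by
    rw [IsScalarTower.algebraMap_eq O F K]
    exact (algebraMap F K).injective.comp (IsFractionRing.injective O F)
  haveI : Module.IsTorsionFree O K := by
    haveI := (faithfulSMul_iff_algebraMap_injective O K).mpr hOK
    infer_instance
  let g : (A ⧸ P) →ₐ[O] K := IsAlgClosed.lift
  have hg : Function.Injective g := by
    have hker : RingHom.ker g.toRingHom = ⊥ :=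
      Ideal.eq_bot_of_comap_eq_bot (R := O) <| by
        ext c
        simp only [Ideal.mem_comap, RingHom.mem_ker, Submodule.mem_bot]
        change g (algebraMap O (A ⧸ P) c) = 0 ↔ c = 0
        rw [AlgHom.commutes, map_eq_zero_iff _ hOK]
    exact (RingHom.injective_iff_ker_eq_bot g.toRingHom).mpr hker
  obtain ⟨s, hs⟩ := Module.finite_def.mp (inferInstance : Module.Finite O (A ⧸ P))
  set E : IntermediateField F K :=
    IntermediateField.adjoin F ((s.image g : Finset K) : Set K) with hE
  haveI : FiniteDimensional F E :=
    IntermediateField.finiteDimensional_adjoin fun x _ => Algebra.IsIntegral.isIntegral x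
  have hmem : ∀ b, g b ∈ E := by
    intro b
    have hb : b ∈ Submodule.span O (s : Set (A ⧸ P)) := by rw [hs]; exact Submodule.mem_top
    induction hb using Submodule.span_induction with
    | mem x hx =>
      exact IntermediateField.subset_adjoin _ _
        (Finset.mem_coe.mpr (Finset.mem_image_of_mem _ hx))
    | zero => rw [map_zero]; exact zero_mem _
    | add x y _ _ hx hy => rw [map_add]; exact add_mem hx hy
    | smul c x _ hx =>
      rw [map_smul, Algebra.smul_def, IsScalarTower.algebraMap_apply O F K]
      exact mul_mem (IntermediateField.algebraMap_mem E _) hx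
  obtain ⟨hdvr, -, hloc, hinjO, -, hcomp, hres⟩ := RepLemmas.integralClosure_isDVR O F E
  let g' : (A ⧸ P) →ₐ[O] E :=
    { toFun := fun b => ⟨g b, hmem b⟩
      map_one' := Subtype.ext (map_one g)
      map_mul' := fun x y => Subtype.ext (map_mul g x y)
      map_zero' := Subtype.ext (map_zero g)
      map_add' := fun x y => Subtype.ext (map_add g x y)
      commutes' := fun c => Subtype.ext (g.commutes c) }
  have hint : ∀ b, g' b ∈ integralClosure O E := fun b =>
    (Algebra.IsIntegral.isIntegral b).map g'
  let ψ₀ : (A ⧸ P) →ₐ[O] integralClosure O E := g'.codRestrict _ hint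
  haveI : CharZero (integralClosure O E) :=
    charZero_of_injective_ringHom (f := algebraMap O (integralClosure O E)) hinjO
  let e : integralClosure O E →ₐ[O] K :=
    (E.val.restrictScalars O).comp (integralClosure O E).val
  refine ⟨integralClosure O E, inferInstance, inferInstance, hdvr, hcomp, hres inferInstance,
    inferInstance, inferInstance, hloc, ψ₀.comp (Ideal.Quotient.mkₐ O P), e,
    fun x y h => Subtype.ext (Subtype.ext h), ?_⟩
  set Q' : Ideal (A ⧸ P) := Q.map (Ideal.Quotient.mk P) with hQ'
  have hQ'c : Q'.comap (Ideal.Quotient.mk P) = Q := by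
    rw [hQ', Ideal.comap_map_of_surjective _ Ideal.Quotient.mk_surjective, ← RingHom.ker_eq_comap_bot,
      Ideal.mk_ker, sup_eq_left]
    exact hPQ
  haveI : Q'.IsPrime :=
    Ideal.map_isPrime_of_surjective Ideal.Quotient.mk_surjective (by rwa [Ideal.mk_ker])
  have hmO : Q'.comap (algebraMap O (A ⧸ P)) = maximalIdeal O := by
    refine ((maximalIdeal.isMaximal O).eq_of_le (Ideal.IsPrime.ne_top inferInstance) ?_).symm
    intro c hc
    exact Ideal.mem_map_of_mem _ (hQ (Ideal.mem_map_of_mem _ hc))
  haveI : Q'.IsMaximal := by
    refine Ideal.isMaximal_of_isIntegral_of_isMaximal_comap (R := O) Q' ?_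
    rw [hmO]
    infer_instance
  letI : Algebra (A ⧸ P) (integralClosure O E) := ψ₀.toRingHom.toAlgebra
  haveI : IsScalarTower O (A ⧸ P) (integralClosure O E) :=
    IsScalarTower.of_algebraMap_eq fun c => (ψ₀.commutes c).symm
  haveI : Algebra.IsIntegral (A ⧸ P) (integralClosure O E) :=
    Algebra.IsIntegral.tower_top (R := O)
  have hker : RingHom.ker (algebraMap (A ⧸ P) (integralClosure O E)) ≤ Q' := by
    intro x hx
    have h0 : g x = 0 := congrArg (fun z : integralClosure O E => ((z : E) : K)) hx
    rw [hg (h0.trans (map_zero g).symm)]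
    exact zero_mem _
  obtain ⟨R, hR, hRQ⟩ :=
    Ideal.exists_ideal_over_maximal_of_isIntegral (S := integralClosure O E) Q' hker
  rw [eq_maximalIdeal hR] at hRQ
  rw [← hQ'c, ← hRQ]
  rfl

end Fermat.Agent.Ribet.Glue
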