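import Fermat.Agent.Ribet.Avoid.Main
import Fermat.Agent.Ribet.Avoid.FromCurve
import Fermat.Agent.Ribet.General.Attached
import Fermat.Agent.Newform.Extension

/-!
# Minimal residually modular levels

At a residually modular level which is minimal among the divisors of a squarefree level, every
prime other than `p` is a prime of ramification: Mazur's principle makes the other primes scalar,
and Ihara avoidance removes the scalar primes. Auxiliary primes, at which no level raising is possible, may stay in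
every level (at `p = 3` one of them is `≡ 2 (mod 3)`).
-/

set_option autoImplicit false
set_option linter.style.haveILetI false

noncomputable section

namespace Fermat.Agent.Ribet.Glue

open IsLocalRing Twisted Avoid

local notation "ℚbar" => AlgebraicClosure ℚ
local notation "Γℚ" => AlgebraicClosure ℚ ≃ₐ[ℚ] AlgebraicClosure ℚ

variable {W : WeierstrassCurve ℤ} {p : ℕ} [Fact p.Prime]

/-- The two directions of the bridge between residual modularity and congruent systems. -/
structure Bridge (d : CurveResidual W p) : Prop where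
  system : ∀ (L : ℕ) [NeZero L] (S : Finset ℕ),
    ({p} ∪ W.Δ.natAbs.primeFactors : Finset ℕ) ⊆ S →
    (∀ ℓ : ℕ, ℓ.Prime → ℓ ∣ L → ℓ ∈ S) → W.IsResiduallyModularOfLevel p L →
      ∃ a : ℕ → d.K, HasSystem (one_dvd L) (1 : DirichletCharacter d.K 1) S a ∧
        IsCongruent (algebraMap d.O d.K) (residue d.O) d.abar S a
  modular : ∀ (L : ℕ) [NeZero L] (S : Finset ℕ) (a : ℕ → d.K),
    ({p} ∪ W.Δ.natAbs.primeFactors : Finset ℕ) ⊆ S →
    HasSystem (one_dvd L) (1 : DirichletCharacter d.K 1) S a →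
      IsCongruent (algebraMap d.O d.K) (residue d.O) d.abar S a →
        W.IsResiduallyModularOfLevel p L

/-- Mazur's principle along the divisors of `N` which contain `A`: a prime which cannot be
removed although `W[p]` is unramified there is scalar. -/
def MazurStep (d : CurveResidual W p) (A N : ℕ) : Prop :=
  ∀ M l : ℕ, M * l ∣ N → A ∣ M → l.Prime → ¬ l ∣ M → l ≠ p → ¬ l ∣ residualLevel W p →
    (∀ x : ℕ, x.Prime → x ∣ residualLevel W p → x ∣ M) →
    W.IsResiduallyModularOfLevel p (M * l) → ¬ W.IsResiduallyModularOfLevel p M →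
      d.IsScalarPrime l

/-- `W[p]` unramified in the sense of the coefficient field, from the curve. -/
theorem isUnramifiedAt_of_torsRep (d : CurveResidual W p) {q : ℕ}
    (h : ∀ A : ValuationSubring ℚbar, A.LiesOverPrime q → ∀ σ ∈ A.inertiaSubgroupIn ℚ,
      Lifting.torsRep W p σ = 1) : d.ρbar.IsUnramifiedAt q := fun A hA σ hσ => by
  refine (TW.matRep_eq_one_iff _ σ).mp ?_
  have h1 : ∀ x : Lifting.Tors W p, σ • x = (1 : ℤ) • x := fun x => by
    rw [one_smul]
    exact LinearMap.congr_fun (h A hA σ hσ) x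
  rw [d.hscal σ 1 h1, Int.cast_one, one_smul]

/-- The primes of ramification divide every residually modular level. -/
theorem residualLevel_dvd (d : CurveResidual W p) (hirr : W.ModRepIsIrreducible p) {L : ℕ}
    [NeZero L] (hres : W.IsResiduallyModularOfLevel p L) {q : ℕ} (hq : q.Prime)
    (hqr : q ∣ residualLevel W p) : q ∣ L := by
  obtain ⟨hqp, hqΔ, hv⟩ := (prime_dvd_residualLevel_iff d.hΔ hq).mp hqr
  by_contra hqL
  refine (d.hram q hq hqp).mp ⟨hqΔ, hv⟩ (isUnramifiedAt_of_torsRep d fun A hA σ hσ => ?_)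
  by_contra hne
  exact hqL (General.dvd_of_ramified d.hΔ d.hp2 hirr hres hq hqp hA hσ hne)

set_option maxHeartbeats 800000 in
/-- At a minimal residually modular level only ramified primes and `p` survive. -/
theorem prime_dvd_residualLevel_of_minimal (d : CurveResidual W p) (hb : Bridge d)
    (hirr : W.ModRepIsIrreducible p) (Aux : Finset ℕ) (hAux : ∀ r ∈ Aux, d.IsAuxPrime r)
    (hthree : p = 3 → ∃ x : ℕ, x % 3 = 2 ∧ x.Prime ∧ (x ∣ residualLevel W p ∨ x ∈ Aux))
    {N : ℕ} (hN : Squarefree N)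
    (hpN : p ∣ N → (p : ℤ) ∣ W.Δ) (hMP : MazurStep d (∏ x ∈ Aux, x) N) {L : ℕ} (hLN : L ∣ N)
    (hAL : ∀ r ∈ Aux, r ∣ L) (hres : W.IsResiduallyModularOfLevel p L)
    (hmin : ∀ L' : ℕ, L' ∣ L → (∀ r ∈ Aux, r ∣ L') → W.IsResiduallyModularOfLevel p L' → L' = L)
    {q : ℕ} (hq : q.Prime) (hqL : q ∣ L) (hqp : q ≠ p) (hqA : q ∉ Aux) :
    q ∣ residualLevel W p := by
  classical
  have hp : p.Prime := Fact.out
  have hLsq : Squarefree L := hN.squarefree_of_dvd hLN
  haveI : NeZero L := ⟨hLsq.ne_zero⟩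
  by_contra hqr
  set Sc : Finset ℕ := L.primeFactors.filter fun l => l ≠ p ∧ ¬ l ∣ residualLevel W p ∧ l ∉ Aux
    with hScdef
  have hmemSc : ∀ l, l ∈ Sc ↔
      (l.Prime ∧ l ∣ L) ∧ l ≠ p ∧ ¬ l ∣ residualLevel W p ∧ l ∉ Aux := fun l => by
    simp [hScdef, Nat.mem_primeFactors, hLsq.ne_zero]
  have hne : Sc.Nonempty := ⟨q, (hmemSc q).mpr ⟨⟨hq, hqL⟩, hqp, hqr, hqA⟩⟩
  have hAr : ∀ r ∈ Aux, ¬ r ∣ residualLevel W p := fun r hr h =>
    (hAux r hr).good ((prime_dvd_residualLevel_iff d.hΔ (hAux r hr).prime).mp h).2.1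
  have hr_dvd : ∀ l : ℕ, l.Prime → l ∣ residualLevel W p → l ∣ L := fun l hl h =>
    residualLevel_dvd d hirr hres hl h
  have hSc : ∀ l ∈ Sc, d.IsScalarPrime l := fun l hlS => by
    obtain ⟨⟨hl, hlL⟩, hlp, hlr, hlA⟩ := (hmemSc l).mp hlS
    clear hlS
    obtain ⟨M, rfl⟩ := hlL
    have hlM : ¬ l ∣ M := fun h => hl.ne_one (Nat.isUnit_iff.mp (hLsq l (mul_dvd_mul_left l h)))
    have hAM : ∀ r ∈ Aux, r ∣ M := fun r hr =>
      ((hAux r hr).prime.dvd_mul.mp (hAL r hr)).resolve_left fun h =>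
        hlA (((Nat.prime_dvd_prime_iff_eq (hAux r hr).prime hl).mp h) ▸ hr)
    refine hMP M l (by rwa [mul_comm])
      (Finset.prod_primes_dvd M (fun r hr => (hAux r hr).prime.prime) hAM) hl hlM hlp hlr
      (fun x hx h => (hx.dvd_mul.mp (hr_dvd x hx h)).resolve_left fun h' =>
        hlr (((Nat.prime_dvd_prime_iff_eq hx hl).mp h') ▸ h))
      (by rwa [mul_comm]) fun hM => ?_
    have := hmin M (dvd_mul_left M l) hAM hM
    exact hlM (this.symm ▸ dvd_mul_right l M)
  set ordP : Bool := decide (p ∣ L) with hordPdef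
  -- the level splits
  have hdisj : Disjoint Sc Aux := Finset.disjoint_left.mpr fun l hl => ((hmemSc l).mp hl).2.2.2
  set P : Finset ℕ := if p ∣ L then {p} else ∅ with hPdef
  have hPprod : ∏ x ∈ P, x = if p ∣ L then p else 1 := by
    rw [hPdef]; split_ifs <;> simp
  set R : Finset ℕ := (residualLevel W p).primeFactors with hRdef
  have hpart : L.primeFactors = ((R ∪ Aux) ∪ P) ∪ Sc := by
    ext l
    simp only [Finset.mem_union, hmemSc, hRdef, hPdef, Nat.mem_primeFactors, ne_eq]
    constructor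
    · rintro ⟨hl, hlL, -⟩
      by_cases h1 : l ∈ Aux
      · exact Or.inl (Or.inl (Or.inr h1))
      by_cases h2 : l ∣ residualLevel W p
      · exact Or.inl (Or.inl (Or.inl ⟨hl, h2, residualLevel_ne_zero W p⟩))
      by_cases h3 : l = p
      · exact Or.inl (Or.inr (by subst h3; simp [hlL]))
      · exact Or.inr ⟨⟨hl, hlL⟩, h3, h2, h1⟩
    · rintro (((⟨hl, h, -⟩ | h) | h) | ⟨⟨hl, h⟩, -⟩)
      · exact ⟨hl, hr_dvd l hl h, hLsq.ne_zero⟩
      · exact ⟨(hAux l h).prime, hAL l h, hLsq.ne_zero⟩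
      · split_ifs at h with h'
        · obtain rfl := Finset.mem_singleton.mp h
          exact ⟨hp, h', hLsq.ne_zero⟩
        · simp at h
      · exact ⟨hl, h, hLsq.ne_zero⟩
  have hdP : Disjoint (R ∪ Aux) P := Finset.disjoint_left.mpr fun l hl hlP => by
    have hlp : l = p := by
      rw [hPdef] at hlP
      split_ifs at hlP
      · exact Finset.mem_singleton.mp hlP
      · simp at hlP
    rcases Finset.mem_union.mp hl with h | h
    · exact not_dvd_residualLevel d.hΔ hp (hlp ▸ (Nat.mem_primeFactors.mp h).2.1)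
    · exact (hAux l h).ne hlp
  have hdS : Disjoint ((R ∪ Aux) ∪ P) Sc := Finset.disjoint_right.mpr fun l hl hlU => by
    obtain ⟨-, hlp, hlr, hlA⟩ := (hmemSc l).mp hl
    rcases Finset.mem_union.mp hlU with h | h
    · rcases Finset.mem_union.mp h with h | h
      · exact hlr (Nat.mem_primeFactors.mp h).2.1
      · exact hlA h
    · rw [hPdef] at h
      split_ifs at h
      · exact hlp (Finset.mem_singleton.mp h)
      · simp at h
  have hsplit : L = residualLevel W p * (∏ x ∈ Aux, x) * (if p ∣ L then p else 1) *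
      ∏ x ∈ Sc, x := by
    conv_lhs => rw [← Nat.prod_primeFactors_of_squarefree hLsq, hpart,
      Finset.prod_union hdS, Finset.prod_union hdP,
      Finset.prod_union (Finset.disjoint_left.mpr fun l hl hlA =>
        hAr l hlA (Nat.mem_primeFactors.mp hl).2.1), hPprod,
      Nat.prod_primeFactors_of_squarefree (squarefree_residualLevel W p)]
  let s : Setup := d.toSetup Sc Aux L.primeFactors hSc hAux hdisj hthree ordP
    (fun h => d.hord (hpN ((of_decide_eq_true h).trans hLN)))
    (fun h L₁ _ hL₁ S a hS ha hcong => by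
      have hp0 : p ∣ L := of_decide_eq_true h
      have hmod := hb.modular L₁ S a (fun x hx => hS (by
        simp only [CurveResidual.leftOut, Finset.mem_union] at hx ⊢
        rcases hx with hx | hx
        · exact Or.inl (Or.inl (Or.inl (Or.inl hx)))
        · exact Or.inl (Or.inl (Or.inl (Or.inr hx))))) ha hcong
      have hlt : L₁ * p = L := by
        rw [hL₁]
        rw [if_pos hp0] at hsplit
        conv_rhs => rw [hsplit]
        ring
      have hAL₁ : ∀ r ∈ Aux, r ∣ L₁ := fun r hr => by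
        rw [hL₁]
        exact dvd_mul_of_dvd_left (dvd_mul_of_dvd_right (Finset.dvd_prod_of_mem _ hr) _) _
      have h1 := hmin L₁ (hlt ▸ dvd_mul_right L₁ p) hAL₁ hmod
      rw [h1] at hlt
      exact hp.ne_one (mul_left_cancel₀ hLsq.ne_zero (hlt.trans (mul_one L).symm)))
  have hbase : s.base = residualLevel W p * (∏ x ∈ Aux, x) * (if p ∣ L then p else 1) := by
    show residualLevel W p * (∏ x ∈ Aux, x) * (if ordP then p else 1) = _
    rw [hordPdef]
    by_cases h : p ∣ L <;> simp [h]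
  have hlevel : s.scLevel = L := by
    show s.base * ∏ x ∈ Sc, x = L
    rw [hbase, ← hsplit]
  haveI : NeZero s.base := ⟨s.base_ne_zero⟩
  haveI : NeZero s.scLevel := ⟨hlevel ▸ hLsq.ne_zero⟩
  have hS₀ : ({p} ∪ W.Δ.natAbs.primeFactors : Finset ℕ) ⊆ s.S₀ := fun x hx => by
    show x ∈ d.leftOut Sc Aux L.primeFactors
    simp only [CurveResidual.leftOut, Finset.mem_union] at hx ⊢
    rcases hx with hx | hx
    · exact Or.inl (Or.inl (Or.inl (Or.inl hx)))
    · exact Or.inl (Or.inl (Or.inl (Or.inr hx)))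
  obtain ⟨a, ha, hcong⟩ := hb.system s.scLevel s.S₀ hS₀ (fun l hl hlL => by
      show l ∈ d.leftOut Sc Aux L.primeFactors
      exact d.extra_subset_leftOut Sc Aux L.primeFactors
        (Nat.mem_primeFactors.mpr ⟨hl, hlevel ▸ hlL, hLsq.ne_zero⟩)) (hlevel ▸ hres)
  obtain ⟨S, b, hSS, hbs, hbc⟩ := exists_system_base s hne a ha hcong
  have hmod := hb.modular s.base S b (hS₀.trans hSS) hbs hbc
  have h1 := hmin s.base ⟨∏ x ∈ Sc, x, hlevel.symm⟩ (fun r hr => by
    rw [hbase]
    exact dvd_mul_of_dvd_left (dvd_mul_of_dvd_right (Finset.dvd_prod_of_mem _ hr) _) _) hmod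
  obtain ⟨l, hl⟩ := hne
  obtain ⟨⟨hl, hlL⟩, hlp, hlr, hlA⟩ := (hmemSc l).mp hl
  rw [← h1, hbase] at hlL
  rcases hl.dvd_mul.mp hlL with h | h
  · rcases hl.dvd_mul.mp h with h | h
    · exact hlr h
    · obtain ⟨r, hr, h'⟩ := (hl.prime.dvd_finsetProd_iff _).mp h
      exact hlA (((Nat.prime_dvd_prime_iff_eq hl (hAux r hr).prime).mp h') ▸ hr)
  · split_ifs at h
    · exact hlp ((Nat.prime_dvd_prime_iff_eq hl hp).mp h)
    · exact hl.not_dvd_one h

/-- A residually modular squarefree level containing the auxiliary primes has a residually modular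
divisor containing them whose other primes are `p` or primes of ramification. -/
theorem exists_dvd_minimal (d : CurveResidual W p) (hb : Bridge d)
    (hirr : W.ModRepIsIrreducible p) (Aux : Finset ℕ) (hAux : ∀ r ∈ Aux, d.IsAuxPrime r)
    (hthree : p = 3 → ∃ x : ℕ, x % 3 = 2 ∧ x.Prime ∧ (x ∣ residualLevel W p ∨ x ∈ Aux))
    {N : ℕ} (hN : Squarefree N) (hAN : ∀ r ∈ Aux, r ∣ N)
    (hpN : p ∣ N → (p : ℤ) ∣ W.Δ) (hMP : MazurStep d (∏ x ∈ Aux, x) N)
    (hres : W.IsResiduallyModularOfLevel p N) :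
    ∃ M : ℕ, M ∣ N ∧ (∀ r ∈ Aux, r ∣ M) ∧ W.IsResiduallyModularOfLevel p M ∧
      ∀ q : ℕ, q.Prime → q ∣ M → q ≠ p → q ∉ Aux → q ∣ residualLevel W p := by
  classical
  have hex : ∃ M, M ∣ N ∧ (∀ r ∈ Aux, r ∣ M) ∧ W.IsResiduallyModularOfLevel p M :=
    ⟨N, dvd_rfl, hAN, hres⟩
  obtain ⟨hMN, hAM, hM⟩ := Nat.find_spec hex
  refine ⟨Nat.find hex, hMN, hAM, hM, fun q hq hqM hqp hqA => ?_⟩
  exact prime_dvd_residualLevel_of_minimal d hb hirr Aux hAux hthree hN hpN hMP hMN hAM hM
    (fun L' hL' hA' h' => le_antisymm (Nat.le_of_dvd (Nat.pos_of_dvd_of_pos hMN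
      (Nat.pos_of_ne_zero hN.ne_zero)) hL') (Nat.find_min' hex ⟨hL'.trans hMN, hA', h'⟩))
    hq hqM hqp hqA

end Fermat.Agent.Ribet.Glue
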