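/-
Mazur's principle at `q ≠ p`: eigen classes in `J₀(N)[p]` and residual modularity.
-/
import Fermat.Agent.Torsion.Main
import Fermat.Agent.Eigen.EigenHom
import Fermat.Agent.Eigen.Lifting
import Fermat.Agent.Integral.Main
import Mathlib.RingTheory.Ideal.GoingUp
import Fermat.Prelude.Def_FLTPrelim_ModularRep

set_option autoImplicit false
set_option linter.style.haveILetI false

noncomputable section

namespace Fermat.Agent.Ribet.MP

open ModularCurve Fermat.Agent.Torsion Fermat.Agent.Eigen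

section Ann

variable {T : Type*} [CommRing T] {A : Type*} [AddCommGroup A]

/-- The elements whose image under `φ` kills `y`. -/
def annIdeal (φ : T →+* AddMonoid.End A) (y : A) : Ideal T where
  carrier := {t | φ t y = 0}
  add_mem' := fun {s t} (hs : φ s y = 0) (ht : φ t y = 0) => by
    show φ (s + t) y = 0
    rw [map_add]
    show φ s y + φ t y = 0
    rw [hs, ht, add_zero]
  zero_mem' := by show φ 0 y = 0; rw [map_zero]; rfl
  smul_mem' := fun s t (ht : φ t y = 0) => by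
    show φ (s * t) y = 0
    rw [map_mul]
    show φ s (φ t y) = 0
    rw [ht, map_zero]

theorem mem_annIdeal {φ : T →+* AddMonoid.End A} {y : A} {t : T} :
    t ∈ annIdeal φ y ↔ φ t y = 0 := Iff.rfl

theorem sub_intCast_apply (φ : T →+* AddMonoid.End A) (y : A) (t : T) (n : ℤ) :
    φ (t - (n : T)) y = φ t y - n • y := by
  rw [map_sub, map_intCast]
  show φ t y - ((n : AddMonoid.End A)) y = _
  rw [AddMonoid.End.intCast_apply]

theorem annIdeal_ne_top {φ : T →+* AddMonoid.End A} {y : A} (hy : y ≠ 0) : annIdeal φ y ≠ ⊤ :=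
  fun h => hy (by
    have h1 : φ 1 y = 0 := mem_annIdeal.1 (h ▸ Submodule.mem_top)
    rwa [map_one, AddMonoid.End.one_apply] at h1)

end Ann

variable {M p : ℕ} [NeZero M] [Fact p.Prime]

/-- `x` has Hecke eigenvalue `a ℓ` at the primes of `good`. -/
def IsEigen (good : ℕ → Prop) (a : ℕ → ℤ) (x : JZero M) : Prop :=
  ∀ ℓ : Nat.Primes, good ℓ → heckeOperatorBar M ℓ x = a ℓ • x

/-- An eigenform congruent to `a` gives an eigen class in `J₀(M)[p]`. -/
theorem exists_isEigen_of_eigenform {f : CuspForm (CongruenceSubgroup.Gamma0 M) 2}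
    (hf : f.IsNormalizedEigenform) (𝔪 : Ideal (integralClosure ℤ ℂ)) (h𝔪 : 𝔪.IsMaximal)
    (hp : (p : integralClosure ℤ ℂ) ∈ 𝔪) (good : ℕ → Prop) (a : ℕ → ℤ)
    (hgood : ∀ ℓ, good ℓ → ℓ.Prime → ¬ ℓ ∣ M)
    (hcong : ∀ ℓ : ℕ, ℓ.Prime → good ℓ → ∃ c : integralClosure ℤ ℂ,
      (c : ℂ) = ModularFormClass.qCoeff f ℓ ∧ c - (a ℓ : integralClosure ℤ ℂ) ∈ 𝔪) :
    ∃ x : JZero M, x ≠ 0 ∧ p • x = 0 ∧ IsEigen good a x := by
  haveI : NeZero p := ⟨(Fact.out : p.Prime).ne_zero⟩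
  have H := Integral.hasIntegralStructure M 2
  haveI := heckeAlgebra_moduleFinite H (∅ : Set ℕ)
  let χ : CuspForm.heckeAlgebra M 2 (∅ : Set ℕ) →+* integralClosure ℤ ℂ :=
    (eigenChar f hf ∅).codRestrict (integralClosure ℤ ℂ)
      (fun t => map_isIntegral_int _ (Algebra.IsIntegral.isIntegral t))
  letI : Algebra (CuspForm.heckeAlgebra M 2 (∅ : Set ℕ)) (integralClosure ℤ ℂ) := χ.toAlgebra
  haveI : IsScalarTower ℤ (CuspForm.heckeAlgebra M 2 (∅ : Set ℕ)) (integralClosure ℤ ℂ) :=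
    IsScalarTower.of_algebraMap_eq' (RingHom.ext_int _ _)
  haveI : Algebra.IsIntegral (CuspForm.heckeAlgebra M 2 (∅ : Set ℕ)) (integralClosure ℤ ℂ) :=
    Algebra.IsIntegral.tower_top (R := ℤ)
  haveI := h𝔪
  have hmax : (𝔪.comap χ).IsMaximal := Ideal.isMaximal_comap_of_isIntegral_of_isMaximal 𝔪
  obtain ⟨x, hx0, hx⟩ := exists_ne_zero_forall_heckeRep_eq_zero (N := M) (p := p) (𝔪.comap χ) hmax
    (by rw [Ideal.mem_comap, map_natCast]; exact hp)
  refine ⟨x, fun h => hx0 (Subtype.ext h), mem_jTorsion.1 x.2, fun ℓ hℓ => ?_⟩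
  have hℓM : ¬ (ℓ : ℕ) ∣ M := hgood ℓ hℓ ℓ.2
  obtain ⟨c, hc, hmem⟩ := hcong ℓ ℓ.2 hℓ
  have ht : CuspForm.heckeAlgebra.T ℓ.2 hℓM (Set.notMem_empty _)
      - algebraMap ℤ _ (a ℓ) ∈ 𝔪.comap χ := by
    have hTc : χ (CuspForm.heckeAlgebra.T ℓ.2 hℓM (Set.notMem_empty _)) = c :=
      Subtype.ext ((eigenChar_T hf ℓ.2 hℓM (Set.notMem_empty _)).trans hc.symm)
    rw [Ideal.mem_comap, map_sub, eq_intCast, map_intCast, hTc]
    exact hmem
  have h := hx _ ht
  rw [eq_intCast, sub_intCast_apply, heckeRep_T M p ℓ.2 hℓM, sub_eq_zero] at h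
  have h' := congrArg Subtype.val h
  exact (coe_heckeTors p ℓ x).symm.trans (h'.trans (AddSubgroup.coe_zsmul _ x (a ℓ)))

/-- An eigen class in `J₀(M)[p]` gives a congruent eigenform of level `M`. -/
theorem exists_eigenform_of_isEigen {x : JZero M} (hx0 : x ≠ 0) (hpx : p • x = 0)
    (good : ℕ → Prop) (a : ℕ → ℤ) (hgood : ∀ ℓ, good ℓ → ℓ.Prime → ¬ ℓ ∣ M)
    (hx : IsEigen good a x) :
    ∃ (f : CuspForm (CongruenceSubgroup.Gamma0 M) 2) (_ : f.IsNormalizedEigenform)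
      (𝔪 : Ideal (integralClosure ℤ ℂ)), 𝔪.IsMaximal ∧ (p : integralClosure ℤ ℂ) ∈ 𝔪 ∧
      ∀ ℓ : ℕ, ℓ.Prime → good ℓ → ∃ c : integralClosure ℤ ℂ,
        (c : ℂ) = ModularFormClass.qCoeff f ℓ ∧ c - (a ℓ : integralClosure ℤ ℂ) ∈ 𝔪 := by
  haveI : NeZero p := ⟨(Fact.out : p.Prime).ne_zero⟩
  have H := Integral.hasIntegralStructure M 2
  haveI := heckeAlgebra_moduleFinite H (∅ : Set ℕ)
  let S' : Set ℕ := {ℓ | ¬ (ℓ.Prime ∧ good ℓ)}
  let T := CuspForm.heckeAlgebra M 2 S'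
  let incl : T →+* CuspForm.heckeAlgebra M 2 (∅ : Set ℕ) :=
    (Subalgebra.inclusion (CuspForm.heckeAlgebra_mono (Set.empty_subset S'))).toRingHom
  let y : jTorsion M p := ⟨x, mem_jTorsion.2 hpx⟩
  have hy0 : y ≠ 0 := fun h => hx0 (congrArg Subtype.val h)
  let φ : T →+* AddMonoid.End (jTorsion M p) := (heckeRep M p).comp incl
  let J : Ideal T := annIdeal φ y
  have hJ : J ≠ ⊤ := annIdeal_ne_top hy0
  obtain ⟨m, hm, hJm⟩ := Ideal.exists_le_maximal J hJ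
  have hincl : Function.Injective incl := Subalgebra.inclusion_injective _
  letI : Algebra T (CuspForm.heckeAlgebra M 2 (∅ : Set ℕ)) := incl.toAlgebra
  haveI : IsScalarTower ℤ T (CuspForm.heckeAlgebra M 2 (∅ : Set ℕ)) :=
    IsScalarTower.of_algebraMap_eq' (RingHom.ext_int _ _)
  haveI : Algebra.IsIntegral T (CuspForm.heckeAlgebra M 2 (∅ : Set ℕ)) :=
    Algebra.IsIntegral.tower_top (R := ℤ)
  obtain ⟨m', hm', hmm'⟩ := Ideal.exists_ideal_over_maximal_of_isIntegral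
    (S := CuspForm.heckeAlgebra M 2 (∅ : Set ℕ)) m
    (((RingHom.injective_iff_ker_eq_bot incl).1 hincl).le.trans bot_le)
  obtain ⟨χ, 𝔪, h𝔪, hcomap⟩ := exists_char_lift_maximal m'
  obtain ⟨f, hf, hfχ⟩ := Eigen.exists_eigenform_of_ringHom H
    ((integralClosure ℤ ℂ).val.toRingHom.comp χ)
  have hmem : ∀ t : T, t ∈ J → χ (incl t) ∈ 𝔪 := fun t ht => by
    have h1 : t ∈ m'.comap (algebraMap T _) := hmm'.symm ▸ hJm ht
    exact (hcomap.symm ▸ h1 : incl t ∈ 𝔪.comap χ)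
  refine ⟨f, hf, 𝔪, h𝔪, ?_, fun ℓ hℓ hℓg => ?_⟩
  · have h : ((p : ℕ) : T) ∈ J := by
      rw [mem_annIdeal, map_natCast, AddMonoid.End.natCast_apply]
      exact Subtype.ext hpx
    have h' := hmem _ h
    rwa [map_natCast, map_natCast] at h'
  · have hℓM : ¬ ℓ ∣ M := hgood ℓ hℓg hℓ
    have hℓS : ℓ ∉ S' := fun h => h ⟨hℓ, hℓg⟩
    let t : T := CuspForm.heckeAlgebra.T hℓ hℓM hℓS
    refine ⟨χ (incl t), ?_, ?_⟩
    · rw [← eigenChar_T hf hℓ hℓM (Set.notMem_empty ℓ), hfχ]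
      rfl
    · have h : t - (a ℓ : T) ∈ J := by
        have e : incl t = CuspForm.heckeAlgebra.T hℓ hℓM (Set.notMem_empty ℓ) := rfl
        have e' : φ t = heckeTors M p ⟨ℓ, hℓ⟩ :=
          (congrArg (heckeRep M p) e).trans (heckeRep_T M p hℓ hℓM)
        rw [mem_annIdeal, sub_intCast_apply, e', sub_eq_zero]
        exact Subtype.ext ((coe_heckeTors p _ y).trans
          ((hx ⟨ℓ, hℓ⟩ hℓg).trans (AddSubgroup.coe_zsmul _ y (a ℓ)).symm))
      have h' := hmem _ h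
      rwa [map_sub, map_sub, map_intCast, map_intCast] at h'

end Fermat.Agent.Ribet.MP

end
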