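/-
Mazur's principle at `q ≠ p`, case `p = 3`: the modular unit
`η (q τ) ^ 8 η (r q τ) ^ 8 / (η τ ^ 8 η (r τ) ^ 8)` for `r ≡ 2 (mod 3)`, a cube root of
`Δ (q τ) Δ (r q τ) / (Δ τ Δ (r τ))` in the function field of `X₀(M q)` for `r ∣ M`.
-/
import Fermat.Agent.MazurPrinciple.NodesUnit
import Mathlib.RingTheory.PowerSeries.Binomial
import Mathlib.RingTheory.PowerSeries.Substitution

set_option autoImplicit false
set_option linter.style.haveILetI false

noncomputable section

open ModularCurve UpperHalfPlane CongruenceSubgroup ModularGroup Filter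
open Fermat.Agent.ModFun Fermat.Agent.MazurPrinciple
open scoped MatrixGroups Manifold Topology ModularForm

namespace Fermat.Agent.Ribet.MP

/-- The cube roots of unity, indexed by `ZMod 3`. -/
local notation "ω₃" => (ZMod.stdAddChar : AddChar (ZMod 3) ℂ)

/-- `η τ ^ 8`. -/
def etaEight (τ : ℍ) : ℂ := ModularForm.eta (τ : ℂ) ^ 8

theorem etaEight_cube (τ : ℍ) : etaEight τ ^ 3 = ModularForm.discriminant τ := by
  rw [etaEight, ← pow_mul]; rfl

theorem etaEight_ne_zero (τ : ℍ) : etaEight τ ≠ 0 :=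
  pow_ne_zero _ (ModularForm.eta_ne_zero τ.im_pos)

theorem mdifferentiable_etaEight : MDiff etaEight := by
  rw [UpperHalfPlane.mdifferentiable_iff]
  refine DifferentiableOn.congr (f := fun z => ModularForm.eta z ^ 8)
    (fun z hz => ((ModularForm.differentiableAt_eta_of_mem_upperHalfPlaneSet hz).pow
      8).differentiableWithinAt) fun z hz => ?_
  simp [etaEight, ofComplex_apply_of_im_pos hz]

theorem stdAddChar_three_one :
    ω₃ 1 = Complex.exp (2 * Real.pi * Complex.I / 3) := by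
  have h := ZMod.stdAddChar_coe (N := 3) 1
  simpa using h

theorem etaEight_slash_T : etaEight ∣[(4 : ℤ)] T = ω₃ 1 • etaEight := by
  ext τ
  have hq : Function.Periodic.qParam (24 : ℝ) (((1 : ℝ) +ᵥ τ : ℍ) : ℂ) ^ 8 =
      ω₃ 1 * Function.Periodic.qParam (24 : ℝ) (τ : ℂ) ^ 8 := by
    rw [stdAddChar_three_one, Function.Periodic.qParam, Function.Periodic.qParam,
      ← Complex.exp_nat_mul, ← Complex.exp_nat_mul, ← Complex.exp_add, coe_vadd]
    congr 1
    push_cast
    ring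
  have hp : (∏' n, (1 - ModularForm.eta_q n (((1 : ℝ) +ᵥ τ : ℍ) : ℂ))) =
      ∏' n, (1 - ModularForm.eta_q n (τ : ℂ)) := by
    have h1 : Function.Periodic.qParam (1 : ℝ) (((1 : ℝ) +ᵥ τ : ℍ) : ℂ) =
        Function.Periodic.qParam (1 : ℝ) (τ : ℂ) := by
      rw [coe_vadd, add_comm]
      simp [Function.Periodic.qParam, mul_add, Complex.exp_add]
    simp only [ModularForm.eta_q, h1]
  rw [ModularForm.SL_slash_apply, modular_T_smul, Pi.smul_apply, smul_eq_mul, etaEight, etaEight,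
    ModularForm.eta, ModularForm.eta, mul_pow, mul_pow, hq, hp]
  simp [ModularGroup.denom_apply, ModularGroup.coe_T]
  ring

theorem etaEight_slash_S : etaEight ∣[(4 : ℤ)] S = etaEight := by
  ext τ
  have hs : ∀ z : ℂ, Complex.sqrt z ^ 8 = z ^ 4 := fun z => by
    have h2 : Complex.sqrt z ^ 2 = z := by
      simp [Complex.sqrt]
    rw [show 8 = 2 * 4 from rfl, pow_mul, h2]
  suffices h : ModularForm.eta (-(τ : ℂ)⁻¹) ^ 8 * ((τ : ℂ) ^ 4)⁻¹ = ModularForm.eta (τ : ℂ) ^ 8 by
    rw [ModularForm.SL_slash_apply, modular_S_smul]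
    simpa [etaEight, ModularGroup.denom_S, inv_neg] using h
  have he : ModularForm.eta (-(τ : ℂ)⁻¹) =
      (Complex.sqrt Complex.I)⁻¹ * (Complex.sqrt (τ : ℂ) * ModularForm.eta (τ : ℂ)) := by
    simpa [neg_div] using ModularForm.eta_comp_eq_csqrt_I_inv τ.im_pos
  rw [he, mul_pow, mul_pow, inv_pow, hs, hs, Complex.I_pow_four, inv_one, one_mul]
  field_simp [τ.ne_zero]

/-- The exponent of the multiplier of `η ^ 8`. -/
def expo (a b c d : ZMod 3) : ZMod 3 := (a + d) * c - b * d * (c ^ 2 - 1)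

/-- The exponent of the multiplier of `η ^ 8` at `γ`. -/
def sigExp (γ : SL(2, ℤ)) : ZMod 3 := expo (γ 0 0) (γ 0 1) (γ 1 0) (γ 1 1)

theorem expo_rules : ∀ a b c d : ZMod 3, a * d - b * c = 1 →
    expo a (a + b) c (c + d) = expo a b c d + 1 ∧ expo b (-a) d (-c) = expo a b c d := by
  decide

theorem det_cast_eq_one (γ : SL(2, ℤ)) :
    ((γ 0 0 : ℤ) : ZMod 3) * (γ 1 1) - (γ 0 1 : ℤ) * (γ 1 0) = 1 := by
  have h := congrArg (fun n : ℤ => (n : ZMod 3)) γ.det_coe
  rw [Matrix.det_fin_two] at h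
  push_cast at h
  exact h

theorem sigExp_mul_T (γ : SL(2, ℤ)) : sigExp (γ * T) = sigExp γ + 1 := by
  rw [sigExp, sigExp, ← (expo_rules _ _ _ _ (det_cast_eq_one γ)).1]
  simp [Matrix.SpecialLinearGroup.coe_mul, ModularGroup.coe_T, Matrix.mul_apply, Fin.sum_univ_two]

theorem sigExp_mul_S (γ : SL(2, ℤ)) : sigExp (γ * S) = sigExp γ := by
  rw [sigExp, sigExp, ← (expo_rules _ _ _ _ (det_cast_eq_one γ)).2]
  simp [Matrix.SpecialLinearGroup.coe_mul, ModularGroup.coe_S, Matrix.mul_apply, Fin.sum_univ_two]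

theorem etaEight_slash (γ : SL(2, ℤ)) : etaEight ∣[(4 : ℤ)] γ = ω₃ (sigExp γ) • etaEight := by
  have hγ : γ ∈ Subgroup.closure {S, T} := by
    rw [SpecialLinearGroup.SL2Z_generators]; exact Subgroup.mem_top γ
  induction hγ using Subgroup.closure_induction_right with
  | one =>
    have h1 : sigExp 1 = 0 := by decide
    rw [h1, AddChar.map_zero_eq_one, one_smul, SlashAction.slash_one]
  | mul_right x _ y hy ih =>
    rw [SlashAction.slash_mul, ih, ModularForm.SL_smul_slash]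
    rcases hy with rfl | rfl
    · rw [etaEight_slash_S, sigExp_mul_S]
    · rw [etaEight_slash_T, sigExp_mul_T, AddChar.map_add_eq_mul, smul_smul]
  | mul_inv_cancel x _ y hy ih =>
    rw [SlashAction.slash_mul, ih, ModularForm.SL_smul_slash]
    rcases hy with rfl | rfl
    · have h := congrArg (· ∣[(4 : ℤ)] S⁻¹) etaEight_slash_S
      simp only [← SlashAction.slash_mul, mul_inv_cancel, SlashAction.slash_one] at h
      rw [← h]
      conv_lhs => rw [show x = x * S⁻¹ * S by group, sigExp_mul_S]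
    · have h := congrArg (· ∣[(4 : ℤ)] T⁻¹) etaEight_slash_T
      simp only [← SlashAction.slash_mul, mul_inv_cancel, SlashAction.slash_one,
        ModularForm.SL_smul_slash] at h
      conv_lhs => rw [show x = x * T⁻¹ * T by group, sigExp_mul_T, AddChar.map_add_eq_mul,
        mul_smul, ← h]

theorem etaEight_smul (γ : SL(2, ℤ)) (τ : ℍ) :
    etaEight (γ • τ) = ω₃ (sigExp γ) * denom γ τ ^ 4 * etaEight τ := by
  have h := congrFun (etaEight_slash γ) τ
  have hd : denom γ τ ≠ 0 := denom_ne_zero γ τ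
  rw [ModularForm.SL_slash_apply, Pi.smul_apply, smul_eq_mul, zpow_neg, zpow_ofNat] at h
  rw [mul_inv_eq_iff_eq_mul₀ (pow_ne_zero _ hd)] at h
  rw [h]
  ring

/-- Conjugation by `τ ↦ d τ`. -/
theorem exists_conj {d : ℕ} [NeZero d] {γ : SL(2, ℤ)} {k : ℤ} (hk : γ 1 0 = d * k) :
    ∃ γ' : SL(2, ℤ), γ' 0 0 = γ 0 0 ∧ γ' 0 1 = d * γ 0 1 ∧ γ' 1 0 = k ∧ γ' 1 1 = γ 1 1 ∧
      ∀ τ : ℍ, ModularForm.heckeDiagMatrix d • γ • τ =
          γ' • ModularForm.heckeDiagMatrix d • τ ∧
        denom γ' (ModularForm.heckeDiagMatrix d • τ : ℍ) = denom γ τ := by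
  have hdet := γ.det_coe
  rw [Matrix.det_fin_two, hk] at hdet
  let γ' : SL(2, ℤ) := ⟨!![γ 0 0, d * γ 0 1; k, γ 1 1], by rw [Matrix.det_fin_two_of]; linarith⟩
  refine ⟨γ', by simp [γ'], by simp [γ'], by simp [γ'], by simp [γ'], fun τ => ⟨?_, ?_⟩⟩
  · apply UpperHalfPlane.ext
    rw [ModularForm.coe_heckeDiagMatrix_smul (NeZero.ne d), coe_specialLinearGroup_apply,
      coe_specialLinearGroup_apply, ModularForm.coe_heckeDiagMatrix_smul (NeZero.ne d)]
    simp only [γ', hk, algebraMap_int_eq, eq_intCast, Matrix.of_apply, Matrix.cons_val',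
      Matrix.cons_val_zero, Matrix.cons_val_one, Matrix.cons_val_fin_one]
    push_cast
    rw [← mul_div_assoc]
    ring_nf
  · rw [ModularGroup.denom_apply, ModularGroup.denom_apply,
      ModularForm.coe_heckeDiagMatrix_smul (NeZero.ne d)]
    simp [γ', hk]
    ring

section Funs

variable {r q : ℕ} [NeZero r] [NeZero q]

variable (r) in
/-- `η τ ^ 8 η (r τ) ^ 8`. -/
def pairFun (τ : ℍ) : ℂ := etaEight τ * etaEight (ModularForm.heckeDiagMatrix r • τ)

omit [NeZero r] in
theorem pairFun_ne_zero (τ : ℍ) : pairFun r τ ≠ 0 :=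
  mul_ne_zero (etaEight_ne_zero _) (etaEight_ne_zero _)

theorem pairFun_smul (hr3 : r % 3 = 2) {γ : SL(2, ℤ)} {k : ℤ} (hk : γ 1 0 = r * k) (τ : ℍ) :
    pairFun r (γ • τ) = denom γ τ ^ 8 * pairFun r τ := by
  obtain ⟨γ', h00, h01, h10, h11, h⟩ := exists_conj hk
  have hr : ((r : ℤ) : ZMod 3) = -1 := by
    rw [Int.cast_natCast, ← ZMod.natCast_mod, hr3]; decide
  have hs : sigExp γ' = -sigExp γ := by
    simp only [sigExp, expo, h00, h01, h10, h11, hk, Int.cast_mul, hr]
    ring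
  rw [pairFun, (h τ).1, etaEight_smul, etaEight_smul, (h τ).2, hs, pairFun]
  have h1 : ω₃ (sigExp γ) * ω₃ (-sigExp γ) = 1 := by
    rw [← AddChar.map_add_eq_mul, add_neg_cancel, AddChar.map_zero_eq_one]
  linear_combination (denom γ τ ^ 8 * etaEight τ *
    etaEight (ModularForm.heckeDiagMatrix r • τ)) * h1

variable (r q) in
/-- `η (q τ) ^ 8 η (r q τ) ^ 8 / (η τ ^ 8 η (r τ) ^ 8)`. -/
def cubeUnit (τ : ℍ) : ℂ :=
  pairFun r (ModularForm.heckeDiagMatrix q • τ) / pairFun r τ

theorem cubeUnit_smul (hr3 : r % 3 = 2) {γ : SL(2, ℤ)} (hγ : γ ∈ Gamma0 (r * q)) (τ : ℍ) :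
    cubeUnit r q (γ • τ) = cubeUnit r q τ := by
  rw [Gamma0_mem, ZMod.intCast_zmod_eq_zero_iff_dvd] at hγ
  obtain ⟨k, hk⟩ := hγ
  push_cast at hk
  have hkr : γ 1 0 = r * ((q : ℤ) * k) := by rw [hk]; ring
  have hkq : γ 1 0 = q * ((r : ℤ) * k) := by rw [hk]; ring
  obtain ⟨γ', -, -, h10, -, h⟩ := exists_conj hkq
  rw [cubeUnit, (h τ).1, pairFun_smul hr3 h10, (h τ).2, pairFun_smul hr3 hkr,
    mul_div_mul_left _ _ (pow_ne_zero _ (denom_ne_zero _ _)), cubeUnit]

omit [NeZero r] in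
theorem mdifferentiable_pairFun : MDiff (pairFun r) :=
  mdifferentiable_etaEight.mul (mdifferentiable_etaEight.comp
    (mdifferentiable_smul (ModularForm.det_heckeDiagMatrix_pos r)))

omit [NeZero r] [NeZero q] in
theorem mdifferentiable_cubeUnit : MDiff (cubeUnit r q) :=
  (mdifferentiable_pairFun.comp (mdifferentiable_smul
    (ModularForm.det_heckeDiagMatrix_pos q))).div mdifferentiable_pairFun pairFun_ne_zero

theorem heckeDiag_smul_smul (τ : ℍ) :
    ModularForm.heckeDiagMatrix r • ModularForm.heckeDiagMatrix q • τ =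
      ModularForm.heckeDiagMatrix (r * q) • τ := by
  apply UpperHalfPlane.ext
  rw [ModularForm.coe_heckeDiagMatrix_smul (NeZero.ne r),
    ModularForm.coe_heckeDiagMatrix_smul (NeZero.ne q),
    ModularForm.coe_heckeDiagMatrix_smul (NeZero.ne (r * q))]
  push_cast
  ring

theorem cubeUnit_cube :
    cubeUnit r q ^ 3 = unitFun q * unitFun (r * q) / unitFun r := by
  funext τ
  have h1 := ModularForm.discriminant_ne_zero τ
  have h2 := ModularForm.discriminant_ne_zero (ModularForm.heckeDiagMatrix r • τ)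
  simp only [Pi.pow_apply, Pi.mul_apply, Pi.div_apply, cubeUnit, pairFun, unitFun, div_pow,
    mul_pow, etaEight_cube, heckeDiag_smul_smul]
  field_simp

end Funs

theorem periodic_comp_ofComplex {h : ℝ} {f : ℍ → ℂ} (hper : ∀ τ : ℍ, f (h +ᵥ τ) = f τ) :
    Function.Periodic (f ∘ ofComplex) (h : ℂ) := by
  intro z
  by_cases hz : 0 < z.im
  · have hz' : 0 < (z + h).im := by simpa using hz
    simp only [Function.comp_apply, ofComplex_apply_of_im_pos hz, ofComplex_apply_of_im_pos hz']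
    rw [← hper ⟨z, hz⟩]
    congr 1
    apply UpperHalfPlane.ext
    simp [coe_vadd, add_comm]
  · have hz' : (z + h).im ≤ 0 := by simpa using not_lt.1 hz
    simp only [Function.comp_apply, ofComplex_apply_eq_of_im_nonpos hz' (not_lt.1 hz)]

theorem mdifferentiable_qParam_pow (h m : ℕ) :
    MDiff fun τ : ℍ => Function.Periodic.qParam (h : ℝ) (τ : ℂ) ^ m := by
  rw [UpperHalfPlane.mdifferentiable_iff]
  refine DifferentiableOn.congr (f := fun z => Function.Periodic.qParam (h : ℝ) z ^ m)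
    (fun z _ => ((Function.Periodic.differentiable_qParam z).pow m).differentiableWithinAt)
    fun z hz => ?_
  simp [ofComplex_apply_of_im_pos hz]

theorem hasQExp_qParam_pow (h : ℕ) (m : ℕ) :
    HasQExp h (fun τ : ℍ => Function.Periodic.qParam (h : ℝ) (τ : ℂ) ^ m)
      (HahnSeries.single (m : ℤ) (1 : ℂ)) := by
  refine .of_forall fun τ => ?_
  simp only [HahnSeries.coeff_single]
  convert hasSum_single (α := ℂ) (m : ℤ) (fun k hk => ?_) using 1
  · simp
  · simp [hk]

/-- A periodic holomorphic function has an expansion as soon as its cube has one. -/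
theorem exists_hasQExp_of_cube {h : ℕ} [NeZero h] {f : ℍ → ℂ} {Z : LaurentSeries ℂ}
    (hper : ∀ τ : ℍ, f ((h : ℝ) +ᵥ τ) = f τ) (hhol : MDiff f) (hcube : HasQExp h (f ^ 3) Z) :
    ∃ y, HasQExp h f y := by
  set m : ℕ := (-Z.order).toNat with hm
  set Q : ℍ → ℂ := fun τ => Function.Periodic.qParam (h : ℝ) (τ : ℂ) ^ m with hQdef
  have hQ : HasQExp h Q (HahnSeries.single (m : ℤ) (1 : ℂ)) := hasQExp_qParam_pow h m
  have hQper : ∀ τ : ℍ, Q ((h : ℝ) +ᵥ τ) = Q τ := fun τ => by
    simp only [hQdef, coe_vadd]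
    congr 1
    have hh : (h : ℂ) ≠ 0 := Nat.cast_ne_zero.2 (NeZero.ne h)
    rw [Function.Periodic.qParam, Function.Periodic.qParam, Complex.ofReal_natCast,
      show 2 * (Real.pi : ℂ) * Complex.I * ((h : ℂ) + τ) / h =
        2 * Real.pi * Complex.I + 2 * Real.pi * Complex.I * τ / h by field_simp,
      Complex.exp_add, Complex.exp_two_pi_mul_I, one_mul]
  have h3 : HasQExp h ((f * Q) ^ 3) (Z * HahnSeries.single (m : ℤ) (1 : ℂ) ^ 3) := by
    rw [mul_pow]
    exact hcube.mul (hQ.pow 3)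
  have hb3 : IsBoundedAtImInfty ((f * Q) ^ 3) := by
    refine h3.isBoundedAtImInfty fun k hk => ?_
    rw [HahnSeries.single_pow, one_pow, mul_comm, HahnSeries.coeff_single_mul, one_mul]
    refine HahnSeries.coeff_eq_zero_of_lt_order ?_
    simp only [nsmul_eq_mul, Nat.cast_ofNat]
    omega
  have hb : IsBoundedAtImInfty (f * Q) := by
    rw [isBoundedAtImInfty_iff] at hb3 ⊢
    obtain ⟨C, A, hCA⟩ := hb3
    refine ⟨max 1 C, A, fun z hz => ?_⟩
    have h1 := hCA z hz
    rw [Pi.pow_apply, norm_pow] at h1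
    rcases le_total ‖(f * Q) z‖ 1 with h2 | h2
    · exact h2.trans (le_max_left _ _)
    · exact ((le_self_pow₀ h2 three_ne_zero).trans h1).trans (le_max_right _ _)
  have hG := hasQExp_qExpansion (h := h) (f := f * Q)
    (periodic_comp_ofComplex fun τ => by simp only [Pi.mul_apply, hper, hQper])
    (hhol.mul (mdifferentiable_qParam_pow h m)) hb
  refine ⟨_, (hG.div hQ).congr (.of_forall fun τ => ?_)⟩
  simp only [Pi.div_apply, Pi.mul_apply, hQdef]
  exact mul_div_cancel_right₀ _ (pow_ne_zero _ (qParam_ne _ τ))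

theorem isModularFun_cubeUnit {r q N : ℕ} [NeZero r] [NeZero q] [NeZero N] (hr3 : r % 3 = 2)
    (hN : r * q ∣ N) : IsModularFun N (cubeUnit r q) where
  mero := meroH_of_mdifferentiable mdifferentiable_cubeUnit
  smul_eq γ hγ τ := cubeUnit_smul hr3 (by
    rw [Gamma0_mem, ZMod.intCast_zmod_eq_zero_iff_dvd] at hγ ⊢
    exact dvd_trans (Int.natCast_dvd_natCast.2 hN) hγ) τ
  cusps γ := by
    obtain ⟨x₁, h₁⟩ := (isModularFun_unitFun (N := N) (d := q)
      ((dvd_mul_left q r).trans hN)).cusps γ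
    obtain ⟨x₂, h₂⟩ := (isModularFun_unitFun (N := N) (d := r * q) hN).cusps γ
    obtain ⟨x₃, h₃⟩ := (isModularFun_unitFun (N := N) (d := r)
      ((dvd_mul_right r q).trans hN)).cusps γ
    refine exists_hasQExp_of_cube (fun τ => ?_) (mdifferentiable_cubeUnit.comp
      (mdifferentiable_smul (det_mapGL_pos γ)))
      (Z := x₁ * x₂ / x₃) (((h₁.mul h₂).div h₃).congr (.of_forall fun τ => ?_))
    · have hmem : γ * T ^ (N : ℤ) * γ⁻¹ ∈ Gamma0 (r * q) := by
        have hT : T ^ (N : ℤ) ∈ Gamma N := by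
          rw [Gamma_mem, ModularGroup.coe_T_zpow]
          simp
        have hΓ := (Gamma_normal N).conj_mem _ hT γ
        rw [Gamma_mem] at hΓ
        rw [Gamma0_mem, ZMod.intCast_zmod_eq_zero_iff_dvd]
        exact dvd_trans (Int.natCast_dvd_natCast.2 hN)
          ((ZMod.intCast_zmod_eq_zero_iff_dvd _ _).1 hΓ.2.2.1)
      have h := cubeUnit_smul hr3 hmem (γ • τ)
      rw [smul_smul, inv_mul_cancel_right, mul_smul, modular_T_zpow_smul] at h
      simpa using h
    · simp only [Pi.mul_apply, Pi.div_apply, Pi.pow_apply]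
      exact (congrFun (cubeUnit_cube (r := r) (q := q)) (γ • τ)).symm

theorem exists_hasQExp_one_cubeUnit {r q : ℕ} [NeZero r] [NeZero q] (hr3 : r % 3 = 2) :
    ∃ y, HasQExp 1 (cubeUnit r q) y ∧
      y ^ 3 = coeffMap (algebraMap ℚ ℂ)
        ((deltaSeriesN q / deltaSeries) * (deltaSeriesN (r * q) / deltaSeriesN r)) := by
  have hF := ((hasQExp_unitFun q).mul (hasQExp_unitFun (r * q))).div (hasQExp_unitFun r)
  rw [← cubeUnit_cube (r := r) (q := q), ← map_mul, ← map_div₀] at hF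
  have hA : deltaSeriesN q / deltaSeries * (deltaSeriesN (r * q) / deltaSeries) /
      (deltaSeriesN r / deltaSeries) =
      deltaSeriesN q / deltaSeries * (deltaSeriesN (r * q) / deltaSeriesN r) := by
    have h1 := deltaSeries_ne_zero
    field_simp
  rw [hA] at hF
  obtain ⟨y, hy⟩ := exists_hasQExp_of_cube (h := 1) (fun τ => by
    rw [Nat.cast_one, ← modular_T_smul]
    exact cubeUnit_smul hr3 (by rw [Gamma0_mem]; simp [ModularGroup.coe_T]) τ)
    mdifferentiable_cubeUnit hF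
  exact ⟨y, hy, (hy.pow 3).unique hF⟩

/-- Cube roots of monic series of order divisible by three. -/
theorem exists_cube_eq {A : LaurentSeries ℚ} {m : ℤ} (hA : IsMonicOfOrder A (3 * m)) :
    ∃ x : LaurentSeries ℚ, x ^ 3 = A := by
  set u : PowerSeries ℚ := PowerSeries.mk fun i => A.coeff (3 * m + i) with hu
  have hAu : A = HahnSeries.single (3 * m) (1 : ℚ) * HahnSeries.ofPowerSeries ℤ ℚ u := by
    ext k
    rw [HahnSeries.coeff_single_mul, one_mul]
    rcases lt_or_ge k (3 * m) with hk | hk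
    · rw [hA.coeff_of_lt hk, ofPowerSeries_coeff_of_neg _ (by omega)]
    · obtain ⟨i, rfl⟩ : ∃ i : ℕ, k = 3 * m + i := ⟨(k - 3 * m).toNat, by omega⟩
      rw [add_sub_cancel_left, HahnSeries.ofPowerSeries_apply_coeff, hu, PowerSeries.coeff_mk]
  have hu1 : PowerSeries.constantCoeff (u - 1) = 0 := by
    rw [map_sub, map_one, ← PowerSeries.coeff_zero_eq_constantCoeff_apply, hu,
      PowerSeries.coeff_mk, Nat.cast_zero, add_zero, hA.coeff_self, sub_self]
  have hs := PowerSeries.HasSubst.of_constantCoeff_zero' hu1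
  set v : PowerSeries ℚ :=
    PowerSeries.subst (u - 1) (PowerSeries.binomialSeries ℚ (1 / 3 : ℚ)) with hv
  have hv3 : v ^ 3 = u := by
    have hb : PowerSeries.binomialSeries ℚ (1 / 3 : ℚ) ^ 3 = 1 + PowerSeries.X := by
      rw [pow_succ, pow_two, ← PowerSeries.binomialSeries_add, ← PowerSeries.binomialSeries_add,
        show (1 / 3 + 1 / 3 + 1 / 3 : ℚ) = ((1 : ℕ) : ℚ) by norm_num,
        PowerSeries.binomialSeries_nat, pow_one]
    rw [hv, ← PowerSeries.subst_pow hs, hb, PowerSeries.subst_add hs, PowerSeries.subst_X hs,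
      ← PowerSeries.coe_substAlgHom hs, map_one, add_sub_cancel]
  refine ⟨HahnSeries.single m (1 : ℚ) * HahnSeries.ofPowerSeries ℤ ℚ v, ?_⟩
  rw [mul_pow, HahnSeries.single_pow, one_pow, ← map_pow, hv3, hAu, nsmul_eq_mul, Nat.cast_ofNat]

/-- The cube root of `Δ (q τ) Δ (r q τ) / (Δ τ Δ (r τ))` as a series in `ℚ((q))`. -/
theorem exists_cubeUnitSeries {r q : ℕ} [NeZero r] [NeZero q] (hr3 : r % 3 = 2) :
    ∃ x : LaurentSeries ℚ,
      x ^ 3 = (deltaSeriesN q / deltaSeries) * (deltaSeriesN (r * q) / deltaSeriesN r) ∧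
      ∀ (M : ℕ) [NeZero M], r ∣ M →
        coeffMap (algebraMap ℚ ℂ) x ∈ modularFunctionFieldC ℂ (M * q) := by
  set A := (deltaSeriesN q / deltaSeries) * (deltaSeriesN (r * q) / deltaSeriesN r) with hAdef
  have hA0 : A ≠ 0 := mul_ne_zero (div_ne_zero (deltaSeriesN_ne_zero q) deltaSeries_ne_zero)
    (div_ne_zero (deltaSeriesN_ne_zero _) (deltaSeriesN_ne_zero r))
  obtain ⟨k, hk⟩ : ∃ k : ℤ, (r : ℤ) + 1 = 3 * k := ⟨(r / 3 + 1 : ℕ), by omega⟩
  have hmon : IsMonicOfOrder A (3 * (((q : ℤ) - 1) * k)) := by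
    have h : IsMonicOfOrder (A * (deltaSeries * deltaSeriesN r))
        ((q : ℤ) + ((r * q : ℕ) : ℤ)) := by
      have : A * (deltaSeries * deltaSeriesN r) = deltaSeriesN q * deltaSeriesN (r * q) := by
        have h1 := deltaSeries_ne_zero
        have h2 := deltaSeriesN_ne_zero r
        rw [hAdef]
        field_simp
      rw [this]
      exact (isMonicOfOrder_deltaSeriesN q).mul (isMonicOfOrder_deltaSeriesN (r * q))
    have := h.of_mul_right (isMonicOfOrder_deltaSeries.mul (isMonicOfOrder_deltaSeriesN r))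
    convert this using 1
    push_cast
    linear_combination (-((q : ℤ) - 1)) * hk
  obtain ⟨x, hx⟩ := exists_cube_eq hmon
  refine ⟨x, hx, fun M hM hrM => ?_⟩
  obtain ⟨y, hy, hy3⟩ := exists_hasQExp_one_cubeUnit (q := q) hr3
  set X : LaurentSeries ℂ := coeffMap (algebraMap ℚ ℂ) x with hXdef
  have hX3 : X ^ 3 = coeffMap (algebraMap ℚ ℂ) A := by rw [hXdef, ← map_pow, hx]
  have hX0 : X ≠ 0 := fun h0 => by
    rw [h0, zero_pow three_ne_zero] at hX3
    exact hA0 ((map_eq_zero (coeffMap (algebraMap ℚ ℂ))).1 hX3.symm)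
  have ht : (y / X) ^ 3 = 1 := by
    rw [div_pow, hy3, ← hX3, div_self (pow_ne_zero _ hX0)]
  have hprim := (Complex.isPrimitiveRoot_exp 3 three_ne_zero).map_of_injective
    (f := (HahnSeries.C : ℂ →+* LaurentSeries ℂ)) HahnSeries.C_injective
  obtain ⟨i, -, hi⟩ := hprim.eq_pow_of_pow_eq_one ht
  rw [← map_pow, eq_div_iff hX0] at hi
  set c : ℂ := Complex.exp (2 * Real.pi * Complex.I / (3 : ℕ)) ^ i with hc
  have hc0 : c ≠ 0 := pow_ne_zero _ (Complex.exp_ne_zero _)
  have hmem := mem_modularFunctionFieldC_of_hasQExp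
    (isModularFun_cubeUnit (N := M * q) hr3 (mul_dvd_mul_right hrM q)) hy
  have hXy : X = algebraMap ℂ (LaurentSeries ℂ) c⁻¹ * y := by
    rw [algebraMap_laurentSeries_eq_single, ← HahnSeries.C_apply, ← hi, ← mul_assoc, ← map_mul,
      inv_mul_cancel₀ hc0, map_one, one_mul]
  rw [hXy]
  exact mul_mem (IntermediateField.algebraMap_mem _ _) hmem

end Fermat.Agent.Ribet.MP
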