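/-
Mazur's principle at `q ≠ p` for `p = 3`: for `r ∣ M` the unit `W` of `X₀(Mq)` with
`W ^ 3 = U(τ) U(rτ)`, `U = Δ(qτ) / Δ(τ)`, and its behaviour on the two components at `q`.
-/
import Fermat.Agent.MazurPrinciple.NodesUnitReduction
import Fermat.Agent.Ribet.MPCubeFun

set_option autoImplicit false
set_option linter.style.haveILetI false

noncomputable section

open ModularCurve UpperHalfPlane AlgebraicCurve CongruenceSubgroup IsLocalRing
open Fermat.Agent.ModFun Fermat.Agent.MazurPrinciple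
open Fermat.Agent.Igusa.Fibre (deltaS coeffMap_deltaS deltaS_mul_deltaInvS)
open scoped MatrixGroups Manifold Topology ModularForm

namespace Fermat.Agent.Ribet.MP

local notation "ℚbar" => AlgebraicClosure ℚ

theorem mem_bar_of_mem_complex {N : ℕ} [NeZero N] {x : LaurentSeries ℚ}
    (hx : coeffMap (algebraMap ℚ ℂ) x ∈ modularFunctionFieldC ℂ N) :
    coeffEmb ℚbar x ∈ modularFunctionFieldBar N := by
  refine coeffEmb_mem_laurentBaseChange ℚbar (modularFunctionField_le_full N ?_)
  refine mem_adjoin_of_coeffMap_mem (L := ℂ) _ ?_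
  rw [← jqModC_rat, Set.image_insert_eq, Set.image_singleton, ModFun.coeffMap_jqModC,
    coeffMap_qExpand_jqModC]
  exact hx

/-- `Δ (d τ) / Δ (τ)` as a function on `X₀(N)`. -/
def deltaUnit (N d : ℕ) [NeZero N] [NeZero d] (hd : d ∣ N) : modularFunctionFieldBar N :=
  ⟨coeffEmb ℚbar (deltaSeriesN d / deltaSeries), mem_bar_of_mem_complex
    (mem_modularFunctionFieldC_of_hasQExp (isModularFun_unitFun hd) (hasQExp_unitFun d))⟩

theorem coe_deltaUnit (N d : ℕ) [NeZero N] [NeZero d] (hd : d ∣ N) :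
    (deltaUnit N d hd : LaurentSeries ℚbar) = coeffEmb ℚbar (deltaSeriesN d / deltaSeries) := rfl

theorem deltaUnit_ne_zero (N d : ℕ) [NeZero N] [NeZero d] (hd : d ∣ N) :
    deltaUnit N d hd ≠ 0 := fun h =>
  div_ne_zero (deltaSeriesN_ne_zero d) deltaSeries_ne_zero
    ((map_eq_zero (coeffEmb ℚbar)).1 (congrArg Subtype.val h))

/-- `Δ (d τ) / Δ (τ)` has neither zeros nor poles where `j` is finite. -/
theorem ord_deltaUnit_eq_zero (N d : ℕ) [NeZero N] [NeZero d] (hd : d ∣ N)
    (v : Place ℚbar (modularFunctionFieldBar N)) (hv : 0 ≤ v.ord (Igusa.jBar N)) :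
    v.ord (deltaUnit N d hd) = 0 := by
  haveI : (Gamma0 N).FiniteIndex :=
    ⟨by rw [Places.index_Gamma0]; exact (Gamma0.dedekindPsi_pos (N := N)).ne'⟩
  let ι : ℚbar →+* ℂ := (IsAlgClosed.lift (R := ℚ) (S := ℚbar) (M := ℂ)).toRingHom
  let Mod := Places.x0Model N
  set w := Curve.placeToC N ι v with hw
  have hj : barToC N ι (Igusa.jBar N) = Mod.jF := Subtype.ext (by
    show coeffMap ι (Igusa.jBar N : LaurentSeries ℚbar) = jqModC ℂ
    rw [Igusa.coe_jBar, coeffEmb, coeffMap_coeffMap, ← jqModC_rat, ModFun.coeffMap_jqModC])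
  have hwj : 0 ≤ w.ord Mod.jF := by rwa [← hj, hw, Curve.ord_placeToC]
  have hexp : HasQExp 1 (unitFun d) ((barToC N ι (deltaUnit N d hd)) : LaurentSeries ℂ) := by
    refine (hasQExp_unitFun d).of_eq ?_
    show _ = coeffMap ι (coeffMap (algebraMap ℚ ℚbar) _)
    rw [coeffMap_coeffMap]
    exact coeffMap_congr (Subsingleton.elim _ _) _
  rw [← Curve.ord_placeToC N ι v, ← hw]
  rcases Mod.exists_placeAt_or_cuspPlace w with ⟨τ, hτ⟩ | ⟨g, hg⟩
  · have hne : barToC N ι (deltaUnit N d hd) ≠ 0 :=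
      (map_ne_zero (barToC N ι)).2 (deltaUnit_ne_zero N d hd)
    have h0 : ordH (toFun (barToC N ι (deltaUnit N d hd))) τ = 0 := by
      rw [(toFun_eqPunct _ (isModularFun_unitFun hd) hexp).ordH_eq τ]
      have han : AnalyticAt ℂ (unitFun d ∘ ofComplex) (τ : ℂ) :=
        (UpperHalfPlane.mdifferentiable_iff.1 (mdifferentiable_unitFun d)).analyticAt
          (isOpen_upperHalfPlaneSet.mem_nhds τ.im_pos)
      rw [ordH, han.meromorphicOrderAt_eq, han.analyticOrderAt_eq_zero.2
        (by simpa using unitFun_ne_zero d τ)]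
      rfl
    have h := Mod.ordH_ev hne τ
    rw [Places.x0Model_ev, h0, hτ] at h
    have h' : (Places.ellPeriod (Gamma0 N) τ : ℤ) *
        w.ord (barToC N ι (deltaUnit N d hd)) = 0 := by
      exact_mod_cast h.symm
    exact (mul_eq_zero.1 h').resolve_left
      (by exact_mod_cast (Places.ellPeriod_pos Mod.neg_one_mem τ).ne')
  · exact absurd hwj (not_le.2 ((Mod.ord_jF_neg_iff w).2 ⟨g, hg⟩))

section Components

variable {M q : ℕ} [NeZero M] [hq : Fact q.Prime]

local instance neZero_primeCubeUnit : NeZero q := ⟨hq.out.ne_zero⟩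

variable (A : ValuationSubring ℚbar)

theorem valuation_eq_one_of_red_ne_zero {x : BadReduction.X0F M q}
    (hx : x ∈ BadReduction.infV M q A) (h : BadReduction.infRed M q A ⟨x, hx⟩ ≠ 0) :
    (BadReduction.infV M q A).valuation x = 1 :=
  (ValuationSubring.valuation_eq_one_iff (BadReduction.infV M q A) ⟨x, hx⟩).1
    (of_not_not fun hn => h ((BadReduction.gaussValRed_eq_zero_iff _ _ A _).2 hn))

theorem red_ne_zero_of_valuation_eq_one {x : BadReduction.X0F M q}
    (h : (BadReduction.infV M q A).valuation x = 1) :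
    ∃ hx : x ∈ BadReduction.infV M q A, BadReduction.infRed M q A ⟨x, hx⟩ ≠ 0 := by
  have hx : x ∈ BadReduction.infV M q A :=
    (ValuationSubring.valuation_le_one_iff _ _).1 h.le
  exact ⟨hx, fun h0 => (BadReduction.gaussValRed_eq_zero_iff _ _ A _).1 h0
    ((ValuationSubring.valuation_eq_one_iff _ ⟨x, hx⟩).2 h)⟩

theorem coe_deltaUnit_eq (d : ℕ) [NeZero d] :
    coeffEmb ℚbar (deltaSeriesN d / deltaSeries) * coeffMap A.subtype (deltaS A) =
      coeffMap A.subtype (qExpand A d (deltaS A)) := by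
  have h1 : coeffEmb ℚbar deltaSeries = deltaS ℚbar := by
    rw [coeffEmb]; exact coeffMap_deltaS (algebraMap ℚ ℚbar)
  have h2 : coeffEmb ℚbar (deltaSeriesN d) = qExpand ℚbar d (deltaS ℚbar) := by
    rw [← h1, coeffEmb, deltaSeriesN, coeffMap_qExpand]
  rw [coeffMap_qExpand, coeffMap_deltaS, map_div₀, h1, h2,
    div_mul_cancel₀ _ (left_ne_zero_of_mul_eq_one deltaS_mul_deltaInvS)]

theorem valuation_eq_one_of_quotient {x : BadReduction.X0F M q} {y₁ y₂ : LaurentSeries A}
    (h₁ : coeffMap (residue A) y₁ ≠ 0) (h₂ : coeffMap (residue A) y₂ ≠ 0)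
    (e : (x : LaurentSeries ℚbar) * coeffMap A.subtype y₂ = coeffMap A.subtype y₁) :
    (BadReduction.infV M q A).valuation x = 1 := by
  have hmem : x ∈ BadReduction.infV M q A := ⟨y₁, y₂, h₂, e⟩
  refine valuation_eq_one_of_red_ne_zero A hmem ?_
  rw [BadReduction.infRed_eq A (⟨x, hmem⟩ : BadReduction.infV M q A) h₂ e]
  exact div_ne_zero h₁ h₂

theorem residue_qExpand_deltaS_ne_zero (d : ℕ) [NeZero d] :
    coeffMap (residue A) (qExpand A d (deltaS A)) ≠ 0 := by
  rw [coeffMap_qExpand, coeffMap_deltaS]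
  exact (map_ne_zero_iff _ (qExpand_injective (R := ResidueField A) d)).2 (deltaS_ne_zero _)

theorem valuation_alpha_deltaUnit {d : ℕ} [NeZero d] (hd : d ∣ M) :
    (BadReduction.infV M q A).valuation (heckeAlphaBar ℚbar M q (deltaUnit M d hd)) = 1 := by
  refine valuation_eq_one_of_quotient A (residue_qExpand_deltaS_ne_zero A d)
    (coeffMap_residue_deltaS_ne_zero A) ?_
  rw [coe_heckeAlphaBar, coe_deltaUnit]
  exact coe_deltaUnit_eq A d

theorem valuation_beta_deltaUnit {d : ℕ} [NeZero d] (hd : d ∣ M) :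
    (BadReduction.infV M q A).valuation (heckeBetaBar ℚbar M q (deltaUnit M d hd)) = 1 := by
  refine valuation_eq_one_of_quotient A (y₁ := qExpand A q (qExpand A d (deltaS A)))
    (y₂ := qExpand A q (deltaS A)) ?_ (residue_qExpand_deltaS_ne_zero A q) ?_
  · rw [coeffMap_qExpand]
    exact (map_ne_zero_iff _ (qExpand_injective (R := ResidueField A) q)).2
      (residue_qExpand_deltaS_ne_zero A d)
  rw [coeffMap_qExpand, coeffMap_qExpand, coe_heckeBetaBar, ← map_mul, coe_deltaUnit,
    coe_deltaUnit_eq A d, coeffMap_qExpand]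

theorem valuation_modUnit (hqM : ¬ q ∣ M) (hA : A.LiesOverPrime q) :
    (BadReduction.infV M q A).valuation (modUnit M q) = 1 :=
  valuation_eq_one_of_red_ne_zero A (modUnit_mem_compV_zero hqM A) fun h =>
    compPhi_zero_modUnit_ne_zero hqM A hA (Subtype.ext h)

variable {r : ℕ} [NeZero r]

theorem cubeSeries_eq (r q : ℕ) [NeZero r] [NeZero q] :
    deltaSeriesN q / deltaSeries * (deltaSeriesN (r * q) / deltaSeriesN r) *
        (deltaSeriesN r / deltaSeries) =
      (deltaSeriesN q / deltaSeries) ^ 2 * qExpand ℚ q (deltaSeriesN r / deltaSeries) := by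
  have e : qExpand ℚ q (deltaSeriesN r) = deltaSeriesN (r * q) := by
    rw [deltaSeriesN, deltaSeriesN, qExpand_qExpand]
    exact qExpand_congr (mul_comm q r) _
  rw [map_div₀, e, show qExpand ℚ q deltaSeries = deltaSeriesN q from rfl]
  have h1 := deltaSeriesN_ne_zero r
  have h2 := deltaSeriesN_ne_zero q
  have h3 := deltaSeries_ne_zero
  field_simp

/-- The unit `W` from a cube root of the series of `U (τ) U (r τ)`. -/
theorem exists_cubeUnit_of_series (hqM : ¬ q ∣ M) (hrM : r ∣ M) {x : LaurentSeries ℚ}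
    (hx3 : x ^ 3 = deltaSeriesN q / deltaSeries * (deltaSeriesN (r * q) / deltaSeriesN r))
    (hxmem : coeffMap (algebraMap ℚ ℂ) x ∈ modularFunctionFieldC ℂ (M * q)) :
    ∃ W : BadReduction.X0F M q, (W : LaurentSeries ℚbar) = coeffEmb ℚbar x ∧ W ≠ 0 ∧
      W ^ 3 * heckeAlphaBar ℚbar M q (deltaUnit M r hrM) =
        modUnit M q ^ 2 * heckeBetaBar ℚbar M q (deltaUnit M r hrM) ∧
      (∀ σ : ℚbar ≃ₐ[ℚ] ℚbar, arithmeticGalois (modularFunctionFieldFull (M * q)) σ • W = W) ∧
      (∀ v : Place ℚbar (BadReduction.X0F M q),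
        0 ≤ v.ord (Igusa.jBar (M * q)) → v.ord W = 0) ∧
      ∀ (B : ValuationSubring ℚbar) (hB : B.LiesOverPrime q),
        (∃ h : W ∈ BadReduction.compV hqM B 0, BadReduction.compPhi hqM B hB 0 ⟨W, h⟩ ≠ 0) ∧
        ∃ h : ((q : ℚbar) ^ 8) • W ∈ BadReduction.compV hqM B 1,
          BadReduction.compPhi hqM B hB 1 ⟨_, h⟩ ≠ 0 := by
  let W : BadReduction.X0F M q := ⟨coeffEmb ℚbar x, mem_bar_of_mem_complex hxmem⟩
  set a : BadReduction.X0F M q := heckeAlphaBar ℚbar M q (deltaUnit M r hrM) with ha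
  set b : BadReduction.X0F M q := heckeBetaBar ℚbar M q (deltaUnit M r hrM) with hb
  have hrq : r * q ∣ M * q := Nat.mul_dvd_mul_right hrM q
  have hcube : W ^ 3 * a = modUnit M q ^ 2 * b := Subtype.ext (by
    show coeffEmb ℚbar x ^ 3 * (a : LaurentSeries ℚbar) =
      (modUnit M q : LaurentSeries ℚbar) ^ 2 * (b : LaurentSeries ℚbar)
    rw [ha, hb, coe_heckeAlphaBar, coe_heckeBetaBar, coe_deltaUnit, coe_modUnit, ← map_pow,
      ← map_pow, coeffEmb, ← coeffMap_qExpand, ← map_mul, ← map_mul, hx3, cubeSeries_eq])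
  have ha0 : a ≠ 0 :=
    (map_ne_zero (heckeAlphaBar ℚbar M q)).2 (deltaUnit_ne_zero M r hrM)
  have hb0 : b ≠ 0 :=
    (map_ne_zero (heckeBetaBar ℚbar M q)).2 (deltaUnit_ne_zero M r hrM)
  have hW0 : W ≠ 0 := fun h => by
    rw [h, zero_pow (by norm_num), zero_mul] at hcube
    exact mul_ne_zero (pow_ne_zero _ (modUnit_ne_zero M q)) hb0 hcube.symm
  refine ⟨W, rfl, hW0, hcube, fun σ => Subtype.ext ?_, fun v hv => ?_, fun B hB => ?_⟩
  · rw [BadReduction.coe_galois_smul]
    exact coeffMap_coeffEmb σ x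
  · have e1 : a = deltaUnit (M * q) r (hrM.trans (dvd_mul_right M q)) :=
      Subtype.ext (by rw [ha, coe_heckeAlphaBar, coe_deltaUnit, coe_deltaUnit])
    have e2 : modUnit M q * b = deltaUnit (M * q) (r * q) hrq := Subtype.ext (by
      show (modUnit M q : LaurentSeries ℚbar) * (b : LaurentSeries ℚbar) = _
      rw [hb, coe_heckeBetaBar, coe_deltaUnit, coe_deltaUnit, coe_modUnit, coeffEmb,
        ← coeffMap_qExpand, ← map_mul]
      congr 1
      have e : qExpand ℚ q (deltaSeriesN r) = deltaSeriesN (r * q) := by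
        rw [deltaSeriesN, deltaSeriesN, qExpand_qExpand]
        exact qExpand_congr (mul_comm q r) _
      rw [map_div₀, e, show qExpand ℚ q deltaSeries = deltaSeriesN q from rfl]
      have h2 := deltaSeriesN_ne_zero q
      have h3 := deltaSeries_ne_zero
      field_simp)
    have h := congrArg v.ord hcube
    have hU0 := modUnit_ne_zero M q
    rw [v.ord_mul (pow_ne_zero _ hW0) ha0, pow_two, mul_assoc, v.ord_mul hU0 (mul_ne_zero hU0 hb0),
      e2, ord_modUnit_eq_zero M q v hv, ord_deltaUnit_eq_zero _ _ hrq v hv, e1,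
      ord_deltaUnit_eq_zero _ _ _ v hv, Curve.ord_pow] at h
    push_cast at h
    omega
  · have hva : (BadReduction.infV M q B).valuation a = 1 := valuation_alpha_deltaUnit B hrM
    have hvb : (BadReduction.infV M q B).valuation b = 1 := valuation_beta_deltaUnit B hrM
    have hvU := valuation_modUnit B hqM hB
    have hvW : (BadReduction.infV M q B).valuation W = 1 := by
      have h := congrArg (BadReduction.infV M q B).valuation hcube
      rw [map_mul, map_mul, map_pow, map_pow, hva, hvb, hvU, mul_one, mul_one, one_pow] at h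
      exact (pow_eq_one_iff.1 h).resolve_right (by norm_num)
    refine ⟨?_, ?_⟩
    · obtain ⟨h, hne⟩ := red_ne_zero_of_valuation_eq_one B hvW
      exact ⟨h, fun h0 => hne (congrArg Subtype.val h0)⟩
    · set z := BadReduction.atkinLehner hqM (((q : ℚbar) ^ 8) • W) with hz
      have hq0 : (q : ℚbar) ≠ 0 := Nat.cast_ne_zero.2 hq.out.ne_zero
      have hzb : z ^ 3 * b = (modUnit M q)⁻¹ ^ 2 * a := by
        have h := congrArg (BadReduction.atkinLehner hqM) hcube
        rw [map_mul, map_mul, map_pow, map_pow, ha, hb, BadReduction.atkinLehner_alpha,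
          BadReduction.atkinLehner_beta, ← ha, ← hb, atkinLehner_modUnit] at h
        rw [hz, BadReduction.atkinLehner_smul, Algebra.smul_def, mul_pow, mul_assoc, h, mul_pow,
          ← mul_assoc, ← mul_assoc, ← map_pow, ← map_pow, ← map_mul,
          show (((q : ℚbar) ^ 8) ^ 3 * (((q : ℚbar) ^ 12)⁻¹) ^ 2) = 1 by field_simp,
          map_one, one_mul]
      have hvz : (BadReduction.infV M q B).valuation z = 1 := by
        have h := congrArg (BadReduction.infV M q B).valuation hzb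
        rw [map_mul, map_mul, map_pow, map_pow, map_inv₀, hva, hvb, hvU, mul_one, mul_one,
          inv_one, one_pow] at h
        exact (pow_eq_one_iff.1 h).resolve_right (by norm_num)
      obtain ⟨h, hne⟩ := red_ne_zero_of_valuation_eq_one B hvz
      exact ⟨h, fun h0 => hne (congrArg Subtype.val h0)⟩

/-- For `r ∣ M` a prime `≡ 2 (mod 3)`: the cube unit of `X₀(Mq)`. -/
theorem exists_cubeUnit (hqM : ¬ q ∣ M) (hr : r.Prime) (hrM : r ∣ M) (hr3 : r % 3 = 2) :
    ∃ W : BadReduction.X0F M q, W ≠ 0 ∧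
      (∀ σ : ℚbar ≃ₐ[ℚ] ℚbar, arithmeticGalois (modularFunctionFieldFull (M * q)) σ • W = W) ∧
      (∀ v : Place ℚbar (BadReduction.X0F M q),
        0 ≤ v.ord (Igusa.jBar (M * q)) → v.ord W = 0) ∧
      ∀ (B : ValuationSubring ℚbar) (hB : B.LiesOverPrime q),
        (∃ h : W ∈ BadReduction.compV hqM B 0, BadReduction.compPhi hqM B hB 0 ⟨W, h⟩ ≠ 0) ∧
        ∃ h : ((q : ℚbar) ^ 8) • W ∈ BadReduction.compV hqM B 1,
          BadReduction.compPhi hqM B hB 1 ⟨_, h⟩ ≠ 0 := by
  obtain ⟨x, hx3, hxmem⟩ := exists_cubeUnitSeries (r := r) (q := q) hr3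
  obtain ⟨W, -, hW, -, hgal, hord, hcomp⟩ := exists_cubeUnit_of_series hqM hrM hx3 (hxmem M hrM)
  exact ⟨W, hW, hgal, hord, hcomp⟩

end Components

end Fermat.Agent.Ribet.MP

end
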