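/-
Mazur's principle at `q ≠ p`: powers of an inertial automorphism, and averaging of
scaled functions over a finite orbit of such an automorphism.
-/
import Fermat.Agent.Residual.LowerSlope

set_option autoImplicit false

noncomputable section

namespace Fermat.Agent.Ribet.Slot

open AlgebraicCurve Fermat.Agent.Bad Fermat.Agent.Bad.MultiReduction Fermat.Agent.Curve
  Fermat.Agent.Curve.RedAux Fermat.Agent.Residual.Lower

universe uK uF uι uk uFb

variable {K : Type uK} [Field K] {A : ValuationSubring K}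
  {F : Type uF} [Field F] [Algebra K F] {ι : Type uι} [Fintype ι]
  {k : Type uk} [Field k] {Fb : ι → Type uFb} [∀ i, Field (Fb i)] [∀ i, Algebra k (Fb i)]
  {R : MultiReduction A F k Fb}

/-- A high power of a function vanishing on a component absorbs a given constant there. -/
theorem exists_pow_slot_zero (hA : RankLeOne A) (j : ι) {ε : F} (hε : ε ∈ R.V j)
    (hε0 : R.φ j ⟨ε, hε⟩ = 0) {d : K} (hd0 : d ≠ 0) :
    ∃ n : ℕ, ∀ m, n ≤ m → ∃ h : d • ε ^ m ∈ R.V j, R.φ j ⟨_, h⟩ = 0 := by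
  rcases eq_or_ne ε 0 with h0 | h0
  · refine ⟨1, fun m hm => ⟨by rw [h0, zero_pow (by omega), smul_zero]; exact zero_mem _, ?_⟩⟩
    rw [← map_zero (R.φ j)]
    exact congrArg _ (Subtype.ext (by
      show d • ε ^ m = _
      rw [h0, zero_pow (by omega), smul_zero]; rfl))
  obtain ⟨c, hc, hcr⟩ := R.exists_scale j ε h0
  have hc0 : c ≠ 0 := by
    rintro rfl
    exact hcr (by rw [← map_zero (R.φ j)]; exact congrArg _ (Subtype.ext (zero_smul K ε)))
  have hcA : c ∉ A := fun hmem => hcr (by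
    have e : (⟨c • ε, hc⟩ : R.V j) =
        ⟨algebraMap K F c, (R.mem_V_iff j c).2 hmem⟩ * ⟨ε, hε⟩ :=
      Subtype.ext (Algebra.smul_def c ε)
    rw [e, map_mul, hε0, mul_zero])
  have haA : c⁻¹ ∈ A := (A.mem_or_inv_mem c).resolve_left hcA
  have ham : (⟨c⁻¹, haA⟩ : A) ∈ IsLocalRing.maximalIdeal A := by
    rw [IsLocalRing.mem_maximalIdeal, mem_nonunits_iff]
    intro hu
    obtain ⟨u, hu⟩ := hu
    have h1 := congrArg Subtype.val u.inv_mul
    rw [show ((u : A) : A) = ⟨c⁻¹, haA⟩ from hu] at h1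
    push_cast at h1
    apply hcA
    rw [← eq_of_mul_inv_eq_one h1]
    exact ((u⁻¹ : Aˣ) : A).2
  have hd : ∃ n : ℕ, d * c⁻¹ ^ n ∈ A := by
    by_cases hmem : d ∈ A
    · exact ⟨0, by simpa using hmem⟩
    · have hd' := (A.mem_or_inv_mem _).resolve_left hmem
      obtain ⟨n, e, he⟩ := hA ⟨c⁻¹, haA⟩ ⟨_, hd'⟩ ham (fun h =>
        inv_ne_zero hd0 (congrArg Subtype.val h))
      refine ⟨n, ?_⟩
      have he' := congrArg Subtype.val he
      push_cast at he'
      rw [he', mul_inv_cancel_left₀ hd0]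
      exact e.2
  obtain ⟨n, hn⟩ := hd
  refine ⟨n + 1, fun m hm => ?_⟩
  obtain ⟨l, rfl⟩ : ∃ l, m = n + (l + 1) := ⟨m - n - 1, by omega⟩
  set y : R.V j := ⟨algebraMap K F _, (R.mem_V_iff j _).2 hn⟩ * ⟨c • ε, hc⟩ ^ n *
    ⟨ε, hε⟩ ^ (l + 1) with hy
  have he : d • ε ^ (n + (l + 1)) = (y : F) := by
    show d • ε ^ (n + (l + 1)) = algebraMap K F (d * c⁻¹ ^ n) * (c • ε) ^ n * ε ^ (l + 1)
    rw [Algebra.smul_def, Algebra.smul_def, mul_pow, pow_add, map_mul, map_pow, map_inv₀,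
      inv_pow]
    have hcF : (algebraMap K F c) ^ n ≠ 0 := pow_ne_zero _ (by simpa using hc0)
    field_simp
  refine ⟨by rw [he]; exact y.2, ?_⟩
  rw [show (⟨_, _⟩ : R.V j) = y from Subtype.ext he, hy, map_mul, map_pow _ _ (l + 1), hε0,
    zero_pow (Nat.succ_ne_zero l), mul_zero]

variable [IsFunctionFieldOne K F] {g : SemilinearAut K F}

/-- The effect of an inertial automorphism on a scaled function. -/
theorem isSlot_smul (hg : IsInertial R g) {c : ι → K} (z : ι → A)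
    (hz : ∀ i, ((z i : A) : K) * SemilinearAut.baseAut g (c i) = c i) {ψ : F} {r : ∀ i, Fb i}
    (h : IsSlot R c ψ r) : IsSlot R c (g • ψ) fun i => R.π (z i) • r i := by
  intro j
  obtain ⟨h1, e1⟩ := h j
  obtain ⟨h2, e2⟩ := hg.φ_eq j ⟨_, h1⟩
  have he : c j • g • ψ = algebraMap K F (z j : K) * g • (c j • ψ) := by
    rw [Algebra.smul_def (c j) ψ, smul_mul', SemilinearAut.smul_algebraMap, ← mul_assoc,
      ← map_mul, hz j, Algebra.smul_def]
  refine ⟨by rw [he]; exact mul_mem ((R.mem_V_iff j _).2 (z j).2) h2, ?_⟩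
  show _ = R.π (z j) • r j
  rw [Algebra.smul_def (R.π (z j)), ← R.φ_algebraMap j (z j), ← e1, ← e2, ← map_mul]
  exact congrArg _ (Subtype.ext he)

/-- Powers of an inertial automorphism are inertial. -/
theorem isInertial_pow (hg : IsInertial R g) : ∀ t : ℕ, IsInertial R (g ^ t)
  | 0 => by
    refine ⟨fun a => by simp, fun a => ⟨by simp, congrArg R.π (Subtype.ext (by simp))⟩,
      fun i f => ⟨by rw [pow_zero, one_smul]; exact f.2,
        congrArg (R.φ i) (Subtype.ext (one_smul _ _))⟩, by simp⟩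
  | t + 1 => by
    have ih := isInertial_pow hg t
    rw [pow_succ']
    refine ⟨fun a => ?_, fun a => ?_, fun i f => ?_, ?_⟩
    · rw [SemilinearAut.baseAut_mul, RingAut.mul_apply, hg.valuation_eq, ih.valuation_eq]
    · obtain ⟨h1, e1⟩ := ih.π_eq a
      obtain ⟨h2, e2⟩ := hg.π_eq ⟨_, h1⟩
      exact ⟨by rw [SemilinearAut.baseAut_mul, RingAut.mul_apply]; exact h2,
        (congrArg R.π (Subtype.ext rfl)).trans (e2.trans e1)⟩
    · obtain ⟨h1, e1⟩ := ih.φ_eq i f
      obtain ⟨h2, e2⟩ := hg.φ_eq i ⟨_, h1⟩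
      exact ⟨by rw [mul_smul]; exact h2,
        (congrArg (R.φ i) (Subtype.ext (mul_smul _ _ _))).trans (e2.trans e1)⟩
    · rw [mul_smul, ih.smul_poleX, hg.smul_poleX]

/-- The multipliers of the powers. -/
theorem exists_scale_pow (hg : IsInertial R g) {b : K} {z : A}
    (hz : (z : K) * SemilinearAut.baseAut g b = b) :
    ∀ t : ℕ, ∃ zt : A, (zt : K) * SemilinearAut.baseAut (g ^ t) b = b ∧
      R.π zt = R.π z ^ t
  | 0 => ⟨1, by simp, by simp⟩
  | t + 1 => by
    obtain ⟨zt, h, hπ⟩ := exists_scale_pow hg hz t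
    obtain ⟨hm, hmπ⟩ := hg.π_eq zt
    refine ⟨z * ⟨_, hm⟩, ?_, by rw [map_mul, hmπ, hπ, pow_succ']⟩
    push_cast
    rw [pow_succ', SemilinearAut.baseAut_mul, RingAut.mul_apply, mul_assoc, ← map_mul, h, hz]

/-- The ratio for a power. -/
theorem isRatio_powAut (hg : IsInertial R g) {n : ℕ} {f : F} {ω : ι → k}
    (h : IsRatio R g n f ω) (t : ℕ) : IsRatio R (g ^ t) n f (ω ^ t) := by
  obtain ⟨b, hh, z, hb, hh0, hs, hz, hω, hz0⟩ := h
  choose zt hzt hπ using fun i => exists_scale_pow hg (hz i) t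
  exact ⟨b, hh, zt, hb, hh0, hs, hzt, fun i => by rw [hπ, hω, Pi.pow_apply],
    fun i => by rw [hπ]; exact pow_ne_zero _ (hz0 i)⟩

variable [∀ i, IsFunctionFieldOne k (Fb i)]

theorem smul_mem_polarSp [IsAlgClosed K] (hg : IsInertial R g) {N : ℕ} {ψ : F}
    (hψ : ψ ∈ R.polarSp N) : g • ψ ∈ R.polarSp N := by
  have e : ∀ v : Place K F, (floorDiv 1 (divisorOf K (1 : F))) v = 0 := fun v => by
    rw [floorDiv_apply, divisorOf_apply, ← map_one (algebraMap K F), ord_algebraMap,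
      Int.zero_ediv]
  have e' : slotSp R 1 (1 : F) N = R.polarSp N := by
    rw [slotSp, MultiReduction.twistSp, MultiReduction.polarSp,
      show floorDiv 1 (divisorOf K (1 : F)) = 0 from Finsupp.ext e, add_zero]
  rw [← e'] at hψ ⊢
  exact smul_mem_slotSp hg.smul_poleX (smul_one g) hψ

/-- **Averaging**: a scaled function can be made fixed by a power `g ^ q ^ a`, `q` the residue
characteristic. -/
theorem exists_fixed_isSlot [IsAlgClosed K] (hg : IsInertial R g) {q : ℕ} (hq : q.Prime)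
    [CharP k q] (hper : ∀ ψ : F, ∃ n : ℕ, 0 < n ∧ g ^ n • ψ = ψ) {c : ι → K} (z : ι → A)
    (hz : ∀ i, ((z i : A) : K) * SemilinearAut.baseAut g (c i) = c i)
    (hz1 : ∀ i, R.π (z i) = 1) {N : ℕ} {ψ : F} (hψ : ψ ∈ R.polarSp N) {r : ∀ i, Fb i}
    (hs : IsSlot R c ψ r) :
    ∃ (a : ℕ) (ψ' : F), ψ' ∈ R.polarSp N ∧ IsSlot R c ψ' r ∧ g ^ q ^ a • ψ' = ψ' := by
  obtain ⟨n, hn, hfix⟩ := hper ψ
  obtain ⟨a, n', hn', rfl⟩ := Nat.exists_eq_pow_mul_and_not_dvd hn.ne' q hq.ne_one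
  set h := g ^ q ^ a with hh
  have hfix' : h ^ n' • ψ = ψ := by rw [hh, ← pow_mul]; exact hfix
  have hmem : ∀ t : ℕ, h ^ t • ψ ∈ R.polarSp N ∧ IsSlot R c (h ^ t • ψ) r := fun t => by
    choose zt hzt hπ using fun i => exists_scale_pow hg (hz i) (q ^ a * t)
    have hp : h ^ t = g ^ (q ^ a * t) := by rw [hh, pow_mul]
    refine ⟨smul_mem_polarSp (isInertial_pow (isInertial_pow hg _) t) hψ, ?_⟩
    rw [hp]
    convert isSlot_smul (isInertial_pow hg _) zt hzt hs using 1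
    exact funext fun i => by rw [hπ, hz1, one_pow, one_smul]
  have hsum : (n' : k) • r ∈ slotFibre (R := R) c (R.polarSp N) ∧
      IsSlot R c (∑ t ∈ Finset.range n', h ^ t • ψ) ((n' : k) • r) := by
    have key : ∀ m : ℕ, (∑ t ∈ Finset.range m, h ^ t • ψ) ∈ R.polarSp N ∧
        IsSlot R c (∑ t ∈ Finset.range m, h ^ t • ψ) ((m : k) • r) := by
      intro m
      induction m with
      | zero =>
        refine ⟨by simp, fun i => ⟨by simp, ?_⟩⟩
        rw [show ((((0 : ℕ) : k)) • r) i = 0 by simp, ← map_zero (R.φ i)]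
        exact congrArg _ (Subtype.ext (by simp))
      | succ m ih =>
        rw [Finset.sum_range_succ]
        refine ⟨add_mem ih.1 (hmem m).1, fun i => ?_⟩
        obtain ⟨h1, e1⟩ := ih.2 i
        obtain ⟨h2, e2⟩ := (hmem m).2 i
        refine ⟨by rw [smul_add]; exact add_mem h1 h2, ?_⟩
        rw [Nat.cast_succ, add_smul, one_smul, Pi.add_apply, ← e1, ← e2, ← map_add]
        exact congrArg _ (Subtype.ext (smul_add _ _ _))
    exact ⟨⟨_, (key n').1, (key n').2⟩, (key n').2⟩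
  have hk : (n' : k) ≠ 0 := fun h0 => hn' ((CharP.cast_eq_zero_iff k q n').1 h0)
  have hA' : ((n' : A) : A) ∉ nonunits A := fun hu =>
    hk (by rw [← map_natCast R.π]; exact (R.π_eq_zero_iff _).2 hu)
  obtain ⟨u, hu⟩ : IsUnit (n' : A) := not_not.1 hA'
  have huK : (((u⁻¹ : Aˣ) : A) : K) = (n' : K)⁻¹ := eq_inv_of_mul_eq_one_left (by
    have := congrArg (fun x : A => (x : K)) u.inv_mul
    rw [hu] at this
    simpa using this)
  refine ⟨a, (n' : K)⁻¹ • ∑ t ∈ Finset.range n', h ^ t • ψ, ?_, fun i => ?_, ?_⟩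
  · exact Submodule.smul_mem _ _ (sum_mem fun t _ => (hmem t).1)
  · obtain ⟨h1, e1⟩ := hsum.2 i
    have he : c i • (n' : K)⁻¹ • ∑ t ∈ Finset.range n', h ^ t • ψ =
        algebraMap K F (((u⁻¹ : Aˣ) : A) : K) * (c i • ∑ t ∈ Finset.range n', h ^ t • ψ) := by
      rw [huK, smul_comm, Algebra.smul_def]
    refine ⟨by rw [he]; exact mul_mem ((R.mem_V_iff i _).2 ((u⁻¹ : Aˣ) : A).2) h1, ?_⟩
    have hπu : R.π ((u⁻¹ : Aˣ) : A) * (n' : k) = 1 := by
      rw [← map_natCast R.π, ← map_mul, ← hu, u.inv_mul, map_one]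
    calc _ = R.φ i (⟨_, (R.mem_V_iff i _).2 ((u⁻¹ : Aˣ) : A).2⟩ * ⟨_, h1⟩) :=
          congrArg _ (Subtype.ext he)
      _ = r i := by
          rw [map_mul, e1, R.φ_algebraMap i ((u⁻¹ : Aˣ) : A), Pi.smul_apply, Algebra.smul_def,
            ← mul_assoc, ← map_mul, hπu, map_one, one_mul]
  · rw [Algebra.smul_def, smul_mul', SemilinearAut.smul_algebraMap, map_inv₀, map_natCast,
      Finset.smul_sum]
    congr 1
    rw [Finset.sum_congr rfl (g := fun t => h ^ (t + 1) • ψ)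
      (fun t _ => by rw [pow_succ', mul_smul])]
    have h1 := Finset.sum_range_succ' (fun t => h ^ t • ψ) n'
    rw [Finset.sum_range_succ, hfix', pow_zero, one_smul] at h1
    exact (add_right_cancel h1).symm

end Fermat.Agent.Ribet.Slot

end
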