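/-
Mazur's principle at `q ≠ p`, auxiliary facts for general members of linear systems on a curve
over an algebraically closed field of any characteristic: a function with non-zero differential has
only finitely many multiple values, and Riemann-Roch spaces of large degree have members with
exact poles outside a given proper subspace.
-/
import Fermat.Agent.Bad.GluingValue
import Fermat.Agent.Curve.RiemannRochFunctions
import Fermat.Agent.MW.Height2Generic
import Fermat.Agent.Genus.Expansion

set_option autoImplicit false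

noncomputable section

namespace Fermat.Agent.Ribet.Slot

open AlgebraicCurve Fermat.Agent.Curve Fermat.Agent.Curve.RedAux Fermat.Agent.Bad IntermediateField

universe uk uE

variable {k : Type uk} [Field k] [IsAlgClosed k] {E : Type uE} [Field E] [Algebra k E]
  [IsFunctionFieldOne k E]

/-- A function with a simple zero has non-zero differential, in any characteristic. -/
theorem D_ne_zero_of_ord_eq_one {v : Place k E} {g : E} (hg : v.ord g = 1) :
    KaehlerDifferential.D k E g ≠ 0 := by
  intro h
  haveI : v.FiniteResidue := ⟨finite_residueField v⟩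
  obtain ⟨π, hπ⟩ := IsDiscreteValuationRing.exists_irreducible v.toValuationSubring
  have hder := Genus.exists_deriv_laurentExpansion hπ (f := g) (ω := 0) (by rw [zero_smul, h])
  rw [map_zero] at hder
  have hg0 : g ≠ 0 := fun h0 => by rw [h0, Place.ord_zero] at hg; omega
  have hne : Genus.laurentExpansion hπ g ≠ 0 := (map_ne_zero _).mpr hg0
  have h1 := congrArg (fun s : LaurentSeries k => s.coeff 0) hder
  simp only [Genus.deriv_coeff, zero_add, Int.cast_one, one_mul, HahnSeries.coeff_zero] at h1
  have ho := Genus.order_laurentExpansion hπ hg0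
  rw [hg] at ho
  exact HahnSeries.coeff_order_eq_zero.not.2 hne (by rw [ho]; exact h1)

/-- A separating function has only finitely many ramified places. -/
theorem finite_multiple {t : E} (ht : Transcendental k t) [Algebra.IsSeparable k⟮t⟯ E] :
    ∃ S : Finset (Place k E), ∀ v ∉ S, ∀ c : k, 0 < v.ord (t - algebraMap k E c) →
      v.ord (t - algebraMap k E c) = 1 := by
  classical
  set F₀ := k⟮t⟯ with hF₀
  have := finite_adjoin_of_transcendental ht
  obtain ⟨y, hy⟩ := Field.exists_primitive_element F₀ E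
  have hint : IsIntegral F₀ y := Algebra.IsIntegral.isIntegral y
  set Q := minpoly F₀ y with hQ
  set d := Polynomial.aeval y (Polynomial.derivative Q) with hd
  have hd0 : d ≠ 0 :=
    (Algebra.IsSeparable.isSeparable F₀ y).aeval_derivative_ne_zero (minpoly.aeval F₀ y)
  let bad : Set (Place k E) := {v | v.ord t ≠ 0} ∪ {v | v.ord y ≠ 0} ∪ {v | v.ord d ≠ 0} ∪
    ⋃ i ∈ Q.support, {v | v.ord (Q.coeff i : E) ≠ 0}
  have hbad : bad.Finite :=
    (((finite_setOf_ord_ne_zero t).union (finite_setOf_ord_ne_zero y)).union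
      (finite_setOf_ord_ne_zero d)).union
      (Set.Finite.biUnion Q.support.finite_toSet fun i _ => finite_setOf_ord_ne_zero _)
  refine ⟨hbad.toFinset, fun v hv c hpos => ?_⟩
  simp only [Set.Finite.mem_toFinset, bad, Set.mem_union, Set.mem_ofPred_eq, Set.mem_iUnion,
    not_or, not_exists, not_not] at hv
  obtain ⟨⟨⟨-, hyv⟩, hdv⟩, hQv⟩ := hv
  set u := t - algebraMap k E c with hu
  have hEu : k⟮u⟯ = F₀ := by
    refine le_antisymm (adjoin_simple_le_iff.mpr
      (sub_mem (mem_adjoin_simple_self k t) (F₀.algebraMap_mem c)))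
      (adjoin_simple_le_iff.mpr ?_)
    have := add_mem (mem_adjoin_simple_self k u) (k⟮u⟯.algebraMap_mem c)
    rwa [hu, sub_add_cancel] at this
  have hu' : Transcendental k u := transcendental_of_ord_ne_zero v (by omega)
  -- every element of the rational subfield has order divisible by `ord u`
  have hdvd : ∀ z : F₀, (z : E) ≠ 0 → v.ord u ∣ v.ord (z : E) := by
    rintro ⟨z, hz⟩ hz0
    rw [← hEu] at hz
    obtain ⟨n, p, q, hp, hq, hzz⟩ :=
      exists_decomposition hu' (φ := ⟨z, hz⟩) (fun h => hz0 (congrArg Subtype.val h))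
    have hco : ∀ f : Polynomial k, ((Polynomial.aeval (AdjoinSimple.gen k u) f : k⟮u⟯) : E)
        = Polynomial.aeval u f := fun f =>
      (Polynomial.aeval_algHom_apply (k⟮u⟯).val (AdjoinSimple.gen k u) f).symm
    have hzF : z = u ^ n * (Polynomial.aeval u p / Polynomial.aeval u q) := by
      have := congrArg Subtype.val hzz
      push_cast [AdjoinSimple.coe_gen] at this
      rwa [hco, hco] at this
    obtain ⟨h1, h1'⟩ := ord_aeval_eq_zero v hpos hp
    obtain ⟨h2, h2'⟩ := ord_aeval_eq_zero v hpos hq
    refine ⟨n, ?_⟩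
    show v.ord z = _
    rw [hzF, v.ord_mul (zpow_ne_zero _ fun h => by simp [h] at hpos) (div_ne_zero h1' h2'),
      v.ord_zpow, ord_div v h1' h2', h1, h2]
    ring
  obtain ⟨π, hπ0, hπ⟩ := exists_uniformizer v
  by_cases hyE : y ∈ F₀
  · have hπE : π ∈ F₀ := by
      have htop : (F₀⟮y⟯ : IntermediateField F₀ E) ≤ ⊥ :=
        adjoin_simple_le_iff.mpr (IntermediateField.mem_bot.mpr ⟨⟨y, hyE⟩, rfl⟩)
      rw [hy] at htop
      obtain ⟨a, ha⟩ := IntermediateField.mem_bot.mp (htop (trivial : π ∈ ⊤))
      exact ha ▸ a.2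
    have := hdvd ⟨π, hπE⟩ hπ0
    rw [show ((⟨π, hπE⟩ : F₀) : E) = π from rfl, hπ] at this
    exact Int.eq_one_of_dvd_one hpos.le this
  obtain ⟨g, hg⟩ : ∃ g : Polynomial F₀, Polynomial.aeval y g = π := by
    have hmem : π ∈ (F₀⟮y⟯).toSubalgebra := by rw [hy]; trivial
    rw [adjoin_simple_toSubalgebra_of_isAlgebraic hint.isAlgebraic,
      Algebra.adjoin_singleton_eq_range_aeval] at hmem
    exact hmem
  obtain ⟨B, hB⟩ : ∃ B : ℕ, ∀ i, OrdGE v (-(B : ℤ)) (g.coeff i : E) := by
    refine ⟨g.support.sup fun i => (v.ord (g.coeff i : E)).natAbs, fun i => ?_⟩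
    by_cases hi : i ∈ g.support
    · have := Finset.le_sup (f := fun i => (v.ord (g.coeff i : E)).natAbs) hi
      exact OrdGE.of_le (by omega)
    · exact Or.inl (by simp [Polynomial.notMem_support_iff.mp hi])
  have hQv' : ∀ i, OrdGE v 0 (Q.coeff i : E) := fun i => by
    by_cases hi : i ∈ Q.support
    · exact OrdGE.of_le (hQv i hi).ge
    · exact Or.inl (by simp [Polynomial.notMem_support_iff.mp hi])
  obtain ⟨P, hP0, hP⟩ := MW.exists_approx_root v (minpoly.aeval F₀ y) hyE
    (OrdGE.of_le hyv.ge) hQv' hdv hd0 (B + 2)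
  set a : F₀ := Polynomial.aeval P g with ha
  have hdiff : OrdGE v 2 (π - (a : E)) := by
    rw [← hg, ha, show ((Polynomial.aeval P g : F₀) : E) = algebraMap F₀ E (Polynomial.aeval P g)
      from rfl, ← Polynomial.aeval_algebraMap_apply,
      Polynomial.aeval_eq_sum_range, Polynomial.aeval_eq_sum_range, ← Finset.sum_sub_distrib]
    refine OrdGE.sum fun i hi => ?_
    clear hi
    rw [← smul_sub, Algebra.smul_def]
    obtain ⟨z, hz⟩ : ∃ z : E, OrdGE v 0 z ∧ y ^ i - (P : E) ^ i = z * (y - P) := by
      induction i with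
      | zero => exact ⟨0, by simp [OrdGE], by simp⟩
      | succ i ih =>
        obtain ⟨z, hz, hz'⟩ := ih
        refine ⟨y ^ i + P * z, ?_, ?_⟩
        · have h1 : OrdGE v 0 (y ^ i) := by simpa using MW.ordGE_pow (OrdGE.of_le hyv.ge) i
          exact h1.add (by simpa using hP0.mul hz)
        · rw [pow_succ, pow_succ]
          linear_combination (P : E) * hz'
    rw [show algebraMap F₀ E P = (P : E) from rfl, hz.2]
    exact ((hB i).mul (hz.1.mul hP)).mono (by push_cast; omega)
  have hordA : v.ord (a : E) = 1 := by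
    have : (a : E) = π + -(π - a) := by ring
    rw [this, ord_add_eq_left v hπ0 fun h => ?_, hπ]
    have := hdiff.neg.le_ord h
    omega
  have := hdvd a (fun h => by simp [h] at hordA)
  rw [hordA] at this
  exact Int.eq_one_of_dvd_one hpos.le this

/-- Exact poles on a finite set, outside a proper subspace. -/
theorem exists_exact_notMem :
    ∃ c : ℤ, ∀ D : Divisor k E, c ≤ Divisor.degree D → ∀ (S : Finset (Place k E))
      (W : Submodule k E), ¬ riemannRochSpace D ≤ W →
        ∃ f ∈ riemannRochSpace D, f ∉ W ∧ ∀ v ∈ S, v.ord f = -D v := by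
  classical
  obtain ⟨c, hc⟩ := exists_exact_pole (k := k) (E := E)
  refine ⟨c, fun D hD S W hW => ?_⟩
  obtain ⟨f, hf⟩ := Submodule.exists_forall_notMem_of_forall_ne_top
    (fun v : Option S => v.elim (W.comap (riemannRochSpace D).subtype)
      fun v => (riemannRochSpace (D - Finsupp.single (v : Place k E) 1)).comap
        (riemannRochSpace D).subtype) (by
      rintro (_ | v) h <;> simp only [Option.elim] at h <;> rw [Submodule.comap_subtype_eq_top] at h
      · exact hW h
      · obtain ⟨g, hg, hg0, hgv⟩ := hc D v hD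
        have := (mem_L_iff hg0).1 (h hg) v
        rw [Finsupp.sub_apply, Finsupp.single_eq_same] at this
        omega)
  have hfW : (f : E) ∉ W := hf none
  have hf0 : (f : E) ≠ 0 := fun h => hfW (h ▸ zero_mem _)
  refine ⟨f, f.2, hfW, fun v hv => ?_⟩
  have h0 := (mem_L_iff hf0).1 f.2 v
  by_contra hne
  refine hf (some ⟨v, hv⟩) ?_
  simp only [Option.elim, Submodule.mem_comap, Submodule.subtype_apply]
  refine (mem_L_iff hf0).2 fun w => ?_
  have := (mem_L_iff hf0).1 f.2 w
  rw [Finsupp.sub_apply, Finsupp.single_apply]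
  split_ifs with hw
  · subst hw; omega
  · omega

/-- The functions whose product with `a` has zero differential. -/
def constMul (a : E) : Submodule k E :=
  LinearMap.ker (((KaehlerDifferential.D k E : E →ₗ[k] Ω[E⁄k])).comp (LinearMap.mulRight k a))

omit [IsAlgClosed k] [IsFunctionFieldOne k E] in
theorem mem_constMul {a f : E} :
    f ∈ constMul (k := k) a ↔ KaehlerDifferential.D k E (f * a) = 0 := Iff.rfl

/-- A Riemann-Roch space of large degree is not killed by `f ↦ d (f * a)`. -/
theorem exists_not_le_constMul :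
    ∃ c : ℤ, ∀ D : Divisor k E, c ≤ Divisor.degree D → ∀ a : E, a ≠ 0 →
      ¬ riemannRochSpace D ≤ constMul a := by
  classical
  obtain ⟨c, hc⟩ := exists_exact_pole (k := k) (E := E)
  refine ⟨c + 1, fun D hD a ha hle => ?_⟩
  obtain ⟨v, -⟩ := exists_place (K := k) (F := E)
  obtain ⟨f₁, h₁, h₁0, h₁v⟩ := hc D v (by omega)
  obtain ⟨f₂, h₂, h₂0, h₂v⟩ := hc (D - Finsupp.single v 1) v (by
    rw [map_sub, Divisor.degree_single, deg_one]; push_cast; omega)
  rw [Finsupp.sub_apply, Finsupp.single_eq_same] at h₂v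
  have h₂' : f₂ ∈ riemannRochSpace D := L_mono (sub_le_self _ (by simp)) h₂
  have e1 := mem_constMul.1 (hle h₁)
  have e2 := mem_constMul.1 (hle h₂')
  refine D_ne_zero_of_ord_eq_one (v := v) (g := f₂ * a / (f₁ * a)) ?_ ?_
  · rw [mul_div_mul_right _ _ ha, ord_div v h₂0 h₁0]
    omega
  · rw [div_eq_mul_inv, Derivation.leibniz, Derivation.leibniz_inv, e1, e2, smul_zero, smul_zero,
      smul_zero, add_zero]

end Fermat.Agent.Ribet.Slot

end
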