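/-
Mazur's principle at `q ≠ p`: members of a linear system on a curve over an algebraically closed
field with simple zeros away from a finite set.
-/
import Fermat.Agent.Bad.GluingValue
import Fermat.Agent.Curve.RiemannRochFunctions
import Fermat.Agent.Ribet.SecondMPMemberAux

set_option autoImplicit false

noncomputable section

namespace Fermat.Agent.Ribet.Slot

open AlgebraicCurve Fermat.Agent.Curve Fermat.Agent.Curve.RedAux

universe uk uE

variable {k : Type uk} [Field k] [IsAlgClosed k] {E : Type uE} [Field E] [Algebra k E]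
  [IsFunctionFieldOne k E]

/-- For large `M`, some function has poles bounded by `M • P`, exactly so at the points of `S`,
and vanishes at the points of `B`. -/
theorem exists_exact {P : Divisor k E} (hP : 0 ≤ P) (hdeg : 0 < Divisor.degree P)
    (B S : Finset (Place k E)) (hBS : Disjoint B S) (hPB : ∀ b ∈ B, P b = 0) :
    ∃ M₀ : ℕ, ∀ M : ℕ, M₀ ≤ M → ∃ s ∈ riemannRochSpace (M • P), s ≠ 0 ∧
      (∀ b ∈ B, 0 < b.ord s) ∧ ∀ v ∈ S, v.ord s = -((M : ℤ) * P v) := by
  classical
  obtain ⟨c, hc⟩ := exists_exact_notMem (k := k) (E := E)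
  obtain ⟨c', hc'⟩ := exists_not_le_constMul (k := k) (E := E)
  refine ⟨(c + B.card).toNat + (c' + B.card).toNat + 1, fun M hM => ?_⟩
  set D : Divisor k E := M • P - ∑ b ∈ B, Finsupp.single b 1 with hD
  have hdegD : Divisor.degree D = (M : ℤ) * Divisor.degree P - B.card := by
    rw [hD, map_sub, map_sum, map_nsmul, nsmul_eq_mul]
    simp [Divisor.degree_single, deg_one]
  have hdle : (M : ℤ) ≤ (M : ℤ) * Divisor.degree P :=
    le_mul_of_one_le_right (Int.natCast_nonneg M) hdeg
  have hsum : ∀ v, (∑ b ∈ B, Finsupp.single b (1 : ℤ)) v = if v ∈ B then 1 else 0 := by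
    intro v
    simp [Finsupp.finsetSum_apply, Finsupp.single_apply]
  obtain ⟨s, hs, hsW, hsS⟩ := hc D (by omega) S (constMul (1 : E))
    (hc' D (by omega) 1 one_ne_zero)
  have hs0 : s ≠ 0 := fun h => hsW (h ▸ zero_mem _)
  refine ⟨s, L_mono (sub_le_self _ ?_) hs, hs0, fun b hb => ?_, fun v hv => ?_⟩
  · exact Finset.sum_nonneg fun b _ => by simp
  · have := (mem_L_iff hs0).1 hs b
    rw [hD, Finsupp.sub_apply, hsum, if_pos hb, Finsupp.smul_apply, hPB b hb, smul_zero] at this
    omega
  · rw [hsS v hv, hD, Finsupp.sub_apply, hsum, if_neg (Finset.disjoint_right.1 hBS hv),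
      Finsupp.smul_apply, nsmul_eq_mul, sub_zero]

/-- Adding to `h` a suitable `s ^ K * r`, the divisor increased by the pole bound becomes reduced
away from `B` and avoids `E₀`, and the orders at `B` stay. -/
theorem exists_member {P : Divisor k E} (hP : 0 ≤ P) (hdeg : 0 < Divisor.degree P)
    (B : Finset (Place k E)) (hPB : ∀ b ∈ B, P b = 0)
    {h : E} (hh : h ≠ 0) {N₀ : ℕ} (hoff : ∀ v, v ∉ B → -((N₀ : ℤ) * P v) ≤ v.ord h)
    (E₀ : Finset (Place k E))
    {s : E} (hs : s ≠ 0) {M : ℕ} (hsL : s ∈ riemannRochSpace (M • P))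
    (hsB : ∀ b ∈ B, 0 < b.ord s)
    (hsS : ∀ v, v ∉ B → v ∈ E₀ ∨ v.ord h ≠ 0 ∨ P v ≠ 0 → v.ord s = -((M : ℤ) * P v))
    {K : ℕ} (hK : ∀ b ∈ B, b.ord h < K) :
    ∃ N₁ : ℕ, ∀ N : ℕ, N₁ ≤ N → ∃ r ∈ riemannRochSpace (N • P), h + s ^ K * r ≠ 0 ∧
      (∀ b ∈ B, b.ord (h + s ^ K * r) = b.ord h) ∧
      ∀ v, v ∉ B → 0 ≤ v.ord (h + s ^ K * r) + ((K * M + N : ℕ) : ℤ) * P v ∧
        v.ord (h + s ^ K * r) + ((K * M + N : ℕ) : ℤ) * P v ≤ 1 ∧
        (v ∈ E₀ → v.ord (h + s ^ K * r) + ((K * M + N : ℕ) : ℤ) * P v = 0) := by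
  classical
  obtain ⟨c, hc⟩ := exists_exact_notMem (k := k) (E := E)
  obtain ⟨c', hc'⟩ := exists_not_le_constMul (k := k) (E := E)
  refine ⟨c.toNat + c'.toNat + N₀ + 1, fun N hN => ?_⟩
  have hdle : (N : ℤ) ≤ (N : ℤ) * Divisor.degree P :=
    le_mul_of_one_le_right (Int.natCast_nonneg N) hdeg
  have hdegN : Divisor.degree (N • P) = (N : ℤ) * Divisor.degree P := by
    rw [map_nsmul, nsmul_eq_mul]
  set a : E := s ^ K * h⁻¹ with ha
  have ha0 : a ≠ 0 := mul_ne_zero (pow_ne_zero _ hs) (inv_ne_zero hh)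
  set S : Finset (Place k E) := E₀ ∪ (divisorOf k h).support ∪ P.support with hS
  obtain ⟨r, hr, hrW, hrS⟩ := hc (N • P) (by omega) S (constMul a) (hc' _ (by omega) a ha0)
  have hr0 : r ≠ 0 := fun h0 => hrW (h0 ▸ zero_mem _)
  set R : E := s ^ K * r with hR
  have hR0 : R ≠ 0 := mul_ne_zero (pow_ne_zero _ hs) hr0
  set φ : E := h / R with hφ
  have hφ0 : φ ≠ 0 := div_ne_zero hh hR0
  -- `φ` is separating
  have hDφ : KaehlerDifferential.D k E φ ≠ 0 := by
    intro h0
    refine hrW (mem_constMul.2 ?_)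
    rw [show r * a = φ⁻¹ by rw [hφ, inv_div, hR, ha, div_eq_mul_inv]; ring,
      Derivation.leibniz_inv, h0, smul_zero]
  have hφt : Transcendental k φ := fun halg => hDφ (by
    obtain ⟨c, hc⟩ : ∃ c, algebraMap k E c = φ := by
      have h1 : IsIntegral k φ := halg.isIntegral
      exact ⟨_, minpoly.mem_range_of_degree_eq_one k φ
        (IsAlgClosed.degree_eq_one_of_irreducible k (minpoly.irreducible h1)) |>.choose_spec⟩
    rw [← hc, Derivation.map_algebraMap])
  haveI := IsFunctionFieldOne.isCurveOver (K := k) (F := E)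
  haveI := isSeparable_of_D_ne_zero hDφ
  obtain ⟨Sram, hSram⟩ := finite_multiple hφt
  -- choice of the value
  have hbadc : ∀ v : Place k E, {c : k | 0 < v.ord (φ - algebraMap k E c)}.Subsingleton := by
    intro v c hc c' hc'
    by_contra hne
    have h1 := ((OrdGE.of_le (n := 1) (v := v) hc').sub (OrdGE.of_le (n := 1) hc))
    rw [show φ - algebraMap k E c' - (φ - algebraMap k E c) = algebraMap k E (c - c') by
      simp [map_sub]] at h1
    rcases h1 with h1 | h1
    · exact hne (sub_eq_zero.mp ((map_eq_zero _).mp h1))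
    · rw [ord_algebraMap] at h1; omega
  obtain ⟨t, ht⟩ := Set.Finite.exists_notMem
    (((Sram ∪ E₀).finite_toSet.biUnion fun v _ => (hbadc v).finite).union
      (Set.finite_singleton (0 : k)))
  simp only [Set.mem_union, Set.mem_iUnion, Set.mem_ofPred_eq, Set.mem_singleton_iff, not_or,
    not_exists, not_lt, Finset.mem_coe] at ht
  obtain ⟨ht, ht0⟩ := ht
  set g : E := φ - algebraMap k E t with hg
  have hg0 : g ≠ 0 := fun h0 => hφt ((sub_eq_zero.1 h0) ▸ isAlgebraic_algebraMap t)
  have hfac : h + s ^ K * ((-t) • r) = R * g := by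
    rw [hg, mul_sub, hφ, mul_div_cancel₀ _ hR0, hR, Algebra.smul_def, map_neg]
    ring
  -- orders
  set n : ℕ := K * M + N with hn
  have hordR : ∀ v : Place k E, v.ord R = K * v.ord s + v.ord r := fun v => by
    rw [hR, v.ord_mul (pow_ne_zero _ hs) hr0, ord_pow]
  have hordsL : ∀ v : Place k E, -((M : ℤ) * P v) ≤ v.ord s := fun v => by
    have := (mem_L_iff hs).1 hsL v
    rwa [Finsupp.smul_apply, nsmul_eq_mul] at this
  have hordrL : ∀ v : Place k E, -((N : ℤ) * P v) ≤ v.ord r := fun v => by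
    have := (mem_L_iff hr0).1 hr v
    rwa [Finsupp.smul_apply, nsmul_eq_mul] at this
  have hordφ : ∀ v : Place k E, v.ord φ = v.ord h - v.ord R := fun v => by
    rw [hφ, ord_div v hh hR0]
  have hneg : ∀ v : Place k E, v.ord φ < 0 → v.ord g = v.ord φ := fun v hv => by
    rw [hg, sub_eq_add_neg, ord_add_eq_left v hφ0 fun _ => ?_]
    rw [ord_neg, ord_algebraMap]
    exact hv
  refine ⟨(-t) • r, Submodule.smul_mem _ _ hr, ?_, fun b hb => ?_, fun v hv => ?_⟩
  · rw [hfac]; exact mul_ne_zero hR0 hg0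
  · have h1 := hordrL b
    rw [hPB b hb, mul_zero, neg_zero] at h1
    have h2 : (K : ℤ) ≤ K * b.ord s :=
      le_mul_of_one_le_right (Int.natCast_nonneg K) (hsB b hb)
    have h3 := hK b hb
    rw [hfac, b.ord_mul hR0 hg0, hneg b (by rw [hordφ, hordR]; omega), hordφ]
    ring
  · rw [hfac, v.ord_mul hR0 hg0]
    have hn' : ((n : ℕ) : ℤ) * P v = K * ((M : ℤ) * P v) + N * P v := by
      rw [hn]; push_cast; ring
    have hKs : -((K : ℤ) * ((M : ℤ) * P v)) ≤ K * v.ord s := by
      rw [← mul_neg]; exact mul_le_mul_of_nonneg_left (hordsL v) (Int.natCast_nonneg K)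
    have hexact : v ∈ S → v.ord R = -((n : ℤ) * P v) := fun hvS => by
      have e1 : v ∈ E₀ ∨ v.ord h ≠ 0 ∨ P v ≠ 0 := by
        simpa [hS, Finsupp.mem_support_iff, divisorOf_apply, or_assoc] using hvS
      have e2 := hrS v hvS
      rw [Finsupp.smul_apply, nsmul_eq_mul] at e2
      rw [hordR, hn', hsS v hv e1, e2, mul_neg]
      ring
    by_cases hneg' : v.ord φ < 0
    · -- then the pole bound is not attained
      have hnS : v ∉ S := fun hvS => by
        have h0 := hoff v hv
        have hNn : (N₀ : ℤ) * P v ≤ (n : ℤ) * P v :=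
          mul_le_mul_of_nonneg_right (by exact_mod_cast (by omega : N₀ ≤ n)) (hP v)
        rw [hordφ, hexact hvS] at hneg'
        omega
      simp only [hS, Finset.mem_union, Finsupp.mem_support_iff, divisorOf_apply, not_or,
        not_not] at hnS
      rw [hneg v hneg', hordφ, hnS.2, hnS.1.2, mul_zero]
      exact ⟨by omega, by omega, fun he => absurd he hnS.1.1⟩
    · have hz : v.ord R + (n : ℤ) * P v = 0 := by
        by_cases hvS : v ∈ S
        · rw [hexact hvS]; ring
        · simp only [hS, Finset.mem_union, Finsupp.mem_support_iff, divisorOf_apply, not_or,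
            not_not] at hvS
          rw [hordφ, hvS.1.2] at hneg'
          have := hordrL v
          simp only [hvS.2, mul_zero, neg_zero] at this hKs ⊢
          rw [hordR] at hneg' ⊢
          omega
      have hge : 0 ≤ v.ord g :=
        ((OrdGE.of_le (not_lt.1 hneg')).sub (OrdGE.of_le (ord_algebraMap v t).ge)).le_ord hg0
      have hgv : v.ord g = v.ord (φ - algebraMap k E t) := rfl
      have hle : v.ord g ≤ 1 := by
        by_contra hlt
        by_cases hvr : v ∈ Sram
        · have := ht v (Finset.mem_union_left _ hvr)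
          omega
        · have := hSram v hvr t (by omega)
          omega
      refine ⟨by omega, by omega, fun hE => ?_⟩
      have := ht v (Finset.mem_union_right _ hE)
      omega

end Fermat.Agent.Ribet.Slot

end
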