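/-
Mazur's principle at `q ≠ p`: vanishing of the slopes.

`f` and an auxiliary `Φ` are fixed by an inertial `g`; the ratio of `f` is constant, that of `Φ` is
injective, and the residual orders of `Φ` at the branches have non-positive sum.  A general
perturbation `Φ'` of `Φ` with the same scalings has as many residual points of order prime to `p`
off the branches and off the residual divisor of `f` mod `p` as the places where its order can be
prime to `p`; the dimension count for `f ^ a * Φ'` makes every residual order of `f` divisible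
by `p`.
-/
import Fermat.Agent.Ribet.SecondMPAverage
import Fermat.Agent.Ribet.SecondMPMember

set_option autoImplicit false

noncomputable section

namespace Fermat.Agent.Ribet.Slot

open AlgebraicCurve Fermat.Agent.Bad Fermat.Agent.Bad.MultiReduction Fermat.Agent.Curve
  Fermat.Agent.Curve.RedAux Fermat.Agent.Residual.Lower

universe uK uF uι uk uFb

variable {K : Type uK} [Field K] [IsAlgClosed K] {A : ValuationSubring K}
  {F : Type uF} [Field F] [Algebra K F] [IsFunctionFieldOne K F] {ι : Type uι} [Fintype ι]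
  {k : Type uk} [Field k] {Fb : ι → Type uFb} [∀ i, Field (Fb i)] [∀ i, Algebra k (Fb i)]
  [∀ i, IsFunctionFieldOne k (Fb i)]
  {R : MultiReduction A F k Fb} (G : Gluing R) {g : SemilinearAut K F}

/-- A ratio at level `p` gives one at level `p * d` for the `d`-th power. -/
theorem isRatio_pow_level {p : ℕ} {f : F} {ω : ι → k} (h : IsRatio R g p f ω) (d : ℕ) :
    IsRatio R g (p * d) (f ^ d) ω := by
  obtain ⟨b, hh, z, hb, hh0, hs, hz, hω, hz0⟩ := h
  refine ⟨b, hh ^ d, z, hb, fun i => pow_ne_zero _ (hh0 i), ?_, hz, hω, hz0⟩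
  have h1 := hs.pow d
  rwa [inv_pow, ← pow_mul] at h1

/-- **The counting step.** -/
theorem dvd_resOrd_of_count (hA : RankLeOne A) (hG : G.IsSeminormal)
    (hpart : ∀ b : ↥G.B, ∃ b' : ↥G.B, G.pt b = G.pt b' ∧
      (b : Σ i, Place k (Fb i)).1 ≠ (b' : Σ i, Place k (Fb i)).1)
    (hB : G.B.card ≤ 2 * Nat.card G.Pt) (hg : IsInertial R g) {p d : ℕ} (hp : p.Prime)
    (hd : 0 < d) {f : F}
    (hf : f ≠ 0) (hgf : g • f = f) (hdiv : ∀ v : Place K F, (p : ℤ) ∣ v.ord f) {ω : ι → k}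
    (hω : IsRatio R g p f ω) (hωc : ∀ i j, ω i = ω j) {Φ : F} (hΦ0 : Φ ≠ 0) (hgΦ : g • Φ = Φ)
    {ωΦ : ι → k} (hωΦ : IsRatio R g (p * d) Φ ωΦ) (hsep : ∀ i j, i ≠ j → ωΦ i ≠ ωΦ j)
    (hBd : ∀ b ∈ G.B, (d : ℤ) ∣ resOrd R b.1 b.2 Φ)
    (T : ∀ i, Finset (Place k (Fb i)))
    (hT : ∀ i, ∀ v ∈ T i, (⟨i, v⟩ : Σ i, Place k (Fb i)) ∉ G.B ∧
      (p : ℤ) ∣ resOrd R i v f ∧ ¬ ((p * d : ℕ) : ℤ) ∣ resOrd R i v Φ)
    (hcount : ({v | ¬ ((p * d : ℕ) : ℤ) ∣ v.ord Φ} : Set (Place K F)).ncard ≤ ∑ i, (T i).card)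
    (i : ι) (v : Place k (Fb i)) : (p : ℤ) ∣ resOrd R i v f := by
  classical
  haveI := R.isAlgClosed_residue
  haveI := Fact.mk hp
  have hωne : ∀ i, ω i ≠ 0 := fun i => by
    obtain ⟨_, _, z, _, _, _, _, hzω, hz0⟩ := hω
    exact hzω i ▸ hz0 i
  have hd0 : (d : ℤ) ≠ 0 := by exact_mod_cast hd.ne'
  by_contra hvf
  -- the exponent
  obtain ⟨a, ha⟩ : ∃ a : ℕ, if (⟨i, v⟩ : Σ i, Place k (Fb i)) ∈ G.B
      then ((p * d : ℕ) : ℤ) ∣ a * (d * resOrd R i v f) + resOrd R i v Φ
      else ¬ ((p * d : ℕ) : ℤ) ∣ a * (d * resOrd R i v f) + resOrd R i v Φ := by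
    split_ifs with hvB
    · obtain ⟨u', hu'⟩ := hBd _ hvB
      have ho0 : (resOrd R i v f : ZMod p) ≠ 0 := fun h =>
        hvf ((ZMod.intCast_zmod_eq_zero_iff_dvd _ _).1 h)
      refine ⟨(-(u' : ZMod p) * (resOrd R i v f : ZMod p)⁻¹).val, ?_⟩
      rw [hu', Nat.cast_mul, mul_comm (p : ℤ), ← mul_left_comm, ← mul_add]
      refine mul_dvd_mul_left (d : ℤ) ((ZMod.intCast_zmod_eq_zero_iff_dvd _ _).1 ?_)
      push_cast
      rw [ZMod.natCast_zmod_val, mul_assoc, inv_mul_cancel₀ ho0, mul_one, neg_add_cancel]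
    · by_cases hu : ((p * d : ℕ) : ℤ) ∣ resOrd R i v Φ
      · refine ⟨1, fun h => hvf ?_⟩
        rw [Nat.cast_one, one_mul, dvd_add_left hu, Nat.cast_mul, mul_comm (p : ℤ)] at h
        exact Int.dvd_of_mul_dvd_mul_left hd0 h
      · exact ⟨0, by simpa using hu⟩
  -- the count for `(f ^ d) ^ a * Φ`
  obtain ⟨b, h, z, hb, hh, hs, hz, hzω, hz0⟩ := ((isRatio_pow_level hω d).pow a).mul hωΦ
  have hfd : f ^ d ≠ 0 := pow_ne_zero d hf
  have hord : ∀ j (w : Place k (Fb j)),
      w.ord (h j) = a * (d * resOrd R j w f) + resOrd R j w Φ := fun j w => by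
    obtain ⟨hm, he⟩ := hs j
    rw [← resOrd_pow w hf, ← resOrd_pow w hfd, ← resOrd_mul w (pow_ne_zero _ hfd) hΦ0,
      resOrd_eq w hm (by rw [he]; exact hh j), he]
  have hcnt := card_le_of_isInertial hA hG hpart hB (Nat.mul_pos hp.pos hd)
    (mul_ne_zero (pow_ne_zero a hfd) hΦ0) hg
    (by rw [smul_mul', smul_pow', smul_pow', hgf, hgΦ]) hb hh hs z hz
    hz0 (fun i j hij e => hsep i j hij (by
      simp only [hzω, Pi.mul_apply, Pi.pow_apply, hωc i j] at e
      exact mul_left_cancel₀ (pow_ne_zero _ (hωne j)) e))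
  have hpd : ∀ x : ℤ, (p : ℤ) ∣ x → ((p * d : ℕ) : ℤ) ∣ d * x := fun x hx => by
    rw [Nat.cast_mul, mul_comm (p : ℤ)]; exact mul_dvd_mul_left _ hx
  have hset : ({w | ¬ ((p * d : ℕ) : ℤ) ∣ w.ord ((f ^ d) ^ a * Φ)} : Set (Place K F)) =
      {w | ¬ ((p * d : ℕ) : ℤ) ∣ w.ord Φ} := by
    ext w
    rw [Set.mem_ofPred_eq, Set.mem_ofPred_eq, w.ord_mul (pow_ne_zero _ hfd) hΦ0, ord_pow,
      ord_pow, dvd_add_right ((hpd _ (hdiv w)).mul_left _)]
  rw [hset] at hcnt
  have hfin : ∀ j, ({w | (⟨j, w⟩ : Σ i, Place k (Fb i)) ∉ G.B ∧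
      ¬ ((p * d : ℕ) : ℤ) ∣ w.ord (h j)} : Set (Place k (Fb j))).Finite := fun j => by
    refine (divisorOf k (h j)).support.finite_toSet.subset fun w hw => ?_
    rw [SetLike.mem_coe, Finsupp.mem_support_iff, divisorOf_apply]
    exact fun h0 => hw.2 (h0 ▸ dvd_zero _)
  have hTsub : ∀ j, ∀ w ∈ T j, (⟨j, w⟩ : Σ i, Place k (Fb i)) ∉ G.B ∧
      ¬ ((p * d : ℕ) : ℤ) ∣ w.ord (h j) := fun j w hw => by
    obtain ⟨h1, h2, h3⟩ := hT j w hw
    refine ⟨h1, ?_⟩
    rw [hord, dvd_add_right ((hpd _ h2).mul_left _)]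
    exact h3
  have hle : ∀ j, (T j).card ≤
      ({w | (⟨j, w⟩ : Σ i, Place k (Fb i)) ∉ G.B ∧ ¬ ((p * d : ℕ) : ℤ) ∣ w.ord (h j)} :
        Set (Place k (Fb j))).ncard := fun j => by
    rw [← Set.ncard_coe_finset]
    exact Set.ncard_le_ncard (fun w hw => hTsub j w hw) (hfin j)
  have hsum := Finset.sum_le_sum fun j (_ : j ∈ Finset.univ) => hle j
  by_cases hvB : (⟨i, v⟩ : Σ i, Place k (Fb i)) ∈ G.B
  · rw [if_pos hvB] at ha
    have h1 : 1 ≤ (G.B.filter fun b => ((p * d : ℕ) : ℤ) ∣ b.2.ord (h b.1)).card :=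
      Finset.card_pos.2 ⟨⟨i, v⟩, Finset.mem_filter.2 ⟨hvB, by rw [hord]; exact ha⟩⟩
    omega
  · rw [if_neg hvB] at ha
    have hvT : v ∉ T i := fun hv => hvf (hT i v hv).2.1
    have h1 : (T i).card + 1 ≤
        ({w | (⟨i, w⟩ : Σ i, Place k (Fb i)) ∉ G.B ∧ ¬ ((p * d : ℕ) : ℤ) ∣ w.ord (h i)} :
          Set (Place k (Fb i))).ncard := by
      rw [← Finset.card_insert_of_notMem hvT, ← Set.ncard_coe_finset]
      refine Set.ncard_le_ncard (fun w hw => ?_) (hfin i)
      rcases Finset.mem_insert.1 (Finset.mem_coe.1 hw) with rfl | hw'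
      · exact ⟨hvB, by rw [hord]; exact ha⟩
      · exact hTsub i w hw'
    have hlt := Finset.sum_lt_sum (fun j (_ : j ∈ Finset.univ) => hle j)
      ⟨i, Finset.mem_univ i, h1⟩
    omega

/-- The orders of a scaled reduction of a function with bounded poles are bounded off the
branches; a perturbation with prescribed residues of high vanishing at the branches. -/
theorem exists_perturbation (hA : RankLeOne A) {q : ℕ} (hq : q.Prime) [CharP k q] {p : ℕ}
    (hp : 0 < p) (hg : IsInertial R g) (hper : ∀ ψ : F, ∃ n : ℕ, 0 < n ∧ g ^ n • ψ = ψ)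
    {c : ι → K} (hc : ∀ i, c i ≠ 0) (z : ι → A)
    (hz : ∀ i, ((z i : A) : K) * SemilinearAut.baseAut g (c i) = c i)
    (hz1 : ∀ i, R.π (z i) = 1) {Φ : F} {N₀ : ℕ} (hΦ : Φ ∈ R.polarSp N₀) (hgΦ : g • Φ = Φ)
    {h : ∀ i, Fb i} (hh : ∀ i, h i ≠ 0) (hs : IsSlot R c Φ h)
    (E₀ : ∀ i, Finset (Place k (Fb i))) :
    ∃ (a : ℕ) (Φ' : F) (h' : ∀ i, Fb i) (N : ℕ), p ∣ N ∧ Φ' ∈ R.polarSp N ∧
      g ^ q ^ a • Φ' = Φ' ∧ IsSlot R c Φ' h' ∧ (∀ i, h' i ≠ 0) ∧
      (∀ i (v : Place k (Fb i)), (⟨i, v⟩ : Σ i, Place k (Fb i)) ∈ G.B →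
        v.ord (h' i) = v.ord (h i)) ∧
      ∀ i (v : Place k (Fb i)), (⟨i, v⟩ : Σ i, Place k (Fb i)) ∉ G.B →
        0 ≤ v.ord (h' i) + (N : ℤ) * poleDivisor k (R.xb i) v ∧
        v.ord (h' i) + (N : ℤ) * poleDivisor k (R.xb i) v ≤ 1 ∧
        (v ∈ E₀ i → v.ord (h' i) + (N : ℤ) * poleDivisor k (R.xb i) v = 0) := by
  classical
  haveI := R.isAlgClosed_residue
  set P : ∀ i, Divisor k (Fb i) := fun i => poleDivisor k (R.xb i) with hPdef
  have hP : ∀ i, 0 ≤ P i := fun i => poleDivisor_nonneg _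
  have hdeg : ∀ i, 0 < Divisor.degree (P i) := fun i => by
    rw [hPdef, degree_poleDivisor (t := R.xb i) (R.x_transcendental i)]
    exact_mod_cast R.degree_pos i
  have hPB : ∀ i, ∀ b ∈ branchesOn G i, P i b = 0 := fun i b hb => by
    rw [hPdef, poleDivisor_apply]
    exact max_eq_right (neg_nonpos.2 (G.regular _ ((mem_branchesOn G).1 hb)))
  set S : ∀ i, Finset (Place k (Fb i)) := fun i =>
    (E₀ i ∪ (divisorOf k (h i)).support ∪ (P i).support) \ branchesOn G i with hSdef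
  choose M₀ hM₀ using fun i =>
    exists_exact (hP i) (hdeg i) (branchesOn G i) (S i) Finset.disjoint_sdiff (hPB i)
  set M := Finset.univ.sup M₀ + G.bound + 1 with hMdef
  choose s hsL hs0 hsB hsS using fun i =>
    hM₀ i M (by
      have := Finset.le_sup (f := M₀) (Finset.mem_univ i)
      omega)
  set o := G.order + 1 with hodef
  -- lifting a tuple supported on one component
  have hlift : ∀ (i : ι) (N : ℕ) (y : Fb i), G.bound ≤ N →
      y ∈ riemannRochSpace (N • P i) → (∀ b ∈ branchesOn G i, y = 0 ∨ (o : ℤ) ≤ b.ord y) →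
      ∃ ε : R.integers, (ε : F) ∈ R.polarSp N ∧ R.red ε = Pi.single i y := by
    intro i N y hN hy hv
    refine G.conductor N hN _ (R.mem_polarFibre.2 fun j => ?_) fun b hb => ?_
    · rcases eq_or_ne j i with rfl | hji
      · rwa [Pi.single_eq_same]
      · rw [Pi.single_eq_of_ne hji]; exact zero_mem _
    · obtain ⟨j, w⟩ := b
      rcases eq_or_ne j i with rfl | hji
      · rcases hv w ((mem_branchesOn G).2 hb) with h0 | h1
        · exact Or.inl (by rw [Pi.single_eq_same]; exact h0)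
        · refine Or.inr ?_
          show ((G.order : ℕ) : ℤ) ≤ w.ord ((Pi.single j y : ∀ i, Fb i) j)
          rw [Pi.single_eq_same]
          omega
      · exact Or.inl (Pi.single_eq_of_ne hji _)
  choose ε hεL hεr using fun i => hlift i (o * M) (s i ^ o)
    (le_trans (by omega : G.bound ≤ M) (Nat.le_mul_of_pos_left M (by omega)))
    (by rw [mul_smul]; exact pow_mem_L (hsL i) o)
    (fun b hb => Or.inr (by
      rw [ord_pow]
      exact le_mul_of_one_le_right (Int.natCast_nonneg o) (hsB i b hb)))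
  -- exponents absorbing the scalings
  have hex : ∀ i j, j ≠ i → ∃ n : ℕ, ∀ m, n ≤ m →
      ∃ hm : (c j / c i) • ((ε i : R.integers) : F) ^ m ∈ R.V j, R.φ j ⟨_, hm⟩ = 0 :=
    fun i j hji => exists_pow_slot_zero hA j (R.mem_integers.1 (ε i).2 j)
      (by
        have := congrFun (hεr i) j
        rw [R.red_apply, Pi.single_eq_of_ne hji] at this
        exact this)
      (div_ne_zero (hc j) (hc i))
  choose n hn using hex
  obtain ⟨L, hL1, hLn, hLB⟩ : ∃ L : ℕ, 1 ≤ L ∧ (∀ i j (hji : j ≠ i), n i j hji < L) ∧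
      ∀ i, ∀ b ∈ branchesOn G i, b.ord (h i) < L := by
    refine ⟨1 + Finset.univ.sup (fun i => Finset.univ.sup fun j =>
        if hji : j = i then 0 else n i j hji)
      + Finset.univ.sup (fun i => (branchesOn G i).sup fun b => (b.ord (h i) + 1).toNat),
      by omega, fun i j hji => ?_, fun i b hb => ?_⟩
    · have h1 : (if hji : j = i then 0 else n i j hji) ≤ Finset.univ.sup (fun j =>
          if hji : j = i then 0 else n i j hji) :=
        Finset.le_sup (f := fun j => if hji : j = i then 0 else n i j hji) (Finset.mem_univ j)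
      rw [dif_neg hji] at h1
      have h2 := Finset.le_sup (f := fun i => Finset.univ.sup fun j =>
        if hji : j = i then 0 else n i j hji) (Finset.mem_univ i)
      omega
    · have h1 := Finset.le_sup (f := fun b => (b.ord (h i) + 1).toNat) hb
      have h2 := Finset.le_sup (f := fun i => (branchesOn G i).sup fun b =>
        (b.ord (h i) + 1).toNat) (Finset.mem_univ i)
      omega
  -- the reduction of `Φ` has bounded poles off the branches
  have hoff : ∀ i, ∀ v, v ∉ branchesOn G i → -((N₀ : ℤ) * P i v) ≤ v.ord (h i) := by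
    intro i v hv
    by_cases hne : v.ord (h i) = 0 ∧ P i v = 0
    · rw [hne.1, hne.2]; simp
    have hsv : v.ord (s i) = -((M : ℤ) * P i v) := hsS i v (by
      simp only [hSdef, Finset.mem_sdiff, Finset.mem_union, Finsupp.mem_support_iff,
        divisorOf_apply]
      exact ⟨(not_and_or.1 hne).elim (fun h1 => Or.inl (Or.inr h1)) Or.inr, hv⟩)
    obtain ⟨hΦm, hΦr⟩ := hs i
    have hex' : ∀ j, j ≠ i → ∃ n : ℕ, ∀ m, n ≤ m →
        ∃ hm : (c i / c j) • ((ε i : R.integers) : F) ^ m ∈ R.V j, R.φ j ⟨_, hm⟩ = 0 :=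
      fun j hji => exists_pow_slot_zero hA j (R.mem_integers.1 (ε i).2 j)
        (by
          have := congrFun (hεr i) j
          rw [R.red_apply, Pi.single_eq_of_ne hji] at this
          exact this)
        (div_ne_zero (hc i) (hc j))
    choose n' hn' using hex'
    set m := Finset.univ.sup fun j => if hji : j = i then 0 else n' j hji with hm
    set y : F := c i • Φ * ((ε i : R.integers) : F) ^ m with hy
    have hyV : ∀ j, ∃ hj : y ∈ R.V j,
        R.φ j ⟨y, hj⟩ = (Pi.single i (h i * (s i ^ o) ^ m) : ∀ i, Fb i) j := by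
      intro j
      rcases eq_or_ne j i with rfl | hji
      · refine ⟨mul_mem hΦm (pow_mem (R.mem_integers.1 (ε j).2 j) m), ?_⟩
        rw [Pi.single_eq_same, ← hΦr,
          show (⟨y, _⟩ : R.V j) = ⟨_, hΦm⟩ * ⟨_, R.mem_integers.1 (ε j).2 j⟩ ^ m from rfl,
          map_mul, map_pow]
        have := congrFun (hεr j) j
        rw [R.red_apply, Pi.single_eq_same] at this
        rw [this]
      · obtain ⟨h1, e1⟩ := hs j
        have hle : n' j hji ≤ m :=
          le_trans (le_of_eq (dif_neg hji).symm)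
            (Finset.le_sup (f := fun j => if hji : j = i then 0 else n' j hji) (Finset.mem_univ j))
        obtain ⟨h2, e2⟩ := hn' j hji m hle
        have he : y = c j • Φ * (c i / c j) • ((ε i : R.integers) : F) ^ m := by
          rw [hy, smul_mul_assoc, smul_mul_smul_comm, mul_div_cancel₀ _ (hc j)]
        refine ⟨by rw [he]; exact mul_mem h1 h2, ?_⟩
        rw [show (⟨y, _⟩ : R.V j) = ⟨_, h1⟩ * ⟨_, h2⟩ from Subtype.ext he, map_mul, e2, mul_zero,
          Pi.single_eq_of_ne hji]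
    have hyfib : Pi.single i (h i * (s i ^ o) ^ m) ∈ R.spFibre (R.polarSp (N₀ + m * (o * M))) :=
      ⟨⟨y, R.mem_integers.2 fun j => (hyV j).1⟩,
        R.mul_mem_polarSp (Submodule.smul_mem _ _ hΦ)
        (R.pow_mem_polarSp (hεL i) m),
        funext fun j => by rw [R.red_apply]; exact (hyV j).2⟩
    have hne0 : h i * (s i ^ o) ^ m ≠ 0 :=
      mul_ne_zero (hh i) (pow_ne_zero _ (pow_ne_zero _ (hs0 i)))
    have h1 := R.mem_polarFibre_iff_ord.1 (R.spFibre_polar_le _ hyfib) i v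
    rw [Pi.single_eq_same] at h1
    have h2 := h1.resolve_left hne0
    rw [v.ord_mul (hh i) (pow_ne_zero _ (pow_ne_zero _ (hs0 i))), ord_pow, ord_pow, hsv] at h2
    simp only [hPdef, poleDivisor_apply] at h2 ⊢
    push_cast at h2
    linarith
  -- the residual perturbations
  choose N₁ hN₁ using fun i => exists_member (hP i) (hdeg i) (branchesOn G i) (hPB i) (hh i)
    (hoff i) (E₀ i) (pow_ne_zero o (hs0 i)) (M := o * M)
    (by rw [mul_smul]; exact pow_mem_L (hsL i) o)
    (fun b hb => by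
      rw [ord_pow]
      exact mul_pos (by exact_mod_cast (show 0 < o by omega)) (hsB i b hb))
    (fun v hv hor => by
      rw [ord_pow, hsS i v (by
        simp only [hSdef, Finset.mem_sdiff, Finset.mem_union, Finsupp.mem_support_iff,
          divisorOf_apply]
        exact ⟨by tauto, hv⟩)]
      push_cast; ring)
    (K := L) (hLB i)
  -- the common bound
  set N₂ := Finset.univ.sup N₁ + G.bound + N₀ + L * (o * M) with hN₂
  obtain ⟨N, hN⟩ : ∃ N : ℕ, L * (o * M) + N = p * (N₂ + L * (o * M)) :=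
    ⟨p * (N₂ + L * (o * M)) - L * (o * M), Nat.add_sub_cancel' (le_trans (Nat.le_add_left _ N₂)
      (Nat.le_mul_of_pos_left _ hp))⟩
  have hN1 : N₂ ≤ N := by
    have : N₂ + L * (o * M) ≤ p * (N₂ + L * (o * M)) := Nat.le_mul_of_pos_left _ hp
    omega
  choose r hrL hw0 hwB hwoff using fun i => hN₁ i N (by
    have := Finset.le_sup (f := N₁) (Finset.mem_univ i)
    omega)
  obtain ⟨L', hL'⟩ : ∃ L', L = L' + 1 := ⟨L - 1, by omega⟩
  have hbN : G.bound ≤ N := le_trans (by rw [hN₂]; omega) hN1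
  choose δ hδL hδr using fun i => hlift i (o * M + N) (s i ^ o * r i)
    (le_trans hbN (Nat.le_add_left _ _))
    (by
      rw [add_smul, mul_smul]
      exact mul_mem_L (pow_mem_L (hsL i) o) (hrL i))
    (fun b hb => by
      rcases eq_or_ne (r i) 0 with h0 | h0
      · exact Or.inl (by rw [h0, mul_zero])
      · refine Or.inr ?_
        have h1 := (mem_L_iff h0).1 (hrL i) b
        rw [Finsupp.smul_apply, hPB i b hb, smul_zero, neg_zero] at h1
        rw [b.ord_mul (pow_ne_zero _ (hs0 i)) h0, ord_pow]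
        have h2 : (o : ℤ) * 1 ≤ o * b.ord (s i) :=
          mul_le_mul_of_nonneg_left (hsB i b hb) (Int.natCast_nonneg o)
        linarith)
  set Nt := L * (o * M) + N with hNt
  have hN0 : N₀ ≤ Nt := by omega
  -- the perturbation
  set w : ∀ i, Fb i := fun i => (s i ^ o) ^ L * r i with hw
  have hψ : w ∈ slotFibre (R := R) c (R.polarSp Nt) := by
    have hone : ∀ i, Pi.single i (w i) ∈ slotFibre (R := R) c (R.polarSp Nt) := by
      intro i
      refine mem_slotFibre.2 ⟨(c i)⁻¹ • (((ε i : R.integers) : F) ^ L' * (δ i : R.integers)),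
        Submodule.smul_mem _ _ (R.polarSp_mono (le_of_eq (by rw [hNt, hL']; ring))
          (R.mul_mem_polarSp (R.pow_mem_polarSp (hεL i) L') (hδL i))), fun j => ?_⟩
      rcases eq_or_ne j i with rfl | hji
      · have he : c j • (c j)⁻¹ • (((ε j : R.integers) : F) ^ L' * (δ j : R.integers)) =
            ((ε j ^ L' * δ j : R.integers) : F) := by
          rw [smul_smul, mul_inv_cancel₀ (hc j), one_smul]; rfl
        refine ⟨by rw [he]; exact R.mem_integers.1 (SetLike.coe_mem _) j, ?_⟩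
        calc _ = R.red (ε j ^ L' * δ j) j := by
              rw [R.red_apply]; exact congrArg _ (Subtype.ext he)
          _ = _ := by
              rw [map_mul, map_pow, Pi.mul_apply, Pi.pow_apply, hεr, hδr, Pi.single_eq_same,
                Pi.single_eq_same, Pi.single_eq_same]
              simp only [hw, hL', pow_succ, mul_assoc]
      · obtain ⟨h2, e2⟩ := hn i j hji L' (by have := hLn i j hji; omega)
        have he : c j • (c i)⁻¹ • (((ε i : R.integers) : F) ^ L' * (δ i : R.integers)) =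
            (c j / c i) • ((ε i : R.integers) : F) ^ L' * ((δ i : R.integers) : F) := by
          rw [smul_smul, ← div_eq_mul_inv, smul_mul_assoc]
        refine ⟨by rw [he]; exact mul_mem h2 (R.mem_integers.1 (δ i).2 j), ?_⟩
        rw [show (⟨_, _⟩ : R.V j) = ⟨_, h2⟩ * ⟨_, R.mem_integers.1 (δ i).2 j⟩ from
            Subtype.ext he, map_mul, e2, zero_mul, Pi.single_eq_of_ne hji]
    rw [← Finset.univ_sum_single w]
    exact sum_mem fun i _ => hone i
  obtain ⟨ψ, hψL, hψs⟩ := mem_slotFibre.1 hψ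
  obtain ⟨a, ψ', hψ'L, hψ's, hψ'g⟩ := exists_fixed_isSlot hg hq hper z hz hz1 hψL hψs
  refine ⟨a, Φ + ψ', fun i => h i + w i, Nt, ⟨_, hN⟩,
    add_mem (R.polarSp_mono hN0 hΦ) hψ'L, ?_, fun i => ?_, hw0,
    fun i v hv => hwB i v ((mem_branchesOn G).2 hv),
    fun i v hv => hwoff i v fun hv' => hv ((mem_branchesOn G).1 hv')⟩
  · rw [smul_add, hψ'g]
    congr 1
    have hpow : ∀ t : ℕ, g ^ t • Φ = Φ := fun t => by
      induction t with
      | zero => rw [pow_zero, one_smul]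
      | succ t ih => rw [pow_succ, mul_smul, hgΦ, ih]
    exact hpow _
  · obtain ⟨h1, e1⟩ := hs i
    obtain ⟨h2, e2⟩ := hψ's i
    refine ⟨by rw [smul_add]; exact add_mem h1 h2, ?_⟩
    show _ = h i + w i
    rw [← e1, ← e2, ← map_add]
    exact congrArg _ (Subtype.ext (smul_add _ _ _))

/-- **Vanishing of the slopes.** -/
theorem dvd_resOrd_of_aux (hA : RankLeOne A) (hG : G.IsSeminormal)
    (hpart : ∀ b : ↥G.B, ∃ b' : ↥G.B, G.pt b = G.pt b' ∧
      (b : Σ i, Place k (Fb i)).1 ≠ (b' : Σ i, Place k (Fb i)).1)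
    (hB : G.B.card ≤ 2 * Nat.card G.Pt) (hg : IsInertial R g)
    (hper : ∀ ψ : F, ∃ n : ℕ, 0 < n ∧ g ^ n • ψ = ψ) {q : ℕ} (hq : q.Prime) [CharP k q]
    {p d : ℕ} (hp : p.Prime) (hd : 0 < d) (hqn : ¬ q ∣ p * d) {f : F} (hf : f ≠ 0) (hgf : g • f = f)
    (hdiv : ∀ v : Place K F, (p : ℤ) ∣ v.ord f) {ω : ι → k} (hω : IsRatio R g p f ω)
    (hωc : ∀ i j, ω i = ω j) {Φ : F} (hΦ0 : Φ ≠ 0) {N₀ : ℕ} (hΦ : Φ ∈ R.polarSp N₀)
    (hgΦ : g • Φ = Φ) {ωΦ : ι → k} (hωΦ : IsRatio R g (p * d) Φ ωΦ)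
    (hsep : ∀ i j, i ≠ j → ωΦ i ≠ ωΦ j)
    (hBd : ∀ b ∈ G.B, (d : ℤ) ∣ resOrd R b.1 b.2 Φ)
    (hsum : ∑ b ∈ G.B, resOrd R b.1 b.2 Φ ≤ 0)
    (i : ι) (v : Place k (Fb i)) : (p : ℤ) ∣ resOrd R i v f := by
  classical
  haveI := R.isAlgClosed_residue
  set n := p * d with hn
  have hn0 : 0 < n := Nat.mul_pos hp.pos hd
  obtain ⟨b, h, z, hb, hh, hs, hz, hzω, hz0⟩ := id hωΦ
  have hcd : ∀ i, (b ^ n)⁻¹ i ≠ 0 := fun i => inv_ne_zero (pow_ne_zero _ (hb i))
  have hunit : ∀ i, IsUnit (z i) := fun i => by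
    by_contra hu
    exact hz0 i ((R.π_eq_zero_iff _).2 hu)
  let zc : ι → A := fun i => (((hunit i).unit⁻¹ : Aˣ) : A) ^ n
  have hzc : ∀ i, ((zc i : A) : K) * SemilinearAut.baseAut g ((b ^ n)⁻¹ i) = (b ^ n)⁻¹ i := by
    intro i
    have e := congrArg Subtype.val (hunit i).val_inv_mul
    push_cast at e
    simp only [zc, Pi.inv_apply, Pi.pow_apply, map_inv₀, map_pow]
    push_cast
    rw [eq_inv_of_mul_eq_one_left e, inv_pow, ← mul_inv, ← mul_pow, hz i]
  have hfix : ∀ i, R.π (zc i) = 1 := by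
    intro i
    have h1 := isSlot_smul hg zc hzc hs
    rw [hgΦ] at h1
    have h2 := congrFun (h1.unique hs) i
    simp only [Algebra.smul_def] at h2
    have h3 := mul_right_cancel₀ (hh i) (h2.trans (one_mul (h i)).symm)
    exact (algebraMap k (Fb i)).injective (h3.trans (map_one _).symm)
  have hωp : ∀ i, ωΦ i ^ n = 1 := fun i => by
    have h1 := hfix i
    have h2 : R.π (zc i) * R.π (z i) ^ n = 1 := by
      rw [← map_pow, ← map_mul, ← mul_pow, (hunit i).val_inv_mul, one_pow, map_one]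
    rwa [h1, one_mul, hzω] at h2
  set E₀ : ∀ i, Finset (Place k (Fb i)) := fun i =>
    (divisorOf k (R.φ i ⟨_, (R.exists_scale i f hf).choose_spec.choose⟩)).support.filter
      fun v => ¬ (p : ℤ) ∣ resOrd R i v f with hE₀
  have hE : ∀ i v, v ∉ E₀ i → (p : ℤ) ∣ resOrd R i v f := fun i v hv => by
    by_contra hd
    refine hv (Finset.mem_filter.2 ⟨?_, hd⟩)
    rw [Finsupp.mem_support_iff, divisorOf_apply]
    intro h0
    exact hd (by rw [resOrd, dif_neg hf, h0]; exact dvd_zero _)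
  obtain ⟨a, Φ', h', N, hpN, hΦ'L, hgΦ', hs', hh', hB', hoff⟩ :=
    exists_perturbation G hA hq hn0 hg hper hcd zc hzc hfix hΦ hgΦ hh hs E₀
  obtain ⟨i₀⟩ := R.nonempty
  have hΦ'0 : Φ' ≠ 0 := by
    rintro rfl
    obtain ⟨h1, e1⟩ := hs' i₀
    exact hh' i₀ (e1.symm.trans ((congrArg _ (Subtype.ext (smul_zero _))).trans (map_zero _)))
  have hord : ∀ j (w : Place k (Fb j)), resOrd R j w Φ' = w.ord (h' j) := fun j w => by
    obtain ⟨h1, e1⟩ := hs' j
    rw [resOrd_eq w h1 (by rw [e1]; exact hh' j), e1]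
  have hordΦ : ∀ j (w : Place k (Fb j)), resOrd R j w Φ = w.ord (h j) := fun j w => by
    obtain ⟨h1, e1⟩ := hs j
    rw [resOrd_eq w h1 (by rw [e1]; exact hh j), e1]
  -- the ratio of `Φ'`
  choose zt hzt hπt using fun i => exists_scale_pow hg (hz i) (q ^ a)
  have hω' : IsRatio R (g ^ q ^ a) n Φ' (ωΦ ^ q ^ a) :=
    ⟨b, h', zt, hb, hh', hs', hzt, fun i => by rw [hπt, hzω, Pi.pow_apply],
      fun i => by rw [hπt]; exact pow_ne_zero _ (hz0 i)⟩
  have hsep' : ∀ i j, i ≠ j → (ωΦ ^ q ^ a) i ≠ (ωΦ ^ q ^ a) j := by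
    intro i j hij e
    refine hsep i j hij ?_
    have hne : ωΦ j ≠ 0 := fun h0 => by
      have := hωp j; rw [h0, zero_pow hn0.ne'] at this; exact zero_ne_one this
    have h1 : (ωΦ i / ωΦ j) ^ n = 1 := by rw [div_pow, hωp, hωp, div_one]
    have h2 : (ωΦ i / ωΦ j) ^ q ^ a = 1 := by
      simp only [Pi.pow_apply] at e
      rw [div_pow, e, div_self (pow_ne_zero _ hne)]
    have hcop : Nat.gcd n (q ^ a) = 1 :=
      Nat.Coprime.pow_right a (Nat.coprime_comm.1 (hq.coprime_iff_not_dvd.2 hqn))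
    have h3 := pow_gcd_eq_one.2 ⟨h1, h2⟩
    rw [hcop, pow_one] at h3
    exact (div_eq_one_iff_eq hne).1 h3
  have hgf' : g ^ q ^ a • f = f := by
    have hpow : ∀ t : ℕ, g ^ t • f = f := fun t => by
      induction t with
      | zero => rw [pow_zero, one_smul]
      | succ t ih => rw [pow_succ, mul_smul, hgf, ih]
    exact hpow _
  -- the counted points
  set P : ∀ i, Divisor k (Fb i) := fun i => poleDivisor k (R.xb i) with hPdef
  set Δ : ∀ i, Divisor k (Fb i) := fun i => divisorOf k (h' i) + N • P i with hΔ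
  have hΔv : ∀ i v, Δ i v = v.ord (h' i) + (N : ℤ) * P i v := fun i v => by
    simp only [hΔ, Finsupp.add_apply, Finsupp.smul_apply, divisorOf_apply, nsmul_eq_mul]
  set T : ∀ i, Finset (Place k (Fb i)) := fun i => (Δ i).support \ branchesOn G i with hTdef
  have hTmem : ∀ i, ∀ v ∈ T i, (⟨i, v⟩ : Σ i, Place k (Fb i)) ∉ G.B ∧ Δ i v = 1 ∧ v ∉ E₀ i := by
    intro i v hv
    rw [hTdef, Finset.mem_sdiff, Finsupp.mem_support_iff, mem_branchesOn] at hv
    obtain ⟨h0, h1, h2⟩ := hoff i v hv.2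
    have hne := hv.1
    rw [hΔv] at hne ⊢
    simp only [hPdef] at hne ⊢
    refine ⟨hv.2, by omega, fun hE' => hne (h2 hE')⟩
  have hcard : ∀ i, ((T i).card : ℤ) =
      N * Divisor.degree (P i) - ∑ v ∈ branchesOn G i, v.ord (h i) := by
    intro i
    have hd : Divisor.degree (Δ i) = N * Divisor.degree (P i) := by
      rw [hΔ, map_add, degree_divisorOf, zero_add, map_nsmul, nsmul_eq_mul]
    rw [← hd, degree_eq_finset_sum _ (T := T i ∪ branchesOn G i) (by
        rw [hTdef, Finset.sdiff_union_self_eq_union]; exact Finset.subset_union_left),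
      Finset.sum_union (by rw [hTdef]; exact Finset.sdiff_disjoint)]
    have h1 : ∑ v ∈ T i, Δ i v = (T i).card := by
      rw [Finset.sum_congr rfl fun v hv => (hTmem i v hv).2.1]
      simp
    have h2 : ∑ v ∈ branchesOn G i, Δ i v = ∑ v ∈ branchesOn G i, v.ord (h i) :=
      Finset.sum_congr rfl fun v hv => by
        rw [hΔv, hB' i v ((mem_branchesOn G).1 hv), hPdef]
        simp only [poleDivisor_apply]
        rw [max_eq_right (neg_nonpos.2 (G.regular _ ((mem_branchesOn G).1 hv))), mul_zero,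
          add_zero]
    rw [h1, h2, add_sub_cancel_right]
  refine dvd_resOrd_of_count G hA hG hpart hB (isInertial_pow hg (q ^ a)) hp hd hf hgf' hdiv
    (isRatio_powAut hg hω (q ^ a)) (fun i j => by simp only [Pi.pow_apply, hωc i j]) hΦ'0 hgΦ'
    hω' hsep' (fun x hx => by rw [hord, hB' _ _ hx, ← hordΦ]; exact hBd x hx) T
    (fun i v hv => ?_) ?_ i v
  · obtain ⟨h1, h2, h3⟩ := hTmem i v hv
    refine ⟨h1, hE i v h3, fun hd => ?_⟩
    rw [hord, show v.ord (h' i) = 1 - (N : ℤ) * P i v by rw [← h2, hΔv]; ring] at hd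
    have h4 : (n : ℤ) ∣ (N : ℤ) * P i v := (Int.natCast_dvd_natCast.2 hpN).mul_right _
    have h5 := dvd_add hd h4
    rw [sub_add_cancel, Int.natCast_dvd_ofNat] at h5
    exact hp.ne_one (Nat.eq_one_of_mul_eq_one_right (Nat.dvd_one.1 (by exact_mod_cast h5)))
  · set D : Divisor K F := divisorOf K Φ' + N • R.poleX with hD
    have hD0 : 0 ≤ D := fun v => by
      have h1 := (mem_L_iff hΦ'0).1 hΦ'L v
      simp only [hD, Finsupp.add_apply, divisorOf_apply, Finsupp.coe_zero, Pi.zero_apply] at h1 ⊢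
      linarith
    have hsub : ({v | ¬ (n : ℤ) ∣ v.ord Φ'} : Set (Place K F)) ⊆ ↑D.support := by
      intro v hv
      rw [SetLike.mem_coe, Finsupp.mem_support_iff]
      intro h0
      refine hv ?_
      simp only [hD, Finsupp.add_apply, Finsupp.smul_apply, divisorOf_apply, nsmul_eq_mul] at h0
      rw [eq_neg_of_add_eq_zero_left h0]
      exact ((Int.natCast_dvd_natCast.2 hpN).mul_right _).neg_right
    have h1 := Set.ncard_le_ncard hsub D.support.finite_toSet
    rw [Set.ncard_coe_finset] at h1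
    have h2 : (D.support.card : ℤ) ≤ Divisor.degree D := by
      rw [degree_eq_finset_sum D (Finset.Subset.refl _), Finset.card_eq_sum_ones, Nat.cast_sum]
      refine Finset.sum_le_sum fun v hv => ?_
      have : 0 ≤ D v := hD0 v
      have := Finsupp.mem_support_iff.1 hv
      omega
    have h3 : Divisor.degree D = ∑ i, (N : ℤ) * Divisor.degree (P i) := by
      rw [hD, map_add, degree_divisorOf, zero_add, R.degree_nsmul_poleX]
      push_cast
      rw [Finset.mul_sum]
      refine Finset.sum_congr rfl fun i _ => ?_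
      rw [hPdef, degree_poleDivisor (t := R.xb i) (R.x_transcendental i)]
    have h4 : ∑ i, ∑ v ∈ branchesOn G i, v.ord (h i) ≤ 0 := by
      refine le_trans (le_of_eq ?_) hsum
      rw [Finset.sum_sigma']
      refine Finset.sum_congr ?_ fun x _ => (hordΦ x.1 x.2).symm
      ext ⟨i, v⟩
      simp [mem_branchesOn]
    have h5 : (∑ i, ((T i).card : ℤ)) =
        (∑ i, (N : ℤ) * Divisor.degree (P i)) - ∑ i, ∑ v ∈ branchesOn G i, v.ord (h i) := by
      rw [← Finset.sum_sub_distrib]; exact Finset.sum_congr rfl fun i _ => hcard i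
    have h6 : ((∑ i, (T i).card : ℕ) : ℤ) = ∑ i, ((T i).card : ℤ) := by push_cast; rfl
    rw [← hn]
    omega

end Fermat.Agent.Ribet.Slot

end
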