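/-
Mazur's principle at `q ≠ p`: the branches avoid the cusps.

The branches of a gluing of the special fibre of `X₀(M q)` at `q` avoid the cusps: the function
`P (j_q) / P (j) ^ q` is `1` at the cusps of one component and `0` at those of the other.  A unit
`U` with neither zeros nor poles at finite `j`, scaled by `1` and `q ^ e` on the two components,
times a power of `x`, is the auxiliary function of the slope theorem.
-/
import Fermat.Agent.Ribet.SecondMPFill
import Fermat.Agent.Residual.LowerUnit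
import Fermat.Agent.Residual.LowerRep
import Fermat.Agent.Residual.LowerSeparate
import Fermat.Agent.BadReduction.X0Compat
import Fermat.Agent.BadReduction.X0DegreeBound
import Fermat.Agent.BadReduction.X0Sections

set_option autoImplicit false
set_option linter.style.haveILetI false
set_option linter.unusedSectionVars false
set_option synthInstance.maxHeartbeats 400000

noncomputable section

open ModularCurve IntermediateField IsLocalRing AlgebraicCurve Polynomial
open Fermat.Agent.Curve Fermat.Agent.Curve.RedAux Fermat.Agent.Bad Fermat.Agent.BadReduction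
open Fermat.Agent.Bad.MultiReduction Fermat.Agent.MazurPrinciple
open Fermat.Agent.Residual.Lower Fermat.Agent.Ribet.Slot

namespace Fermat.Agent.Ribet.MP

local notation "ℚbar" => AlgebraicClosure ℚ
local notation "Γℚ" => AlgebraicClosure ℚ ≃ₐ[ℚ] AlgebraicClosure ℚ

section Abstract

variable {K : Type*} [Field K] [IsAlgClosed K] {A : ValuationSubring K}
  {F : Type*} [Field F] [Algebra K F] [IsFunctionFieldOne K F]
  {k : Type*} [Field k] [IsAlgClosed k] {E : Type*} [Field E] [Algebra k E]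
  [IsFunctionFieldOne k E] {R : MultiReduction A F k (fun _ : Fin 2 => E)} (G : Gluing R)

/-- A function with values `1` and `0` at the zeros of `x` on the two components keeps the
branches away from them. -/
theorem ord_xb_eq_zero_of_cuspFun
    (hpart : ∀ b : ↥G.B, ∃ b' : ↥G.B, G.pt b = G.pt b' ∧
      (b : Σ _ : Fin 2, Place k E).1 ≠ (b' : Σ _ : Fin 2, Place k E).1)
    {y : F} (hint : y ∈ R.integers) {N : ℕ} (hy : y ∈ R.polarSp N) {t : E} (ht : t ≠ 0) {m : ℕ}
    (_hm : m ≠ 0) (hxb : ∀ i, R.xb i = t ^ m) {u : E}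
    (h0 : R.φ 0 ⟨y, R.mem_integers.1 hint 0⟩ = 1) (h1 : R.φ 1 ⟨y, R.mem_integers.1 hint 1⟩ = u)
    (e : ∀ w : Place k E, 0 < w.ord (t ^ m) → 0 < w.ord u)
    {b : Σ _ : Fin 2, Place k E} (hb : b ∈ G.B) : b.2.ord (R.xb b.1) = 0 := by
  classical
  have hfib : R.red ⟨y, hint⟩ ∈ R.spFibre (R.polarSp N) := ⟨⟨y, hint⟩, hy, rfl⟩
  have hxfib : (fun i => R.xb i) ∈ R.spFibre (R.polarSp 1) := R.xb_mem_spFibre_polar
  by_contra hne
  have hpos : 0 < b.2.ord (R.xb b.1) := lt_of_le_of_ne (G.regular b hb) (Ne.symm hne)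
  obtain ⟨b', hbb', hne'⟩ := hpart ⟨b, hb⟩
  obtain ⟨⟨i', v'⟩, hb'⟩ := b'
  obtain ⟨i, v⟩ := b
  simp only at hne' hbb' hpos
  -- `x` vanishes at both branches
  have hpos' : 0 < v'.ord (R.xb i') := by
    have hm : placeValue v (R.xb i) = placeValue v' (R.xb i') := G.matched 1 _ hxfib _ _ hbb'
    rw [(placeValue_eq_zero_iff v (mem_of_ord_nonneg v hpos.le)).2 (Or.inr hpos)] at hm
    have hr : 0 ≤ v'.ord (R.xb i') := G.regular ⟨i', v'⟩ hb'
    exact ((placeValue_eq_zero_iff v' (mem_of_ord_nonneg v' hr)).1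
      hm.symm).resolve_left (by rw [hxb]; exact pow_ne_zero _ ht)
  have hm := G.matched N _ hfib _ _ hbb'
  simp only [bval, R.red_apply] at hm
  have hzero : ∀ w : Place k E, 0 < w.ord (t ^ m) → placeValue w u = 0 := fun w hw =>
    (placeValue_eq_zero_iff w (mem_of_ord_nonneg w (e w hw).le)).2 (Or.inr (e w hw))
  rw [hxb] at hpos hpos'
  fin_cases i <;> fin_cases i'
  · exact hne' rfl
  · change placeValue v (R.φ 0 ⟨y, _⟩) = placeValue v' (R.φ 1 ⟨y, _⟩) at hm
    rw [h0, h1, placeValue_one, hzero _ hpos'] at hm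
    exact one_ne_zero hm
  · change placeValue v (R.φ 1 ⟨y, _⟩) = placeValue v' (R.φ 0 ⟨y, _⟩) at hm
    rw [h0, h1, placeValue_one, hzero _ hpos] at hm
    exact zero_ne_one hm
  · exact hne' rfl

end Abstract

variable {M q : ℕ} [NeZero M] [hq : Fact q.Prime]

local instance neZero_primeMPCusp : NeZero q := ⟨hq.out.ne_zero⟩

local notation "αF" => heckeAlphaBar ℚbar M q
local notation "βF" => heckeBetaBar ℚbar M q

/-- The order of a monic integral polynomial at a pole of its argument. -/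
theorem ord_aeval_monic_of_neg {K F : Type*} [Field K] [Field F] [Algebra K F] {v : Place K F}
    {P : ℤ[X]} (hP : P.Monic) {z : F} (hz : v.ord z < 0) :
    v.ord (aeval z P) = P.natDegree * v.ord z := by
  rw [aeval_int_eq, ← aeval_map_int (k := K),
    ord_aeval_of_ord_neg v _ (hP.map (Int.castRingHom K)).ne_zero hz,
    hP.natDegree_map (Int.castRingHom K)]

/-- On `X₀(q)`, at a pole of `j` the pole of `j_q` is at most `q` times as large. -/
theorem mul_ord_le_ord_atkinLehner_one (hq1 : ¬ q ∣ 1) (v : Place ℚbar (X0F 1 q))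
    (h : v.ord (Igusa.jBar (1 * q)) < 0) :
    (q : ℤ) * v.ord (Igusa.jBar (1 * q)) ≤ v.ord (atkinLehner hq1 (Igusa.jBar (1 * q))) := by
  classical
  haveI := IsFunctionFieldOne.isCurveOver (K := ℚbar) (F := X0F 1 q)
  have hwint := Curve.isIntegral_toRingHom (atkinLehner hq1).toAlgHom
  set Z := (unitInf 1 q).restrictAlong (atkinLehner hq1).toAlgHom hwint with hZdef
  set e := Place.ramificationIndexAlong (atkinLehner hq1).toAlgHom (unitInf 1 q) with he
  have hw : ∀ f, (unitInf 1 q).ord (atkinLehner hq1 f) = (e : ℤ) * Z.ord f := fun f =>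
    Place.ord_restrictAlong _ hwint _ f
  have hUinf : (unitInf 1 q).ord (modUnit 1 q) = (q : ℤ) - 1 := by
    rw [ord_unitInf, order_coe_modUnit]
  have hwU : (unitInf 1 q).ord (atkinLehner hq1 (modUnit 1 q)) = 1 - (q : ℤ) := by
    have h1 := congrArg (unitInf 1 q).ord (modUnit_mul_atkinLehner hq1)
    rw [Place.ord_mul _ (modUnit_ne_zero 1 q) ((_root_.map_ne_zero _).2 (modUnit_ne_zero 1 q)),
      ord_algebraMap, hUinf] at h1
    omega
  have hwj := ord_atkinLehner_jBar (M := 1) hq1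
  have hwj' := hwj
  rw [hw] at hwU hwj
  have he1 : (e : ℤ) = 1 := by
    have h1 : (e : ℤ) * -(Z.ord (modUnit 1 q) + -Z.ord (Igusa.jBar (1 * q))) = -1 := by
      rw [neg_add, neg_neg, mul_add, mul_neg, hwU, hwj]; ring
    rcases Int.eq_one_or_neg_one_of_mul_eq_neg_one' h1 with h2 | h2
    · exact h2.1
    · have := h2.1; omega
  rw [he1, one_mul] at hwU hwj
  have hjinf : (unitInf 1 q).ord (Igusa.jBar (1 * q)) = -1 := by
    rw [ord_unitInf, order_coe_jBar]
  have hq2 := hq.out.two_le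
  have hne : unitInf 1 q ≠ Z := fun hh => by
    rw [hh, hwj] at hjinf
    omega
  have hα : heckeAlphaBar ℚbar 1 q (Igusa.jBar 1) = Igusa.jBar (1 * q) := heckeAlphaBar_jBar
  have hZw : Z.ord (atkinLehner hq1 (Igusa.jBar (1 * q))) = -1 := by
    have h1 := hw (atkinLehner hq1 (Igusa.jBar (1 * q)))
    have h2 : atkinLehner hq1 (atkinLehner hq1 (Igusa.jBar (1 * q))) = Igusa.jBar (1 * q) := by
      rw [← hα, atkinLehner_alpha, atkinLehner_beta]
    rw [h2, hjinf, he1, one_mul] at h1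
    exact h1.symm
  -- the pole divisor of `j`
  have hjtr : Transcendental ℚbar (Igusa.jBar (1 * q)) :=
    transcendental_of_ord_ne_zero (unitInf 1 q) (by rw [hjinf]; omega)
  have hdeg : Divisor.degree (poleDivisor ℚbar (Igusa.jBar (1 * q))) = (q : ℤ) + 1 := by
    rw [degree_poleDivisor hjtr]
    have h1 := Igusa.GaussX0.finrank_jField (M := 1 * q)
    rw [Igusa.JField] at h1
    rw [h1, one_mul, show dedekindPsi q = q + 1 by
      simpa using Gamma0.dedekindPsi_prime_pow hq.out 0]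
    push_cast
    ring
  have hv : v = unitInf 1 q ∨ v = Z := by
    by_contra hcon
    push Not at hcon
    have hle : Finsupp.single (unitInf 1 q) (1 : ℤ) + Finsupp.single Z (q : ℤ) +
        Finsupp.single v 1 ≤ poleDivisor ℚbar (Igusa.jBar (1 * q)) := by
      intro P
      simp only [Finsupp.add_apply, Finsupp.single_apply, poleDivisor_apply]
      by_cases h1 : unitInf 1 q = P
      · subst h1
        rw [if_pos rfl, if_neg hne.symm, if_neg hcon.1, hjinf]
        simp
      by_cases h2 : Z = P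
      · subst h2
        rw [if_neg hne, if_pos rfl, if_neg hcon.2, hwj]
        simp
      by_cases h3 : v = P
      · subst h3
        rw [if_neg h1, if_neg h2, if_pos rfl]
        omega
      · rw [if_neg h1, if_neg h2, if_neg h3]
        simp
    have h4 := RedAux.degree_mono hle
    rw [map_add, map_add, Divisor.degree_single, Divisor.degree_single, Divisor.degree_single,
      IsCurveOver.deg_eq_one_of_isAlgClosed, IsCurveOver.deg_eq_one_of_isAlgClosed,
      IsCurveOver.deg_eq_one_of_isAlgClosed, hdeg] at h4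
    omega
  rcases hv with rfl | rfl
  · rw [hjinf, hwj']; omega
  · rw [hwj, hZw]; nlinarith

/-- The same on `X₀(M q)`. -/
theorem mul_ord_le_ord_beta_jBar (hqM : ¬ q ∣ M) (v : Place ℚbar (X0F M q))
    (h : v.ord (αF (Igusa.jBar M)) < 0) :
    (q : ℤ) * v.ord (αF (Igusa.jBar M)) ≤ v.ord (βF (Igusa.jBar M)) := by
  have hq1 : ¬ q ∣ 1 := hq.out.not_dvd_one
  have hle := mem_bar_of_dvd (a := 1 * q) (b := M * q) (by rw [one_mul]; exact dvd_mul_left q M)
  let i : X0F 1 q →ₐ[ℚbar] X0F M q := IntermediateField.inclusion hle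
  have hi := Curve.isIntegral_toRingHom i
  have e1 : i (Igusa.jBar (1 * q)) = αF (Igusa.jBar M) := by
    rw [heckeAlphaBar_jBar]
    refine Subtype.ext ?_
    show ((Igusa.jBar (1 * q) : X0F 1 q) : LaurentSeries ℚbar) = _
    rw [Igusa.coe_jBar, Igusa.coe_jBar]
  have e2 : i (atkinLehner hq1 (Igusa.jBar (1 * q))) = βF (Igusa.jBar M) := by
    refine Subtype.ext ?_
    rw [coe_heckeBetaBar_jBar, ← heckeAlphaBar_jBar (M := 1), atkinLehner_alpha]
    exact coe_heckeBetaBar_jBar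
  rw [← e1, Place.ord_restrictAlong i hi v] at h ⊢
  rw [← e2, Place.ord_restrictAlong i hi v, mul_left_comm]
  refine mul_le_mul_of_nonneg_left (mul_ord_le_ord_atkinLehner_one hq1 _ ?_) (Int.natCast_nonneg _)
  by_contra h0
  exact absurd h (not_lt.2 (mul_nonneg (Int.natCast_nonneg _) (not_lt.1 h0)))

variable (hqM : ¬ q ∣ M) (A : ValuationSubring ℚbar) (hA : A.LiesOverPrime q)

include hqM in
theorem x0Fun_eq :
    x0Fun (q := q) hqM = αF (cubicJM M q)⁻¹ * βF (cubicJM M q)⁻¹ := by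
  rw [map_inv₀, map_inv₀, heckeAlphaBar_cubicJM, heckeBetaBar_cubicJM hqM, ← mul_inv]
  rfl

include hqM in
/-- `P (j_q) / P (j) ^ q` has poles bounded by `q` times those of `x`. -/
theorem cuspFun_mem_polarSp :
    (αF (cubicJM M q)⁻¹) ^ q * (βF (cubicJM M q)⁻¹)⁻¹ ∈
      (x0Reduction hqM A hA).polarSp q := by
  have hd : (cubic q).natDegree ≠ 0 := by rw [cubic_natDegree]; norm_num
  have ha0 : αF (cubicJM M q) ≠ 0 := by rw [heckeAlphaBar_cubicJM]; exact cubicJ_ne_zero
  have hb0 : βF (cubicJM M q) ≠ 0 := by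
    rw [heckeBetaBar_cubicJM hqM]; exact (_root_.map_ne_zero _).2 cubicJ_ne_zero
  rw [map_inv₀, map_inv₀, inv_inv]
  refine (mem_L_iff (mul_ne_zero (pow_ne_zero _ (inv_ne_zero ha0)) hb0)).2 fun v => ?_
  show _ ≤ _
  rw [v.ord_mul (pow_ne_zero _ (inv_ne_zero ha0)) hb0, ord_pow, v.ord_inv, Finsupp.smul_apply,
    nsmul_eq_mul]
  show -((q : ℤ) * poleDivisor ℚbar (x0Fun hqM) v) ≤ _
  rw [x0Fun_eq hqM, map_inv₀, map_inv₀, poleDivisor_apply,
    v.ord_mul (inv_ne_zero ha0) (inv_ne_zero hb0), v.ord_inv, v.ord_inv]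
  have hca : αF (cubicJM M q) = aeval (αF (Igusa.jBar M)) (cubic q) := by
    rw [cubicJM]; exact map_aeval_int (αF).toRingHom _ _
  have hcb : βF (cubicJM M q) = aeval (βF (Igusa.jBar M)) (cubic q) := by
    rw [cubicJM]; exact map_aeval_int (βF).toRingHom _ _
  rcases le_or_gt 0 (v.ord (αF (Igusa.jBar M))) with hj | hj
  · have h1 : 0 ≤ v.ord (αF (cubicJM M q)) := by
      rw [← mem_iff_ord_nonneg, hca, aeval_mem_place_iff v cubic_monic hd, mem_iff_ord_nonneg]
      exact hj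
    have h2 : 0 ≤ v.ord (βF (cubicJM M q)) := by
      rw [← mem_iff_ord_nonneg, hcb, aeval_mem_place_iff v cubic_monic hd, beta_jBar_mem_iff hqM,
        mem_iff_ord_nonneg]
      exact hj
    rw [max_eq_left (by omega)]
    nlinarith
  · have hjb : v.ord (βF (Igusa.jBar M)) < 0 := by
      by_contra h0
      have h1 := (beta_jBar_mem_iff hqM v).1 ((mem_iff_ord_nonneg v).2 (not_lt.1 h0))
      rw [mem_iff_ord_nonneg] at h1
      omega
    have hle := mul_ord_le_ord_beta_jBar hqM v hj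
    rw [hca, hcb, ord_aeval_monic_of_neg cubic_monic hj, ord_aeval_monic_of_neg cubic_monic hjb,
      cubic_natDegree]
    have h0 : 0 ≤ max (-(-((3 : ℕ) * v.ord (αF (Igusa.jBar M))) +
        -((3 : ℕ) * v.ord (βF (Igusa.jBar M))))) 0 := le_max_right _ _
    push_cast at h0 ⊢
    nlinarith

variable [CharP (ResidueField A) q] [IsAlgClosed (ResidueField A)]

include hA in
/-- **The branches avoid the cusps.** -/
theorem ord_xb_eq_zero (G : Gluing (x0Reduction hqM A hA))
    (hpart : ∀ b : ↥G.B, ∃ b' : ↥G.B, G.pt b = G.pt b' ∧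
      (b : Σ _ : Fin 2, Place (ResidueField A) (X0Res M A)).1 ≠
        (b' : Σ _ : Fin 2, Place (ResidueField A) (X0Res M A)).1)
    {b : Σ _ : Fin 2, Place (ResidueField A) (X0Res M A)} (hb : b ∈ G.B) :
    b.2.ord ((x0Reduction hqM A hA).xb b.1) = 0 := by
  classical
  let R := x0Reduction hqM A hA
  obtain ⟨ht0, hφt, htt, -⟩ := exists_cubicJM_inv_reduction hqM A hA
  set t : X0Res M A := (aeval (jRes M A) (cubic q))⁻¹ with htdef
  have ht : t ≠ 0 := fun h => htt (h ▸ isAlgebraic_zero)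
  obtain ⟨a0, ea0⟩ := compPhi_zero_alpha hqM A hA ⟨_, ht0⟩
  obtain ⟨a1, ea1⟩ := compPhi_one_alpha hqM A hA ⟨_, ht0⟩
  obtain ⟨b0, eb0⟩ := compPhi_zero_beta hqM A hA ⟨_, ht0⟩
  obtain ⟨b1, eb1⟩ := compPhi_one_beta hqM A hA ⟨_, ht0⟩
  rw [hφt] at ea0 ea1 eb0 eb1
  have hxb : ∀ i, R.xb i = t ^ (q + 1) := fun i =>
    (compPhi_x0Fun hqM A hA i).trans (x0FunBar_eq_pow A)
  -- the residual Frobenius of `t`
  have hres : resPhi (ResidueField A) q M t = t ^ q := by
    have h1 := hxb 0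
    rw [show R.xb 0 = compPhi hqM A hA 0 (⟨_, a0⟩ * ⟨_, b0⟩) from
      congrArg (compPhi hqM A hA 0) (Subtype.ext (x0Fun_eq hqM)), map_mul, ea0, eb0,
      pow_succ'] at h1
    exact mul_left_cancel₀ ht h1
  rw [hres] at ea1 eb0
  set y : X0F M q := (αF (cubicJM M q)⁻¹) ^ q * (βF (cubicJM M q)⁻¹)⁻¹ with hy
  have hyi : ∀ i, ∃ h : y ∈ R.V i,
      R.φ i ⟨y, h⟩ = if i = 0 then 1 else t ^ (q * q) * t⁻¹ := by
    have hb0' : compPhi hqM A hA 0 ⟨_, b0⟩ ≠ 0 := by rw [eb0]; exact pow_ne_zero _ ht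
    have hb1' : compPhi hqM A hA 1 ⟨_, b1⟩ ≠ 0 := by rw [eb1]; exact ht
    have key : ∀ (j : Fin 2) (a : αF (cubicJM M q)⁻¹ ∈ compV hqM A j)
        (b : βF (cubicJM M q)⁻¹ ∈ compV hqM A j) (hne : compPhi hqM A hA j ⟨_, b⟩ ≠ 0),
        ∃ h : y ∈ R.V j, R.φ j ⟨y, h⟩ =
          compPhi hqM A hA j ⟨_, a⟩ ^ q * (compPhi hqM A hA j ⟨_, b⟩)⁻¹ := by
      intro j a b hne
      have hinv : (βF (cubicJM M q)⁻¹)⁻¹ ∈ R.V j :=
        R.inv_mem_V (i := j) (f := ⟨_, b⟩) hne
      refine ⟨mul_mem (pow_mem a q) hinv, ?_⟩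
      have h2 : R.φ j ⟨_, hinv⟩ * compPhi hqM A hA j ⟨_, b⟩ = 1 := by
        show R.φ j ⟨_, hinv⟩ * R.φ j ⟨_, b⟩ = 1
        rw [← map_mul, ← map_one (R.φ j)]
        refine congrArg _ (Subtype.ext (inv_mul_cancel₀ fun h0 => hne ?_))
        exact (congrArg _ (Subtype.ext h0)).trans (map_zero _)
      rw [← eq_inv_of_mul_eq_one_left h2,
        show (⟨y, mul_mem (pow_mem a q) hinv⟩ : R.V j) =
          (⟨_, a⟩ : R.V j) ^ q * ⟨_, hinv⟩ from rfl, map_mul, map_pow]
      rfl
    refine Fin.forall_fin_two.2 ⟨?_, ?_⟩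
    · obtain ⟨h, e⟩ := key 0 a0 b0 hb0'
      exact ⟨h, by rw [e, ea0, eb0, mul_inv_cancel₀ (pow_ne_zero _ ht), if_pos rfl]⟩
    · obtain ⟨h, e⟩ := key 1 a1 b1 hb1'
      exact ⟨h, by rw [e, ea1, eb1, ← pow_mul, if_neg (by decide)]⟩
  have hint : y ∈ R.integers := R.mem_integers.2 fun i => (hyi i).choose
  refine ord_xb_eq_zero_of_cuspFun G hpart hint (cuspFun_mem_polarSp hqM A hA) ht
    (Nat.succ_ne_zero q) hxb (u := t ^ (q * q) * t⁻¹) ((hyi 0).choose_spec.trans (if_pos rfl))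
    ((hyi 1).choose_spec.trans (if_neg (by decide))) (fun w hw => ?_) hb
  rw [ord_pow] at hw
  have h1 : 0 < w.ord t := pos_of_mul_pos_right hw (by positivity)
  rw [w.ord_mul (pow_ne_zero _ ht) (inv_ne_zero ht), ord_pow, show w.ord t⁻¹ = -(w.ord t) from w.ord_inv t]
  have hw' : 0 < w.ord t := by
    by_contra hle
    nlinarith [Int.natCast_nonneg q, mul_le_mul_of_nonneg_left (not_lt.1 hle) (Int.natCast_nonneg (q + 1))]
  have : 4 ≤ q * q := Nat.mul_le_mul hq.out.two_le hq.out.two_le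
  have h4 : (4 : ℤ) ≤ ((q * q : ℕ) : ℤ) := by exact_mod_cast this
  have := mul_le_mul_of_nonneg_right h4 hw'.le
  linarith

end Fermat.Agent.Ribet.MP

end
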