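/-
Mazur's principle at `q ≠ p`: the auxiliary function.

The branches of a gluing of the special fibre of `X₀(M q)` at `q` avoid the cusps: the function
`P (j_q) / P (j) ^ q` is `1` at the cusps of one component and `0` at those of the other.  A unit
`U` with neither zeros nor poles at finite `j`, scaled by `1` and `q ^ e` on the two components,
times a power of `x`, is the auxiliary function of the slope theorem.
-/
import Fermat.Agent.Ribet.SecondMPFill
import Fermat.Agent.Residual.LowerUnit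
import Fermat.Agent.Residual.LowerRep
import Fermat.Agent.Residual.LowerSeparate
import Fermat.Agent.BadReduction.X0Compat
import Fermat.Agent.BadReduction.X0Sections
import Fermat.Agent.Ribet.SecondMPCusp

set_option autoImplicit false
set_option linter.style.haveILetI false
set_option linter.unusedSectionVars false
set_option synthInstance.maxHeartbeats 400000

noncomputable section

open ModularCurve IntermediateField IsLocalRing AlgebraicCurve Polynomial
open Fermat.Agent.Curve Fermat.Agent.Curve.RedAux Fermat.Agent.Bad Fermat.Agent.BadReduction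
open Fermat.Agent.Bad.MultiReduction Fermat.Agent.MazurPrinciple
open Fermat.Agent.Residual.Lower Fermat.Agent.Ribet.Slot

namespace Fermat.Agent.Ribet.MP

local notation "ℚbar" => AlgebraicClosure ℚ
local notation "Γℚ" => AlgebraicClosure ℚ ≃ₐ[ℚ] AlgebraicClosure ℚ

section Abstract

variable {K : Type*} [Field K] [IsAlgClosed K] {A : ValuationSubring K}
  {F : Type*} [Field F] [Algebra K F] [IsFunctionFieldOne K F]
  {k : Type*} [Field k] {E : Type*} [Field E] [Algebra k E]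
  [IsFunctionFieldOne k E] {R : MultiReduction A F k (fun _ : Fin 2 => E)}
  {g : SemilinearAut K F}

/-- The ratio of a function with scalings `1` and `(b ^ n)⁻¹`. -/
theorem isRatio_two {n : ℕ} {U : F} (hU₀ : ∃ h : U ∈ R.V 0, R.φ 0 ⟨U, h⟩ ≠ 0) {b : K}
    (hb : b ≠ 0) (hU₁ : ∃ h : (b ^ n)⁻¹ • U ∈ R.V 1, R.φ 1 ⟨_, h⟩ ≠ 0) {z : A}
    (hz : (z : K) * SemilinearAut.baseAut g b = b) (hz0 : R.π z ≠ 0) :
    IsRatio R g n U ![1, R.π z] := by
  obtain ⟨h0, h0ne⟩ := hU₀
  obtain ⟨h1, h1ne⟩ := hU₁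
  refine ⟨![1, b], fun i => if i = 0 then R.φ 0 ⟨U, h0⟩ else R.φ 1 ⟨_, h1⟩, ![1, z],
    Fin.forall_fin_two.2 ⟨one_ne_zero, hb⟩,
    Fin.forall_fin_two.2 ⟨by simpa using h0ne, by simpa using h1ne⟩,
    Fin.forall_fin_two.2 ⟨?_, ?_⟩, Fin.forall_fin_two.2 ⟨by simp, hz⟩,
    Fin.forall_fin_two.2 ⟨by simp, rfl⟩, Fin.forall_fin_two.2 ⟨by simp, hz0⟩⟩
  · have he : ((![1, b] : Fin 2 → K) ^ n)⁻¹ 0 • U = U := by simp
    refine ⟨by rw [he]; exact h0, ?_⟩
    show _ = R.φ 0 ⟨U, h0⟩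
    exact congrArg _ (Subtype.ext he)
  · refine ⟨h1, ?_⟩
    show _ = R.φ 1 ⟨_, h1⟩
    rfl

end Abstract

section AbstractGeneral

universe uK uF uι uk uFb

variable {K : Type uK} [Field K] [IsAlgClosed K] {A : ValuationSubring K}
  {F : Type uF} [Field F] [Algebra K F] [IsFunctionFieldOne K F] {ι : Type uι} [Fintype ι]
  {k : Type uk} [Field k] {Fb : ι → Type uFb} [∀ i, Field (Fb i)] [∀ i, Algebra k (Fb i)]
  [∀ i, IsFunctionFieldOne k (Fb i)] {R : MultiReduction A F k Fb} {g : SemilinearAut K F}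

/-- The inverse of a ratio. -/
theorem isRatio_inv {n : ℕ} {U : F} {ω : ι → k} (h : IsRatio R g n U ω) :
    IsRatio R g n U⁻¹ ω⁻¹ := by
  obtain ⟨b, hh, z, hb, hh0, hs, hz, hω, hz0⟩ := h
  have hu : ∀ i, IsUnit (z i) := fun i => by
    by_contra hu
    exact hz0 i ((R.π_eq_zero_iff _).2 hu)
  have hv : ∀ i, R.π (((hu i).unit⁻¹ : Aˣ) : A) = (R.π (z i))⁻¹ := fun i => by
    refine eq_inv_of_mul_eq_one_left ?_
    rw [← map_mul, (hu i).val_inv_mul, map_one]
  refine ⟨b⁻¹, hh⁻¹, fun i => (((hu i).unit⁻¹ : Aˣ) : A), fun i => inv_ne_zero (hb i),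
    fun i => inv_ne_zero (hh0 i), ?_, fun i => ?_, fun i => ?_, fun i => ?_⟩
  · have := hs.inv hh0
    rwa [inv_pow]
  · have e1 := congrArg Subtype.val (hu i).val_inv_mul
    push_cast at e1
    rw [Pi.inv_apply, map_inv₀, eq_inv_of_mul_eq_one_left e1, ← mul_inv, hz i]
  · rw [hv, hω, Pi.inv_apply]
  · rw [hv]; exact inv_ne_zero (hz0 i)

/-- Powers of `x` have ratio `1`. -/
theorem isRatio_pow_x (n m : ℕ) : IsRatio R g n (R.x ^ m) 1 := by
  refine ⟨1, fun i => R.xb i ^ m, 1, fun i => one_ne_zero,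
    fun i => pow_ne_zero _ (R.xb_ne_zero i), fun i => ?_, fun i => by simp,
    fun i => by simp, fun i => by simp⟩
  have he : (((1 : ι → K) ^ n)⁻¹ i) • R.x ^ m = R.x ^ m := by simp
  refine ⟨by rw [he]; exact pow_mem (R.x_mem i) m, ?_⟩
  rw [show (⟨_, _⟩ : R.V i) = (⟨R.x, R.x_mem i⟩ : R.V i) ^ m from Subtype.ext he, map_pow]
  rfl

/-- Multiplying by powers of `x` keeps the orders at branches where `x` has order zero. -/
theorem sum_resOrd_mul_x_pow (G : Gluing R) (hx : ∀ b ∈ G.B, b.2.ord (R.xb b.1) = 0) {W : F}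
    (hW : W ≠ 0) (m : ℕ) :
    ∑ b ∈ G.B, resOrd R b.1 b.2 (W * R.x ^ m) = ∑ b ∈ G.B, resOrd R b.1 b.2 W := by
  refine Finset.sum_congr rfl fun b hb => ?_
  have hxne : R.φ b.1 ⟨R.x, R.x_mem b.1⟩ ≠ 0 := R.xb_ne_zero b.1
  have hx0 : R.x ≠ 0 := fun h => hxne ((congrArg _ (Subtype.ext h)).trans (map_zero _))
  rw [resOrd_mul b.2 hW (pow_ne_zero _ hx0), resOrd_pow b.2 hx0]
  have hmem : (1 : K) • R.x ∈ R.V b.1 := by rw [one_smul]; exact R.x_mem b.1
  have he : R.φ b.1 ⟨_, hmem⟩ = R.xb b.1 := congrArg _ (Subtype.ext (one_smul K R.x))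
  rw [resOrd_eq b.2 hmem (by rw [he]; exact hxne), he, hx b hb, mul_zero, add_zero]

theorem sum_resOrd_inv (G : Gluing R) {U : F} (hU0 : U ≠ 0) :
    ∑ b ∈ G.B, resOrd R b.1 b.2 U⁻¹ = -∑ b ∈ G.B, resOrd R b.1 b.2 U := by
  rw [← Finset.sum_neg_distrib]
  refine Finset.sum_congr rfl fun b _ => eq_neg_of_add_eq_zero_left ?_
  rw [← resOrd_mul b.2 (inv_ne_zero hU0) hU0, inv_mul_cancel₀ hU0,
    ← map_one (algebraMap K F), resOrd_algebraMap b.2 one_ne_zero]

end AbstractGeneral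

variable {M q : ℕ} [NeZero M] [hq : Fact q.Prime]

local instance neZero_primeMPAuxFun : NeZero q := ⟨hq.out.ne_zero⟩

local notation "αF" => heckeAlphaBar ℚbar M q
local notation "βF" => heckeBetaBar ℚbar M q

variable (hqM : ¬ q ∣ M) (A : ValuationSubring ℚbar) (hA : A.LiesOverPrime q)
  [CharP (ResidueField A) q] [IsAlgClosed (ResidueField A)]

omit [CharP (ResidueField A) q] [IsAlgClosed (ResidueField A)] in
/-- Roots of unity of order prime to the residue characteristic have residues different from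
`1`. -/
theorem residue_pow_ne_one {k : Type*} [Field k] {A : ValuationSubring ℚbar} (π : A →+* k)
    {n : ℕ} (hn : (n : k) ≠ 0) {ζ : A} (hζn : ζ ^ n = 1) (hζ : ζ ≠ 1) : π ζ ≠ 1 := by
  intro h
  have h0 : ∑ i ∈ Finset.range n, ζ ^ i = 0 := by
    have := geom_sum_mul ζ n
    rw [hζn, sub_self, mul_eq_zero] at this
    exact this.resolve_right (sub_ne_zero.2 hζ)
  apply hn
  have h1 := congrArg π h0
  simpa [h] using h1

include hA in
/-- **The auxiliary function**, from a unit with scalings `1` and `q ^ e`. -/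
theorem exists_aux (G : Gluing (x0Reduction hqM A hA))
    (hpart : ∀ b : ↥G.B, ∃ b' : ↥G.B, G.pt b = G.pt b' ∧
      (b : Σ _ : Fin 2, Place (ResidueField A) (X0Res M A)).1 ≠
        (b' : Σ _ : Fin 2, Place (ResidueField A) (X0Res M A)).1)
    {n e : ℕ} (hn : 0 < n) (hqn : ¬ q ∣ n) (hne : ¬ n ∣ e)
    {σ : Γℚ} (hσ : σ ∈ A.inertiaSubgroupIn ℚ) {β ζ : ℚbar} (hβ : β ^ n = (q : ℚbar))
    (hζ : IsPrimitiveRoot ζ n) (hσβ : σ β = ζ * β)
    {U : X0F M q} (hU0 : U ≠ 0)
    (hUσ : arithmeticGalois (modularFunctionFieldFull (M * q)) σ • U = U)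
    (hUord : ∀ v : Place ℚbar (X0F M q), 0 ≤ v.ord (Igusa.jBar (M * q)) → v.ord U = 0)
    (hU₀ : ∃ h : U ∈ compV hqM A 0, compPhi hqM A hA 0 ⟨U, h⟩ ≠ 0)
    (hU₁ : ∃ h : ((q : ℚbar) ^ e) • U ∈ compV hqM A 1, compPhi hqM A hA 1 ⟨_, h⟩ ≠ 0) :
    ∃ (Φ : X0F M q) (N₀ : ℕ) (ωΦ : Fin 2 → ResidueField A), Φ ≠ 0 ∧
      Φ ∈ (x0Reduction hqM A hA).polarSp N₀ ∧
      arithmeticGalois (modularFunctionFieldFull (M * q)) σ • Φ = Φ ∧
      IsRatio (x0Reduction hqM A hA) (arithmeticGalois (modularFunctionFieldFull (M * q)) σ) n Φ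
        ωΦ ∧
      (∀ i j, i ≠ j → ωΦ i ≠ ωΦ j) ∧
      ∑ b ∈ G.B, resOrd (x0Reduction hqM A hA) b.1 b.2 Φ ≤ 0 := by
  classical
  let R := x0Reduction hqM A hA
  set g := arithmeticGalois (modularFunctionFieldFull (M * q)) σ with hg'
  have hg := isInertial_galois hqM A hA hσ
  obtain ⟨hU0m, hU0ne⟩ := hU₀
  obtain ⟨hU1m, hU1ne⟩ := hU₁
  have hq0 : (q : ℚbar) ≠ 0 := Nat.cast_ne_zero.2 hq.out.ne_zero
  have hβ0 : β ≠ 0 := fun h => hq0 (by rw [← hβ, h, zero_pow hn.ne'])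
  -- the root of unity in `A`
  have hζA : ζ ∈ A := by
    rcases A.mem_or_inv_mem ζ with h | h
    · exact h
    · have h1 : ζ = ζ⁻¹ ^ (n - 1) := by
        refine mul_right_cancel₀ (pow_ne_zero (n - 1) (hζ.ne_zero hn.ne')) ?_
        rw [inv_pow, inv_mul_cancel₀ (pow_ne_zero _ (hζ.ne_zero hn.ne')), ← pow_succ',
          Nat.sub_add_cancel hn, hζ.pow_eq_one]
      rw [h1]; exact pow_mem h _
  set ζA : A := ⟨ζ, hζA⟩ with hζAdef
  have hζu : IsUnit ζA := IsUnit.of_pow_eq_one (Subtype.ext hζ.pow_eq_one) hn.ne'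
  set z₁ : A := ζA ^ e with hz₁
  have hz1ne : R.π z₁ ≠ 1 := residue_pow_ne_one R.π
    (by
      show (n : ResidueField A) ≠ 0
      exact fun h => hqn ((CharP.cast_eq_zero_iff _ q n).1 h))
    (Subtype.ext (by
      push_cast; rw [hz₁]; push_cast; rw [← pow_mul, mul_comm, pow_mul, hζ.pow_eq_one, one_pow]))
    (fun h => hne (hζ.pow_eq_one_iff_dvd e |>.1 (by
      have := congrArg Subtype.val h; rw [hz₁] at this; push_cast at this; exact this)))
  -- the ratio of `U` and of `U⁻¹`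
  have hσ' : SemilinearAut.baseAut g β = ζ * β := by
    rw [hg', baseAut_arithmeticGalois]; exact hσβ
  have hc : ((((β ^ e)⁻¹ : ℚbar)) ^ n)⁻¹ = (q : ℚbar) ^ e := by
    rw [inv_pow, inv_inv, ← pow_mul, mul_comm, pow_mul, hβ]
  have hUr : IsRatio R g n U (![1, R.π z₁]) := by
    refine isRatio_two ⟨hU0m, hU0ne⟩ (b := (β ^ e)⁻¹) (inv_ne_zero (pow_ne_zero _ hβ0)) ?_ ?_ ?_
    · rw [hc]; exact ⟨hU1m, hU1ne⟩
    · rw [map_inv₀, map_pow, hσ', hz₁, mul_pow, mul_inv]
      push_cast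
      rw [← mul_assoc, hζAdef, mul_inv_cancel₀ (pow_ne_zero _ (hζ.ne_zero hn.ne')), one_mul]
    · rw [hz₁]; exact ((hζu.pow e).map R.π).ne_zero
  have hUinv : IsRatio R g n U⁻¹ (![1, R.π z₁])⁻¹ := isRatio_inv hUr
  have hdist : ∀ ω : Fin 2 → ResidueField A, ω 0 = 1 → ω 1 ≠ 1 → ∀ i j, i ≠ j → ω i ≠ ω j := by
    intro ω h0 h1 i j hij
    fin_cases i <;> fin_cases j
    · exact absurd rfl hij
    · simp only [Fin.zero_eta, Fin.mk_one, h0]; exact Ne.symm h1
    · simp only [Fin.zero_eta, Fin.mk_one, h0]; exact h1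
    · exact absurd rfl hij
  -- the power of `x`
  set m : ℕ := ∑ v ∈ (divisorOf ℚbar U).support, (v.ord U).natAbs with hm
  have hx0 : x0Fun (q := q) hqM ≠ 0 := fun h =>
    transcendental_x0Fun hqM A hA (by rw [h]; exact isAlgebraic_zero)
  have hxσ : g • x0Fun (q := q) hqM = x0Fun hqM := galois_smul_x0Fun hqM σ
  have hxr : IsRatio R g n (x0Fun (q := q) hqM ^ m) 1 := isRatio_pow_x (R := R) n m
  have hpol : ∀ W : X0F M q, W ≠ 0 → (∀ v : Place ℚbar (X0F M q), 0 ≤ v.ord (Igusa.jBar (M * q)) → v.ord W = 0) →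
      (∀ v : Place ℚbar (X0F M q), (v.ord W).natAbs = (v.ord U).natAbs) → W * x0Fun (q := q) hqM ^ m ∈ R.polarSp m := by
    intro W hW hWord hWabs
    refine (mem_L_iff (mul_ne_zero hW (pow_ne_zero _ hx0))).2 fun v => ?_
    show -((m • poleDivisor ℚbar (x0Fun (q := q) hqM)) v) ≤ _
    rw [v.ord_mul hW (pow_ne_zero _ hx0), ord_pow, Finsupp.smul_apply, nsmul_eq_mul,
      poleDivisor_apply]
    rcases le_or_gt 0 (v.ord (Igusa.jBar (M * q))) with hj | hj
    · rw [hWord v hj]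
      have := le_max_left (-(v.ord (x0Fun (q := q) hqM))) 0
      nlinarith [Int.natCast_nonneg m]
    · have hxpos : 1 ≤ v.ord (x0Fun (q := q) hqM) := by
        have hd : (cubic q).natDegree ≠ 0 := by rw [cubic_natDegree]; norm_num
        have hca : αF (cubicJM M q) = aeval (Igusa.jBar (M * q)) (cubic q) := by
          rw [cubicJM, ← heckeAlphaBar_jBar]; exact map_aeval_int (αF).toRingHom _ _
        have hcb : βF (cubicJM M q) = aeval (βF (Igusa.jBar M)) (cubic q) := by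
          rw [cubicJM]; exact map_aeval_int (βF).toRingHom _ _
        have hja : v.ord (αF (cubicJM M q)) < 0 := by
          rw [hca, ord_aeval_monic_of_neg cubic_monic hj, cubic_natDegree]; omega
        have hjb : v.ord (βF (Igusa.jBar M)) < 0 := by
          by_contra h0
          have h1 := (beta_jBar_mem_iff hqM v).1 ((mem_iff_ord_nonneg v).2 (not_lt.1 h0))
          rw [mem_iff_ord_nonneg, heckeAlphaBar_jBar] at h1
          omega
        have hjb' : v.ord (βF (cubicJM M q)) < 0 := by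
          rw [hcb, ord_aeval_monic_of_neg cubic_monic hjb, cubic_natDegree]; omega
        rw [x0Fun_eq hqM, map_inv₀, map_inv₀, v.ord_mul
          (inv_ne_zero fun h => by rw [h, Place.ord_zero] at hja; omega)
          (inv_ne_zero fun h => by rw [h, Place.ord_zero] at hjb'; omega), v.ord_inv, v.ord_inv]
        omega
      have hle : ((v.ord W).natAbs : ℤ) ≤ m := by
        rw [hWabs]
        by_cases h0 : v.ord U = 0
        · simp [h0]
        · exact_mod_cast Finset.single_le_sum (f := fun w : Place ℚbar (X0F M q) => (w.ord U).natAbs)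
            (fun _ _ => Nat.zero_le _) (Finsupp.mem_support_iff.2 (by simpa using h0))
      rw [max_eq_right (by omega)]
      have h1 : -((v.ord W).natAbs : ℤ) ≤ v.ord W := by omega
      nlinarith [Int.natCast_nonneg m]
  -- the sums of the slopes
  have hsum : ∀ W : X0F M q, W ≠ 0 →
      ∑ b ∈ G.B, resOrd R b.1 b.2 (W * x0Fun (q := q) hqM ^ m) =
        ∑ b ∈ G.B, resOrd R b.1 b.2 W := fun W hW =>
    sum_resOrd_mul_x_pow G (fun b hb => ord_xb_eq_zero hqM A hA G hpart hb) hW m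
  have hinv : ∑ b ∈ G.B, resOrd R b.1 b.2 U⁻¹ = -∑ b ∈ G.B, resOrd R b.1 b.2 U :=
    sum_resOrd_inv G hU0
  rcases le_total (∑ b ∈ G.B, resOrd R b.1 b.2 U) 0 with h | h
  · refine ⟨U * x0Fun (q := q) hqM ^ m, m, _, mul_ne_zero hU0 (pow_ne_zero _ hx0),
      hpol U hU0 hUord (fun _ => rfl), by rw [smul_mul', smul_pow', hUσ, hxσ], hUr.mul hxr,
      hdist _ (by simp) (by simpa using hz1ne), by rw [hsum U hU0]; exact h⟩
  · refine ⟨U⁻¹ * x0Fun (q := q) hqM ^ m, m, _, mul_ne_zero (inv_ne_zero hU0) (pow_ne_zero _ hx0),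
      hpol U⁻¹ (inv_ne_zero hU0) (fun v hv => by rw [v.ord_inv, hUord v hv, neg_zero])
        (fun v => by rw [v.ord_inv, Int.natAbs_neg]),
      by rw [smul_mul', smul_inv'', smul_pow', hUσ, hxσ], hUinv.mul hxr,
      hdist _ (by simp) (by simpa using hz1ne), by rw [hsum _ (inv_ne_zero hU0), hinv]; omega⟩

end Fermat.Agent.Ribet.MP

end
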