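/-
Mazur's principle at `q ≠ p`: a non-Eisenstein Hecke eigenvalue makes the ratio of a function of
an inertia invariant `p`-torsion class constant.
-/
import Fermat.Agent.Residual.LowerRep
import Fermat.Agent.Residual.LowerCompRatio
import Fermat.Agent.Residual.LowerHecke
import Fermat.Agent.HeckeJ.Operator
import Fermat.Prelude.Def_ModularCurve_HeckeModule

set_option autoImplicit false
set_option synthInstance.maxHeartbeats 400000
set_option maxHeartbeats 1600000
set_option linter.style.haveILetI false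

noncomputable section

open ModularCurve IsLocalRing AlgebraicCurve
open Fermat.Agent.Curve Fermat.Agent.Bad Fermat.Agent.BadReduction Fermat.Agent.Residual.Lower
open Fermat.Agent.HeckeJ

namespace Fermat.Agent.Ribet.MP

local notation "ℚbar" => AlgebraicClosure ℚ

/-- An eigen class gives a multiplicative relation for `Norm_α (β f)`. -/
theorem exists_heckeFun_eq_mul {N : ℕ} [NeZero N] (l : Nat.Primes) [NeZero (l : ℕ)]
    (hl : ¬ (l : ℕ) ∣ N) {n : ℕ} (hn : 0 < n) {a : ℕ}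
    (D : Divisor.degZero (K := ℚbar) (F := modularFunctionFieldBar N))
    {f : modularFunctionFieldBar N} (hf : f ≠ 0)
    (hdiv : ∀ v : Place ℚbar (modularFunctionFieldBar N),
      (n : ℤ) * (D : Divisor ℚbar (modularFunctionFieldBar N)) v = v.ord f)
    (hT : heckeOperatorBar N l (Pic0.mk D) = (a : ℤ) • (Pic0.mk D : JZero N)) :
    ∃ (c : ℚbar) (w : modularFunctionFieldBar N), c ≠ 0 ∧ w ≠ 0 ∧
      heckeFun ℚbar N (l : ℕ) f = algebraMap ℚbar (modularFunctionFieldBar N) c * f ^ a * w ^ n :=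
  exists_hecke_rel l rfl D hf hdiv (by rw [hT, natCast_zsmul])

variable {M q : ℕ} [NeZero M] [hq : Fact q.Prime]

local instance neZero_primeMPRatio : NeZero q := ⟨hq.out.ne_zero⟩

/-- **The ratio is constant** at a non-Eisenstein eigenvalue. -/
theorem ratio_const_of_eigen (hqM : ¬ q ∣ M) (A : ValuationSubring ℚbar) (hA : A.LiesOverPrime q)
    [CharP (ResidueField A) q] [IsAlgClosed (ResidueField A)] {p : ℕ} (hp : p.Prime) (hqp : q ≠ p)
    {σ : ℚbar ≃ₐ[ℚ] ℚbar} (hσ : σ ∈ A.inertiaSubgroupIn ℚ) (l : Nat.Primes)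
    (hl : ¬ (l : ℕ) ∣ M * q) {a : ℤ} (ha : ¬ (p : ℤ) ∣ a - (((l : ℕ) : ℤ) + 1))
    (D : Divisor.degZero (K := ℚbar) (F := X0F M q)) {f : X0F M q} (hf : f ≠ 0)
    (hfσ : arithmeticGalois (modularFunctionFieldFull (M * q)) σ • f = f)
    (hdiv : ∀ v : Place ℚbar (X0F M q), (p : ℤ) * (D : Divisor ℚbar (X0F M q)) v = v.ord f)
    (hT : heckeOperatorBar (M * q) l (Pic0.mk D) = a • (Pic0.mk D : JZero (M * q)))
    {ω : Fin 2 → ResidueField A}
    (hω : IsRatio (x0Reduction hqM A hA) (arithmeticGalois (modularFunctionFieldFull (M * q)) σ)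
      p f ω) (i j : Fin 2) : ω i = ω j := by
  haveI : NeZero (l : ℕ) := ⟨l.2.ne_zero⟩
  have hn : 0 < p := hp.pos
  have hg := isInertial_galois hqM A hA hσ
  have hx : p • (Pic0.mk D : JZero (M * q)) = 0 := by
    show p • Pic0.mk D = 0
    rw [← pic0_mk_nsmul, pic0_mk_eq_zero_iff]
    exact ⟨f, hf, fun v => by rw [← hdiv v]; simp⟩
  obtain ⟨a', ha'⟩ : ∃ a' : ℕ, (a % (p : ℤ)).toNat = a' := ⟨_, rfl⟩
  rw [zsmul_eq_emod_nsmul hn hx, ha', ← natCast_zsmul] at hT
  obtain ⟨c, w, -, hw, hH⟩ :=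
    exists_heckeFun_eq_mul l hl hn D hf hdiv hT
  have h0 := Int.emod_nonneg a (show (p : ℤ) ≠ 0 by exact_mod_cast hn.ne')
  have han : a' ≤ p := by
    have := Int.emod_lt_of_pos a (show (0 : ℤ) < (p : ℤ) by exact_mod_cast hn)
    omega
  have hgH : arithmeticGalois (modularFunctionFieldFull (M * q)) σ •
      heckeFun ℚbar (M * q) (l : ℕ) f = heckeFun ℚbar (M * q) (l : ℕ) f := by
    rw [← heckeFun_galois, hfσ]
  have hrat := (isRatio_heckeFun hqM A hA l.2 hl hω).mul (hω.pow (p - a'))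
  have hconst := IsRatio.const_of_pow hg hn (h := f * w) (a := c)
    (mul_ne_zero hf hw) (by
      rw [hH, mul_pow, mul_assoc, mul_assoc, mul_comm (w ^ _), ← mul_assoc (f ^ a'), ← pow_add,
        Nat.add_sub_cancel' han])
    (by rw [smul_mul', smul_pow', hgH, hfσ]) hrat i j
  have hpp := IsRatio.const_of_pow hg hn (h := f) (a := (1 : ℚbar)) hf
    (by rw [map_one, one_mul]) (by rw [smul_pow', hfσ]) (hω.pow p) i j
  simp only [Pi.mul_apply, Pi.pow_apply, ← pow_add] at hconst hpp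
  have hj0 : ω j ≠ 0 := by
    obtain ⟨_, _, z, _, _, _, _, hzω, hz0⟩ := hω
    exact hzω j ▸ hz0 j
  have hq' : ∀ e : ℕ, ω i ^ e = ω j ^ e → (ω i * (ω j)⁻¹) ^ e = 1 := fun e he => by
    rw [mul_pow, inv_pow, he, mul_inv_cancel₀ (pow_ne_zero _ hj0)]
  have hcop : Nat.Coprime ((l : ℕ) + 1 + (p - a')) p := by
    refine (hp.coprime_iff_not_dvd.2 fun hd => ha ?_).symm
    have hd' : (p : ℤ) ∣ ((l : ℕ) : ℤ) + 1 + ((p : ℤ) - a') := by
      have := Int.natCast_dvd_natCast.2 hd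
      push_cast [Nat.cast_sub han] at this
      exact this
    have ha2 : (p : ℤ) ∣ a - a' := by
      rw [← ha', Int.toNat_of_nonneg h0]
      exact Int.dvd_self_sub_emod
    rw [show a - (((l : ℕ) : ℤ) + 1) =
      (a - a') - ((((l : ℕ) : ℤ) + 1 + ((p : ℤ) - a')) - p) by ring]
    exact dvd_sub ha2 (dvd_sub hd' dvd_rfl)
  have h3 := pow_gcd_eq_one.2 ⟨hq' _ hconst, hq' _ hpp⟩
  rw [hcop, pow_one, mul_inv_eq_one₀ hj0] at h3
  exact h3

end Fermat.Agent.Ribet.MP

end
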