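/-
Mazur's principle at `q ≠ p`: slopes divisible by `p` and absence of the eigen system at level `M`
make an eigen class component trivial.
-/
import Fermat.Agent.Ribet.SecondMPRatio
import Fermat.Agent.Ribet.SecondMPEigen
import Fermat.Agent.Residual.LowerLift
import Fermat.Agent.Residual.LowerCompDescent
import Fermat.Agent.Mazur.LocalRank
import Fermat.Agent.Bad.Gluing

set_option autoImplicit false
set_option linter.style.haveILetI false
set_option synthInstance.maxHeartbeats 400000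
set_option maxHeartbeats 1600000

noncomputable section

open ModularCurve IsLocalRing AlgebraicCurve
open Fermat.Agent.Curve Fermat.Agent.Bad Fermat.Agent.BadReduction Fermat.Agent.Residual.Lower

namespace Fermat.Agent.Ribet.MP

local notation "ℚbar" => AlgebraicClosure ℚ

variable {M q : ℕ} [NeZero M] [hq : Fact q.Prime]

local instance neZero_primeMPComp : NeZero q := ⟨hq.out.ne_zero⟩

/-- **Component triviality.** -/
theorem isComponentTrivial_of_dvd_resOrd (hqM : ¬ q ∣ M) (A : ValuationSubring ℚbar)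
    (hA : A.LiesOverPrime q) [CharP (ResidueField A) q] [IsAlgClosed (ResidueField A)]
    {p : ℕ} [Fact p.Prime] (hqp : q ≠ p) (a : ℕ → ℤ) (T : Finset ℕ)
    (hnoM : ∀ (T' : Finset ℕ) (y : JZero M), p • y = 0 →
      IsEigen (fun ℓ => ℓ.Prime ∧ ℓ ∉ T') a y → y = 0)
    (D : Divisor.degZero (K := ℚbar) (F := X0F M q)) {f : X0F M q} (hf : f ≠ 0)
    (hdiv : ∀ v : Place ℚbar (X0F M q), (p : ℤ) * (D : Divisor ℚbar (X0F M q)) v = v.ord f)
    (heig : IsEigen (fun ℓ => ℓ.Prime ∧ ℓ ∉ T) a (Pic0.mk D : JZero (M * q)))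
    (hres : ∀ (i : Fin 2) (v : Place (ResidueField A) (X0Res M A)),
      (p : ℤ) ∣ resOrd (x0Reduction hqM A hA) i v f) :
    IsComponentTrivial (x0Reduction hqM A hA) p (Pic0.mk D : JZero (M * q)) := by
  classical
  haveI : IsFunctionFieldOne ℚbar (X0F M q) := inferInstance
  have hp : p.Prime := Fact.out
  have hpk : ((p : ℕ) : ResidueField A) ≠ 0 := fun h => hqp
    ((Nat.prime_dvd_prime_iff_eq hq.out hp).1 ((CharP.cast_eq_zero_iff (ResidueField A) q p).1 h))
  have hDp : p • (Pic0.mk D : JZero (M * q)) = 0 := by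
    rw [← pic0_mk_nsmul, pic0_mk_eq_zero_iff]
    refine ⟨f, hf, fun v => ?_⟩
    rw [← hdiv v]
    simp
  refine isComponentTrivial_of_forall_pow (R := x0Reduction hqM A hA)
    (Mazur.rankLeOne_of_liesOverPrime hq.out hA) hpk D hf hdiv fun i => ?_
  obtain ⟨c, hc, hne⟩ := (x0Reduction hqM A hA).exists_scale i f hf
  have hdvd : ∀ v : Place (ResidueField A) (X0Res M A),
      ((p : ℕ) : ℤ) ∣ v.ord (compPhi hqM A hA i ⟨_, hc⟩) := fun v => by
    have h := hres i v
    rwa [resOrd_eq v hc hne] at h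
  obtain ⟨D', W, hW, hD'0, hD'W, hW0, heq⟩ :=
    exists_descent hqM A hA hpk i hc hne hdvd
  have hD' : (Pic0.mk D' : JZero M) = 0 := by
    refine hnoM (T ∪ (M * q).primeFactors) _ hD'0 fun L hL => ?_
    obtain ⟨hL1, hL2, hL3⟩ : (L : ℕ).Prime ∧ (L : ℕ) ∉ T ∧ (L : ℕ) ∉ (M * q).primeFactors := by
      simpa only [Finset.mem_union, not_or] using hL
    haveI : NeZero (L : ℕ) := ⟨L.2.ne_zero⟩
    have hlN : ¬ (L : ℕ) ∣ M * q := fun h =>
      hL3 (Nat.mem_primeFactors.2 ⟨L.2, h, NeZero.ne _⟩)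
    obtain ⟨k, hk⟩ : ∃ k : ℤ, a L = (((a L : ZMod p).val : ℕ) : ℤ) + (p : ℤ) * k := by
      have h : (p : ℤ) ∣ a L - (((a L : ZMod p).val : ℕ) : ℤ) := by
        rw [← ZMod.intCast_zmod_eq_zero_iff_dvd]
        push_cast
        rw [ZMod.natCast_zmod_val, sub_self]
      obtain ⟨k, hk⟩ := h
      exact ⟨k, by omega⟩
    have hsmul : ∀ {G : Type} [AddCommGroup G] (x : G), p • x = 0 →
        (a L) • x = ((a L : ZMod p).val) • x := fun x hx => by
      calc (a L) • x = ((((a L : ZMod p).val : ℕ) : ℤ) + k * (p : ℤ)) • x :=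
            congrArg (· • x) (by rw [mul_comm k]; exact hk)
        _ = _ := by rw [add_zsmul, mul_zsmul, natCast_zsmul, natCast_zsmul, hx, smul_zero,
              add_zero]
    have hT : heckeOperatorBar (M * q) L (Pic0.mk D) =
        (((a L : ZMod p).val : ℕ) : ℤ) • (Pic0.mk D : JZero (M * q)) := by
      rw [natCast_zsmul, ← hsmul _ hDp]
      exact heig L ⟨hL1, hL2⟩
    obtain ⟨C, w, hC, hw, hH⟩ := exists_heckeFun_eq_mul L hlN hp.pos D hf hdiv hT
    rw [hsmul _ hD'0]
    exact hecke_descent (e := 1) hqM A hA L hlN hpk i hC hw (by rw [one_mul]; exact hH) hc hne D'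
      hW hD'W heq
  have hWne : (Igusa.x0GoodReduction hqM hA).φ ⟨W, hW⟩ ≠ 0 := heq ▸ hne
  obtain ⟨a', g, ha', hg, he⟩ := exists_pow_of_killed (s := 1) hqM A hA D' hW hWne hD'W
    (by rw [hD', smul_zero])
  rw [pow_one, ← heq] at he
  exact ⟨c, hc, a', g, ha', hg, he⟩

end Fermat.Agent.Ribet.MP

end
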