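/-
Mazur's principle at `q ≠ p`: on classes of `J₀(M q)` trivial on both components of the special
fibre at `q`, a Frobenius at `q` is `- q w_q`, hence commutes with the Galois group.
-/
import Fermat.Agent.Bad.GluingSwap
import Fermat.Agent.BadReduction.X0FrobeniusAction
import Fermat.Agent.Mazur.LocalRank

set_option autoImplicit false
set_option linter.style.haveILetI false
set_option synthInstance.maxHeartbeats 200000
set_option maxHeartbeats 1600000

noncomputable section

open ModularCurve IntermediateField IsLocalRing AlgebraicCurve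
open Fermat.Agent.Curve Fermat.Agent.Bad Fermat.Agent.BadReduction

namespace Fermat.Agent.Ribet.MP

local notation "ℚbar" => AlgebraicClosure ℚ

variable {M q : ℕ} [NeZero M] [hq : Fact q.Prime]

local instance neZero_primeMPA : NeZero q := ⟨hq.out.ne_zero⟩

variable (hqM : ¬ q ∣ M)

/-- `w_q` acting semilinearly (linearly) on the function field. -/
def wAut : SemilinearAut ℚbar (X0F M q) := SemilinearAut.ofAlgAut (atkinLehner hqM)

theorem wAut_smul (x : X0F M q) : wAut hqM • x = atkinLehner hqM x :=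
  SemilinearAut.ofAlgAut_smul _ x

theorem wAut_mul_self : wAut hqM * wAut hqM = 1 := by
  rw [wAut, ← map_mul,
    show atkinLehner hqM * atkinLehner hqM = 1 from AlgEquiv.ext (atkinLehner_atkinLehner hqM),
    map_one]

/-- The Galois action on the function field. -/
def galAut (σ : ℚbar ≃ₐ[ℚ] ℚbar) : SemilinearAut ℚbar (X0F M q) :=
  arithmeticGalois (modularFunctionFieldFull (M * q)) σ

theorem wAut_comm (σ : ℚbar ≃ₐ[ℚ] ℚbar) :
    galAut σ * wAut hqM = wAut hqM * galAut σ := by
  refine Subtype.ext (Prod.ext (RingEquiv.ext fun x => ?_) (RingEquiv.ext fun a => rfl))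
  show arithmeticGalois (modularFunctionFieldFull (M * q)) σ • wAut hqM • x =
    wAut hqM • arithmeticGalois (modularFunctionFieldFull (M * q)) σ • x
  rw [wAut_smul, wAut_smul, atkinLehner_galois]

theorem atkinLehner_x0Fun' : atkinLehner hqM (x0Fun (q := q) hqM) = x0Fun hqM := by
  rw [x0Fun, map_inv₀, map_mul, atkinLehner_atkinLehner]
  exact congrArg Inv.inv (mul_comm _ _)

variable (A : ValuationSubring ℚbar) (hA : A.LiesOverPrime q)

theorem wAut_mem_compV_iff : ∀ (i : Fin 2) (f : X0F M q),
    wAut hqM • f ∈ compV hqM A (Equiv.swap 0 1 i) ↔ f ∈ compV hqM A i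
  | 0, f => by
    rw [Equiv.swap_apply_left, wAut_smul, mem_compV_one, atkinLehner_atkinLehner]; rfl
  | 1, f => by
    rw [Equiv.swap_apply_right, wAut_smul]; rfl

variable [CharP (ResidueField A) q] [IsAlgClosed (ResidueField A)]

omit [CharP (ResidueField A) q] [IsAlgClosed (ResidueField A)] in
theorem compPhi_wAut : ∀ (i : Fin 2) (f : compV hqM A i),
    compPhi hqM A hA (Equiv.swap 0 1 i)
        ⟨wAut hqM • (f : X0F M q), (wAut_mem_compV_iff hqM A i f).2 f.2⟩ =
      compPhi hqM A hA i f
  | 0, f => by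
    refine Subtype.ext ((coe_compPhi_one hqM A hA _).trans (Eq.trans ?_
      (coe_compPhi_zero hqM A hA f).symm))
    exact congrArg (infRed M q A) (Subtype.ext
      ((congrArg (atkinLehner hqM) (wAut_smul hqM _)).trans (atkinLehner_atkinLehner hqM _)))
  | 1, f => by
    refine Subtype.ext ((coe_compPhi_zero hqM A hA _).trans (Eq.trans ?_
      (coe_compPhi_one hqM A hA f).symm))
    exact congrArg (infRed M q A) (Subtype.ext (wAut_smul hqM _))

/-- A Frobenius at `q` composed with `w_q`, as an automorphism of the reduction. -/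
def frobeniusSwap {σ : ℚbar ≃ₐ[ℚ] ℚbar} (hσ : A.IsFrobeniusAt σ q) :
    ReductionAut (x0Reduction hqM A hA) :=
  haveI : PerfectRing (ResidueField A) q := perfectRing_of_isAlgClosed (ResidueField A) q
  { g := galAut σ * wAut hqM
    mem_A_iff := fun a => (frobeniusAction_x0 A hqM hA hσ).mem_A_iff a
    σk := frobeniusEquiv (ResidueField A) q
    π_apply := fun a => (frobeniusAction_x0 A hqM hA hσ).π_apply a
    τ := Equiv.swap 0 1
    mem_V_iff := fun i f => by
      rw [mul_smul]
      exact ((frobeniusAction_x0 A hqM hA hσ).mem_V_iff _ _).trans (wAut_mem_compV_iff hqM A i f)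
    θ := fun _ => resFrob (ResidueField A) q M
    θ_algebraMap := fun _ a => (x0FrobeniusData (ResidueField A) q M).c_algebraMap a
    φ_smul := fun i f => by
      refine Eq.trans ?_ (((frobeniusAction_x0 A hqM hA hσ).φ_smul (Equiv.swap 0 1 i)
        ⟨_, (wAut_mem_compV_iff hqM A i f).2 f.2⟩).trans
          (congrArg (resFrob (ResidueField A) q M) (compPhi_wAut hqM A hA i f)))
      exact congrArg _ (Subtype.ext (mul_smul _ _ _))
    smul_poleX := by
      refine Finsupp.ext fun v => ?_
      have hfix : (galAut σ * wAut hqM) •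
          x0Fun (q := q) hqM = x0Fun hqM := by
        rw [mul_smul, wAut_smul, atkinLehner_x0Fun', galAut, galois_smul_x0Fun]
      have h := SemilinearAut.ord_smul
        (galAut σ * wAut hqM)
        ((galAut σ * wAut hqM)⁻¹ • v) (x0Fun hqM)
      rw [smul_inv_smul, hfix] at h
      show (_ • poleDivisor ℚbar (x0Fun hqM)) v = poleDivisor ℚbar (x0Fun hqM) v
      rw [SemilinearAut.divisor_smul_apply, poleDivisor_apply, poleDivisor_apply, h] }

include hA in
/-- On component-trivial classes a Frobenius at `q` is `- q w_q`, given a conductor stable under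
`w_q` composed with Frobenius, which exchanges glued branches. -/
theorem galois_smul_eq_neg_of_conductor
    (B : Finset (Σ _ : Fin 2, Place (ResidueField A) (X0Res M A)))
    (hreg : ∀ b ∈ B, 0 ≤ b.2.ord ((x0Reduction hqM A hA).xb b.1))
    (hmeets : ∀ i, ∃ b ∈ B, b.1 = i)
    (hZ : ∃ N₁ : ℕ, ∀ N, N₁ ≤ N → ∀ h ∈ (x0Reduction hqM A hA).polarFibre N,
      (∀ b ∈ B, MultiReduction.VanishesAt b 1 h) →
        h ∈ (x0Reduction hqM A hA).spFibre ((x0Reduction hqM A hA).polarSp N))
    {σ : ℚbar ≃ₐ[ℚ] ℚbar} (hσ : A.IsFrobeniusAt σ q)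
    (hB : ∀ b ∈ B, (frobeniusSwap hqM A hA hσ).mapBranch b ∈ B)
    (hswap : ∀ b b' : ↥B, b ≠ b' → glueSetoid (x0Reduction hqM A hA) B b b' →
      (frobeniusSwap hqM A hA hσ).mapBranch b
        = (b' : Σ _ : Fin 2, Place (ResidueField A) (X0Res M A)))
    {n : ℕ} (hn : ¬ q ∣ n) {c : JZero (M * q)}
    (hc : IsComponentTrivial (x0Reduction hqM A hA) n c) :
    σ • c = -(q • (wAut hqM • c)) := by
  let R := x0Reduction hqM A hA
  let G : Gluing R := Gluing.ofVanishing R B hreg hmeets hZ
  have hG : G.IsSeminormal := Gluing.ofVanishing_isSeminormal R B hreg hmeets hZ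
  let S := frobeniusSwap hqM A hA hσ
  have hswap' : ∀ b b' : ↥G.B, b ≠ b' → G.pt b = G.pt b' →
      S.mapBranch b = (b' : Σ _ : Fin 2, Place (ResidueField A) (X0Res M A)) :=
    fun b b' hne h => hswap b b' hne ((gluePt_eq_iff (R := R) B).1 h)
  let P : S.Preserves G := S.preservesOfSwap (fun b hb => hB b hb) hswap'
  have hn' : (n : ResidueField A) ≠ 0 := fun h => hn ((CharP.cast_eq_zero_iff _ q n).1 h)
  have h : (galAut σ * wAut hqM) • c = -(q • c) :=
    P.smul_eq_neg_nsmul_of_isComponentTrivial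
      (Mazur.rankLeOne_of_liesOverPrime hq.out hA) hG q (Q := q)
      (fun a => by rw [← frobenius_def]; rfl)
      (fun b b' hne hbb' => Subtype.ext ((P.coe_e b).trans (hswap' b b' hne hbb'))) hn' hc
  have e : wAut hqM * (galAut σ * wAut hqM) = galAut σ := by
    rw [wAut_comm, ← mul_assoc, wAut_mul_self, one_mul]
  have h' := congrArg (fun y => wAut hqM • y) h
  simp only [smul_neg, ← mul_smul, e] at h'
  rw [smul_comm q (wAut hqM) c]
  exact h'

/-- Two classes on which a Frobenius is `- q w_q` give commutation with the Galois group. -/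
theorem galois_comm_of_eq_neg {σ τ : ℚbar ≃ₐ[ℚ] ℚbar} {c : JZero (M * q)}
    (h₁ : σ • c = -(q • (wAut hqM • c))) (h₂ : σ • τ • c = -(q • (wAut hqM • τ • c))) :
    τ • σ • c = σ • τ • c := by
  rw [h₁, h₂]
  show galAut (M := M) (q := q) τ • (-(q • (wAut hqM • c))) = _
  rw [smul_neg, smul_comm _ q]
  show -(q • (galAut (M := M) (q := q) τ • wAut hqM • c)) = -(q • (wAut hqM • galAut (M := M) (q := q) τ • c))
  rw [← mul_smul, ← mul_smul, wAut_comm]

/-- Its square is `q ^ 2`. -/
theorem galois_sq_of_eq_neg {σ : ℚbar ≃ₐ[ℚ] ℚbar} {c : JZero (M * q)}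
    (h₁ : σ • c = -(q • (wAut hqM • c))) : σ • σ • c = q ^ 2 • c := by
  rw [h₁]
  show galAut (M := M) (q := q) σ • (-(q • (wAut hqM • c))) = _
  rw [smul_neg, smul_comm _ q, ← mul_smul, wAut_comm, mul_smul]
  show -(q • (wAut hqM • (σ • c))) = _
  rw [h₁, smul_neg, smul_comm _ q, ← mul_smul, wAut_mul_self, one_smul, neg_nsmul, neg_neg,
    ← mul_nsmul', sq]

end Fermat.Agent.Ribet.MP

end
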