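/-
Mazur's principle at `q ≠ p`: export of `σ = - q w_q` on component-trivial classes of `J₀(M q)`.
-/
import Fermat.Agent.Ribet.SecondMPAtkin
import Fermat.Agent.BadReduction.X0Conductor
import Fermat.Agent.BadReduction.X0FrobeniusAtkin

set_option autoImplicit false
set_option linter.style.haveILetI false
set_option synthInstance.maxHeartbeats 200000
set_option maxHeartbeats 1600000

noncomputable section

open ModularCurve IntermediateField IsLocalRing AlgebraicCurve
open Fermat.Agent.Curve Fermat.Agent.Bad Fermat.Agent.BadReduction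

namespace Fermat.Agent.Ribet.MP

local notation "ℚbar" => AlgebraicClosure ℚ

variable {M q : ℕ} [NeZero M] [hq : Fact q.Prime]

local instance neZero_primeMPF : NeZero q := ⟨hq.out.ne_zero⟩

variable (hqM : ¬ q ∣ M) (A : ValuationSubring ℚbar) (hA : A.LiesOverPrime q)
  [CharP (ResidueField A) q] [IsAlgClosed (ResidueField A)]

/-- A conductor stable under `w_q` composed with Frobenius, which exchanges glued branches. -/
theorem exists_conductor_swap {σ : ℚbar ≃ₐ[ℚ] ℚbar} (hσ : A.IsFrobeniusAt σ q) :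
    ∃ B : Finset (Σ _ : Fin 2, Place (ResidueField A) (X0Res M A)),
      (∀ b ∈ B, 0 ≤ b.2.ord ((x0Reduction hqM A hA).xb b.1)) ∧
      (∀ i, ∃ b ∈ B, b.1 = i) ∧
      (∃ N₁ : ℕ, ∀ N, N₁ ≤ N → ∀ h ∈ (x0Reduction hqM A hA).polarFibre N,
        (∀ b ∈ B, MultiReduction.VanishesAt b 1 h) →
          h ∈ (x0Reduction hqM A hA).spFibre ((x0Reduction hqM A hA).polarSp N)) ∧
      (∀ b ∈ B, (frobeniusSwap hqM A hA hσ).mapBranch b ∈ B) ∧
      ∀ b b' : ↥B, b ≠ b' → glueSetoid (x0Reduction hqM A hA) B b b' →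
        (frobeniusSwap hqM A hA hσ).mapBranch b
          = (b' : Σ _ : Fin 2, Place (ResidueField A) (X0Res M A)) := by
  obtain ⟨B, hreg, hmeets, hZ⟩ := exists_conductor_proof hqM A hA
  obtain ⟨hreg', hmeets', hZ'⟩ := gluedBranches_spec (x0Reduction hqM A hA)
    (Mazur.rankLeOne_of_liesOverPrime hq.out hA) B hreg hmeets hZ
  refine ⟨gluedBranches (x0Reduction hqM A hA) B, hreg', hmeets', hZ', fun b hb => ?_,
    fun b b' hne hglue => ?_⟩
  · obtain ⟨hbB, b', hb'B, hne, hglue⟩ := (mem_gluedBranches (x0Reduction hqM A hA)).1 hb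
    have e : (frobeniusSwap hqM A hA hσ).mapBranch b = b' :=
      mapBranch_of_glued A hqM hA hσ (hreg b hbB) (hreg b' hb'B) hne hglue
    exact e ▸ (mem_gluedBranches (x0Reduction hqM A hA)).2
      ⟨hb'B, b, hbB, hne.symm, fun N h hh => (hglue N h hh).symm⟩
  · exact mapBranch_of_glued A hqM hA hσ (hreg' _ b.2) (hreg' _ b'.2)
      (fun e => hne (Subtype.ext e.symm)) hglue

omit [CharP (ResidueField A) q] [IsAlgClosed (ResidueField A)] in
/-- **Frobenius on component-trivial classes**: `σ = - q w`, `w` an involution commuting with the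
Galois group. -/
theorem exists_atkin_smul_eq_neg :
    ∃ w : JZero (M * q) →+ JZero (M * q),
      (∀ (τ : ℚbar ≃ₐ[ℚ] ℚbar) (x : JZero (M * q)), w (τ • x) = τ • w x) ∧
      (∀ x : JZero (M * q), w (w x) = x) ∧
      ∀ σ : ℚbar ≃ₐ[ℚ] ℚbar, A.IsFrobeniusAt σ q → ∀ (n : ℕ) (c : JZero (M * q)), ¬ q ∣ n →
        IsComponentTrivial (x0Reduction hqM A hA) n c → σ • c = -(q • w c) := by
  haveI := charP_residue_of_liesOverPrime hq.out hA
  haveI : IsAlgClosed (ResidueField A) := (x0Reduction hqM A hA).isAlgClosed_residue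
  refine ⟨DistribSMul.toAddMonoidHom (JZero (M * q)) (wAut hqM), fun τ x => ?_, fun x => ?_,
    fun σ hσ n c hn hc => ?_⟩
  · show wAut hqM • galAut (M := M) (q := q) τ • x = galAut (M := M) (q := q) τ • wAut hqM • x
    rw [← mul_smul, ← mul_smul, wAut_comm]
  · show wAut hqM • wAut hqM • x = x
    rw [← mul_smul, wAut_mul_self, one_smul]
  · obtain ⟨B, hreg, hmeets, hZ, hB, hswap⟩ := exists_conductor_swap hqM A hA hσ
    exact galois_smul_eq_neg_of_conductor hqM A hA B hreg hmeets hZ hσ hB hswap hn hc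

end Fermat.Agent.Ribet.MP

end
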