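/-
Mazur's principle at `q ≠ p`: Frobenius at `q` on eigen classes of `J₀(Mq)[p]` on
which inertia at `q` is trivial and which do not occur at level `M`.
-/
import Fermat.Agent.Ribet.SecondMPEigen
import Fermat.Agent.Ribet.SecondMPAux
import Fermat.Agent.Ribet.SecondMPComp
import Fermat.Agent.Ribet.SecondMPRatio
import Fermat.Agent.Ribet.SecondMPFrobenius
import Fermat.Agent.Ribet.MPCubeUnit
import Fermat.Agent.MazurPrinciple.NodesUnitReduction
import Fermat.Agent.Residual.LowerCount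
import Fermat.Agent.Residual.LowerRep
import Fermat.Agent.HeckeJ.Operator
import Fermat.Agent.Mazur.LocalRank
import Fermat.Agent.PoitouTate.GlobalKummer
import Fermat.Prelude.Def_EllipticCurve_FrobeniusTrace
import Fermat.Prelude.Def_FLTPrelim_Ramification
import Fermat.Prelude.Def_ModularCurve_ArithmeticGalois

set_option autoImplicit false
set_option linter.style.haveILetI false
set_option linter.unusedSectionVars false
set_option synthInstance.maxHeartbeats 400000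

noncomputable section

namespace Fermat.Agent.Ribet.MP

open ModularCurve AlgebraicCurve IsLocalRing
open Fermat.Agent.Curve Fermat.Agent.Bad Fermat.Agent.BadReduction Fermat.Agent.Residual.Lower

local notation "ℚbar" => AlgebraicClosure ℚ
local notation "Γℚ" => AlgebraicClosure ℚ ≃ₐ[ℚ] AlgebraicClosure ℚ

section Level

variable {M q : ℕ} [NeZero M] [hq : Fact q.Prime]

local instance neZero_primeMPGeom : NeZero q := ⟨hq.out.ne_zero⟩

/-- **Component triviality** of an inertia invariant, non-Eisenstein eigen class whose system is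
absent from level `M`. -/
theorem isComponentTrivial_of_eigen {p : ℕ} [Fact p.Prime] (hqM : ¬ q ∣ M) (hp2 : p ≠ 2)
    (hthree : p = 3 → ∃ r, r.Prime ∧ r ∣ M ∧ r % 3 = 2) (hqp : q ≠ p) (a : ℕ → ℤ) (T : Finset ℕ)
    (hnonEis : ∀ T' : Finset ℕ, ∃ ℓ : ℕ, ℓ.Prime ∧ ℓ ∉ T' ∧ ¬ (p : ℤ) ∣ a ℓ - ((ℓ : ℤ) + 1))
    (hnoM : ∀ (T' : Finset ℕ) (y : JZero M), p • y = 0 →
      IsEigen (fun ℓ => ℓ.Prime ∧ ℓ ∉ T') a y → y = 0)
    {A : ValuationSubring ℚbar} (hA : A.LiesOverPrime q) {x : JZero (M * q)} (hx : p • x = 0)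
    (heig : IsEigen (fun ℓ => ℓ.Prime ∧ ℓ ∉ T) a x)
    (hinert : ∀ τ ∈ A.inertiaSubgroupIn ℚ, τ • x = x) :
    IsComponentTrivial (x0Reduction hqM A hA) p x := by
  classical
  haveI := charP_residue_of_liesOverPrime hq.out hA
  haveI : IsAlgClosed (ResidueField A) := (x0Reduction hqM A hA).isAlgClosed_residue
  have hp : p.Prime := Fact.out
  have hqn : ¬ q ∣ p := fun h => hqp ((Nat.prime_dvd_prime_iff_eq hq.out hp).1 h)
  -- a tame inertia element and a function of the class fixed by it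
  obtain ⟨σ, hσ, β, ζ, hβ, hζ, hσβ⟩ := exists_inertia_root hA hp.pos hqn
  obtain ⟨D, f, hD, hf, hfσ, hdiv⟩ := exists_fixed_fun σ hp.pos hx (hinert σ hσ)
  subst hD
  obtain ⟨G, hG, hpart, hB⟩ := exists_gluing hqM A hA
  have hg := isInertial_galois hqM A hA hσ
  obtain ⟨ω, hω, -⟩ := exists_isRatio hg hp.pos hf hfσ
  -- its ratio is constant
  obtain ⟨ℓ, hℓ, hℓT, hℓe⟩ := hnonEis (T ∪ (M * q).primeFactors)
  rw [Finset.mem_union, not_or] at hℓT
  have hℓMq : ¬ ℓ ∣ M * q := fun h =>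
    hℓT.2 (Nat.mem_primeFactors.2 ⟨hℓ, h, NeZero.ne _⟩)
  have hωc := ratio_const_of_eigen hqM A hA hp hqp hσ ⟨ℓ, hℓ⟩ hℓMq hℓe D hf hfσ hdiv
    (heig ⟨ℓ, hℓ⟩ ⟨hℓ, hℓT.1⟩) hω
  -- the auxiliary unit
  obtain ⟨e, hpe, U, hU0, hUσ, hUord, hU₀, hU₁⟩ : ∃ e : ℕ, ¬ p ∣ e ∧ ∃ U : X0F M q, U ≠ 0 ∧
      arithmeticGalois (modularFunctionFieldFull (M * q)) σ • U = U ∧
      (∀ v : Place ℚbar (X0F M q), 0 ≤ v.ord (Igusa.jBar (M * q)) → v.ord U = 0) ∧
      (∃ h : U ∈ compV hqM A 0, compPhi hqM A hA 0 ⟨U, h⟩ ≠ 0) ∧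
      ∃ h : ((q : ℚbar) ^ e) • U ∈ compV hqM A 1, compPhi hqM A hA 1 ⟨_, h⟩ ≠ 0 := by
    by_cases hp3 : p = 3
    · obtain ⟨r, hr, hrM, hr3⟩ := hthree hp3
      haveI : NeZero r := ⟨hr.ne_zero⟩
      obtain ⟨W, hW, hgal, hord, hcomp⟩ := exists_cubeUnit hqM hr hrM hr3
      exact ⟨8, by subst hp3; norm_num, W, hW, hgal σ, hord, (hcomp A hA).1, (hcomp A hA).2⟩
    · refine ⟨12, fun h => ?_, MazurPrinciple.modUnit M q, MazurPrinciple.modUnit_ne_zero M q,
        MazurPrinciple.galois_smul_modUnit M q σ,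
        fun v hv => MazurPrinciple.ord_modUnit_eq_zero M q v hv,
        ⟨_, MazurPrinciple.compPhi_zero_modUnit_ne_zero hqM A hA⟩,
        ⟨MazurPrinciple.scaled_modUnit_mem_compV_one hqM A, ?_⟩⟩
      · have hle : p ≤ 12 := Nat.le_of_dvd (by norm_num) h
        have h2 := hp.two_le
        interval_cases p <;> first | exact hp2 rfl | exact hp3 rfl | omega | norm_num at hp | norm_num at h
      · rw [MazurPrinciple.compPhi_one_scaled_modUnit hqM A hA]
        exact inv_ne_zero (MazurPrinciple.compPhi_zero_modUnit_ne_zero hqM A hA)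
  obtain ⟨Φ, N₀, ωΦ, hΦ0, hΦL, hΦσ, hωΦ, hsep, hsum⟩ := exists_aux hqM A hA G hpart hp.pos hqn hpe
    hσ hβ hζ hσβ hU0 hUσ hUord hU₀ hU₁
  have hper : ∀ ψ : X0F M q, ∃ n : ℕ, 0 < n ∧
      arithmeticGalois (modularFunctionFieldFull (M * q)) σ ^ n • ψ = ψ := fun ψ => by
    obtain ⟨n, hn, hψ⟩ := exists_period_fun σ ψ
    exact ⟨n, hn, by rwa [galEnd_iterate, map_pow] at hψ⟩
  refine isComponentTrivial_of_dvd_resOrd hqM A hA hqp a T hnoM D hf hdiv heig fun i v => ?_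
  exact Slot.dvd_resOrd_of_aux G (Mazur.rankLeOne_of_liesOverPrime hq.out hA) hG hpart hB hg hper
    hq.out (p := p) (d := 1) hp one_pos (by rw [mul_one]; exact hqn) hf hfσ
    (fun w => ⟨_, (hdiv w).symm⟩) hω hωc hΦ0 hΦL hΦσ (by rw [mul_one]; exact hωΦ) hsep
    (fun _ _ => by simp) hsum i v

end Level

section GaloisAdd

variable {N : ℕ} [NeZero N] (τ : Γℚ)

theorem galois_jZero_zero : τ • (0 : JZero N) = 0 :=
  map_zero (DistribSMul.toAddMonoidHom (JZero N) τ)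

theorem galois_jZero_neg (y : JZero N) : τ • -y = -(τ • y) :=
  map_neg (DistribSMul.toAddMonoidHom (JZero N) τ) y

theorem galois_jZero_nsmul (n : ℕ) (y : JZero N) : τ • n • y = n • τ • y :=
  map_nsmul (DistribSMul.toAddMonoidHom (JZero N) τ) n y

theorem galois_jZero_zsmul (n : ℤ) (y : JZero N) : τ • n • y = n • τ • y :=
  map_zsmul (DistribSMul.toAddMonoidHom (JZero N) τ) n y

end GaloisAdd

open scoped Pointwise in
/-- **Frobenius at `q` on the toric eigen classes.**  `M` squarefree, `q ∤ M`; the eigen system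
`a` (mod `p`) is not Eisenstein and does not occur in `J₀(M)[p]`; `x ∈ J₀(Mq)[p]` has this system
at almost all primes and is fixed by inertia above `q`.  Then a Frobenius at `q` squares to `q²`
at `x` and commutes with the whole Galois group at `x`. -/
theorem frobenius_sq_and_comm {M q p : ℕ} [NeZero M] [NeZero q] [Fact p.Prime] (hq : q.Prime)
    (hqM : ¬ q ∣ M) (_hM : Squarefree M) (hp2 : p ≠ 2)
    (hthree : p = 3 → ∃ r, r.Prime ∧ r ∣ M ∧ r % 3 = 2) (hqp : q ≠ p) (a : ℕ → ℤ) (T : Finset ℕ)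
    (hnonEis : ∀ T' : Finset ℕ, ∃ ℓ : ℕ, ℓ.Prime ∧ ℓ ∉ T' ∧ ¬ (p : ℤ) ∣ a ℓ - ((ℓ : ℤ) + 1))
    (hnoM : ∀ (T' : Finset ℕ) (y : JZero M), p • y = 0 →
      IsEigen (fun ℓ => ℓ.Prime ∧ ℓ ∉ T') a y → y = 0)
    {A : ValuationSubring (AlgebraicClosure ℚ)} (hA : A.LiesOverPrime q) {σ : Γℚ}
    (hσ : A.IsFrobeniusAt σ q) {x : JZero (M * q)} (hx : p • x = 0)
    (heig : IsEigen (fun ℓ => ℓ.Prime ∧ ℓ ∉ T) a x)
    (hinert : ∀ B : ValuationSubring (AlgebraicClosure ℚ), B.LiesOverPrime q →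
      ∀ τ ∈ B.inertiaSubgroupIn ℚ, τ • x = x) :
    σ • σ • x = q ^ 2 • x ∧ ∀ τ : Γℚ, τ • σ • x = σ • τ • x := by
  haveI := Fact.mk hq
  obtain ⟨w, hwcomm, hwinv, hw⟩ := exists_atkin_smul_eq_neg hqM A hA
  have hqn : ¬ q ∣ p := fun h => hqp ((Nat.prime_dvd_prime_iff_eq hq Fact.out).1 h)
  -- every Galois translate is component trivial at `A`
  have key : ∀ τ : Γℚ, σ • τ • x = -(q • w (τ • x)) := by
    intro τ
    refine hw σ hσ p _ hqn (isComponentTrivial_of_eigen hqM hp2 hthree hqp a T hnonEis hnoM hA ?_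
      (fun ℓ hℓ => ?_) fun ρ hρ => ?_)
    · rw [← galois_jZero_nsmul, hx, galois_jZero_zero]
    · rw [HeckeJ.heckeOperatorBar_galois_smul, heig ℓ hℓ, galois_jZero_zsmul]
    · have h := hinert (τ⁻¹ • A) (PoitouTate.liesOverPrime_smul τ⁻¹ hA) (τ⁻¹ * ρ * τ⁻¹⁻¹)
        (PoitouTate.conj_mem_inertiaSubgroupIn τ⁻¹ hρ)
      rw [inv_inv, mul_smul, mul_smul] at h
      exact inv_smul_eq_iff.1 h
  have h1 : σ • x = -(q • w x) := by simpa using key 1
  refine ⟨?_, fun τ => ?_⟩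
  · calc σ • σ • x = σ • -(q • w x) := by rw [h1]
      _ = -(q • w (σ • x)) := by rw [galois_jZero_neg, galois_jZero_nsmul, hwcomm]
      _ = q ^ 2 • x := by
          rw [h1, map_neg, map_nsmul, hwinv, neg_nsmul, neg_neg, ← mul_nsmul, sq]
  · rw [key τ, h1, galois_jZero_neg, galois_jZero_nsmul, hwcomm]

end Fermat.Agent.Ribet.MP

end
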