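/-
Mazur's principle at `q ≠ p`, group theory: representations satisfying the quadratic
relations of a two-dimensional odd irreducible representation.
-/
import Fermat.Agent.MazurPrinciple.Group
import Mathlib.LinearAlgebra.Matrix.Charpoly.Coeff
import Mathlib.LinearAlgebra.Matrix.ToLin
import Mathlib.LinearAlgebra.Trace
import Mathlib.LinearAlgebra.Determinant

set_option autoImplicit false

noncomputable section

namespace Fermat.Agent.Ribet.MP

open Fermat.Agent.MazurPrinciple

variable {p : ℕ} [Fact p.Prime] {G : Type*} [Group G]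
  {U : Type*} [AddCommGroup U] [Module (ZMod p) U]
  {V : Type*} [AddCommGroup V] [Module (ZMod p) V]

/-- The trace of `ρ g`. -/
def trOf (ρ : G →* Module.End (ZMod p) V) (g : G) : ZMod p := LinearMap.trace (ZMod p) V (ρ g)

/-- The determinant of `ρ g`. -/
def detOf (ρ : G →* Module.End (ZMod p) V) : G →* ZMod p :=
  (LinearMap.det : Module.End (ZMod p) V →* ZMod p).comp ρ

/-- `u g` is killed by the characteristic polynomial of `ρ g`. -/
def Compat (u : G →* Module.End (ZMod p) U) (ρ : G →* Module.End (ZMod p) V) (g : G) : Prop :=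
  u g * u g - trOf ρ g • u g + detOf ρ g • 1 = 0

variable [FiniteDimensional (ZMod p) V] (hV : Module.finrank (ZMod p) V = 2)
  {ρ : G →* Module.End (ZMod p) V}

include hV

theorem mul_self_eq (a : Module.End (ZMod p) V) :
    a * a - LinearMap.trace (ZMod p) V a • a + LinearMap.det a • 1 = 0 := by
  classical
  let b : Module.Basis (Fin 2) (ZMod p) V := Module.finBasisOfFinrankEq _ _ hV
  apply (LinearMap.toMatrixAlgEquiv b).injective
  rw [map_add, map_sub, map_mul, map_smul, map_smul, map_one, map_zero,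
    LinearMap.trace_eq_matrix_trace _ b, ← LinearMap.det_toMatrix b]
  change (LinearMap.toMatrix b b a) * (LinearMap.toMatrix b b a)
    - (LinearMap.toMatrix b b a).trace • LinearMap.toMatrix b b a
    + (LinearMap.toMatrix b b a).det • 1 = 0
  generalize LinearMap.toMatrix b b a = M
  ext i j
  fin_cases i <;> fin_cases j <;>
    simp [Matrix.mul_apply, Fin.sum_univ_two, Matrix.trace_fin_two, Matrix.det_fin_two] <;> ring

theorem det_smul_add_smul_one (a : Module.End (ZMod p) V) (x y : ZMod p) :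
    LinearMap.det (x • a + y • 1)
      = x * x * LinearMap.det a + x * y * LinearMap.trace (ZMod p) V a + y * y := by
  classical
  let b : Module.Basis (Fin 2) (ZMod p) V := Module.finBasisOfFinrankEq _ _ hV
  rw [LinearMap.trace_eq_matrix_trace _ b, ← LinearMap.det_toMatrix b, ← LinearMap.det_toMatrix b,
    map_add, map_smul, map_smul, LinearMap.toMatrix_one]
  generalize LinearMap.toMatrix b b a = M
  simp [Matrix.trace_fin_two, Matrix.det_fin_two]
  ring

theorem trace_smul_add_smul_one (a : Module.End (ZMod p) V) (x y : ZMod p) :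
    LinearMap.trace (ZMod p) V (x • a + y • 1) = x * LinearMap.trace (ZMod p) V a + 2 * y := by
  rw [map_add, map_smul, map_smul, LinearMap.trace_one, hV, smul_eq_mul, smul_eq_mul]
  push_cast
  ring

theorem exists_pow_eq {u : G →* Module.End (ZMod p) U} {g : G} (h : Compat u ρ g) (n : ℕ) :
    ∃ x y : ZMod p, u g ^ n = x • u g + y • 1 ∧ ρ g ^ n = x • ρ g + y • 1 := by
  induction n with
  | zero => exact ⟨0, 1, by simp, by simp⟩
  | succ n ih =>
    obtain ⟨x, y, hu, hr⟩ := ih
    refine ⟨x * trOf ρ g + y, -(x * detOf ρ g), ?_, ?_⟩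
    · have e : u g * u g = trOf ρ g • u g - detOf ρ g • 1 := by
        rw [← sub_eq_zero, ← h]; abel
      rw [pow_succ, hu, add_mul, smul_mul_assoc, smul_mul_assoc, one_mul, e]
      module
    · have e : ρ g * ρ g = trOf ρ g • ρ g - detOf ρ g • 1 := by
        rw [← sub_eq_zero, ← mul_self_eq hV (ρ g)]
        show _ = ρ g * ρ g - trOf ρ g • ρ g + detOf ρ g • 1
        abel
      rw [pow_succ, hr, add_mul, smul_mul_assoc, smul_mul_assoc, one_mul, e]
      module

theorem Compat.pow {u : G →* Module.End (ZMod p) U} {g : G} (h : Compat u ρ g) (n : ℕ) :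
    Compat u ρ (g ^ n) := by
  obtain ⟨x, y, hu, hr⟩ := exists_pow_eq hV h n
  have e : u g * u g = trOf ρ g • u g - detOf ρ g • 1 := by
    rw [← sub_eq_zero, ← h]; abel
  have et : trOf ρ (g ^ n) = x * trOf ρ g + 2 * y := by
    rw [trOf, map_pow, hr, trace_smul_add_smul_one hV]; rfl
  have ed : detOf ρ (g ^ n) = x * x * detOf ρ g + x * y * trOf ρ g + y * y := by
    show LinearMap.det (ρ (g ^ n)) = _
    rw [map_pow, hr, det_smul_add_smul_one hV]; rfl
  unfold Compat
  rw [map_pow, hu, et, ed, add_mul, mul_add, mul_add, smul_mul_smul_comm, smul_mul_smul_comm,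
    smul_mul_smul_comm, smul_mul_smul_comm, one_mul, mul_one, one_mul, e]
  module

theorem quadCompatible {u : G →* Module.End (ZMod p) U} (h : ∀ g, Compat u ρ g) :
    QuadCompatible u ρ (trOf ρ) (detOf ρ) where
  rel := h
  rel' g := mul_self_eq hV (ρ g)
  ker g hg := by
    constructor
    · rw [trOf, hg, LinearMap.trace_one, hV]; rfl
    · show LinearMap.det (ρ g) = 1
      rw [hg, map_one]

/-- An element acting centrally on `U` is central in the image of `ρ`. -/
theorem comm_of_comm {u : G →* Module.End (ZMod p) U} (h : ∀ g, Compat u ρ g) [Nontrivial U]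
    (hρ : NoInvariant ρ) {z : G} (hz : ∀ g, u z * u g = u g * u z) (g : G) :
    ρ z * ρ g = ρ g * ρ z := by
  have hd : ∀ a b : G, detOf ρ (a * b * a⁻¹ * b⁻¹) = 1 := fun a b => by
    have : detOf ρ (a * b * a⁻¹ * b⁻¹) = detOf ρ (a * a⁻¹) * detOf ρ (b * b⁻¹) := by
      simp only [map_mul]; ring
    rw [this, mul_inv_cancel, mul_inv_cancel, map_one, one_mul]
  let H : Subgroup G := u.ker ⊓ (detOf ρ).ker
  have hH : ∀ x ∈ H, (ρ x - 1) * (ρ x - 1) = 0 := by
    rintro x ⟨hxu, hxd⟩
    have hd1 : detOf ρ x = 1 := hxd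
    refine sq_sub_one_of_rel (mul_self_eq hV (ρ x)) ?_ hd1
    have h2 : u x * u x - trOf ρ x • u x + detOf ρ x • 1 = 0 := h x
    rw [show u x = 1 from hxu, hd1, mul_one, one_smul, sub_add_eq_add_sub, sub_eq_zero,
      ← two_smul (ZMod p)] at h2
    obtain ⟨y, hy⟩ := exists_ne (0 : U)
    exact (smul_left_injective (ZMod p) hy (LinearMap.congr_fun h2 y)).symm
  have hmem : g * z * g⁻¹ * z⁻¹ ∈ H := by
    refine ⟨?_, hd g z⟩
    show u _ = 1
    rw [map_mul, map_mul, map_mul, ← hz g, mul_assoc (u z) (u g), ← map_mul, mul_inv_cancel,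
      map_one, mul_one, ← map_mul, mul_inv_cancel, map_one]
  have h1 := eq_one_of_forall_unipotent ρ hρ H hH _ hmem
  calc ρ z * ρ g = ρ (g * z * g⁻¹ * z⁻¹) * (ρ z * ρ g) := by rw [h1, one_mul]
    _ = ρ g * ρ z := by
      rw [← map_mul, ← map_mul, ← map_mul]
      congr 1
      group

/-- A basis of eigenvectors of an involution of determinant `-1`. -/
theorem exists_odd_basis (hp2 : p ≠ 2) {c : Module.End (ZMod p) V} (hc : c * c = 1)
    (hdet : LinearMap.det c = -1) :
    ∃ b : Module.Basis (Fin 2) (ZMod p) V, c (b 0) = b 0 ∧ c (b 1) = -b 1 := by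
  classical
  have h2 : (2 : ZMod p) ≠ 0 := by
    intro h
    have : ((2 : ℕ) : ZMod p) = 0 := by exact_mod_cast h
    rw [ZMod.natCast_eq_zero_iff] at this
    exact hp2 ((Nat.prime_dvd_prime_iff_eq (Fact.out : p.Prime) Nat.prime_two).1 this)
  have ht : LinearMap.trace (ZMod p) V c = 0 := by
    have h := mul_self_eq hV c
    rw [hc, hdet, neg_smul, one_smul, ← sub_eq_add_neg, sub_sub_cancel_left, neg_eq_zero] at h
    by_contra h0
    have hc0 : c = 0 := (smul_eq_zero.1 h).resolve_left h0
    exact h0 (by rw [hc0, map_zero])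
  have hfix : ∀ s : ZMod p, s * s = 1 → ∃ v : V, v ≠ 0 ∧ c v = s • v := by
    intro s hs
    by_contra hcon
    push Not at hcon
    have hall : c + s • 1 = 0 := by
      refine LinearMap.ext fun w => ?_
      by_contra hw
      refine hcon _ hw ?_
      show c (c w + s • w) = s • (c w + s • w)
      rw [map_add, map_smul, ← Module.End.mul_apply, hc, Module.End.one_apply, smul_add, smul_smul,
        hs, one_smul, add_comm]
    have h' := congrArg (LinearMap.trace (ZMod p) V) hall
    rw [map_add, map_smul, LinearMap.trace_one, hV, map_zero, ht, zero_add, smul_eq_mul] at h'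
    have hs0 : s ≠ 0 := fun h0 => by simp [h0] at hs
    exact (mul_ne_zero hs0 h2) (by exact_mod_cast h')
  obtain ⟨v, hv0, hv⟩ := hfix 1 (mul_one 1)
  obtain ⟨w, hw0, hw⟩ := hfix (-1) (by ring)
  rw [one_smul] at hv
  rw [neg_smul, one_smul] at hw
  have hli : LinearIndependent (ZMod p) ![v, w] := by
    rw [LinearIndependent.pair_iff]
    intro s t hst
    have h1 := congrArg c hst
    rw [map_add, map_smul, map_smul, hv, hw, map_zero, smul_neg] at h1
    have h3 : (2 * s) • v = 0 := by
      rw [← add_zero (0 : V)]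
      nth_rewrite 1 [← hst]
      rw [← h1]
      module
    have hs := (smul_eq_zero.1 h3).resolve_right hv0
    have hs' : s = 0 := (mul_eq_zero.1 hs).resolve_left h2
    exact ⟨hs', (smul_eq_zero.1 (by simpa [hs'] using hst)).resolve_right hw0⟩
  refine ⟨basisOfLinearIndependentOfCardEqFinrank hli (by simp [hV]), ?_, ?_⟩
  · simpa using hv
  · simpa using hw

/-- An element central in the image of an odd irreducible representation acts as a scalar. -/
theorem exists_scalar (hp2 : p ≠ 2) (hρ : NoInvariant ρ) {cc : G} (hcc : ρ cc * ρ cc = 1)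
    (hdet : LinearMap.det (ρ cc) = -1) {z : G} (hz : ∀ g, ρ z * ρ g = ρ g * ρ z) :
    ∃ a : ZMod p, ρ z = a • 1 := by
  classical
  obtain ⟨b, hb0, hb1⟩ := exists_odd_basis hV hp2 hcc hdet
  set x := b.repr (ρ z (b 0)) with hx
  have hexp : ρ z (b 0) = x 0 • b 0 + x 1 • b 1 := by
    rw [← b.sum_repr (ρ z (b 0)), Fin.sum_univ_two]
  have hcomm : ρ cc (ρ z (b 0)) = ρ z (b 0) := by
    rw [← Module.End.mul_apply, ← hz cc, Module.End.mul_apply, hb0]
  rw [hexp, map_add, map_smul, map_smul, hb0, hb1, smul_neg, add_right_inj] at hcomm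
  have hx1 : x 1 = 0 := by
    have h2 : (2 * x 1) • b 1 = 0 := by
      rw [← neg_neg (x 1 • b 1), neg_eq_iff_eq_neg, ← sub_eq_zero] at hcomm
      rw [← hcomm]
      module
    have h2' := (smul_eq_zero.1 h2).resolve_right (b.ne_zero 1)
    refine (mul_eq_zero.1 h2').resolve_left fun h => ?_
    have : ((2 : ℕ) : ZMod p) = 0 := by exact_mod_cast h
    rw [ZMod.natCast_eq_zero_iff] at this
    exact hp2 ((Nat.prime_dvd_prime_iff_eq (Fact.out : p.Prime) Nat.prime_two).1 this)
  refine ⟨x 0, ?_⟩
  let E : Submodule (ZMod p) V := LinearMap.ker (ρ z - x 0 • 1)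
  rcases hρ E (fun g v hv => by
      simp only [E, LinearMap.mem_ker, LinearMap.sub_apply, LinearMap.smul_apply,
        Module.End.one_apply, sub_eq_zero] at hv ⊢
      rw [← Module.End.mul_apply, hz g, Module.End.mul_apply, hv, map_smul]) with hE | hE
  · exfalso
    have hmem : b 0 ∈ E := by
      simp only [E, LinearMap.mem_ker, LinearMap.sub_apply, LinearMap.smul_apply,
        Module.End.one_apply, sub_eq_zero]
      rw [hexp, hx1, zero_smul, add_zero]
    rw [hE, Submodule.mem_bot] at hmem
    exact b.ne_zero 0 hmem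
  · exact sub_eq_zero.1 (LinearMap.ker_eq_top.1 hE)

/-- An odd irreducible two-dimensional representation has an element without the eigenvalue
one. -/
theorem exists_trace_ne_one_add_det (hp2 : p ≠ 2) (hρ : NoInvariant ρ) {cc : G}
    (hcc : ρ cc * ρ cc = 1) (hdet : LinearMap.det (ρ cc) = -1) :
    ∃ g : G, trOf ρ g ≠ 1 + detOf ρ g := by
  classical
  by_contra hcon
  push Not at hcon
  obtain ⟨b, hb0, hb1⟩ := exists_odd_basis hV hp2 hcc hdet
  let M : G →* Matrix (Fin 2) (Fin 2) (ZMod p) :=
    ((LinearMap.toMatrixAlgEquiv b).toMonoidHom).comp ρ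
  have hC : M cc = !![1, 0; 0, -1] := by
    ext i j
    show LinearMap.toMatrixAlgEquiv b (ρ cc) i j = _
    rw [LinearMap.toMatrixAlgEquiv_apply]
    fin_cases i <;> fin_cases j <;> simp [hb0, hb1]
  have hrel : ∀ g, M g 0 0 + M g 1 1 = 1 + (M g 0 0 * M g 1 1 - M g 0 1 * M g 1 0) := fun g => by
    have h := hcon g
    unfold trOf at h
    rw [show detOf ρ g = LinearMap.det (ρ g) from rfl, LinearMap.trace_eq_matrix_trace _ b,
      ← LinearMap.det_toMatrix b, Matrix.trace_fin_two, Matrix.det_fin_two] at h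
    exact h
  have h2 : (2 : ZMod p) ≠ 0 := by
    intro h
    have : ((2 : ℕ) : ZMod p) = 0 := by exact_mod_cast h
    rw [ZMod.natCast_eq_zero_iff] at this
    exact hp2 ((Nat.prime_dvd_prime_iff_eq (Fact.out : p.Prime) Nat.prime_two).1 this)
  have key : ∀ g, M g 0 0 = 1 ∧ M g 0 1 * M g 1 0 = 0 := fun g => by
    have h1 := hrel g
    have h3 := hrel (g * cc)
    rw [map_mul, hC] at h3
    simp [Matrix.mul_apply, Fin.sum_univ_two] at h3
    have ha : 2 * (M g 0 0 - 1) = 0 := by linear_combination h1 + h3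
    have ha' : M g 0 0 = 1 := sub_eq_zero.1 ((mul_eq_zero.1 ha).resolve_left h2)
    refine ⟨ha', ?_⟩
    rw [ha'] at h1
    linear_combination h1
  have hnot : ∀ i j : Fin 2, i ≠ j → ∃ g, M g i j ≠ 0 := by
    intro i j hij
    by_contra hall
    push Not at hall
    rcases hρ (Submodule.span (ZMod p) {b j}) (fun g v hv => by
        obtain ⟨s, rfl⟩ := Submodule.mem_span_singleton.1 hv
        rw [map_smul]
        refine Submodule.smul_mem _ s (Submodule.mem_span_singleton.2 ⟨M g j j, ?_⟩)
        conv_rhs => rw [← b.sum_repr (ρ g (b j)), Fin.sum_univ_two]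
        have hi : b.repr (ρ g (b j)) i = 0 := by
          rw [← LinearMap.toMatrixAlgEquiv_apply b (ρ g) i j]; exact hall g
        have hj : b.repr (ρ g (b j)) j = M g j j :=
          (LinearMap.toMatrixAlgEquiv_apply b (ρ g) j j).symm
        fin_cases i <;> fin_cases j <;> simp_all) with h | h
    · exact b.ne_zero j (Submodule.span_singleton_eq_bot.1 h)
    · have := (finrank_span_singleton (K := ZMod p) (b.ne_zero j))
      rw [h, finrank_top, hV] at this
      exact absurd this (by norm_num)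
  obtain ⟨g₁, h₁⟩ := hnot 1 0 (by decide)
  obtain ⟨g₂, h₂⟩ := hnot 0 1 (by decide)
  have e1 : M g₁ 0 1 = 0 := (mul_eq_zero.1 (key g₁).2).resolve_right h₁
  have e2 : M g₂ 1 0 = 0 := (mul_eq_zero.1 (key g₂).2).resolve_left h₂
  have h3 := (key (g₁ * g₂)).2
  rw [map_mul] at h3
  simp [Matrix.mul_apply, Fin.sum_univ_two, e1, e2, (key g₁).1, (key g₂).1] at h3
  exact h3.elim (fun h => h₂ h) (fun h => h₁ h)

/-- The conclusion at `q`: the scalar is `± 1` and `q ≡ 1`. -/
theorem eq_one_and_scalar {u : G →* Module.End (ZMod p) U}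
    [Nontrivial U] (h : ∀ g, Compat u ρ g) (hp2 : p ≠ 2) (hρ : NoInvariant ρ) {cc : G}
    (hcc : ρ cc * ρ cc = 1) (hdet : LinearMap.det (ρ cc) = -1) {z : G}
    (hz : ∀ g, u z * u g = u g * u z) {q : ZMod p} (hq : q ≠ 0)
    (hzz : u z * u z = (q * q) • 1) (hzd : LinearMap.det (ρ z) = q) :
    q = 1 ∧ ∃ a : ZMod p, a ^ 2 = 1 ∧ ρ z = a • 1 := by
  obtain ⟨a, ha⟩ := exists_scalar hV hp2 hρ hcc hdet (comm_of_comm hV h hρ hz)
  have hda : q = a * a := by
    rw [← hzd, ha, LinearMap.det_smul, hV, map_one, mul_one, sq]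
  have hta : trOf ρ z = 2 * a := by
    rw [trOf, ha, map_smul, LinearMap.trace_one, hV, smul_eq_mul]
    push_cast
    ring
  have hrel : u z * u z - trOf ρ z • u z + detOf ρ z • 1 = 0 := h z
  rw [hzz, hta, show detOf ρ z = q from hzd] at hrel
  have h2 : (2 : ZMod p) ≠ 0 := by
    intro h
    have : ((2 : ℕ) : ZMod p) = 0 := by exact_mod_cast h
    rw [ZMod.natCast_eq_zero_iff] at this
    exact hp2 ((Nat.prime_dvd_prime_iff_eq (Fact.out : p.Prime) Nat.prime_two).1 this)
  have ha0 : a ≠ 0 := fun h0 => hq (by rw [hda, h0, mul_zero])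
  set b := (2 * a)⁻¹ * (q * q + q) with hb
  have hub : u z = b • 1 := by
    have : (2 * a) • u z = (q * q + q) • (1 : Module.End (ZMod p) U) := by
      rw [← sub_eq_zero, ← neg_eq_zero, ← hrel]
      module
    rw [hb, mul_smul, ← this, inv_smul_smul₀ (mul_ne_zero h2 ha0)]
  obtain ⟨y, hy⟩ := exists_ne (0 : U)
  have hbq : b * b = q * q := by
    have := LinearMap.congr_fun hzz y
    rw [hub] at this
    simp only [Module.End.mul_apply, LinearMap.smul_apply, Module.End.one_apply, smul_smul] at this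
    exact smul_left_injective (ZMod p) hy this
  have h2b : 2 * a * b = q * q + q := by
    rw [hb, ← mul_assoc, mul_inv_cancel₀ (mul_ne_zero h2 ha0), one_mul]
  have hba : b = a := by
    have : (b - a) * (b - a) = 0 := by linear_combination hbq - h2b - hda
    exact sub_eq_zero.1 (mul_self_eq_zero.1 this)
  have hq1 : q = 1 := by
    have : q * (q - 1) = 0 := by
      rw [hba] at hbq
      linear_combination -hbq - hda
    exact sub_eq_zero.1 ((mul_eq_zero.1 this).resolve_left hq)
  exact ⟨hq1, a, by rw [sq, ← hda, hq1], ha⟩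

end Fermat.Agent.Ribet.MP

end
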