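/-
Mazur's principle at `q ≠ p` for the Frey representation.

If the mod `p` representation of a Frey package is modular of level `N`, `q ∥ N` and the
representation is unramified at `q`, it is modular of a level prime to `q`, unless `q ≡ 1 (mod p)`
and every Frobenius element at `q` acts on the `p`-torsion by one scalar `ε`, `ε² = 1`.
-/
import Fermat.Agent.Ribet.SecondMPGroup
import Fermat.Agent.Ribet.SecondMPEigen
import Fermat.Agent.Ribet.SecondMPGeom
import Fermat.Agent.CondLevel.Curve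
import Fermat.Agent.Density.Main
import Fermat.Agent.GaloisAdic.Inputs
import Fermat.Agent.ECRed.ModelChange
import Fermat.Agent.ECRed.Frobenius
import Fermat.Agent.Mult.Frey
import Fermat.Agent.Galois.QbarInstances
import Fermat.Prelude.Def_FLTPrelim_Ramification
import Fermat.Prelude.Def_FreyPackage_IsConductorLevel

set_option autoImplicit false
set_option linter.style.haveILetI false
set_option linter.unusedSectionVars false

noncomputable section

namespace Fermat.Agent.Ribet.MP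

open ModularCurve WeierstrassCurve Fermat.Agent.Torsion Fermat.Agent.MazurPrinciple
open Fermat.Agent.CondLevel (Tors torsRep)
open scoped WeierstrassCurve.Affine

local notation "ℚbar" => AlgebraicClosure ℚ
local notation "Γℚ" => AlgebraicClosure ℚ ≃ₐ[ℚ] AlgebraicClosure ℚ

section SubRep

variable {R : Type*} [CommRing R] {G : Type*} [Monoid G] {V : Type*} [AddCommGroup V] [Module R V]

/-- The action on a stable subspace. -/
def subRep (r : G →* Module.End R V) (U : Submodule R V) (hU : ∀ g : G, ∀ x ∈ U, r g x ∈ U) :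
    G →* Module.End R U where
  toFun g := (r g).restrict (hU g)
  map_one' := LinearMap.ext fun x => Subtype.ext (by
    rw [LinearMap.coe_restrict_apply, map_one, Module.End.one_apply, Module.End.one_apply])
  map_mul' g h := LinearMap.ext fun x => Subtype.ext (by
    rw [LinearMap.coe_restrict_apply, map_mul, Module.End.mul_apply]
    rfl)

theorem coe_subRep (r : G →* Module.End R V) (U : Submodule R V)
    (hU : ∀ g : G, ∀ x ∈ U, r g x ∈ U) (g : G) (x : U) :
    ((subRep r U hU g x : U) : V) = r g (x : V) := rfl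

theorem hom_eq_of_inv_mul {G M : Type*} [Group G] [Monoid M] (f : G →* M) {σ τ : G}
    (h : f (σ⁻¹ * τ) = 1) : f τ = f σ := by
  rw [show τ = σ * (σ⁻¹ * τ) by group, map_mul, h, mul_one]

theorem subRep_eq_one {V : Type*} [AddCommGroup V] [Module R V] {J : Type*} [AddCommGroup J]
    (val : V →+ J) (hval : Function.Injective val)
    (r : G →* Module.End R V) (act : G → J → J) (hact : ∀ g x, val (r g x) = act g (val x))
    (U : Submodule R V) (hU : ∀ g : G, ∀ x ∈ U, r g x ∈ U) (g : G)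
    (h : ∀ x : U, act g (val x) = val x) : subRep r U hU g = 1 :=
  LinearMap.ext fun x => Subtype.ext (hval (by
    rw [coe_subRep, hact, h, Module.End.one_apply]))

theorem apply_eq_self_of_subRep_eq_one {V : Type*} [AddCommGroup V] [Module R V] {J : Type*}
    [AddCommGroup J] (val : V →+ J)
    (r : G →* Module.End R V) (act : G → J → J) (hact : ∀ g x, val (r g x) = act g (val x))
    (U : Submodule R V) (hU : ∀ g : G, ∀ x ∈ U, r g x ∈ U) (g : G)
    (h : subRep r U hU g = 1) (x : U) : act g (val x) = val x := by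
  rw [← hact, ← coe_subRep r U hU g x, h, Module.End.one_apply]

theorem subRep_quad_iff {n : ℕ} {V : Type*} [AddCommGroup V] [Module (ZMod n) V] {J : Type*}
    [AddCommGroup J] (val : V →+ J) (hval : Function.Injective val)
    (r : G →* Module.End (ZMod n) V) (act : G → J → J) (hact : ∀ g x, val (r g x) = act g (val x))
    (U : Submodule (ZMod n) V) (hU : ∀ g : G, ∀ x ∈ U, r g x ∈ U) (g : G) (t d : ℤ) :
    subRep r U hU g * subRep r U hU g - (t : ZMod n) • subRep r U hU g + (d : ZMod n) • 1 = 0 ↔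
      ∀ x : U, act g (act g (val x)) - t • act g (val x) + d • val x = 0 := by
  have e : ∀ x : U, val (((subRep r U hU g * subRep r U hU g - (t : ZMod n) • subRep r U hU g
      + (d : ZMod n) • 1) x : U) : V)
      = act g (act g (val x)) - t • act g (val x) + d • val x := fun x => by
    simp only [LinearMap.add_apply, LinearMap.sub_apply, LinearMap.smul_apply,
      Module.End.mul_apply, Module.End.one_apply, Submodule.coe_add, Submodule.coe_sub,
      Submodule.coe_smul_of_tower, coe_subRep, Int.cast_smul_eq_zsmul, map_add, map_sub, map_zsmul,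
      hact]
  constructor
  · intro h x
    rw [← e x, h, LinearMap.zero_apply, ZeroMemClass.coe_zero, map_zero]
  · intro h
    refine LinearMap.ext fun x => Subtype.ext (hval ?_)
    rw [e x, h x, LinearMap.zero_apply, ZeroMemClass.coe_zero, map_zero]

theorem compat_congr {n : ℕ} [Fact n.Prime] {G : Type*} [Group G] {U V : Type*} [AddCommGroup U]
    [Module (ZMod n) U] [AddCommGroup V] [Module (ZMod n) V]
    {u : G →* Module.End (ZMod n) U} {ρ : G →* Module.End (ZMod n) V} {σ τ : G}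
    (hu : u τ = u σ) (hr : ρ τ = ρ σ) (h : Compat u ρ σ) : Compat u ρ τ := by
  unfold Compat trOf at h ⊢
  rw [show detOf ρ τ = detOf ρ σ from congrArg LinearMap.det hr, hr, hu]
  exact h

theorem compat_subRep_iff {n : ℕ} [Fact n.Prime] {G : Type*} [Group G] {V Vρ : Type*}
    [AddCommGroup V] [Module (ZMod n) V] [AddCommGroup Vρ] [Module (ZMod n) Vρ] {J : Type*}
    [AddCommGroup J] (val : V →+ J) (hval : Function.Injective val)
    (r : G →* Module.End (ZMod n) V) (act : G → J → J) (hact : ∀ g x, val (r g x) = act g (val x))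
    (U : Submodule (ZMod n) V) (hU : ∀ g : G, ∀ x ∈ U, r g x ∈ U)
    (ρ : G →* Module.End (ZMod n) Vρ) (g : G) (t : ℤ) (d : ℕ)
    (ht : trOf ρ g = (t : ZMod n)) (hd : detOf ρ g = (d : ZMod n)) :
    Compat (subRep r U hU) ρ g ↔
      ∀ x : U, act g (act g (val x)) - t • act g (val x) + d • val x = 0 := by
  unfold Compat
  rw [ht, hd, ← Int.cast_natCast, subRep_quad_iff val hval r act hact U hU g t d]
  simp only [natCast_zsmul]

theorem subRep_comm {V : Type*} [AddCommGroup V] [Module R V] {J : Type*} [AddCommGroup J]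
    (val : V →+ J) (hval : Function.Injective val)
    (r : G →* Module.End R V) (act : G → J → J) (hact : ∀ g x, val (r g x) = act g (val x))
    (U : Submodule R V) (hU : ∀ g : G, ∀ x ∈ U, r g x ∈ U) (z : G)
    (h : ∀ x : U, ∀ g, act g (act z (val x)) = act z (act g (val x))) (g : G) :
    subRep r U hU z * subRep r U hU g = subRep r U hU g * subRep r U hU z :=
  LinearMap.ext fun x => Subtype.ext (hval (by
    simp only [Module.End.mul_apply, coe_subRep, hact]
    exact (h x g).symm))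

theorem subRep_mul_self {n : ℕ} {V : Type*} [AddCommGroup V] [Module (ZMod n) V] {J : Type*}
    [AddCommGroup J] (val : V →+ J) (hval : Function.Injective val)
    (r : G →* Module.End (ZMod n) V) (act : G → J → J) (hact : ∀ g x, val (r g x) = act g (val x))
    (U : Submodule (ZMod n) V) (hU : ∀ g : G, ∀ x ∈ U, r g x ∈ U) (z : G) (m : ℕ)
    (h : ∀ x : U, act z (act z (val x)) = m ^ 2 • val x) :
    subRep r U hU z * subRep r U hU z = ((m : ZMod n) * m) • 1 :=
  LinearMap.ext fun x => Subtype.ext (hval (by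
    rw [← Nat.cast_mul]
    simp only [Module.End.mul_apply, LinearMap.smul_apply, Module.End.one_apply, coe_subRep, hact,
      Nat.cast_smul_eq_nsmul, Submodule.coe_smul_of_tower, map_nsmul]
    rw [h x, sq]))

end SubRep

variable {W : WeierstrassCurve ℤ} {p : ℕ} [Fact p.Prime]

/-- The primes at which the traces of `W` prescribe Hecke eigenvalues. -/
def goodPrime (W : WeierstrassCurve ℤ) (p ℓ : ℕ) : Prop :=
  ℓ.Prime ∧ W.IsGoodPrimeFor ℓ ∧ ℓ ≠ p

variable {L : ℕ}

/-- Eigen classes at the primes outside `T`. -/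
def eigenSub (L p : ℕ) [NeZero L] [Fact p.Prime] (a : ℕ → ℤ) (T : Finset ℕ) :
    Submodule (ZMod p) (jTorsion L p) :=
  AddSubgroup.toZModSubmodule p
    { carrier := {x | IsEigen (fun ℓ => ℓ.Prime ∧ ℓ ∉ T) a (x : JZero L)}
      zero_mem' := fun ℓ _ => by simp
      add_mem' := fun {x y} hx hy ℓ hℓ => by
        rw [AddSubgroup.coe_add, map_add, hx ℓ hℓ, hy ℓ hℓ]
        exact (zsmul_add (x : JZero L) (y : JZero L) (a ℓ)).symm
      neg_mem' := fun {x} hx ℓ hℓ => by
        rw [AddSubgroup.coe_neg, map_neg, hx ℓ hℓ]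
        exact (zsmul_neg (x : JZero L) (a ℓ)).symm }

variable [NeZero L]

theorem mem_eigenSub {a : ℕ → ℤ} {T : Finset ℕ} {x : jTorsion L p} :
    x ∈ eigenSub L p a T ↔ IsEigen (fun ℓ => ℓ.Prime ∧ ℓ ∉ T) a (x : JZero L) := Iff.rfl

theorem galois_zsmul (σ : Γℚ) (n : ℤ) (x : JZero L) : σ • (n • x) = n • σ • x :=
  map_zsmul (DistribSMul.toAddMonoidHom (JZero L) σ) n x

theorem isEigen_smul {good : ℕ → Prop} {a : ℕ → ℤ} {x : JZero L} (hx : IsEigen good a x)
    (σ : Γℚ) : IsEigen good a (σ • x) := fun ℓ hℓ => by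
  rw [HeckeJ.heckeOperatorBar_galois_smul, hx ℓ hℓ, galois_zsmul]

theorem smul_mem_eigenSub {a : ℕ → ℤ} {T : Finset ℕ} (σ : Γℚ) {x : jTorsion L p}
    (hx : x ∈ eigenSub L p a T) : JZero.torsionGaloisRep L p σ x ∈ eigenSub L p a T := by
  rw [mem_eigenSub, JZero.coe_torsionGaloisRep_apply]
  exact isEigen_smul (mem_eigenSub.1 hx) σ

/-- The action on a stable subspace. -/
abbrev restrictRep (L p : ℕ) [NeZero L] [Fact p.Prime] (U : Submodule (ZMod p) (jTorsion L p))
    (hU : ∀ σ : Γℚ, ∀ x ∈ U, JZero.torsionGaloisRep L p σ x ∈ U) :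
    Γℚ →* Module.End (ZMod p) U :=
  subRep (JZero.torsionGaloisRep L p) U hU

theorem coe_restrictRep {U : Submodule (ZMod p) (jTorsion L p)}
    (hU : ∀ σ : Γℚ, ∀ x ∈ U, JZero.torsionGaloisRep L p σ x ∈ U) (σ : Γℚ) (x : U) :
    (((restrictRep L p U hU σ x : U) : jTorsion L p) : JZero L)
      = σ • ((x : jTorsion L p) : JZero L) :=
  (congrArg Subtype.val (coe_subRep (JZero.torsionGaloisRep L p) U hU σ x)).trans
    (JZero.coe_torsionGaloisRep_apply L σ _)

theorem coe_zmod_smul (c : ℤ) (x : jTorsion L p) :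
    (((c : ZMod p) • x : jTorsion L p) : JZero L) = c • (x : JZero L) := by
  rw [Int.cast_smul_eq_zsmul, AddSubgroup.coe_zsmul]

omit [NeZero L]

/-- Two Frobenius elements at the same place differ by inertia. -/
theorem inv_mul_mem_inertia {A : ValuationSubring ℚbar} {q : ℕ} {σ σ' : Γℚ}
    (h : A.IsFrobeniusAt σ q) (h' : A.IsFrobeniusAt σ' q) :
    σ⁻¹ * σ' ∈ A.inertiaSubgroupIn ℚ := by
  refine Subgroup.mem_map.2 ⟨(⟨σ, h.mem_decompositionSubgroup⟩ : A.decompositionSubgroup ℚ)⁻¹ *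
    ⟨σ', h'.mem_decompositionSubgroup⟩, ?_, rfl⟩
  rw [ValuationSubring.inertiaSubgroup, MonoidHom.mem_ker, map_mul, map_inv, inv_mul_eq_one]
  refine RingEquiv.ext fun x => ?_
  exact (h.smul_residue_eq x).trans (h'.smul_residue_eq x).symm

/-- The determinant of a Frobenius element at any prime `q ≠ p`. -/
theorem det_frobenius_any (hΔ : W.Δ ≠ 0) {q : ℕ} (hq : q.Prime) (hqp : q ≠ p)
    {A : ValuationSubring ℚbar} (hA : A.LiesOverPrime q) {σ : Γℚ} (hσ : A.IsFrobeniusAt σ q) :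
    LinearMap.det (torsRep W p σ) = (q : ZMod p) := by
  haveI := Fermat.Agent.CondLevel.isElliptic_map hΔ
  haveI : NeZero (p ^ 1) := ⟨pow_ne_zero 1 (Fact.out : p.Prime).ne_zero⟩
  have h : ∀ M : ℕ, M = p ^ 1 → LinearMap.det (torsRep W M σ) = (q : ZMod M) := by
    rintro M rfl
    exact (Weil.det_galoisRepModuleEnd_pow (W.map (Int.castRingHom ℚ)) Fact.out 1 σ).trans
      (Datum.chiMod_frobenius _ hA hσ (by
        rw [pow_one]; exact (Nat.coprime_primes hq Fact.out).2 hqp))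
  exact h p (pow_one p).symm

/-- A prime divisor of `abc` divides the discriminant of the model. -/
theorem dvd_freyCurveInt_Δ (P : FreyPackage) {ℓ : ℕ} (hℓ : ℓ.Prime)
    (h : (ℓ : ℤ) ∣ P.a * P.b * P.c) : (ℓ : ℤ) ∣ P.freyCurveInt.Δ := by
  rcases eq_or_ne ℓ 2 with rfl | h2
  · exact Mult.two_dvd_freyCurveInt_Δ P
  have h1 : (ℓ : ℤ) ∣ 2 ^ 8 * P.freyCurveInt.Δ := by
    rw [Mult.freyCurveInt_Δ_mul]
    exact dvd_pow h (by have := P.hp5; omega)
  refine ((Nat.prime_iff_prime_int.1 hℓ).dvd_or_dvd h1).resolve_left fun h3 => h2 ?_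
  have h4 : (ℓ : ℤ) ∣ 2 := (Nat.prime_iff_prime_int.1 hℓ).dvd_of_dvd_pow h3
  exact (Nat.prime_dvd_prime_iff_eq hℓ Nat.prime_two).1 (by exact_mod_cast h4)

variable [NeZero L]

variable (hΔ : W.Δ ≠ 0)
include hΔ

theorem detOf_frobenius {ℓ : ℕ} (hℓ : ℓ.Prime) (hg : W.IsGoodPrimeFor ℓ) (hℓp : p ≠ ℓ)
    {A : ValuationSubring ℚbar} (hA : A.LiesOverPrime ℓ) {σ : Γℚ} (hσ : A.IsFrobeniusAt σ ℓ) :
    trOf (torsRep W p) σ = (W.apOfModel ℓ : ZMod p) ∧ detOf (torsRep W p) σ = (ℓ : ZMod p) :=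
  Fermat.Agent.CondLevel.frobenius_tors (pow_one p).symm Fact.out hℓ hℓp hg hA hσ

/-- The characteristic polynomials of `E[p]` kill the eigen classes. -/
theorem compat_eigen (T : Finset ℕ) {U : Submodule (ZMod p) (jTorsion L p)}
    (hUeig : U ≤ eigenSub L p (fun ℓ => W.apOfModel ℓ) T)
    (hU : ∀ σ : Γℚ, ∀ x ∈ U, JZero.torsionGaloisRep L p σ x ∈ U) (g : Γℚ) :
    Compat (restrictRep L p U hU) (torsRep W p) g := by
  classical
  haveI : NeZero p := ⟨(Fact.out : p.Prime).ne_zero⟩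
  haveI := Fermat.Agent.CondLevel.isElliptic_baseChange hΔ
  have hV : Module.finrank (ZMod p) (Tors W p) = 2 :=
    EC.finrank_torsionBy (Nat.cast_ne_zero.2 (Fact.out : p.Prime).ne_zero)
  haveI : Module.Finite (ZMod p) (Tors W p) := Module.finite_of_finrank_eq_succ hV
  -- a finite level
  obtain ⟨L₁, hL₁, h₁⟩ := EC.exists_finiteDimensional_fixing_torsionBy
    (W := (W.map (Int.castRingHom ℚ)).toAffine) (n := p) (Fact.out : p.Prime).ne_zero
  choose Lx hLx hfix using fun x : jTorsion L p =>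
    GaloisAdic.exists_finiteDimensional_forall_smul_eq L (x : JZero L)
  haveI := Fintype.ofFinite (jTorsion L p)
  haveI := hLx
  let L₀ : IntermediateField ℚ ℚbar := L₁ ⊔ ⨆ x, Lx x
  haveI : FiniteDimensional ℚ L₀ := by
    haveI : FiniteDimensional ℚ (⨆ x, Lx x : IntermediateField ℚ ℚbar) :=
      IntermediateField.finiteDimensional_iSup_of_finite
    haveI := hL₁
    exact IntermediateField.finiteDimensional_sup _ _
  refine Density.forall_of_frobenius (P := fun g => Compat (restrictRep L p U hU) (torsRep W p) g)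
    L₀ (fun σ τ hστ hσ => ?_) (fun σ k hσ => Compat.pow hV hσ k)
    (T ∪ L.primeFactors ∪ {p} ∪ W.Δ.natAbs.primeFactors) (fun ℓ hℓ hℓS A hA τ hτ => ?_) g
  · have hfix' : ∀ y ∈ L₀, (σ⁻¹ * τ) y = y := fun y hy => by
      rw [AlgEquiv.mul_apply, ← hστ y hy, ← AlgEquiv.mul_apply, inv_mul_cancel,
        AlgEquiv.one_apply]
    have hr : torsRep W p τ = torsRep W p σ := by
      have h1 : torsRep W p (σ⁻¹ * τ) = 1 := LinearMap.ext fun P =>
        h₁ _ (fun y hy => hfix' y ((le_sup_left : L₁ ≤ L₀) hy)) P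
      rw [show τ = σ * (σ⁻¹ * τ) by group, map_mul, h1, mul_one]
    have hu : restrictRep L p U hU τ = restrictRep L p U hU σ :=
      hom_eq_of_inv_mul _ (subRep_eq_one (jTorsion L p).subtype Subtype.val_injective
        (JZero.torsionGaloisRep L p) (fun σ y => σ • y)
        (fun σ y => JZero.coe_torsionGaloisRep_apply L σ y) U hU _ fun x =>
          hfix (x : jTorsion L p) _ fun y hy => hfix' y
            ((le_sup_right : (⨆ x, Lx x) ≤ L₀) (le_iSup Lx (x : jTorsion L p) hy)))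
    exact compat_congr hu hr hσ
  · simp only [Finset.mem_union, Finset.mem_singleton, Nat.mem_primeFactors, not_or, not_and]
      at hℓS
    obtain ⟨⟨⟨hℓT, hℓL⟩, hℓp⟩, hℓΔ⟩ := hℓS
    have hℓL' : ¬ ℓ ∣ L := fun h => hℓL hℓ h (NeZero.ne L)
    have hg' : W.IsGoodPrimeFor ℓ := fun h =>
      hℓΔ hℓ (Int.natCast_dvd.mp h) (Int.natAbs_ne_zero.mpr hΔ)
    have hℓLp : ¬ ℓ ∣ L * p := fun h => (hℓ.dvd_mul.1 h).elim hℓL' fun h' =>
      hℓp ((Nat.prime_dvd_prime_iff_eq hℓ Fact.out).1 h')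
    obtain ⟨ht, hd⟩ := detOf_frobenius hΔ hℓ hg' (Ne.symm hℓp) hA hτ
    refine (compat_subRep_iff (jTorsion L p).subtype Subtype.val_injective
      (JZero.torsionGaloisRep L p) (fun σ y => σ • y)
      (fun σ y => JZero.coe_torsionGaloisRep_apply L σ y) U hU _ τ _ ℓ ht hd).2 fun x => ?_
    have hq := ES.frobenius_quadratic (p := p) (N := L) hℓ hℓLp hA hτ
      (x := (jTorsion L p).subtype x)
      ⟨1, by rw [pow_one]; exact mem_jTorsion.1 (x : jTorsion L p).2⟩
    have he := isEigen_smul (mem_eigenSub.1 (hUeig x.2)) τ ⟨ℓ, hℓ⟩ ⟨hℓ, hℓT⟩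
    rw [← AddSubgroup.subtype_apply] at he
    rw [he] at hq
    exact hq

/-- An eigen class at almost all primes is an eigen class at every good prime prime to the
level. -/
theorem isEigen_good (T : Finset ℕ) (hL : ∀ ℓ, goodPrime W p ℓ → ¬ ℓ ∣ L) {x : JZero L}
    (hpx : p • x = 0) (hx : IsEigen (fun ℓ => ℓ.Prime ∧ ℓ ∉ T) (fun ℓ => W.apOfModel ℓ) x) :
    IsEigen (goodPrime W p) (fun ℓ => W.apOfModel ℓ) x := by
  rintro ℓ ⟨hℓ, hg, hℓp⟩
  obtain ⟨A, τ, hA, hτ⟩ := Galois.exists_valuationSubring_isFrobeniusAt hℓ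
  have hU : ∀ σ : Γℚ, ∀ y ∈ eigenSub L p (fun ℓ => W.apOfModel ℓ) T,
      JZero.torsionGaloisRep L p σ y ∈ eigenSub L p (fun ℓ => W.apOfModel ℓ) T :=
    fun σ y hy => smul_mem_eigenSub σ hy
  have h := compat_eigen hΔ T le_rfl hU τ
  obtain ⟨ht, hd⟩ := detOf_frobenius hΔ hℓ hg (Ne.symm hℓp) hA hτ
  set y : jTorsion L p := JZero.torsionGaloisRep L p τ⁻¹ ⟨x, mem_jTorsion.2 hpx⟩ with hy
  have hy' : (y : JZero L) = τ⁻¹ • x := JZero.coe_torsionGaloisRep_apply L _ _
  have hymem : y ∈ eigenSub L p (fun ℓ => W.apOfModel ℓ) T := smul_mem_eigenSub _ hx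
  have h' : τ • τ • (y : JZero L) - W.apOfModel ℓ • (τ • (y : JZero L))
      + (ℓ : ℕ) • (y : JZero L) = 0 :=
    (compat_subRep_iff (jTorsion L p).subtype Subtype.val_injective
      (JZero.torsionGaloisRep L p) (fun σ y => σ • y)
      (fun σ y => JZero.coe_torsionGaloisRep_apply L σ y) _ hU _ τ _ _ ht hd).1 h ⟨y, hymem⟩
  have hℓLp : ¬ (ℓ : ℕ) ∣ L * p := fun h => (hℓ.dvd_mul.1 h).elim (hL ℓ ⟨hℓ, hg, hℓp⟩) fun h' =>
    hℓp ((Nat.prime_dvd_prime_iff_eq hℓ Fact.out).1 h')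
  have hq := ES.frobenius_quadratic (p := p) (N := L) hℓ hℓLp hA hτ (x := (y : JZero L))
    ⟨1, by rw [pow_one]; exact mem_jTorsion.1 y.2⟩
  have e := h'.trans hq.symm
  rw [add_left_inj, sub_right_inj, hy', smul_inv_smul] at e
  exact e.symm

omit hΔ

/-- Almost all primes are good. -/
theorem finset_bad (hΔ : W.Δ ≠ 0) {ℓ : ℕ} (hℓ : ℓ.Prime)
    (h : ℓ ∉ W.Δ.natAbs.primeFactors ∪ {p}) : goodPrime W p ℓ := by
  simp only [Finset.mem_union, Finset.mem_singleton, Nat.mem_primeFactors, not_or, not_and] at h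
  exact ⟨hℓ, fun hd => h.1 hℓ (Int.natCast_dvd.mp hd) (Int.natAbs_ne_zero.mpr hΔ), h.2⟩

include hΔ

/-- A non-Eisenstein prime. -/
theorem exists_not_eisenstein (hp2 : p ≠ 2)
    (hirr : W.ModRepIsIrreducible p) (T : Finset ℕ) :
    ∃ ℓ : ℕ, ℓ.Prime ∧ ℓ ∉ T ∧ ¬ (p : ℤ) ∣ W.apOfModel ℓ - ((ℓ : ℤ) + 1) := by
  classical
  haveI := Fermat.Agent.CondLevel.isElliptic_baseChange hΔ
  have hV : Module.finrank (ZMod p) (Tors W p) = 2 :=
    EC.finrank_torsionBy (Nat.cast_ne_zero.2 (Fact.out : p.Prime).ne_zero)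
  haveI : Module.Finite (ZMod p) (Tors W p) := Module.finite_of_finrank_eq_succ hV
  obtain ⟨c, hcc, hc⟩ := Fermat.Agent.CondLevel.exists_involution
  obtain ⟨g, hg⟩ := exists_trace_ne_one_add_det hV hp2 (ρ := torsRep W p) hirr.2
    (cc := c) (by rw [← map_mul, hcc, map_one])
    (Fermat.Agent.CondLevel.det_torsRep_involution hΔ hp2 c hcc hc)
  by_contra hcon
  push Not at hcon
  obtain ⟨L₁, hL₁, h₁⟩ := EC.exists_finiteDimensional_fixing_torsionBy
    (W := (W.map (Int.castRingHom ℚ)).toAffine) (n := p) (Fact.out : p.Prime).ne_zero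
  haveI := hL₁
  refine hg (Density.forall_of_frobenius
    (P := fun σ => trOf (torsRep W p) σ = 1 + detOf (torsRep W p) σ) L₁ (fun σ τ hστ hσ => ?_)
    (fun σ k hσ => ?_) (T ∪ W.Δ.natAbs.primeFactors ∪ {p}) (fun ℓ hℓ hℓS A hA τ hτ => ?_) g)
  · have h1 : torsRep W p (σ⁻¹ * τ) = 1 := LinearMap.ext fun P =>
      h₁ _ (fun y hy => by
        rw [AlgEquiv.mul_apply, ← hστ y hy, ← AlgEquiv.mul_apply, inv_mul_cancel,
          AlgEquiv.one_apply]) P
    have hr : torsRep W p τ = torsRep W p σ := by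
      rw [show τ = σ * (σ⁻¹ * τ) by group, map_mul, h1, mul_one]
    unfold trOf at hσ ⊢
    rw [show detOf (torsRep W p) τ = detOf (torsRep W p) σ from congrArg LinearMap.det hr, hr]
    exact hσ
  · -- `1` stays an eigenvalue in powers: the trivial one dimensional representation
    let u : Γℚ →* Module.End (ZMod p) (ZMod p) := 1
    have hu : Compat u (torsRep W p) σ := by
      unfold Compat
      rw [show u σ = 1 from rfl, one_mul, hσ]
      module
    have := Compat.pow hV hu k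
    unfold Compat at this
    rw [show u (σ ^ k) = 1 from rfl, one_mul] at this
    have h1 := LinearMap.congr_fun this 1
    simp [-map_pow] at h1
    linear_combination -h1
  · rw [Finset.union_assoc, Finset.mem_union, not_or] at hℓS
    obtain ⟨-, hgood, hℓp⟩ := finset_bad (p := p) hΔ hℓ hℓS.2
    obtain ⟨ht, hd⟩ := detOf_frobenius hΔ hℓ hgood (Ne.symm hℓp) hA hτ
    have := (ZMod.intCast_zmod_eq_zero_iff_dvd _ p).2 (hcon ℓ hℓ hℓS.1)
    rw [ht, hd]
    push_cast at this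
    linear_combination this

set_option maxHeartbeats 1000000 in
/-- Mazur's principle for an integral model. -/
theorem mazurPrinciple_aux {M q : ℕ} [NeZero M] (hM : Squarefree M) (hq : q.Prime) (hqM : ¬ q ∣ M)
    (hqp : q ≠ p) (hp2 : p ≠ 2) (hthree : p = 3 → ∃ r, r.Prime ∧ r ∣ M ∧ r % 3 = 2)
    (hirr : W.ModRepIsIrreducible p)
    (hbad : ∀ ℓ, goodPrime W p ℓ → ¬ ℓ ∣ M * q)
    (hunr : ∀ A : ValuationSubring ℚbar, A.LiesOverPrime q → ∀ σ ∈ A.inertiaSubgroupIn ℚ,
      ∀ x : Tors W p, σ • x = x)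
    {f : CuspForm (CongruenceSubgroup.Gamma0 (M * q)) 2} (hf : f.IsNormalizedEigenform)
    {𝔪 : Ideal (integralClosure ℤ ℂ)} (h𝔪 : 𝔪.IsMaximal) (hp : (p : integralClosure ℤ ℂ) ∈ 𝔪)
    (T₀ : Finset ℕ) (hcong : ∀ ℓ : ℕ, ℓ.Prime → ℓ ∉ T₀ → ∃ c : integralClosure ℤ ℂ,
      (c : ℂ) = ModularFormClass.qCoeff f ℓ ∧
        c - (W.apOfModel ℓ : integralClosure ℤ ℂ) ∈ 𝔪)
    (hno : ∀ (g : CuspForm (CongruenceSubgroup.Gamma0 M) 2) (𝔫 : Ideal (integralClosure ℤ ℂ)),
      g.IsNormalizedEigenform → 𝔫.IsMaximal → (p : integralClosure ℤ ℂ) ∈ 𝔫 →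
      ¬ ∀ ℓ : ℕ, ℓ.Prime → goodPrime W p ℓ → ∃ c : integralClosure ℤ ℂ,
          (c : ℂ) = ModularFormClass.qCoeff g ℓ ∧
            c - (W.apOfModel ℓ : integralClosure ℤ ℂ) ∈ 𝔫) :
    (q : ZMod p) = 1 ∧ ∃ ε : ZMod p, ε ^ 2 = 1 ∧
      ∀ A : ValuationSubring ℚbar, A.LiesOverPrime q → ∀ σ : Γℚ, A.IsFrobeniusAt σ q →
        ∀ x : Tors W p, σ • x = ε • x := by
  classical
  haveI : NeZero q := ⟨hq.ne_zero⟩
  haveI : NeZero p := ⟨(Fact.out : p.Prime).ne_zero⟩
  haveI := Fermat.Agent.CondLevel.isElliptic_baseChange hΔ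
  have hV : Module.finrank (ZMod p) (Tors W p) = 2 :=
    EC.finrank_torsionBy (Nat.cast_ne_zero.2 (Fact.out : p.Prime).ne_zero)
  haveI : Module.Finite (ZMod p) (Tors W p) := Module.finite_of_finrank_eq_succ hV
  haveI : Module.Finite (ZMod p) (jTorsion (M * q) p) := Module.Finite.of_finite
  -- an irreducible space of eigen classes of level `M q`
  set T := T₀ ∪ W.Δ.natAbs.primeFactors ∪ {p} ∪ (M * q).primeFactors with hT
  obtain ⟨x, hx0, hpx, hx⟩ := exists_isEigen_of_eigenform (p := p) hf 𝔪 h𝔪 hp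
    (fun ℓ => ℓ.Prime ∧ ℓ ∉ T) (fun ℓ => W.apOfModel ℓ)
    (fun ℓ hℓ _ hd => hℓ.2 (by simp [hT, Nat.mem_primeFactors, hℓ.1, hd, NeZero.ne]))
    (fun ℓ hℓ hℓT => hcong ℓ hℓ fun h => hℓT.2 (by simp [hT, h]))
  set E := eigenSub (M * q) p (fun ℓ => W.apOfModel ℓ) T
  have hE : E ≠ ⊥ := fun h => hx0 (by
    have hmem : (⟨x, mem_jTorsion.2 hpx⟩ : jTorsion (M * q) p) ∈ E := hx
    rw [h, Submodule.mem_bot] at hmem
    exact congrArg Subtype.val hmem)
  obtain ⟨U, hUE, hU0, hU, hmin⟩ := exists_minimal_invariant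
    (JZero.torsionGaloisRep (M * q) p) E hE fun σ y hy => smul_mem_eigenSub σ hy
  haveI : Nontrivial U := Submodule.nontrivial_iff_ne_bot.2 hU0
  set u := restrictRep (M * q) p U hU
  have hUirr : NoInvariant u := by
    intro X hX
    rcases hmin (X.map U.subtype) (Submodule.map_subtype_le U X) (by
      rintro σ _ ⟨y, hy, rfl⟩
      exact ⟨u σ y, hX σ y hy, rfl⟩) with h | h
    · exact Or.inl (Submodule.map_injective_of_injective U.injective_subtype
        (h.trans (Submodule.map_bot _).symm))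
    · exact Or.inr (Submodule.map_injective_of_injective U.injective_subtype
        (h.trans (Submodule.map_subtype_top U).symm))
  have hcomp : ∀ g, Compat u (torsRep W p) g := compat_eigen hΔ T hUE hU
  -- inertia at `q` is trivial on `U`
  have hinert : ∀ y : U, ∀ B : ValuationSubring ℚbar, B.LiesOverPrime q →
      ∀ τ ∈ B.inertiaSubgroupIn ℚ,
      τ • ((y : jTorsion (M * q) p) : JZero (M * q)) = ((y : jTorsion (M * q) p) : JZero (M * q)) :=
    fun y B hB τ hτ => apply_eq_self_of_subRep_eq_one (jTorsion (M * q) p).subtype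
      (JZero.torsionGaloisRep (M * q) p) (fun σ y => σ • y)
      (fun σ y => JZero.coe_torsionGaloisRep_apply (M * q) σ y) U hU τ
      ((quadCompatible hV hcomp).eq_one_of_mem_ker hUirr (g := τ)
        (LinearMap.ext fun z => hunr B hB τ hτ z)) y
  -- the system does not occur at level `M`
  have hnoM : ∀ (T' : Finset ℕ) (y : JZero M), p • y = 0 →
      IsEigen (fun ℓ => ℓ.Prime ∧ ℓ ∉ T') (fun ℓ => W.apOfModel ℓ) y → y = 0 := by
    intro T' y hpy hy
    by_contra hy0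
    obtain ⟨g, hg, 𝔫, h𝔫, hp𝔫, hgc⟩ := exists_eigenform_of_isEigen hy0 hpy (goodPrime W p) _
      (fun ℓ hℓ _ h => hbad ℓ hℓ (h.mul_right q))
      (isEigen_good hΔ T' (fun ℓ hℓ h => hbad ℓ hℓ (h.mul_right q)) hpy hy)
    exact hno g 𝔫 hg h𝔫 hp𝔫 hgc
  obtain ⟨c, hcc, hc⟩ := Fermat.Agent.CondLevel.exists_involution
  have key : ∀ (A : ValuationSubring ℚbar), A.LiesOverPrime q → ∀ σ : Γℚ, A.IsFrobeniusAt σ q →
      (q : ZMod p) = 1 ∧ ∃ ε : ZMod p, ε ^ 2 = 1 ∧ torsRep W p σ = ε • 1 := by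
    intro A hA σ hσ
    have hgeo := fun y : U => frobenius_sq_and_comm hq hqM hM hp2 hthree hqp
      (fun ℓ => W.apOfModel ℓ) T (exists_not_eisenstein hΔ hp2 hirr) hnoM hA hσ
      (x := ((y : jTorsion (M * q) p) : JZero (M * q)))
      (mem_jTorsion.1 (y : jTorsion (M * q) p).2) (hUE y.2) (hinert y)
    have hcomm : ∀ g, u σ * u g = u g * u σ := fun g =>
      subRep_comm (jTorsion (M * q) p).subtype Subtype.val_injective
        (JZero.torsionGaloisRep (M * q) p) (fun σ y => σ • y)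
        (fun σ y => JZero.coe_torsionGaloisRep_apply (M * q) σ y) U hU σ
        (fun y g => (hgeo y).2 g) g
    have hsq : u σ * u σ = ((q : ZMod p) * q) • 1 :=
      subRep_mul_self (jTorsion (M * q) p).subtype Subtype.val_injective
        (JZero.torsionGaloisRep (M * q) p) (fun σ y => σ • y)
        (fun σ y => JZero.coe_torsionGaloisRep_apply (M * q) σ y) U hU σ q
        (fun y => (hgeo y).1)
    have hq0 : (q : ZMod p) ≠ 0 := by
      rw [Ne, ZMod.natCast_eq_zero_iff]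
      exact fun h => hqp ((Nat.prime_dvd_prime_iff_eq Fact.out hq).1 h).symm
    exact eq_one_and_scalar hV hcomp hp2 hirr.2 (cc := c) (by rw [← map_mul, hcc, map_one])
      (Fermat.Agent.CondLevel.det_torsRep_involution hΔ hp2 c hcc hc) (z := σ) hcomm hq0 hsq
      (det_frobenius_any hΔ hq hqp hA hσ)
  obtain ⟨A₀, σ₀, hA₀, hσ₀⟩ := Galois.exists_valuationSubring_isFrobeniusAt hq
  obtain ⟨hq1, ε, hε, hσ₀ε⟩ := key A₀ hA₀ σ₀ hσ₀
  refine ⟨hq1, ε, hε, fun A hA σ hσ x => ?_⟩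
  obtain ⟨g, rfl⟩ := Galois.exists_smul_eq_of_liesOverPrime hq hA₀ hA
  have hin := inv_mul_mem_inertia (Density.isFrobeniusAt_conj hσ₀ g) hσ
  have h1 : torsRep W p ((g * σ₀ * g⁻¹)⁻¹ * σ) = 1 := LinearMap.ext fun z => hunr _ hA _ hin z
  have h2 : torsRep W p σ = ε • 1 := by
    rw [show σ = (g * σ₀ * g⁻¹) * ((g * σ₀ * g⁻¹)⁻¹ * σ) by group, map_mul, h1, mul_one, map_mul,
      map_mul, hσ₀ε, mul_smul_comm, mul_one, smul_mul_assoc, ← map_mul, mul_inv_cancel, map_one]
  exact LinearMap.congr_fun h2 x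

omit hΔ

/-- **Mazur's principle at `q ≠ p`.** -/
theorem mazurPrinciple (P : FreyPackage) {N l : ℕ} (hcond : P.IsConductorLevel N) (hl : l.Prime)
    (_hl2 : l ≠ 2) (hlp : l ≠ P.p) (hlN : l ∣ N)
    (hirr : Affine.Point.GaloisRepIsIrreducible (K := ℚbar) ℚ P.freyCurve P.p)
    (hmod : P.ModularRepOfLevel N) (hunr : P.GaloisRepUnramifiedAt l) :
    (∃ M : ℕ, M ∣ N ∧ ¬ l ∣ M ∧ P.ModularRepOfLevel M) ∨
      ((l : ZMod P.p) = 1 ∧ ∃ eps : ZMod P.p, eps ^ 2 = 1 ∧
        ∀ A : ValuationSubring ℚbar, A.LiesOverPrime l → ∀ σ : Γℚ, A.IsFrobeniusAt σ l →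
          ∀ x : Submodule.torsionBy ℤ ((P.freyCurve : WeierstrassCurve ℚ)⁄ℚbar).Point P.p,
            σ • x = eps • x) := by
  classical
  haveI : Fact P.p.Prime := ⟨P.pp⟩
  by_cases hleft : ∃ M : ℕ, M ∣ N ∧ ¬ l ∣ M ∧ P.ModularRepOfLevel M
  · exact Or.inl hleft
  refine Or.inr ?_
  obtain ⟨M, rfl⟩ : ∃ M, N = M * l := by
    obtain ⟨c, rfl⟩ := hlN
    exact ⟨c, mul_comm l c⟩
  haveI : NeZero M := ⟨fun h => by have := hcond.pos; simp [h] at this⟩
  have hlM : ¬ l ∣ M := fun h => hcond.sq_not_dvd hl (by rw [sq]; exact Nat.mul_dvd_mul_right h l)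
  obtain ⟨f, W, 𝔪, hf, ⟨C, hC⟩, h𝔪, hp, hcong⟩ := hmod
  have hΔ := Mult.freyCurveInt_Δ_ne_zero P
  have hmap := Mult.freyCurveInt_map P
  have hWΔ : W.Δ ≠ 0 := fun h => by
    have h2 : (W.map (Int.castRingHom ℚ)).Δ = 0 := by rw [map_Δ, h, map_zero]
    rw [← hC, ← hmap, variableChange_Δ, map_Δ, eq_intCast] at h2
    simp [hΔ] at h2
  refine (fun h => ?_) (mazurPrinciple_aux (W := P.freyCurveInt) (p := P.p) hΔ
    (hcond.squarefree.squarefree_of_dvd (dvd_mul_right M l)) hl hlM hlp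
    (by have := P.hp5; omega) (fun h => absurd h (by have := P.hp5; omega))
    (by
      show Affine.Point.GaloisRepIsIrreducible (K := ℚbar) ℚ
        (P.freyCurveInt.map (Int.castRingHom ℚ)) P.p
      rw [hmap]; exact hirr)
    (fun ℓ hℓ hd => hℓ.2.1 (dvd_freyCurveInt_Δ P hℓ.1 (hcond.support ℓ hℓ.1 hd)))
    (by
      show Affine.Point.GaloisRepUnramifiedAt (K := ℚbar) ℚ
        (P.freyCurveInt.map (Int.castRingHom ℚ)) P.p l
      rw [hmap]; exact hunr)
    hf h𝔪 hp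
    (W.Δ.natAbs.primeFactors ∪ P.freyCurveInt.Δ.natAbs.primeFactors ∪ {P.p} ∪
      (M * l).primeFactors)
    (fun ℓ hℓ hℓS => ?_) ?_)
  · obtain ⟨h1, ε, hε, h2⟩ := h
    refine ⟨h1, ε, hε, ?_⟩
    rw [← hmap]
    exact h2
  · simp only [Finset.mem_union, Finset.mem_singleton, Nat.mem_primeFactors, not_or, not_and]
      at hℓS
    obtain ⟨⟨⟨hℓW, hℓF⟩, hℓp⟩, hℓN⟩ := hℓS
    have hgW : W.IsGoodPrimeFor ℓ := fun hd =>
      hℓW hℓ (Int.natCast_dvd.mp hd) (Int.natAbs_ne_zero.mpr hWΔ)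
    have hgF : P.freyCurveInt.IsGoodPrimeFor ℓ := fun hd =>
      hℓF hℓ (Int.natCast_dvd.mp hd) (Int.natAbs_ne_zero.mpr hΔ)
    rw [ECRed.apOfModel_eq_of_variableChange C (by rw [hmap, hC]) hℓ hgF hgW]
    exact hcong ℓ hℓ hgW (fun hd => hℓN hℓ hd hcond.pos.ne') hℓp
  · intro g 𝔫 hg h𝔫 hp𝔫 hgc
    refine hleft ⟨M, dvd_mul_right M l, hlM, g, P.freyCurveInt, 𝔫, hg,
      ⟨1, by rw [one_smul, hmap]⟩, h𝔫, hp𝔫, fun ℓ hℓ hgood _ hℓp => hgc ℓ hℓ ⟨hℓ, hgood, hℓp⟩⟩

end Fermat.Agent.Ribet.MP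

end
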