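/-
Mazur's principle at `q ≠ p` for a residual level: export for level lowering of integral models.
-/
import Fermat.Agent.Ribet.SecondMPMain
import Fermat.Agent.Ribet.General.Attached

set_option autoImplicit false
set_option linter.style.haveILetI false
set_option linter.unusedSectionVars false

noncomputable section

namespace Fermat.Agent.Ribet.MP

open ModularCurve WeierstrassCurve Fermat.Agent.Torsion Fermat.Agent.MazurPrinciple
open Fermat.Agent.CondLevel (Tors torsRep)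
open scoped WeierstrassCurve.Affine

local notation "ℚbar" => AlgebraicClosure ℚ
local notation "Γℚ" => AlgebraicClosure ℚ ≃ₐ[ℚ] AlgebraicClosure ℚ

variable {W : WeierstrassCurve ℤ} {p : ℕ} [Fact p.Prime]
variable (hΔ : W.Δ ≠ 0)
include hΔ

set_option maxHeartbeats 1000000 in
/-- Mazur's principle for an integral model, without conditions on the level. -/
theorem mazurPrinciple_level {M q : ℕ} [NeZero M] (hM : Squarefree M) (hq : q.Prime) (hqM : ¬ q ∣ M)
    (hqp : q ≠ p) (hp2 : p ≠ 2) (hthree : p = 3 → ∃ r : ℕ, r.Prime ∧ r ∣ M ∧ r % 3 = 2)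
    (hirr : W.ModRepIsIrreducible p)
    (hunr : ∀ A : ValuationSubring ℚbar, A.LiesOverPrime q → ∀ σ ∈ A.inertiaSubgroupIn ℚ,
      ∀ x : Tors W p, σ • x = x)
    {f : CuspForm (CongruenceSubgroup.Gamma0 (M * q)) 2} (hf : f.IsNormalizedEigenform)
    {𝔪 : Ideal (integralClosure ℤ ℂ)} (h𝔪 : 𝔪.IsMaximal) (hp : (p : integralClosure ℤ ℂ) ∈ 𝔪)
    (T₀ : Finset ℕ) (hcong : ∀ ℓ : ℕ, ℓ.Prime → ℓ ∉ T₀ → ∃ c : integralClosure ℤ ℂ,
      (c : ℂ) = ModularFormClass.qCoeff f ℓ ∧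
        c - (W.apOfModel ℓ : integralClosure ℤ ℂ) ∈ 𝔪)
    (hno : ∀ (g : CuspForm (CongruenceSubgroup.Gamma0 M) 2) (𝔫 : Ideal (integralClosure ℤ ℂ))
      (S : Finset ℕ), g.IsNormalizedEigenform → 𝔫.IsMaximal → (p : integralClosure ℤ ℂ) ∈ 𝔫 →
      ¬ ∀ ℓ : ℕ, ℓ.Prime → ℓ ∉ S → ∃ c : integralClosure ℤ ℂ,
          (c : ℂ) = ModularFormClass.qCoeff g ℓ ∧
            c - (W.apOfModel ℓ : integralClosure ℤ ℂ) ∈ 𝔫) :
    (q : ZMod p) = 1 ∧ ∃ ε : ZMod p, ε ^ 2 = 1 ∧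
      ∀ A : ValuationSubring ℚbar, A.LiesOverPrime q → ∀ σ : Γℚ, A.IsFrobeniusAt σ q →
        ∀ x : Tors W p, σ • x = ε • x := by
  classical
  haveI : NeZero q := ⟨hq.ne_zero⟩
  haveI : NeZero p := ⟨(Fact.out : p.Prime).ne_zero⟩
  haveI := Fermat.Agent.CondLevel.isElliptic_baseChange hΔ
  have hV : Module.finrank (ZMod p) (Tors W p) = 2 :=
    EC.finrank_torsionBy (Nat.cast_ne_zero.2 (Fact.out : p.Prime).ne_zero)
  haveI : Module.Finite (ZMod p) (Tors W p) := Module.finite_of_finrank_eq_succ hV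
  haveI : Module.Finite (ZMod p) (jTorsion (M * q) p) := Module.Finite.of_finite
  -- an irreducible space of eigen classes of level `M q`
  set T := T₀ ∪ W.Δ.natAbs.primeFactors ∪ {p} ∪ (M * q).primeFactors with hT
  obtain ⟨x, hx0, hpx, hx⟩ := exists_isEigen_of_eigenform (p := p) hf 𝔪 h𝔪 hp
    (fun ℓ => ℓ.Prime ∧ ℓ ∉ T) (fun ℓ => W.apOfModel ℓ)
    (fun ℓ hℓ _ hd => hℓ.2 (by simp [hT, Nat.mem_primeFactors, hℓ.1, hd, NeZero.ne]))
    (fun ℓ hℓ hℓT => hcong ℓ hℓ fun h => hℓT.2 (by simp [hT, h]))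
  set E := eigenSub (M * q) p (fun ℓ => W.apOfModel ℓ) T
  have hE : E ≠ ⊥ := fun h => hx0 (by
    have hmem : (⟨x, mem_jTorsion.2 hpx⟩ : jTorsion (M * q) p) ∈ E := hx
    rw [h, Submodule.mem_bot] at hmem
    exact congrArg Subtype.val hmem)
  obtain ⟨U, hUE, hU0, hU, hmin⟩ := exists_minimal_invariant
    (JZero.torsionGaloisRep (M * q) p) E hE fun σ y hy => smul_mem_eigenSub σ hy
  haveI : Nontrivial U := Submodule.nontrivial_iff_ne_bot.2 hU0
  set u := restrictRep (M * q) p U hU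
  have hUirr : NoInvariant u := by
    intro X hX
    rcases hmin (X.map U.subtype) (Submodule.map_subtype_le U X) (by
      rintro σ _ ⟨y, hy, rfl⟩
      exact ⟨u σ y, hX σ y hy, rfl⟩) with h | h
    · exact Or.inl (Submodule.map_injective_of_injective U.injective_subtype
        (h.trans (Submodule.map_bot _).symm))
    · exact Or.inr (Submodule.map_injective_of_injective U.injective_subtype
        (h.trans (Submodule.map_subtype_top U).symm))
  have hcomp : ∀ g, Compat u (torsRep W p) g := compat_eigen hΔ T hUE hU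
  -- inertia at `q` is trivial on `U`
  have hinert : ∀ y : U, ∀ B : ValuationSubring ℚbar, B.LiesOverPrime q →
      ∀ τ ∈ B.inertiaSubgroupIn ℚ,
      τ • ((y : jTorsion (M * q) p) : JZero (M * q)) = ((y : jTorsion (M * q) p) : JZero (M * q)) :=
    fun y B hB τ hτ => apply_eq_self_of_subRep_eq_one (jTorsion (M * q) p).subtype
      (JZero.torsionGaloisRep (M * q) p) (fun σ y => σ • y)
      (fun σ y => JZero.coe_torsionGaloisRep_apply (M * q) σ y) U hU τ
      ((quadCompatible hV hcomp).eq_one_of_mem_ker hUirr (g := τ)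
        (LinearMap.ext fun z => hunr B hB τ hτ z)) y
  -- the system does not occur at level `M`
  have hnoM : ∀ (T' : Finset ℕ) (y : JZero M), p • y = 0 →
      IsEigen (fun ℓ => ℓ.Prime ∧ ℓ ∉ T') (fun ℓ => W.apOfModel ℓ) y → y = 0 := by
    intro T' y hpy hy
    by_contra hy0
    obtain ⟨g, hg, 𝔫, h𝔫, hp𝔫, hgc⟩ := exists_eigenform_of_isEigen hy0 hpy
      (fun ℓ => ℓ.Prime ∧ ℓ ∉ T' ∪ M.primeFactors) _
      (fun ℓ hℓ _ h => hℓ.2 (Finset.mem_union_right _ (Nat.mem_primeFactors.2 ⟨hℓ.1, h, NeZero.ne M⟩)))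
      (fun ℓ hℓ => hy ℓ ⟨hℓ.1, fun h => hℓ.2 (Finset.mem_union_left _ h)⟩)
    exact hno g 𝔫 (T' ∪ M.primeFactors) hg h𝔫 hp𝔫 fun ℓ hℓ hS => hgc ℓ hℓ ⟨hℓ, hS⟩
  obtain ⟨c, hcc, hc⟩ := Fermat.Agent.CondLevel.exists_involution
  have key : ∀ (A : ValuationSubring ℚbar), A.LiesOverPrime q → ∀ σ : Γℚ, A.IsFrobeniusAt σ q →
      (q : ZMod p) = 1 ∧ ∃ ε : ZMod p, ε ^ 2 = 1 ∧ torsRep W p σ = ε • 1 := by
    intro A hA σ hσ
    have hgeo := fun y : U => frobenius_sq_and_comm hq hqM hM hp2 hthree hqp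
      (fun ℓ => W.apOfModel ℓ) T (exists_not_eisenstein hΔ hp2 hirr) hnoM hA hσ
      (x := ((y : jTorsion (M * q) p) : JZero (M * q)))
      (mem_jTorsion.1 (y : jTorsion (M * q) p).2) (hUE y.2) (hinert y)
    have hcomm : ∀ g, u σ * u g = u g * u σ := fun g =>
      subRep_comm (jTorsion (M * q) p).subtype Subtype.val_injective
        (JZero.torsionGaloisRep (M * q) p) (fun σ y => σ • y)
        (fun σ y => JZero.coe_torsionGaloisRep_apply (M * q) σ y) U hU σ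
        (fun y g => (hgeo y).2 g) g
    have hsq : u σ * u σ = ((q : ZMod p) * q) • 1 :=
      subRep_mul_self (jTorsion (M * q) p).subtype Subtype.val_injective
        (JZero.torsionGaloisRep (M * q) p) (fun σ y => σ • y)
        (fun σ y => JZero.coe_torsionGaloisRep_apply (M * q) σ y) U hU σ q
        (fun y => (hgeo y).1)
    have hq0 : (q : ZMod p) ≠ 0 := by
      rw [Ne, ZMod.natCast_eq_zero_iff]
      exact fun h => hqp ((Nat.prime_dvd_prime_iff_eq Fact.out hq).1 h).symm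
    exact eq_one_and_scalar hV hcomp hp2 hirr.2 (cc := c) (by rw [← map_mul, hcc, map_one])
      (Fermat.Agent.CondLevel.det_torsRep_involution hΔ hp2 c hcc hc) (z := σ) hcomm hq0 hsq
      (det_frobenius_any hΔ hq hqp hA hσ)
  obtain ⟨A₀, σ₀, hA₀, hσ₀⟩ := Galois.exists_valuationSubring_isFrobeniusAt hq
  obtain ⟨hq1, ε, hε, hσ₀ε⟩ := key A₀ hA₀ σ₀ hσ₀
  refine ⟨hq1, ε, hε, fun A hA σ hσ x => ?_⟩
  obtain ⟨g, rfl⟩ := Galois.exists_smul_eq_of_liesOverPrime hq hA₀ hA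
  have hin := inv_mul_mem_inertia (Density.isFrobeniusAt_conj hσ₀ g) hσ
  have h1 : torsRep W p ((g * σ₀ * g⁻¹)⁻¹ * σ) = 1 := LinearMap.ext fun z => hunr _ hA _ hin z
  have h2 : torsRep W p σ = ε • 1 := by
    rw [show σ = (g * σ₀ * g⁻¹) * ((g * σ₀ * g⁻¹)⁻¹ * σ) by group, map_mul, h1, mul_one, map_mul,
      map_mul, hσ₀ε, mul_smul_comm, mul_one, smul_mul_assoc, ← map_mul, mul_inv_cancel, map_one]
  exact LinearMap.congr_fun h2 x

/-- **Mazur's principle at `q ≠ p`**: if the residual representation is unramified at a prime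
`q ∥ L` of a residually modular level, `q` can be removed unless `q ≡ 1 (mod p)` and each Frobenius
element at `q` acts by one sign on the `p`-torsion. -/
theorem isResiduallyModularOfLevel_div_or_scalar (hp2 : p ≠ 2) (hirr : W.ModRepIsIrreducible p)
    {L q : ℕ} (hL : Squarefree L) (hq : q.Prime) (hqp : q ≠ p) (hqL : q ∣ L)
    (hthree : p = 3 → ∃ r : ℕ, r.Prime ∧ r ∣ L / q ∧ r % 3 = 2)
    (hcard₁ : Nat.card (Submodule.torsionBy ℤ
      ((W.map (Int.castRingHom ℚ))⁄(AlgebraicClosure ℚ)).Point p) = p ^ 2)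
    (hker : GaloisFactorsThroughFiniteLevel
      (WeierstrassCurve.Affine.Point.galoisRepModuleEnd (K := AlgebraicClosure ℚ) ℚ
        (W.map (Int.castRingHom ℚ)) p))
    (hunr : ((W.map (Int.castRingHom ℚ)).residualGaloisRepOf p hcard₁ hker).IsUnramifiedAt q)
    (hres : W.IsResiduallyModularOfLevel p L) :
    W.IsResiduallyModularOfLevel p (L / q) ∨
      ((q : ZMod p) = 1 ∧ ∃ ε : ℤ, (ε = 1 ∨ ε = -1) ∧
        ∀ A : ValuationSubring ℚbar, A.LiesOverPrime q → ∀ σ : Γℚ, A.IsFrobeniusAt σ q →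
          ∀ x : Tors W p, σ • x = ε • x) := by
  classical
  obtain ⟨M, rfl⟩ : ∃ M, L = M * q := by
    obtain ⟨c, rfl⟩ := hqL
    exact ⟨c, mul_comm q c⟩
  rw [Nat.mul_div_cancel _ hq.pos] at hthree ⊢
  have hM : Squarefree M := hL.squarefree_of_dvd (dvd_mul_right M q)
  haveI : NeZero M := ⟨hM.ne_zero⟩
  have hqM : ¬ q ∣ M := fun h => by
    have h2 : q * q ∣ M * q := Nat.mul_dvd_mul_right h q
    exact hq.not_isUnit (hL q h2)
  refine or_iff_not_imp_left.2 fun hno => ?_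
  obtain ⟨f, 𝔪, hf, h𝔪, hp, hcong⟩ := hres
  obtain ⟨h1, ε, hε, h2⟩ := mazurPrinciple_level hΔ hM hq hqM hqp hp2 hthree hirr
    (fun A hA σ hσ x => LinearMap.congr_fun (hunr A hA σ hσ) x) hf h𝔪 hp
    (W.Δ.natAbs.primeFactors ∪ {p} ∪ (M * q).primeFactors)
    (fun ℓ hℓ hS => by
      simp only [Finset.mem_union, Finset.mem_singleton, Nat.mem_primeFactors, not_or, not_and]
        at hS
      exact hcong ℓ hℓ (fun hd => hS.1.1 hℓ (Int.natCast_dvd.mp hd) (Int.natAbs_ne_zero.mpr hΔ))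
        (fun hd => hS.2 hℓ hd hL.ne_zero) hS.1.2)
    (fun g 𝔫 S hg h𝔫 hp𝔫 hgc => hno (General.isResiduallyModularOfLevel_of_eigenform hΔ hp2
      hirr hg 𝔫 h𝔫 hp𝔫 S fun ℓ hℓ hS _ _ _ => hgc ℓ hℓ hS))
  refine ⟨h1, ?_⟩
  rcases sq_eq_one_iff.1 hε with rfl | rfl
  · exact ⟨1, Or.inl rfl, fun A hA σ hσ x => by rw [h2 A hA σ hσ x, one_smul, one_smul]⟩
  · exact ⟨-1, Or.inr rfl, fun A hA σ hσ x => by
      rw [h2 A hA σ hσ x, neg_smul, neg_smul, one_smul, one_smul]⟩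

end Fermat.Agent.Ribet.MP

end
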