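import Fermat.Agent.Newform.AtkinStrongMult
import Fermat.Agent.Eigen.EigenHom

/-!
# The `U_q` eigenvalue of an eigenform that is old at `q`

If a normalised eigenform `F` of level `qN'` (`q ∤ N'`) has the same good eigenvalues as an
eigenform `g` of level dividing `N'`, then `a_q(F)² - a_q(g) a_q(F) + q = 0`.
-/

set_option autoImplicit false

noncomputable section

open CongruenceSubgroup ModularFormClass UpperHalfPlane Matrix
open Fermat.Agent.Eigen
open Fermat.Agent.Newform (degeneracy levelInclusion qCoeff_degeneracy qCoeff_levelInclusion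
  coe_levelInclusion coe_degeneracy dilate dilate_eq_smul_slash atkinGL atkinGL_mul val_atkinGL
  atkinInvariant_coe atkinDiag atkinGL_diag det_atkinDiag exists_sieve exists_atkinData AtkinData
  eq_zero_of_supported_dvd qCoeff_eq_of_forall_primeFactors qCoeff_eq_of_agree_cofinite)
open scoped MatrixGroups ModularForm

namespace Fermat.Agent.Ribet

variable {L M : ℕ}

/-- Removing the coefficients at indices meeting a finite set of primes, at the level
`L · ∏ r²`. -/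
theorem exists_sieve_prod [NeZero L] (F : CuspForm (Gamma0 L) 2) (R : Finset ℕ)
    (hR : ∀ r ∈ R, r.Prime) :
    ∃ G : CuspForm (Gamma0 (L * ∏ r ∈ R, r * r)) 2,
      ∀ n, qCoeff G n = if ∀ r ∈ R, ¬ r ∣ n then qCoeff F n else 0 := by
  classical
  induction R using Finset.induction_on with
  | empty =>
    haveI : NeZero (L * ∏ r ∈ (∅ : Finset ℕ), r * r) := by simpa using ‹NeZero L›
    exact ⟨levelInclusion 2 (by simp) F, fun n => (qCoeff_levelInclusion 2 _ F n).trans (if_pos fun r hr => absurd hr (Finset.notMem_empty r)).symm⟩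
  | insert r R hr ih =>
    have hrp := hR r (Finset.mem_insert_self r R)
    have hR' : ∀ s ∈ R, s.Prime := fun s hs => hR s (Finset.mem_insert_of_mem hs)
    obtain ⟨G, hG⟩ := ih hR'
    haveI : NeZero (L * ∏ s ∈ R, s * s) := ⟨mul_ne_zero (NeZero.ne L)
      (Finset.prod_ne_zero_iff.mpr fun s hs => mul_ne_zero (hR' s hs).ne_zero (hR' s hs).ne_zero)⟩
    haveI : NeZero (L * ∏ s ∈ insert r R, s * s) := ⟨mul_ne_zero (NeZero.ne L)
      (Finset.prod_ne_zero_iff.mpr fun s hs => mul_ne_zero (hR s hs).ne_zero (hR s hs).ne_zero)⟩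
    obtain ⟨G', hG'⟩ := exists_sieve G hrp.ne_zero
    refine ⟨levelInclusion 2 (dvd_of_eq (by rw [Finset.prod_insert hr]; ring)) G', fun n => ?_⟩
    rw [qCoeff_levelInclusion, hG', hG]
    simp only [Finset.forall_mem_insert]
    by_cases h : r ∣ n <;> simp [h]

/-- Scalar matrices act trivially in weight two. -/
theorem slash_scalar_two (f : ℍ → ℂ) {q : ℕ} (hq : q ≠ 0) :
    f ∣[(2 : ℤ)] atkinGL !![(q : ℤ), 0; 0, (q : ℤ)] = f := by
  set Z : Matrix (Fin 2) (Fin 2) ℤ := !![(q : ℤ), 0; 0, (q : ℤ)] with hZ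
  have hs : Z.det ≠ 0 := by
    rw [hZ, Matrix.det_fin_two_of, mul_zero, sub_zero]
    exact mul_ne_zero (by exact_mod_cast hq) (by exact_mod_cast hq)
  have hdet : (((atkinGL Z).det : ℝˣ) : ℝ) = (q : ℝ) ^ 2 := by
    rw [Matrix.GeneralLinearGroup.val_det_apply, val_atkinGL hs]
    simp [hZ, Matrix.det_fin_two]
    ring
  have hpos : 0 < (((atkinGL Z).det : ℝˣ) : ℝ) := by
    rw [hdet]
    exact pow_pos (by exact_mod_cast Nat.pos_of_ne_zero hq) 2
  have hq' : (q : ℂ) ≠ 0 := by exact_mod_cast hq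
  funext τ
  have hsm : atkinGL Z • τ = τ := by
    apply UpperHalfPlane.ext
    rw [UpperHalfPlane.coe_smul_of_det_pos hpos]
    simp only [UpperHalfPlane.num, UpperHalfPlane.denom, val_atkinGL hs]
    simp [hZ, hq']
  have hσ : UpperHalfPlane.σ (atkinGL Z) = .refl ℝ ℂ := by
    rw [UpperHalfPlane.σ, if_pos hpos]
  rw [ModularForm.slash_apply, hσ, hsm, hdet, abs_of_nonneg (sq_nonneg _)]
  simp only [UpperHalfPlane.denom, val_atkinGL hs]
  simp [hZ]
  field_simp

/-- A cusp form of level `qM` (`q ∤ M`) supported on multiples of `q` is `E(qτ)`, `E` of level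
`M`. -/
theorem exists_lower_of_supported [NeZero M] {q : ℕ} (hq : q.Prime) (hqM : ¬ q ∣ M) (hL : L = q * M)
    [NeZero L] (D : CuspForm (Gamma0 L) 2) (hD : ∀ n, ¬ q ∣ n → qCoeff D n = 0) :
    ∃ E : CuspForm (Gamma0 M) 2, ∀ n, qCoeff E n = qCoeff D (n * q) := by
  obtain ⟨A⟩ := exists_atkinData hq hqM
  have hqL : q ∣ L := hL ▸ dvd_mul_right q M
  have hML : M ∣ L := hL ▸ dvd_mul_left M q
  set E1 := CuspForm.heckeULin 2 hqL D with hE1
  set T := A.traceW 2 hL D with hT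
  have hqC : (q : ℂ) ≠ 0 := by exact_mod_cast hq.ne_zero
  have hq1 : (q : ℂ) + 1 ≠ 0 := by exact_mod_cast Nat.succ_ne_zero q
  haveI : NeZero (L * q) := ⟨mul_ne_zero (NeZero.ne L) hq.ne_zero⟩
  have hDV : (⇑D : ℍ → ℂ) = dilate q ⇑E1 := by
    have h : levelInclusion 2 (dvd_mul_right L q) D = degeneracy 2 (M := L) (d := q) dvd_rfl E1 := by
      refine ext_qCoeff fun n => ?_
      rw [qCoeff_levelInclusion, qCoeff_degeneracy]
      split_ifs with h
      · rw [hE1, qCoeff_heckeULin hq.ne_zero, Nat.div_mul_cancel h]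
      · exact hD n h
    have h' := congrArg (fun x : CuspForm (Gamma0 (L * q)) 2 => (⇑x : ℍ → ℂ)) h
    simpa using h'
  set γ : Matrix (Fin 2) (Fin 2) ℤ := !![(q : ℤ), -A.v; (M : ℤ), A.u] with hγ
  have hγdet : γ.det = 1 := by
    rw [hγ, Matrix.det_fin_two_of]; linear_combination A.bezout
  set Z : Matrix (Fin 2) (Fin 2) ℤ := !![(q : ℤ), 0; 0, (q : ℤ)] with hZ
  have hZdet : Z.det ≠ 0 := by
    rw [hZ, Matrix.det_fin_two_of, mul_zero, sub_zero]; exact mul_ne_zero A.qne A.qne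
  have hfac : atkinDiag q * A.W = γ * Z := by
    ext i j
    fin_cases i <;> fin_cases j <;>
      simp [atkinDiag, AtkinData.W, hγ, hZ, Matrix.mul_apply, Fin.sum_univ_two] <;> ring
  have hdW : (atkinDiag q).det ≠ 0 := by rw [det_atkinDiag]; exact A.qne
  have hW : (⇑D : ℍ → ℂ) ∣[(2 : ℤ)] atkinGL A.W
      = (q : ℂ)⁻¹ • ((⇑E1 : ℍ → ℂ) ∣[(2 : ℤ)] atkinGL γ) := by
    rw [hDV, dilate_eq_smul_slash 2 hq.ne_zero, ← atkinGL_diag hq.ne_zero, ModularForm.smul_slash,
      UpperHalfPlane.σ,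
      if_pos (Fermat.Agent.Newform.atkinGL_det_pos
        (by rw [A.det_W]; exact_mod_cast hq.pos)), ContinuousAlgEquiv.refl_apply,
      ← SlashAction.slash_mul, ← atkinGL_mul hdW A.det_W_ne, hfac,
      atkinGL_mul (by rw [hγdet]; exact one_ne_zero) hZdet, SlashAction.slash_mul, hZ,
      slash_scalar_two _ hq.ne_zero]
    norm_num
  have hTfun : (⇑T : ℍ → ℂ) = ⇑E1 + (q : ℂ)⁻¹ • ((⇑E1 : ℍ → ℂ) ∣[(2 : ℤ)] atkinGL γ) := by
    rw [hT, A.coe_traceW, FunLike.coe_add, A.coe_wLin, hW]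
  have hTγ : (⇑T : ℍ → ℂ) ∣[(2 : ℤ)] atkinGL γ = ⇑T :=
    (atkinInvariant_coe T).slash_atkinGL hγdet (by simp [hγ])
  set c : ℂ := (q : ℂ) / ((q : ℂ) + 1) with hc
  set Y := E1 - c • levelInclusion 2 hML T with hY
  have hσ1 : UpperHalfPlane.σ (atkinGL γ) = .refl ℝ ℂ := by
    rw [UpperHalfPlane.σ, if_pos (Fermat.Agent.Newform.atkinGL_det_pos
      (by rw [hγdet]; exact one_pos))]
  have hYfun : (⇑Y : ℍ → ℂ) = ⇑E1 - c • ⇑T := by
    rw [hY, FunLike.coe_sub, FunLike.coe_smul, coe_levelInclusion]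
  have hYγ : (⇑Y : ℍ → ℂ) ∣[(2 : ℤ)] atkinGL γ = (-(q : ℂ)) • ⇑Y := by
    rw [hYfun, sub_eq_add_neg, SlashAction.add_slash, SlashAction.neg_slash,
      ModularForm.smul_slash, hσ1, ContinuousAlgEquiv.refl_apply, hTγ]
    funext z
    have h1 := congrFun hTfun z
    simp only [Pi.add_apply, Pi.smul_apply, smul_eq_mul] at h1
    simp only [Pi.add_apply, Pi.neg_apply, Pi.smul_apply, smul_eq_mul, hc]
    field_simp at h1 ⊢
    linear_combination -((q : ℂ) + 1) * h1
  let g : SL(2, ℤ) := ⟨γ, hγdet⟩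
  have hg : atkinGL γ = Matrix.SpecialLinearGroup.mapGL ℝ g := Fermat.Agent.Newform.atkinGL_coe_SL g
  rw [hg] at hYγ hσ1
  have hpow : ∀ k : ℕ, (⇑Y : ℍ → ℂ) ∣[(2 : ℤ)] (Matrix.SpecialLinearGroup.mapGL ℝ (g ^ k) : GL (Fin 2) ℝ)
      = ((-(q : ℂ)) ^ k) • ⇑Y := by
    intro k
    induction k with
    | zero => simp
    | succ k ih =>
      rw [pow_succ g k, map_mul, SlashAction.slash_mul, ih, ModularForm.smul_slash, hσ1,
        ContinuousAlgEquiv.refl_apply, hYγ, smul_smul, ← pow_succ]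
  obtain ⟨k, hk, -, hk'⟩ := Subgroup.exists_pow_mem_of_index_ne_zero
    (H := Gamma0 L) Subgroup.FiniteIndex.index_ne_zero g
  have hY0 : Y = 0 := by
    refine CuspForm.ext fun z => ?_
    have h := congrFun ((hpow k).symm.trans
      (SlashInvariantFormClass.slash_action_eq Y _ (Subgroup.mem_map_of_mem _ hk'))) z
    have hne : (-(q : ℂ)) ^ k ≠ 1 := fun h1 => by
      have := congrArg (fun x : ℂ => ‖x‖) h1
      simp only [norm_pow, norm_neg, Complex.norm_natCast, norm_one] at this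
      exact (one_lt_pow₀ (show (1 : ℝ) < q by exact_mod_cast hq.one_lt) hk.ne').ne' this
    have h' : ((-(q : ℂ)) ^ k - 1) * Y z = 0 := by
      simp only [Pi.smul_apply, smul_eq_mul] at h
      rw [sub_mul, one_mul, h, sub_self]
    exact (mul_eq_zero.mp h').resolve_left (sub_ne_zero.mpr hne)
  refine ⟨c • T, fun n => ?_⟩
  have h := congrArg (fun x : CuspForm (Gamma0 L) 2 => qCoeff x n) hY0
  simp only [hY] at h
  rw [qCoeff_sub, qCoeff_smul, qCoeff_levelInclusion, qCoeff_form_zero, sub_eq_zero] at h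
  rw [qCoeff_smul, ← h, hE1, qCoeff_heckeULin hq.ne_zero]

variable {N' q : ℕ}

/-- An eigenform of level `qN'` with the good eigenvalues of an eigenform of level dividing `N'`
has `a_q` a root of `X² - a_q(g) X + q`. -/
theorem qCoeff_sq_sub_mul_add_eq_zero [NeZero N'] (hq : q.Prime) (hqN : ¬ q ∣ N') (hL : L = q * N')
    (hMN : M ∣ N') {F : CuspForm (Gamma0 L) 2} (hF : F.IsNormalizedEigenform)
    {g : CuspForm (Gamma0 M) 2} (hg : g.IsNormalizedEigenform) (S : Finset ℕ)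
    (heq : ∀ ℓ : ℕ, ℓ.Prime → ℓ ∉ S → ¬ ℓ ∣ L → qCoeff g ℓ = qCoeff F ℓ) :
    qCoeff F q ^ 2 - qCoeff g q * qCoeff F q + q = 0 := by
  classical
  haveI : NeZero M := ⟨fun h => NeZero.ne N' (zero_dvd_iff.mp (h ▸ hMN))⟩
  haveI : NeZero L := ⟨hL ▸ mul_ne_zero hq.ne_zero (NeZero.ne N')⟩
  have hML : M ∣ L := hL ▸ dvd_mul_of_dvd_right hMN q
  have hgood : ∀ ℓ : ℕ, ℓ.Prime → ¬ ℓ ∣ L → qCoeff g ℓ = qCoeff F ℓ := fun ℓ hℓ hℓL =>
    qCoeff_eq_of_agree_cofinite hF hg S (fun r hr hrS hrL _ => heq r hr hrS hrL) hℓ hℓL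
      fun h => hℓL (h.trans hML)
  have hqM : ¬ q ∣ M := fun h => hqN (h.trans hMN)
  set R := N'.primeFactors with hR
  have hRp : ∀ r ∈ R, r.Prime := fun r hr => (Nat.mem_primeFactors.mp hr).1
  have hqR : q ∉ R := fun h => hqN (Nat.mem_primeFactors.mp h).2.1
  set P := ∏ r ∈ R, r * r with hP
  have hP0 : P ≠ 0 := Finset.prod_ne_zero_iff.mpr fun r hr =>
    mul_ne_zero (hRp r hr).ne_zero (hRp r hr).ne_zero
  haveI : NeZero (N' * P) := ⟨mul_ne_zero (NeZero.ne N') hP0⟩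
  haveI : NeZero (L * P) := ⟨mul_ne_zero (NeZero.ne L) hP0⟩
  have hqM'' : ¬ q ∣ N' * P := fun h => by
    rcases hq.dvd_mul.mp h with h | h
    · exact hqN h
    · obtain ⟨r, hr, hd⟩ := (hq.prime.dvd_finsetProd_iff _).mp h
      rcases hq.dvd_mul.mp hd with hd | hd <;>
        exact hqR ((Nat.prime_dvd_prime_iff_eq hq (hRp r hr)).mp hd ▸ hr)
  obtain ⟨G, hG⟩ := exists_sieve_prod (levelInclusion 2 hMN g) R hRp
  obtain ⟨F', hF'⟩ := exists_sieve_prod F R hRp
  simp only [qCoeff_levelInclusion] at hG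
  have hinc : N' * P ∣ L * P := mul_dvd_mul_right (hL ▸ dvd_mul_left N' q) P
  have hD : ∀ n, ¬ q ∣ n → qCoeff (levelInclusion 2 hinc G - F' : CuspForm (Gamma0 (L * P)) 2) n
      = 0 := by
    intro n hn
    rw [qCoeff_sub, qCoeff_levelInclusion, hG, hF']
    split_ifs with hR'
    · rcases eq_or_ne n 0 with rfl | hn0
      · exact absurd (dvd_zero q) hn
      rw [sub_eq_zero]
      refine qCoeff_eq_of_forall_primeFactors hF hg n hn0 fun ℓ hℓ hℓn => ?_
      have hℓq : ℓ ≠ q := fun h => hn (h ▸ hℓn)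
      have hℓN : ¬ ℓ ∣ N' := fun h =>
        hR' ℓ (Nat.mem_primeFactors.mpr ⟨hℓ, h, NeZero.ne N'⟩) hℓn
      have hℓL : ¬ ℓ ∣ L := fun h => by
        rcases hℓ.dvd_mul.mp (hL ▸ h) with h | h
        · exact hℓq ((Nat.prime_dvd_prime_iff_eq hℓ hq).mp h)
        · exact hℓN h
      exact ⟨hℓL, fun h => hℓN (h.trans hMN), hgood ℓ hℓ hℓL⟩
    · exact sub_self 0
  obtain ⟨E, hE⟩ := exists_lower_of_supported (L := L * P) hq hqM'' (by rw [hL, mul_assoc])
    (levelInclusion 2 hinc G - F') hD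
  simp only [qCoeff_sub, qCoeff_levelInclusion] at hE
  set α := qCoeff F q with hα
  set b := qCoeff g q with hb
  -- invariance of the sieve under multiplication by `q`
  have hcond : ∀ n, (∀ r ∈ R, ¬ r ∣ n * q) ↔ ∀ r ∈ R, ¬ r ∣ n := fun n => by
    refine forall₂_congr fun r hr => not_congr ⟨fun h => ?_, fun h => h.mul_right q⟩
    rcases (hRp r hr).dvd_mul.mp h with h | h
    · exact h
    · exact absurd ((Nat.prime_dvd_prime_iff_eq (hRp r hr) hq).mp h ▸ hr) hqR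
  have hFq : ∀ n, qCoeff F' (n * q) = α * qCoeff F' n := fun n => by
    rw [hF', hF']
    simp only [hcond]
    split_ifs
    · exact qCoeff_prime_mul_of_dvd hF hq (hL ▸ dvd_mul_right q N') n
    · exact (mul_zero α).symm
  have hdivcond : ∀ n, q ∣ n → ((∀ r ∈ R, ¬ r ∣ n / q) ↔ ∀ r ∈ R, ¬ r ∣ n) := fun n hn => by
    rw [← hcond (n / q), Nat.div_mul_cancel hn]
  have hGq : ∀ n, qCoeff G (n * q) + (if q ∣ n then (q : ℂ) * qCoeff G (n / q) else 0)
      = b * qCoeff G n := fun n => by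
    by_cases hn : ∀ r ∈ R, ¬ r ∣ n
    · rw [hG, hG, hG, if_pos hn, if_pos ((hcond n).mpr hn), hb,
        ← qCoeff_prime_mul_of_not_dvd hg hq hqM n]
      by_cases hd : q ∣ n
      · rw [if_pos hd, if_pos hd, if_pos ((hdivcond n hd).mpr hn)]
      · rw [if_neg hd, if_neg hd]
    · rw [hG, hG, hG, if_neg hn, if_neg (fun h => hn ((hcond n).mp h))]
      by_cases hd : q ∣ n
      · rw [if_pos hd, if_neg (fun h => hn ((hdivcond n hd).mp h))]; ring
      · rw [if_neg hd]; ring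
  -- `E` is a multiple of `G`
  have hEn : ∀ n, ¬ q ∣ n → qCoeff (E - (b - α) • G : CuspForm (Gamma0 (N' * P)) 2) n = 0 := by
    intro n hn
    have h1 : qCoeff F' n = qCoeff G n := by
      have h := hD n hn
      rw [qCoeff_sub, qCoeff_levelInclusion, sub_eq_zero] at h
      exact h.symm
    have h2 := hGq n
    rw [if_neg hn, add_zero] at h2
    rw [qCoeff_sub, qCoeff_smul, hE, hFq, h1, h2]
    ring
  have hEG : ∀ n, qCoeff E n = (b - α) * qCoeff G n := fun n => by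
    have h := congrArg (fun x : CuspForm (Gamma0 (N' * P)) 2 => qCoeff x n)
      (eq_zero_of_supported_dvd hq hqM'' hEn)
    simp only [qCoeff_sub, qCoeff_smul, qCoeff_form_zero, sub_eq_zero] at h
    exact h
  have hone : ∀ r ∈ R, ¬ r ∣ 1 := fun r hr => (hRp r hr).not_dvd_one
  have hG1 : qCoeff G 1 = 1 := by rw [hG, if_pos hone, hg.qCoeff_one]
  have hF1 : qCoeff F' 1 = 1 := by rw [hF', if_pos hone, hF.qCoeff_one]
  have hFq1 : qCoeff F' q = α := by
    have := hFq 1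
    rwa [one_mul, hF1, mul_one] at this
  have hGq1 : qCoeff G q = b := by
    have := hGq 1
    rwa [one_mul, if_neg hq.not_dvd_one, add_zero, hG1, mul_one] at this
  have h := hE q
  rw [hEG, hFq, hFq1, hGq1] at h
  have h2 := hGq q
  rw [if_pos dvd_rfl, Nat.div_self hq.pos, hG1, hGq1, mul_one] at h2
  linear_combination h + h2

end Fermat.Agent.Ribet
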