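import Fermat.Agent.Deform.PowerSeries

/-!
# Completeness of power series rings over complete local rings
-/

set_option autoImplicit false

noncomputable section

namespace Fermat.Agent.Ribet

open MvPowerSeries IsLocalRing

variable {σ : Type} [Finite σ] {B : Type} [CommRing B] [IsLocalRing B]

lemma mem_maximalIdeal_iff_constantCoeff (f : MvPowerSeries σ B) :
    f ∈ maximalIdeal (MvPowerSeries σ B) ↔ constantCoeff f ∈ maximalIdeal B := by
  simp only [IsLocalRing.mem_maximalIdeal, mem_nonunits_iff, isUnit_iff_constantCoeff]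

lemma X_mem_maximalIdeal (s : σ) :
    (X s : MvPowerSeries σ B) ∈ maximalIdeal (MvPowerSeries σ B) := by
  rw [mem_maximalIdeal_iff_constantCoeff]
  simp

lemma C_mem_maximalIdeal {b : B} (hb : b ∈ maximalIdeal B) :
    (C b : MvPowerSeries σ B) ∈ maximalIdeal (MvPowerSeries σ B) := by
  rwa [mem_maximalIdeal_iff_constantCoeff, constantCoeff_C]

lemma varIdeal_le_maximalIdeal :
    Deform.varIdeal σ B ≤ maximalIdeal (MvPowerSeries σ B) := by
  rw [Deform.varIdeal, Ideal.span_le]
  rintro _ ⟨s, rfl⟩
  exact X_mem_maximalIdeal s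

lemma maximalIdeal_mvPowerSeries :
    maximalIdeal (MvPowerSeries σ B) = (maximalIdeal B).map C ⊔ Deform.varIdeal σ B := by
  refine le_antisymm (fun f hf => ?_) (sup_le ?_ varIdeal_le_maximalIdeal)
  · have h1 := Deform.sub_C_constantCoeff_mem f
    have h2 : (C (constantCoeff f) : MvPowerSeries σ B) ∈ (maximalIdeal B).map C :=
      Ideal.mem_map_of_mem C ((mem_maximalIdeal_iff_constantCoeff f).mp hf)
    have := Submodule.add_mem_sup h2 h1
    simpa using this
  · rw [Ideal.map_le_iff_le_comap]
    exact fun b hb => C_mem_maximalIdeal hb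

/-- The coefficient of degree `d` of an element of `M ^ n` lies in `m ^ (n - |d|)`. -/
lemma coeff_mem_pow_of_mem_pow {n : ℕ} {f : MvPowerSeries σ B}
    (hf : f ∈ maximalIdeal (MvPowerSeries σ B) ^ n) (d : σ →₀ ℕ) :
    coeff d f ∈ maximalIdeal B ^ (n - d.degree) := by
  classical
  induction n generalizing f d with
  | zero => simp
  | succ n ih =>
    rw [pow_succ] at hf
    refine Submodule.mul_induction_on hf (fun a ha b hb => ?_) (fun a b ha hb => ?_)
    · rw [MvPowerSeries.coeff_mul]
      refine Ideal.sum_mem _ fun p hp => ?_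
      have hdeg : p.1.degree + p.2.degree = d.degree := by
        rw [← Finset.HasAntidiagonal.mem_antidiagonal.mp hp, map_add]
      by_cases hp2 : p.2 = 0
      · have hc : coeff p.2 b ∈ maximalIdeal B := by
          rw [hp2, coeff_zero_eq_constantCoeff]
          exact (mem_maximalIdeal_iff_constantCoeff b).mp hb
        have : coeff p.1 a * coeff p.2 b ∈ maximalIdeal B ^ (n - p.1.degree + 1) := by
          rw [pow_succ]
          exact Ideal.mul_mem_mul (ih ha p.1) hc
        exact Ideal.pow_le_pow_right (by omega) this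
      · have h2 : p.2.degree ≠ 0 := by simpa [Finsupp.degree_eq_zero_iff] using hp2
        exact Ideal.pow_le_pow_right (by omega) (Ideal.mul_mem_right _ _ (ih ha p.1))
    · rw [map_add]
      exact Ideal.add_mem _ ha hb

lemma monomial_mem_pow {n : ℕ} {d : σ →₀ ℕ} {b : B}
    (hb : b ∈ maximalIdeal B ^ (n - d.degree)) :
    (monomial d b : MvPowerSeries σ B) ∈ maximalIdeal (MvPowerSeries σ B) ^ n := by
  classical
  have hmon : (monomial d b : MvPowerSeries σ B) = C b * monomial d (1 : B) := by
    rw [← MvPowerSeries.monomial_zero_eq_C_apply, MvPowerSeries.monomial_mul_monomial]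
    simp
  have hd : (monomial d (1 : B) : MvPowerSeries σ B) ∈
      maximalIdeal (MvPowerSeries σ B) ^ d.degree := by
    clear hmon hb
    induction d using Finsupp.induction with
    | zero => simp
    | single_add s k d hs hk ih =>
      rw [map_add, Finsupp.degree_single, pow_add,
        show (monomial (Finsupp.single s k + d) (1 : B) : MvPowerSeries σ B) =
          monomial (Finsupp.single s k) 1 * monomial d 1 by
            rw [MvPowerSeries.monomial_mul_monomial, one_mul]]
      refine Ideal.mul_mem_mul ?_ ih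
      rw [← MvPowerSeries.X_pow_eq]
      exact Ideal.pow_mem_pow (X_mem_maximalIdeal s) k
  have hc : (C b : MvPowerSeries σ B) ∈
      maximalIdeal (MvPowerSeries σ B) ^ (n - d.degree) := by
    have h := Ideal.mem_map_of_mem (C : B →+* MvPowerSeries σ B) hb
    rw [Ideal.map_pow] at h
    exact Ideal.pow_right_mono (le_sup_left.trans maximalIdeal_mvPowerSeries.ge) _ h
  rw [hmon]
  have := Ideal.mul_mem_mul hc hd
  rw [← pow_add] at this
  exact Ideal.pow_le_pow_right (by omega) this

lemma mem_pow_iff_coeff (n : ℕ) (f : MvPowerSeries σ B) :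
    f ∈ maximalIdeal (MvPowerSeries σ B) ^ n ↔
      ∀ d, coeff d f ∈ maximalIdeal B ^ (n - d.degree) := by
  classical
  refine ⟨fun hf => coeff_mem_pow_of_mem_pow hf, fun h => ?_⟩
  have h1 := Deform.sub_truncTotal_mem n f
  have h2 : algebraMap (MvPolynomial σ B) (MvPowerSeries σ B) (truncTotal n f) ∈
      maximalIdeal (MvPowerSeries σ B) ^ n := by
    rw [MvPolynomial.as_sum (truncTotal n f), map_sum]
    refine Ideal.sum_mem _ fun d hd => ?_
    have hlt : d.degree < n := by
      by_contra hc
      exact (MvPolynomial.mem_support_iff.mp hd) (coeff_truncTotal_eq_zero _ (by omega))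
    rw [coeff_truncTotal _ hlt]
    have : algebraMap (MvPolynomial σ B) (MvPowerSeries σ B) (MvPolynomial.monomial d (coeff d f)) =
        monomial d (coeff d f) := by
      simp [MvPowerSeries.algebraMap_apply']
    rw [this]
    exact monomial_mem_pow (h d)
  have h3 := Ideal.pow_right_mono (varIdeal_le_maximalIdeal (σ := σ) (B := B)) n h1
  simpa using Ideal.add_mem _ h3 h2

instance isPrecomplete_mvPowerSeries [IsPrecomplete (maximalIdeal B) B] :
    IsPrecomplete (maximalIdeal (MvPowerSeries σ B)) (MvPowerSeries σ B) := by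
  refine ⟨fun f hf => ?_⟩
  simp only [smul_eq_mul, Ideal.mul_top, SModEq.sub_mem] at hf ⊢
  have key : ∀ d : σ →₀ ℕ, ∃ L : B, ∀ n, coeff d (f (n + d.degree)) - L ∈ maximalIdeal B ^ n := by
    intro d
    have hc : ∀ {m n}, m ≤ n → (coeff d (f (m + d.degree))) ≡ coeff d (f (n + d.degree))
        [SMOD (maximalIdeal B ^ m • ⊤ : Ideal B)] := by
      intro m n hmn
      rw [SModEq.sub_mem, smul_eq_mul, Ideal.mul_top, ← map_sub]
      have := coeff_mem_pow_of_mem_pow (hf (Nat.add_le_add_right hmn d.degree)) d
      simpa using this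
    obtain ⟨L, hL⟩ := IsPrecomplete.prec inferInstance hc
    exact ⟨L, fun n => by
      have := hL n
      rwa [SModEq.sub_mem, smul_eq_mul, Ideal.mul_top] at this⟩
  choose L hL using key
  let g : MvPowerSeries σ B := fun d => L d
  refine ⟨g, fun n => (mem_pow_iff_coeff n _).mpr fun d => ?_⟩
  have hg : coeff d g = L d := rfl
  rw [map_sub, hg]
  by_cases hd : n ≤ d.degree
  · simp [Nat.sub_eq_zero_of_le hd]
  · have h := hL d (n - d.degree)
    rwa [Nat.sub_add_cancel (by omega)] at h

instance isAdicComplete_mvPowerSeries [IsNoetherianRing B]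
    [IsAdicComplete (maximalIdeal B) B] :
    IsAdicComplete (maximalIdeal (MvPowerSeries σ B)) (MvPowerSeries σ B) where

end Fermat.Agent.Ribet
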