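import Fermat.Agent.Ribet.TraceRep
import Fermat.Agent.Deform.MatrixRep

/-!
# The Galois representation over the ring of traces
-/

set_option autoImplicit false

noncomputable section

namespace Fermat.Agent.Ribet.TraceRep

open Fermat.Agent.Deform Matrix

/-- The Galois form of `exists_rep`: a continuous representation over the ring of traces reducing
to a given odd irreducible residual representation. -/
theorem exists_galoisRep {R : Type} [CommRing R] [IsLocalRing R] [Invertible (2 : R)] {k : Type}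
    [Field k] (π : R →+* k) (hπ : Function.Surjective π) [IsLocalHom π] {t d : Γ → R} {c : Γ}
    (Z : Realisation t d c) (ρ₀ : ResidualGaloisRep k) (hirr : ρ₀.IsIrreducible)
    (hdet : LinearMap.det (ρ₀.ρ c) = -1)
    (htr : ∀ σ, LinearMap.trace k ρ₀.V (ρ₀.ρ σ) = π (t σ))
    (hcont : ∀ n : ℕ, ∃ L : IntermediateField ℚ (AlgebraicClosure ℚ), FiniteDimensional ℚ L ∧
      ∀ σ : Γ, (∀ x ∈ L, σ x = x) → ∀ g, t (g * σ) - t g ∈ IsLocalRing.maximalIdeal R ^ n) :
    ∃ (b : Module.Basis (Fin 2) k ρ₀.V) (r : Γ →* M2 R) (_ : MCont r),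
      repMat b ρ₀.ρ c = !![1, 0; 0, -1] ∧
      (∀ σ, trace (r σ) = t σ) ∧ (∀ σ, det (r σ) = d σ) ∧
      (∀ σ, (r σ).map π = repMat b ρ₀.ρ σ) := by
  have h2 : (2 : k) ≠ 0 := by
    intro h
    have := congrArg π (mul_invOf_self (2 : R))
    rw [map_mul, map_ofNat, h, zero_mul, map_one] at this
    exact zero_ne_one this
  obtain ⟨b, h₀, h₁, hc, hb, hcc⟩ :=
    exists_residual_matrices h2 ρ₀.finrank_eq ρ₀.ρ Z.invol hdet hirr
  have htr' : ∀ σ, trace (CondLevel.matrixRep b ρ₀.ρ σ) = π (t σ) := fun σ =>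
    (LinearMap.trace_eq_matrix_trace k b (ρ₀.ρ σ)).symm.trans (htr σ)
  obtain ⟨r, h1, h2', h3, h4⟩ :=
    exists_rep π hπ Z (CondLevel.matrixRep b ρ₀.ρ) hc htr' hb hcc
  refine ⟨b, r, fun n => ?_, hc, h1, h2', h3⟩
  obtain ⟨L, hL, h⟩ := hcont n
  exact ⟨L, hL, fun σ hσ i j => h4 _ σ (h σ hσ) i j⟩

end Fermat.Agent.Ribet.TraceRep
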