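/-
Lemma (L): inertia at a prime of primitive nebentype acts through the character and its inverse.
-/
import Fermat.Agent.Ribet.Twisted.Twist
import Fermat.Agent.Carayol.BAssemble
import Fermat.Agent.Carayol.BGalois
import Fermat.Agent.Carayol.LCharVector
import Fermat.Prelude.Def_GaloisRep_Adic
import Fermat.Prelude.Def_FLTPrelim_Ramification

set_option autoImplicit false

noncomputable section

namespace Fermat.Agent.Ribet

open Twisted Carayol Carayol.Cuspidal Carayol.TensorPic Carayol.TameTrace GaloisAdic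
open scoped MatrixGroups TensorProduct

set_option maxHeartbeats 800000 in
/-- At a prime `q` of `D` the representation of a system on twisted cohomology has inertia
eigenvalues `ψ_q(c)`, `ψ_q(c)⁻¹`, where `c` is the cyclotomic character modulo `q`, provided
inertia at `q` acts unipotently on the residual representation. -/
theorem trace_inertia_of_hasSystem {p : ℕ} [Fact p.Prime] (hp2 : p ≠ 2)
    {O : Type} [CommRing O] [IsDomain O] [IsDiscreteValuationRing O]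
    [IsAdicComplete (IsLocalRing.maximalIdeal O) O] [Finite (IsLocalRing.ResidueField O)]
    [CharZero O] [CharZero (FractionRing O)] (hpO : (p : O) ∈ IsLocalRing.maximalIdeal O)
    {L D : ℕ} [NeZero L] (hD : D ∣ L) (hsq : Squarefree D) (hcop : Nat.Coprime D (L / D))
    (ψ : DirichletCharacter O D)
    (hψ : IsPrimitiveSq (ψ.ringHomComp (algebraMap O (FractionRing O))))
    (hψord : ∀ x : (ZMod D)ˣ, ∃ n : ℕ, ψ (x : ZMod D) ^ p ^ n = 1)
    (S : Finset ℕ) (hpS : p ∈ S) (hLS : ∀ ℓ : ℕ, ℓ.Prime → ℓ ∣ L → ℓ ∈ S) (a : ℕ → O)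
    (ha : HasSystem hD (ψ.ringHomComp (algebraMap O (FractionRing O))) S
      fun ℓ => algebraMap O (FractionRing O) (a ℓ))
    (hne : ∃ ℓ : ℕ, ℓ.Prime ∧ ℓ ∉ S ∧ (ℓ : ZMod (L * D)) = 1 ∧ a ℓ ≠ (ℓ : O) + 1)
    (ρ : GaloisRepAdic O) (habs : ρ.residual.IsAbsolutelyIrreducible)
    (hρ : ∀ ℓ : ℕ, ℓ.Prime → ℓ ∉ S →
      ∀ A : ValuationSubring (AlgebraicClosure ℚ), A.LiesOverPrime ℓ →
        ∀ σ : AlgebraicClosure ℚ ≃ₐ[ℚ] AlgebraicClosure ℚ, A.IsFrobeniusAt σ ℓ →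
          LinearMap.charpoly (ρ.ρ σ)
            = Polynomial.X ^ 2 - Polynomial.C (a ℓ) * Polynomial.X + Polynomial.C ((ℓ : O)))
    {q : ℕ} (hq : q.Prime) (hqp : q ≠ p) (hqD : q ∣ D)
    (A : ValuationSubring (AlgebraicClosure ℚ)) (hA : A.LiesOverPrime q)
    (hunip : ∀ g ∈ A.inertiaSubgroupIn ℚ,
      LinearMap.trace O ρ.V (ρ.ρ g) - 2 ∈ IsLocalRing.maximalIdeal O)
    (τ : AlgebraicClosure ℚ ≃ₐ[ℚ] AlgebraicClosure ℚ) (hτ : τ ∈ A.inertiaSubgroupIn ℚ)
    (c : ℕ) (hc : ∀ μ : AlgebraicClosure ℚ, μ ^ q = 1 → τ μ = μ ^ c)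
    (d : ℤ) (hdq : (d : ZMod q) = (c : ZMod q)) (hd1 : (d : ZMod (D / q)) = 1) :
    LinearMap.trace O ρ.V (ρ.ρ τ) = ψ (d : ZMod D) + ψ⁻¹ (d : ZMod D) := by
  classical
  have : Fact q.Prime := ⟨hq⟩
  have hpp : p.Prime := Fact.out
  obtain ⟨D', rfl⟩ := hqD
  have hcopq : q.Coprime D' := (Nat.squarefree_mul_iff.1 hsq).1
  rw [Nat.mul_div_cancel_left D' hq.pos] at hd1
  obtain ⟨ξ, hξu, hξ⟩ := exists_component hcopq ψ
  have hξord : ∀ x : (ZMod q)ˣ, ∃ n : ℕ, ξ (x : ZMod q) ^ p ^ n = 1 := fun x => by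
    obtain ⟨y, hy⟩ := hξu x
    exact (hψord y).imp fun n h => by rw [hy, h]
  obtain ⟨a₀, ha₀⟩ : ∃ a₀ : (ZMod q)ˣ, ξ ((a₀ * a₀ : (ZMod q)ˣ) : ZMod q) ≠ 1 := by
    obtain ⟨e, he1, heu, he2⟩ := hψ q hq (dvd_mul_right q D')
    rw [Nat.mul_div_cancel_left D' hq.pos] at he1
    have hu : IsUnit (e : ZMod q) := by
      have h := heu.map (ZMod.castHom (dvd_mul_right q D') (ZMod q))
      rwa [map_intCast] at h
    refine ⟨hu.unit, fun h => he2 ?_⟩
    rw [MulChar.ringHomComp_apply, hξ e he1 hu.ne_zero, ← map_pow, pow_two, ← map_mul]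
    rw [Units.val_mul, IsUnit.unit_spec] at h
    rw [h, map_one]
  have hξ1 : ∃ x : (ZMod q)ˣ, ξ (x : ZMod q) ≠ 1 := ⟨a₀ * a₀, ha₀⟩
  obtain ⟨M, hM, hqM, -, φ, ξ', hξ', hφ, hvec⟩ :=
    TwistVector.exists_twist_vector hD hsq hcop ψ hψ S hLS a ha hne (dvd_mul_right q D') ξ
      fun e he h0 => hξ e (by rwa [Nat.mul_div_cancel_left D' hq.pos] at he) h0
  have hinv : ∀ x : (ZMod q)ˣ, ξ⁻¹ (x : ZMod q) * ξ (x : ZMod q) = 1 := fun x =>
    mulChar_inv_mul ξ x.isUnit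
  have hξ'ord : ∀ x : (ZMod q)ˣ, ∃ n : ℕ, ξ' (x : ZMod q) ^ p ^ n = 1 := fun x => by
    rcases hξ' with rfl | rfl
    · exact hξord x
    · refine (hξord x).imp fun n h => ?_
      have h' := congrArg (· ^ p ^ n) (hinv x)
      simpa [mul_pow, h] using h'
  have ha₀' : ξ' ((a₀ * a₀ : (ZMod q)ˣ) : ZMod q) ≠ 1 := by
    rcases hξ' with rfl | rfl
    · exact ha₀
    · intro h
      have h' := hinv (a₀ * a₀)
      rw [h, one_mul] at h'
      exact ha₀ h'
  have hq5 : 5 ≤ q := by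
    have hpq : p ∣ q - 1 := dvd_sub_one_of_mulChar hpp ξ hξord hξ1
    have h2 : 2 ∣ p → False := fun h =>
      hp2 ((Nat.prime_dvd_prime_iff_eq Nat.prime_two hpp).1 h).symm
    have hp3 : 3 ≤ p := by have := hpp.two_le; omega
    have hq4 : 4 ≤ q := by
      have := Nat.le_of_dvd (by have := hq.two_le; omega) hpq
      omega
    rcases hq4.lt_or_eq with h | h
    · omega
    · exact absurd (h ▸ hq) (by decide)
  -- level `q² (4 M)`
  have hqM' : ¬ q ∣ M * 4 := fun h => (hq.dvd_mul.1 h).elim hqM fun h4 => by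
    have := hq.dvd_of_dvd_pow (n := 2) (show q ∣ 2 ^ 2 by simpa using h4)
    have := Nat.le_of_dvd two_pos this
    omega
  have : NeZero (M * 4) := ⟨mul_ne_zero (NeZero.ne M) four_ne_zero⟩
  have hle : CongruenceSubgroup.Gamma0 (q * (M * 4) * q) ≤ CongruenceSubgroup.Gamma0 (q * M * q) :=
    fun g hg => by
      rw [CongruenceSubgroup.Gamma0_mem, ZMod.intCast_zmod_eq_zero_iff_dvd] at hg ⊢
      exact (Int.natCast_dvd_natCast.mpr
        (mul_dvd_mul_right (mul_dvd_mul_left q (dvd_mul_right M 4)) q)).trans hg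
  obtain ⟨φ', hφ'v, hφ'⟩ :=
    exists_raise_four (N' := q * (M * 4) * q) (by ring) (S := S) (a := a) φ hφ hle
  let F := parFrame (q * (M * 4) * q) p
  let Y : ∀ n : ℕ, (Fin F.H.r → O) →ₗ[O] Coef O q (M * 4) (p ^ n) := fun n =>
    letI := coefAction O hqM' (p ^ n)
    haveI := coefAction_comm O hqM' (p ^ n)
    (lopLin ξ').comp (baseMap O hqM' n)
  have hchi : ∀ g : AlgebraicClosure ℚ ≃ₐ[ℚ] AlgebraicClosure ℚ, ∃ cu : (ZMod q)ˣ,
      (cu : ZMod q) = Datum.chiMod q g ∧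
        g (zetaQ q : Qb) = (zetaQ q : Qb) ^ (cu : ZMod q).val := fun g =>
    ⟨((Group.isUnit g).map (Datum.chiMod q)).unit, IsUnit.unit_spec _, by
      rw [IsUnit.unit_spec]
      exact Datum.chiMod_spec q g (isPrimitiveRoot_zetaQ q).pow_eq_one⟩
  have hYσ : ∀ (g : AlgebraicClosure ℚ ≃ₐ[ℚ] AlgebraicClosure ℚ) (n : ℕ)
      (v : Fin F.H.r → O), coefGal O q (M * 4) (p ^ n) g (Y n v)
        = ξ' (Datum.chiMod q g) • Y n ((galMatO hpO F g).mulVec v) := fun g n v => by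
    let := coefAction O hqM' (p ^ n)
    have := coefAction_comm O hqM' (p ^ n)
    obtain ⟨cu, hcu, hcu'⟩ := hchi g
    rw [← hcu]
    show coefGal O q (M * 4) (p ^ n) g (TwistInertia.lop ξ' (baseMap O hqM' n v)) = _
    rw [TwistInertia.map_lop ξ' (coefGal_smul O hqM' (p ^ n) cu hcu') (fun b => ?_),
      coefGal_baseMap O hqM' n hpO]
    · rfl
    · rw [coefGal_baseMap O hqM' n hpO, tor_smul_baseMap]
  have hcd : (c : ZMod q) ≠ 0 := by
    obtain ⟨cu, hcu, -⟩ := hchi τ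
    rw [← Datum.chiMod_eq_natCast q τ hc, ← hcu]
    exact cu.ne_zero
  have hval : ψ (d : ZMod (q * D')) + ψ⁻¹ (d : ZMod (q * D'))
      = ξ' (Datum.chiMod q τ) + ξ'⁻¹ (Datum.chiMod q τ) := by
    rw [Datum.chiMod_eq_natCast q τ hc, ← hdq]
    have hd0 : (d : ZMod q) ≠ 0 := by rw [hdq]; exact hcd
    have h1 := hξ d hd1 hd0
    have h2 : ψ⁻¹ (d : ZMod (q * D')) = ξ⁻¹ (d : ZMod q) := by
      have hux : IsUnit (d : ZMod q) := isUnit_iff_ne_zero.2 hd0
      refine left_inv_eq_right_inv (a := ψ (d : ZMod (q * D'))) ?_ ?_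
      · refine mulChar_inv_mul ψ ?_
        by_contra hn
        rw [MulChar.map_nonunit ψ hn] at h1
        exact (hux.map ξ).ne_zero h1.symm
      · rw [h1, mul_comm, mulChar_inv_mul ξ hux]
    rw [h1, h2]
    rcases hξ' with rfl | rfl
    · rfl
    · rw [inv_inv, add_comm]
  rw [hval]
  refine trace_eq_of_kill (F := F) (S := S) (a := a) hpO (torsionFacts _ p) ρ hρ hqp hA hunip hp2 ξ'
    hξ'ord ⟨a₀ * a₀, ha₀'⟩ Y (fun n => ?_) (fun g n v w _ _ h => ?_)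
    (k := (q : O) * q * (ξ' ((a₀ * a₀ : (ZMod q)ˣ) : ZMod q) - 1)) ?_ (fun v _ _ g hg n => ?_)
    (coordVec p φ') (coordVec_mem_eigenSub p hφ') (fun e he => ?_) hτ
  · obtain ⟨K, hK⟩ := exists_pow_baseMap_eq_zero (O := O) hqM' (p := p) n
    let := coefAction O hqM' (p ^ n)
    have := coefAction_comm O hqM' (p ^ n)
    exact ⟨K, fun v hv => (congrArg (lopLin ξ') (hK v hv)).trans (map_zero _)⟩
  · have h' := congrArg (coefGal O q (M * 4) (p ^ n) g) h
    rw [hYσ, hYσ] at h'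
    obtain ⟨cu, hcu, -⟩ := hchi g
    rw [← hcu] at h'
    exact (cu.isUnit.map ξ').smul_left_cancel.1 h'
  · exact mul_ne_zero (mul_ne_zero (Nat.cast_ne_zero.2 hq.ne_zero) (Nat.cast_ne_zero.2 hq.ne_zero))
      (sub_ne_zero.2 ha₀')
  · obtain ⟨cu, hcu, hcu'⟩ := hchi g
    rw [← hcu]
    exact kill_baseMap hqM' hpO hA hq5 (dvd_mul_left 4 M) hqp ξ' a₀ hg cu hcu' n v
  · choose lift hlift using fun β γ : ZMod q => exists_red_eq hqM'
      (twist (embUnit q) (uni β * weyl * uni γ * weyl))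
    obtain ⟨δ, hδ⟩ := hvec (M * 4) hqM' (dvd_mul_right M 4) (embUnit q) lift hlift
    have hne' : ∑ β : ZMod q, ∑ γ : ZMod q, ξ' γ *
        (φ' : Additive (CongruenceSubgroup.Gamma0 (q * (M * 4) * q)) →+ O) (Additive.ofMul
          (Torsion.frickeConj (q * (M * 4) * q)
            (down q (M * 4) hqM' (conjDelta (lift β γ) δ)))) ≠ 0 := fun h0 =>
      hδ (Eq.trans (Finset.sum_congr rfl fun β _ => Finset.sum_congr rfl fun γ _ =>
        congrArg (ξ' γ * ·) (hφ'v _).symm) h0)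
    obtain ⟨n, hn⟩ := exists_smul_lop_ne_zero hqM' hpO ξ' φ' lift hlift δ hne' he
    exact ⟨n, hn⟩

end Fermat.Agent.Ribet
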