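import Fermat.Agent.Ribet.ThirdEngine

/-!
# Feeding the engine

* `diamondChar`: the tautological character of `(ℤ / p ^ N) ^ r` with values in `S / m ^ n`
  (`n ≤ N + 1`), sending the `i`-th basis vector to `1 + y_i`, and the induced map of group rings;
* `EngineLevel.ofModule`: engine data from commuting endomorphisms of a free module.
-/

set_option autoImplicit false

noncomputable section

namespace Fermat.Agent.Ribet

open IsLocalRing

variable {O : Type} [CommRing O] [IsLocalRing O] {r n p N : ℕ}

lemma natCast_mem_maximalIdeal_sinf (hp : (p : O) ∈ maximalIdeal O) :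
    (p : Sinf O r) ∈ maximalIdeal (Sinf O r) := by
  rw [← map_natCast (MvPowerSeries.C : O →+* Sinf O r)]
  exact C_mem_maximalIdeal hp

lemma one_add_pow_prime_pow_sub_one_mem {A : Type} [CommRing A] (I : Ideal A) {p : ℕ}
    (hp : (p : A) ∈ I) {x : A} (hx : x ∈ I) (N : ℕ) : (1 + x) ^ p ^ N - 1 ∈ I ^ (N + 1) := by
  induction N with
  | zero => simpa using hx
  | succ N ih =>
    rw [pow_succ p N, pow_mul]
    set u := (1 + x) ^ p ^ N
    rw [← geom_sum_mul u p, pow_succ' I (N + 1)]
    refine Ideal.mul_mem_mul ?_ ih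
    have hu : u - 1 ∈ I := Ideal.pow_le_self (by omega) ih
    have hq : Ideal.Quotient.mk I (∑ i ∈ Finset.range p, u ^ i) = 0 := by
      simp [map_sum, (Ideal.Quotient.mk_eq_mk_iff_sub_mem u 1).mpr hu,
        Ideal.Quotient.eq_zero_iff_mem.mpr hp, ← map_natCast (Ideal.Quotient.mk I) p]
    exact Ideal.Quotient.eq_zero_iff_mem.mp hq

lemma diamond_pow_prime_pow (hp : (p : O) ∈ maximalIdeal O) (hn : n ≤ N + 1) (i : Fin r) :
    diamond O r n i ^ p ^ N = 1 := by
  rw [diamond, ← map_pow, ← map_one (Ideal.Quotient.mk (maximalIdeal (Sinf O r) ^ n)),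
    Ideal.Quotient.mk_eq_mk_iff_sub_mem]
  exact Ideal.pow_le_pow_right hn (one_add_pow_prime_pow_sub_one_mem _
    (natCast_mem_maximalIdeal_sinf hp) (X_mem_maximalIdeal i) N)

lemma isUnit_diamond (i : Fin r) : IsUnit (diamond O r n i) := by
  rw [diamond]
  refine IsUnit.map _ ?_
  rw [MvPowerSeries.isUnit_iff_constantCoeff]
  simp

variable [Fact p.Prime]

/-- The character `(ℤ / p ^ N) ^ r → (S / m ^ n)ˣ`, `e_i ↦ 1 + y_i`. -/
def diamondChar (hp : (p : O) ∈ maximalIdeal O) (hn : n ≤ N + 1) :
    Multiplicative (Fin r → ZMod (p ^ N)) →* (SLevel O r n)ˣ where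
  toFun e := ∏ i, (isUnit_diamond (O := O) (n := n) i).unit ^ (Multiplicative.toAdd e i).val
  map_one' := by simp
  map_mul' e f := by
    rw [← Finset.prod_mul_distrib]
    refine Finset.prod_congr rfl fun i _ => ?_
    have hpN : 0 < p ^ N := pow_pos (Nat.Prime.pos Fact.out) N
    have h1 : (isUnit_diamond (O := O) (n := n) i).unit ^ p ^ N = 1 :=
      Units.ext (by simpa using diamond_pow_prime_pow hp hn i)
    rw [toAdd_mul, Pi.add_apply, ZMod.val_add, ← pow_eq_pow_mod _ h1, pow_add]

lemma diamondChar_single (hp : (p : O) ∈ maximalIdeal O) (hn : n ≤ N + 1) (hn1 : 1 ≤ N)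
    (i : Fin r) :
    (diamondChar hp hn (Multiplicative.ofAdd (Pi.single i (1 : ZMod (p ^ N)))) : SLevel O r n) =
      diamond O r n i := by
  classical
  have : Fact (1 < p ^ N) := ⟨Nat.one_lt_pow (by omega) (Nat.Prime.one_lt Fact.out)⟩
  show ((∏ j, (isUnit_diamond (O := O) (n := n) j).unit ^
    ((Pi.single i (1 : ZMod (p ^ N)) : Fin r → ZMod (p ^ N)) j).val : (SLevel O r n)ˣ) :
      SLevel O r n) = _
  rw [Finset.prod_eq_single i (fun j _ hj => by simp [hj]) (by simp)]
  simp [ZMod.val_one]

/-- The map of the group ring `O[(ℤ / p ^ N) ^ r]` onto the coefficients of level `n`. -/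
def groupRingToSLevel (hp : (p : O) ∈ maximalIdeal O) (hn : n ≤ N + 1) :
    MonoidAlgebra O (Multiplicative (Fin r → ZMod (p ^ N))) →ₐ[O] SLevel O r n :=
  MonoidAlgebra.lift O (SLevel O r n) (Multiplicative (Fin r → ZMod (p ^ N)))
    ((Units.coeHom _).comp (diamondChar hp hn))

section OfModule

variable {ϖ δ : O} {k g E : ℕ} {M : Type} [AddCommGroup M] [Module (SLevel O r n) M]
  [Module O M] [IsScalarTower O (SLevel O r n) M]

/-- Engine data from commuting endomorphisms of a free module over `S / m ^ n`. -/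
def EngineLevel.ofModule {D : ℕ} (b : Module.Basis (Fin D) (SLevel O r n) M)
    (op : LVar (Fin k) (Fin g) → Module.End (SLevel O r n) M)
    (comm : ∀ v w, Commute (op v) (op w))
    (nilpotent : ∀ v, ∃ N : ℕ, ∀ x, (op v ^ N) x ∈
      ((maximalIdeal (Sinf O r)).map (Ideal.Quotient.mk (maximalIdeal (Sinf O r) ^ n))) •
        (⊤ : Submodule (SLevel O r n) M))
    (quadric : ∀ i, (qdOp (opS op i) - algebraMap O _ (δ ^ 2)) ^ E = 0)
    (parallel : ∀ i a c, (opS op i a * opF op i c - opS op i c * opF op i a) ^ E = 0)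
    (diamond_integral : ∀ j, ∃ h ∈ Algebra.adjoin O (Set.range op),
      (algebraMap (SLevel O r n) (Module.End (SLevel O r n) M) (diamond O r n j) ^ 2 -
        h * algebraMap (SLevel O r n) _ (diamond O r n j) + 1) ^ E = 0)
    (killed : ∃ A : Module.End (SLevel O r n) M,
      ((List.ofFn fun i : Fin k => qdOp (opF op i)).prod) ^ E = ϖ • A) :
    EngineLevel O ϖ δ k g r E D n where
  op v := LinearMap.toMatrixAlgEquiv b (op v)
  comm v w := (comm v w).map (LinearMap.toMatrixAlgEquiv b)
  nilpotent v := by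
    obtain ⟨N', hN⟩ := nilpotent v
    refine ⟨N', fun a c => ?_⟩
    rw [← map_pow, LinearMap.toMatrixAlgEquiv_apply]
    refine Submodule.smul_induction_on (hN (b c)) (fun j hj y _ => ?_) (fun y z hy hz => ?_)
    · rw [map_smul, Finsupp.smul_apply, smul_eq_mul]
      exact Ideal.mul_mem_right _ _ hj
    · rw [map_add, Finsupp.add_apply]
      exact Ideal.add_mem _ hy hz
  quadric i := by
    have := congrArg ((LinearMap.toMatrixAlgEquiv b).restrictScalars O) (quadric i)
    simpa only [qdOp, opS, map_pow, map_sub, map_add, map_mul, map_zero, AlgEquiv.commutes,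
      AlgEquiv.restrictScalars_apply] using this
  parallel i a c := by
    have := congrArg (LinearMap.toMatrixAlgEquiv b) (parallel i a c)
    simpa only [opS, opF, map_pow, map_sub, map_mul, map_zero] using this
  diamond_integral j := by
    obtain ⟨h, hmem, heq⟩ := diamond_integral j
    refine ⟨LinearMap.toMatrixAlgEquiv b h, ?_, ?_⟩
    · set φ : Module.End (SLevel O r n) M →ₐ[O] Matrix (Fin D) (Fin D) (SLevel O r n) :=
        ((LinearMap.toMatrixAlgEquiv b).restrictScalars O).toAlgHom
      rw [show (Set.range fun v => LinearMap.toMatrixAlgEquiv b (op v)) = φ '' Set.range op from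
        Set.range_comp _ _, ← AlgHom.map_adjoin]
      exact ⟨h, hmem, rfl⟩
    · have := congrArg (LinearMap.toMatrixAlgEquiv b) heq
      simpa only [map_pow, map_sub, map_add, map_mul, map_one, map_zero, AlgEquiv.commutes]
        using this
  killed := by
    obtain ⟨A, hA⟩ := killed
    refine ⟨LinearMap.toMatrixAlgEquiv b A, ?_⟩
    have := congrArg ((LinearMap.toMatrixAlgEquiv b).restrictScalars O) hA
    simpa only [map_pow, map_list_prod, List.map_ofFn, Function.comp_def, qdOp, opF, map_add,
      map_mul, map_smul, AlgEquiv.restrictScalars_apply] using this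

end OfModule

end Fermat.Agent.Ribet
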