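/-
Mazur's principle at `q ≠ p`: reduction of a space of functions along valuations
scaled separately on each component, and its decomposition by a tame inertial automorphism.

`b i` are constants; `slotFibre` is the set of tuples `(residue of b i • ψ)_i`, `ψ` in the space.
An inertial `g` stabilising the space and moving the constants `b i` by roots of unity with
different residues on different components splits this set componentwise.
-/
import Fermat.Agent.Bad.GluingLattice
import Fermat.Agent.Bad.Gluing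

set_option autoImplicit false

noncomputable section

namespace Fermat.Agent.Ribet.Slot

open AlgebraicCurve Fermat.Agent.Bad Fermat.Agent.Curve

universe uK uF uι uk uFb

variable {K : Type uK} [Field K] {A : ValuationSubring K}
  {F : Type uF} [Field F] [Algebra K F] {ι : Type uι} [Fintype ι]
  {k : Type uk} [Field k] {Fb : ι → Type uFb} [∀ i, Field (Fb i)] [∀ i, Algebra k (Fb i)]
  (R : MultiReduction A F k Fb)

/-- `r` is the tuple of residues of the scaled function `b i • ψ`. -/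
def IsSlot (b : ι → K) (ψ : F) (r : ∀ i, Fb i) : Prop :=
  ∀ i, ∃ h : b i • ψ ∈ R.V i, R.φ i ⟨_, h⟩ = r i

variable {R}

theorem IsSlot.mul {b c : ι → K} {ψ χ : F} {r s : ∀ i, Fb i} (h : IsSlot R b ψ r)
    (h' : IsSlot R c χ s) : IsSlot R (b * c) (ψ * χ) (r * s) := by
  intro i
  obtain ⟨h1, e1⟩ := h i
  obtain ⟨h2, e2⟩ := h' i
  have he : (b * c) i • (ψ * χ) = b i • ψ * c i • χ := by
    rw [Pi.mul_apply, smul_mul_smul_comm]
  refine ⟨by rw [he]; exact mul_mem h1 h2, ?_⟩
  rw [Pi.mul_apply r s, ← e1, ← e2, ← map_mul]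
  exact congrArg _ (Subtype.ext he)

theorem IsSlot.pow {b : ι → K} {ψ : F} {r : ∀ i, Fb i} (h : IsSlot R b ψ r) :
    ∀ n : ℕ, IsSlot R (b ^ n) (ψ ^ n) (r ^ n)
  | 0 => fun i => ⟨by simp, by
      rw [pow_zero r, Pi.one_apply, ← map_one (R.φ i)]
      exact congrArg _ (Subtype.ext (by simp))⟩
  | n + 1 => by rw [pow_succ, pow_succ, pow_succ]; exact (h.pow n).mul h

theorem IsSlot.unique {b : ι → K} {ψ : F} {r s : ∀ i, Fb i} (h : IsSlot R b ψ r)
    (h' : IsSlot R b ψ s) : r = s :=
  funext fun i => (h i).choose_spec.symm.trans (h' i).choose_spec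

theorem IsSlot.inv {b : ι → K} {ψ : F} {r : ∀ i, Fb i} (h : IsSlot R b ψ r)
    (hr : ∀ i, r i ≠ 0) : IsSlot R b⁻¹ ψ⁻¹ r⁻¹ := by
  intro i
  obtain ⟨h1, e1⟩ := h i
  have hne : R.φ i ⟨_, h1⟩ ≠ 0 := e1 ▸ hr i
  have hinv := R.inv_mem_V hne
  have he : b⁻¹ i • ψ⁻¹ = (b i • ψ)⁻¹ := by
    rw [Pi.inv_apply, Algebra.smul_def, Algebra.smul_def, mul_inv, map_inv₀]
  refine ⟨by rw [he]; exact hinv, ?_⟩
  rw [show r⁻¹ i = (R.φ i ⟨_, h1⟩)⁻¹ by rw [e1]; rfl]
  apply eq_inv_of_mul_eq_one_left
  rw [← map_mul, ← map_one (R.φ i)]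
  refine congrArg _ (Subtype.ext ?_)
  push_cast
  rw [he]
  refine inv_mul_cancel₀ fun h0 => hne ?_
  rw [show (⟨_, h1⟩ : R.V i) = 0 from Subtype.ext h0, map_zero]

/-- Scaled units exist: `b i • θ` has residue `1` on every component. -/
theorem exists_isSlot_one (hA : RankLeOne A) (b : ι → K) (hb : ∀ i, b i ≠ 0) :
    ∃ θ : F, IsSlot R b θ 1 := by
  classical
  -- a lift of the idempotent of the component `i`, with a strictly positive value elsewhere
  have key : ∀ i : ι, ∃ χ : F, IsSlot R b χ (Pi.single i 1) := by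
    intro i
    obtain ⟨ε, hε, hεr⟩ := R.exists_lift (Pi.single i 1)
    -- a common exponent
    have hpos : ∀ j, j ≠ i → ∃ n : ℕ, ∀ m, n ≤ m →
        ∃ h : (b j / b i) • ε ^ m ∈ R.V j, R.φ j ⟨_, h⟩ = 0 := by
      intro j hji
      rcases eq_or_ne ε 0 with h0 | h0
      · refine ⟨1, fun m hm => ⟨by rw [h0, zero_pow (by omega), smul_zero]; exact zero_mem _, ?_⟩⟩
        rw [← map_zero (R.φ j)]
        exact congrArg _ (Subtype.ext (by
          show (b j / b i) • ε ^ m = _
          rw [h0, zero_pow (by omega), smul_zero]; rfl))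
      obtain ⟨c, hc, hcr⟩ := R.exists_scale j ε h0
      have hc0 : c ≠ 0 := by
        rintro rfl
        exact hcr (by rw [← map_zero (R.φ j)]; exact congrArg _ (Subtype.ext (zero_smul K ε)))
      have hcA : c ∉ A := fun hmem => hcr (by
        have e : (⟨c • ε, hc⟩ : R.V j) =
            ⟨algebraMap K F c, (R.mem_V_iff j c).2 hmem⟩ * ⟨ε, hε j⟩ :=
          Subtype.ext (Algebra.smul_def c ε)
        rw [e, map_mul, hεr j, Pi.single_eq_of_ne hji, mul_zero])
      have haA : c⁻¹ ∈ A := (A.mem_or_inv_mem c).resolve_left hcA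
      have ham : (⟨c⁻¹, haA⟩ : A) ∈ IsLocalRing.maximalIdeal A := by
        rw [IsLocalRing.mem_maximalIdeal, mem_nonunits_iff]
        intro hu
        obtain ⟨u, hu⟩ := hu
        have h1 := congrArg Subtype.val u.inv_mul
        rw [show ((u : A) : A) = ⟨c⁻¹, haA⟩ from hu] at h1
        push_cast at h1
        apply hcA
        rw [← eq_of_mul_inv_eq_one h1]
        exact ((u⁻¹ : Aˣ) : A).2
      have hd : ∃ n : ℕ, (b j / b i) * c⁻¹ ^ n ∈ A := by
        by_cases hmem : b j / b i ∈ A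
        · exact ⟨0, by simpa using hmem⟩
        · have hd' := (A.mem_or_inv_mem _).resolve_left hmem
          obtain ⟨n, e, he⟩ := hA ⟨c⁻¹, haA⟩ ⟨_, hd'⟩ ham (fun h =>
            inv_ne_zero (div_ne_zero (hb j) (hb i)) (congrArg Subtype.val h))
          refine ⟨n, ?_⟩
          have he' := congrArg Subtype.val he
          push_cast at he'
          rw [he', mul_inv_cancel_left₀ (div_ne_zero (hb j) (hb i))]
          exact e.2
      obtain ⟨n, hn⟩ := hd
      refine ⟨n + 1, fun m hm => ?_⟩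
      obtain ⟨l, rfl⟩ : ∃ l, m = n + (l + 1) := ⟨m - n - 1, by omega⟩
      set y : R.V j := ⟨algebraMap K F _, (R.mem_V_iff j _).2 hn⟩ * ⟨c • ε, hc⟩ ^ n *
        ⟨ε, hε j⟩ ^ (l + 1) with hy
      have he : (b j / b i) • ε ^ (n + (l + 1)) = (y : F) := by
        show (b j / b i) • ε ^ (n + (l + 1)) =
          algebraMap K F ((b j / b i) * c⁻¹ ^ n) * (c • ε) ^ n * ε ^ (l + 1)
        rw [Algebra.smul_def, Algebra.smul_def, mul_pow, pow_add, map_mul, map_pow, map_inv₀,
          inv_pow]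
        have hcF : (algebraMap K F c) ^ n ≠ 0 := pow_ne_zero _ (by simpa using hc0)
        field_simp
      refine ⟨by rw [he]; exact y.2, ?_⟩
      rw [show (⟨_, _⟩ : R.V j) = y from Subtype.ext he, hy, map_mul, map_pow _ _ (l + 1),
        hεr j, Pi.single_eq_of_ne hji, zero_pow (Nat.succ_ne_zero l), mul_zero]
    choose n hn using hpos
    set m := (Finset.univ : Finset ι).sup (fun j => if h : j = i then 0 else n j h) with hm
    refine ⟨(b i)⁻¹ • ε ^ (m + 1), fun j => ?_⟩
    rcases eq_or_ne j i with rfl | hji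
    · have he : b j • (b j)⁻¹ • ε ^ (m + 1) = ((⟨ε, hε j⟩ : R.V j) ^ (m + 1) : R.V j) := by
        rw [smul_smul, mul_inv_cancel₀ (hb j), one_smul]; rfl
      refine ⟨by rw [he]; exact SetLike.coe_mem _, ?_⟩
      rw [show (⟨_, _⟩ : R.V j) = (⟨ε, hε j⟩ : R.V j) ^ (m + 1) from Subtype.ext he, map_pow,
        hεr j, Pi.single_eq_same, one_pow]
    · obtain ⟨h, hr⟩ := hn j hji (m + 1) (by
        have : n j hji ≤ m := by
          rw [hm]
          exact le_trans (le_of_eq (by rw [dif_neg hji]))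
            (Finset.le_sup (f := fun j => if h : j = i then 0 else n j h) (Finset.mem_univ j))
        omega)
      have he : b j • (b i)⁻¹ • ε ^ (m + 1) = (b j / b i) • ε ^ (m + 1) := by
        rw [smul_smul, div_eq_mul_inv]
      refine ⟨by rw [he]; exact h, ?_⟩
      rw [show (⟨_, _⟩ : R.V j) = ⟨_, h⟩ from Subtype.ext he, hr, Pi.single_eq_of_ne hji]
  choose χ hχ using key
  refine ⟨∑ i, χ i, fun j => ?_⟩
  choose hmem hval using fun i => hχ i j
  have he : b j • ∑ i, χ i = ((∑ i, ⟨b j • χ i, hmem i⟩ : R.V j) : F) := by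
    rw [Finset.smul_sum]
    push_cast
    rfl
  refine ⟨by rw [he]; exact SetLike.coe_mem _, ?_⟩
  rw [show (⟨_, _⟩ : R.V j) = ∑ i, ⟨b j • χ i, hmem i⟩ from Subtype.ext he, map_sum]
  simp only [hval, Pi.one_apply]
  rw [Finset.sum_pi_single]
  simp

/-- The residues of the scaled functions of a space. -/
def slotFibre (b : ι → K) (M : Submodule K F) : Submodule k (∀ i, Fb i) where
  carrier := {r | ∃ ψ ∈ M, IsSlot R b ψ r}
  zero_mem' := ⟨0, M.zero_mem, fun i => ⟨by rw [smul_zero]; exact zero_mem _, by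
    rw [Pi.zero_apply, ← map_zero (R.φ i)]
    exact congrArg _ (Subtype.ext (smul_zero _))⟩⟩
  add_mem' := by
    rintro r s ⟨ψ, hψ, h⟩ ⟨χ, hχ, h'⟩
    refine ⟨ψ + χ, M.add_mem hψ hχ, fun i => ?_⟩
    obtain ⟨h1, e1⟩ := h i
    obtain ⟨h2, e2⟩ := h' i
    refine ⟨by rw [smul_add]; exact add_mem h1 h2, ?_⟩
    rw [Pi.add_apply, ← e1, ← e2, ← map_add]
    exact congrArg _ (Subtype.ext (smul_add _ _ _))
  smul_mem' := by
    rintro a r ⟨ψ, hψ, h⟩
    obtain ⟨a, rfl⟩ := R.π_surjective a
    refine ⟨(a : K) • ψ, M.smul_mem _ hψ, fun i => ?_⟩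
    obtain ⟨h1, e1⟩ := h i
    have he : b i • (a : K) • ψ = algebraMap K F (a : K) * (b i • ψ) := by
      rw [smul_comm, Algebra.smul_def]
    refine ⟨by rw [he]; exact mul_mem ((R.mem_V_iff i _).2 a.2) h1, ?_⟩
    rw [Pi.smul_apply, Algebra.smul_def (R.π a), ← R.φ_algebraMap i a, ← e1, ← map_mul]
    exact congrArg _ (Subtype.ext he)

theorem mem_slotFibre {b : ι → K} {M : Submodule K F} {r : ∀ i, Fb i} :
    r ∈ slotFibre (R := R) b M ↔ ∃ ψ ∈ M, IsSlot R b ψ r := Iff.rfl

variable (R) in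
/-- The scaled reduction does not lose dimension. -/
theorem finrank_slotFibre (hA : RankLeOne A) (b : ι → K) (hb : ∀ i, b i ≠ 0)
    (M : Submodule K F) [FiniteDimensional K M] :
    Module.finrank k (slotFibre (R := R) b M) = Module.finrank K M := by
  classical
  obtain ⟨θ, hθ⟩ := exists_isSlot_one (R := R) hA b hb
  have hθ0 : θ ≠ 0 := by
    obtain ⟨i⟩ := R.nonempty
    obtain ⟨h, e⟩ := hθ i
    rintro rfl
    refine one_ne_zero (α := Fb i) ?_
    rw [← Pi.one_apply (M := Fb) i, ← e, ← map_zero (R.φ i)]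
    exact congrArg _ (Subtype.ext (smul_zero _))
  have hθ' : IsSlot R b⁻¹ θ⁻¹ 1 := by
    simpa using hθ.inv fun i => by simp
  let L : F →ₗ[K] F := LinearMap.mulLeft K θ⁻¹
  have hL : Function.Injective L := fun x y h => mul_left_cancel₀ (inv_ne_zero hθ0) h
  have e := M.equivMapOfInjective L hL
  have : FiniteDimensional K (M.map L) := e.finiteDimensional
  have hsp : slotFibre (R := R) b M = R.spFibre (M.map L) := by
    ext r
    constructor
    · rintro ⟨ψ, hψ, h⟩
      have h' := hθ'.mul h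
      rw [one_mul] at h'
      have hb1 : b⁻¹ * b = 1 := funext fun i => inv_mul_cancel₀ (hb i)
      rw [hb1] at h'
      refine ⟨⟨θ⁻¹ * ψ, R.mem_integers.2 fun i => ?_⟩, Submodule.mem_map_of_mem hψ, funext fun i => ?_⟩
      · simpa using (h' i).choose
      · obtain ⟨h1, e1⟩ := h' i
        rw [R.red_apply, ← e1]
        exact congrArg _ (Subtype.ext (by simp))
    · rintro ⟨η, ⟨ψ, hψ, hη⟩, rfl⟩
      refine ⟨ψ, hψ, ?_⟩
      have h' : IsSlot R 1 (η : F) (R.red η) := fun i =>
        ⟨by simp [R.mem_integers.1 η.2 i], by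
          rw [R.red_apply]; exact congrArg _ (Subtype.ext (one_smul K _))⟩
      have h'' := hθ.mul h'
      rw [mul_one, one_mul, ← hη] at h''
      simpa [L, mul_inv_cancel_left₀ hθ0] using h''
  rw [hsp, R.finrank_spFibre, ← e.finrank_eq]

variable [IsFunctionFieldOne K F]

/-- **Splitting**: an inertial automorphism stabilising the space and moving the scalings
differently on different components makes the scaled reduction a product. -/
theorem single_mem_slotFibre [DecidableEq ι] {g : SemilinearAut K F} (hg : IsInertial R g)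
    {b : ι → K} {M : Submodule K F} (hM : ∀ ψ ∈ M, g • ψ ∈ M)
    (z : ι → A) (hz : ∀ i, ((z i : A) : K) * SemilinearAut.baseAut g (b i) = b i)
    (hsep : ∀ i j, i ≠ j → R.π (z i) ≠ R.π (z j))
    {r : ∀ i, Fb i} (hr : r ∈ slotFibre (R := R) b M) (i : ι) :
    Pi.single i (r i) ∈ slotFibre (R := R) b M := by
  have hop : ∀ s ∈ slotFibre (R := R) b M,
      (fun j => R.π (z j) • s j) ∈ slotFibre (R := R) b M := by
    rintro s ⟨ψ, hψ, h⟩
    refine ⟨g • ψ, hM ψ hψ, fun j => ?_⟩
    obtain ⟨h1, e1⟩ := h j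
    obtain ⟨h2, e2⟩ := hg.φ_eq j ⟨_, h1⟩
    have he : b j • g • ψ = algebraMap K F (z j : K) * g • (b j • ψ) := by
      rw [Algebra.smul_def (b j) ψ, smul_mul', SemilinearAut.smul_algebraMap, ← mul_assoc,
        ← map_mul, hz j, Algebra.smul_def]
    refine ⟨by rw [he]; exact mul_mem ((R.mem_V_iff j _).2 (z j).2) h2, ?_⟩
    show _ = R.π (z j) • s j
    rw [Algebra.smul_def (R.π (z j)), ← R.φ_algebraMap j (z j), ← e1, ← e2, ← map_mul]
    exact congrArg _ (Subtype.ext he)
  have hprod : ∀ S : Finset ι,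
      (fun j => (∏ l ∈ S, (R.π (z j) - R.π (z l))) • r j) ∈ slotFibre (R := R) b M := by
    intro S
    induction S using Finset.induction_on with
    | empty => simpa using hr
    | insert l S hl ih =>
      have := Submodule.sub_mem _ (hop _ ih) (Submodule.smul_mem _ (R.π (z l)) ih)
      convert this using 1
      funext j
      simp [Finset.prod_insert hl, sub_smul, mul_smul]
  set S := (Finset.univ : Finset ι).erase i
  have hne : (∏ l ∈ S, (R.π (z i) - R.π (z l))) ≠ 0 :=
    Finset.prod_ne_zero_iff.2 fun l hl => sub_ne_zero.2 (hsep i l (Finset.ne_of_mem_erase hl).symm)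
  have := Submodule.smul_mem _ (∏ l ∈ S, (R.π (z i) - R.π (z l)))⁻¹ (hprod S)
  convert this using 1
  funext j
  rcases eq_or_ne j i with rfl | hji
  · rw [Pi.single_eq_same, Pi.smul_apply, smul_smul, inv_mul_cancel₀ hne, one_smul]
  · have h0 : (∏ l ∈ S, (R.π (z j) - R.π (z l))) = 0 :=
      Finset.prod_eq_zero (i := j) (Finset.mem_erase.2 ⟨hji, Finset.mem_univ j⟩) (sub_self _)
    rw [Pi.single_eq_of_ne hji, Pi.smul_apply, h0, zero_smul, smul_zero]

end Fermat.Agent.Ribet.Slot

end
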