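import Fermat.Agent.Ribet.ThirdComplete

/-!
# Tools for the patching engine: compactness, dimension, determinant trick
-/

set_option autoImplicit false

noncomputable section

namespace Fermat.Agent.Ribet

open IsLocalRing

/-- **Compactness**: from elements at infinitely many levels of a tower of finite sets, a
compatible family whose members are all reductions of given elements of arbitrarily high level. -/
lemma exists_compatible {T : ℕ → Type} [∀ m, Finite (T m)] (red : ∀ {m n : ℕ}, m ≤ n → T n → T m)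
    (red_red : ∀ {l m n : ℕ} (h₁ : l ≤ m) (h₂ : m ≤ n) (x : T n),
      red h₁ (red h₂ x) = red (h₁.trans h₂) x)
    {I : Set ℕ} (hI : I.Infinite) (el : ∀ n ∈ I, T n) :
    ∃ x : ∀ m, T m, (∀ m, red m.le_succ (x (m + 1)) = x m) ∧
      ∀ m, ∃ (n : ℕ) (hn : n ∈ I) (hmn : m ≤ n), red hmn (el n hn) = x m := by
  classical
  set G : ∀ m, T m → Set ℕ := fun m x =>
    {n | ∃ (hn : n ∈ I) (hmn : m ≤ n), red hmn (el n hn) = x}
  have step : ∀ m, ∀ x : T m, (G m x).Infinite → ∃ y : T (m + 1),
      (G (m + 1) y).Infinite ∧ red m.le_succ y = x := by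
    intro m x hx
    by_contra hcon
    push Not at hcon
    refine hx (((Set.finite_iUnion fun y : {y : T (m + 1) // red m.le_succ y = x} =>
      (Set.not_infinite.mp fun h => hcon y.1 h y.2)).union (Set.finite_singleton m)).subset ?_)
    rintro n ⟨hn, hmn, rfl⟩
    rcases Nat.eq_or_lt_of_le hmn with h | h
    · exact Or.inr h.symm
    · exact Or.inl (Set.mem_iUnion.mpr ⟨⟨red h (el n hn), red_red _ _ _⟩, hn, h, rfl⟩)
  have start : ∃ x : T 0, (G 0 x).Infinite := by
    by_contra hcon
    push Not at hcon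
    refine hI ((Set.finite_iUnion fun x : T 0 => hcon x).subset ?_)
    exact fun n hn => Set.mem_iUnion.mpr ⟨_, hn, n.zero_le, rfl⟩
  choose next hnext hred using step
  choose x0 hx0 using start
  let seq : ∀ m, {x : T m // (G m x).Infinite} := fun m =>
    Nat.rec ⟨x0, hx0⟩ (fun m x => ⟨next m x.1 x.2, hnext m x.1 x.2⟩) m
  refine ⟨fun m => (seq m).1, fun m => hred m _ _, fun m => ?_⟩
  obtain ⟨n, hn, hmn, h⟩ := (seq m).2.nonempty
  exact ⟨n, hn, hmn, h⟩

section Dimension

variable {R B : Type} [CommRing R] [CommRing B] [Algebra R B] [Algebra.IsIntegral R B]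

omit [Algebra.IsIntegral R B] in
lemma mem_ker_algebraMap_le {P : Ideal R} [P.IsPrime] (h : Function.Injective (algebraMap R B)) :
    RingHom.ker (algebraMap R B) ≤ P := by
  rw [(RingHom.injective_iff_ker_eq_bot _).mp h]
  exact bot_le

lemma ringKrullDim_le_of_injective (h : Function.Injective (algebraMap R B)) :
    ringKrullDim R ≤ ringKrullDim B := by
  rw [ringKrullDim, Order.krullDim]
  refine iSup_le fun l => ?_
  suffices ∀ l : LTSeries (PrimeSpectrum R), ∃ m : LTSeries (PrimeSpectrum B),
      m.length = l.length ∧ m.last.asIdeal.comap (algebraMap R B) = l.last.asIdeal by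
    obtain ⟨m, hm, -⟩ := this l
    rw [← hm]
    exact Order.LTSeries.length_le_krullDim m
  clear l
  intro l
  induction l using RelSeries.inductionOn' with
  | singleton P =>
    obtain ⟨Q, -, hQ, hQP⟩ := Ideal.exists_ideal_over_prime_of_isIntegral P.asIdeal (⊥ : Ideal B)
      (by rw [← RingHom.ker_eq_comap_bot]; exact mem_ker_algebraMap_le h)
    exact ⟨RelSeries.singleton _ ⟨Q, hQ⟩, rfl, hQP⟩
  | snoc l P hP ih =>
    obtain ⟨m, hm, hlast⟩ := ih
    obtain ⟨Q, hmQ, hQ, hQP⟩ := Ideal.exists_ideal_over_prime_of_isIntegral P.asIdeal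
      m.last.asIdeal (hlast.trans_le (le_of_lt hP))
    have hne : m.last ≠ ⟨Q, hQ⟩ := fun e => by
      have : l.last.asIdeal = P.asIdeal := by
        rw [← hlast, ← hQP, e]
      exact (ne_of_lt hP) (PrimeSpectrum.ext this)
    exact ⟨m.snoc ⟨Q, hQ⟩ (lt_of_le_of_ne (show m.last ≤ ⟨Q, hQ⟩ from hmQ) hne), by simp [hm], by simp [hQP]⟩

lemma ringKrullDim_le_of_isIntegral : ringKrullDim B ≤ ringKrullDim R := by
  refine Order.krullDim_le_of_strictMono (PrimeSpectrum.comap (algebraMap R B)) fun P Q hPQ => ?_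
  exact Ideal.IsIntegral.comap_lt_comap hPQ

end Dimension

/-- The determinant trick: an element mapping `M` into `J • M` has a power in `J`. -/
lemma exists_pow_mem_of_smul_mem {C M : Type} [CommRing C] [AddCommGroup M] [Module C M]
    [Module.Finite C M] [FaithfulSMul C M] (c : C) (J : Ideal C)
    (h : ∀ x : M, c • x ∈ J • (⊤ : Submodule C M)) : ∃ N : ℕ, c ^ N ∈ J := by
  obtain ⟨p, hp, hdeg, hcoef, hev⟩ :=
    LinearMap.exists_monic_and_natDegree_eq_and_coeff_mem_pow_and_aeval_eq_zero C
      (algebraMap C (Module.End C M) c) J (by rintro _ ⟨x, rfl⟩; exact h x)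
  rw [Polynomial.aeval_algebraMap_apply] at hev
  have h0 : Polynomial.aeval c p = 0 := eq_of_smul_eq_smul (α := M) fun x => by
    have := DFunLike.congr_fun hev x
    simpa [Module.algebraMap_end_apply] using this
  rw [Polynomial.aeval_eq_sum_range, Finset.sum_range_succ, hp.coeff_natDegree, one_smul] at h0
  refine ⟨p.natDegree, ?_⟩
  rw [eq_neg_of_add_eq_zero_right h0]
  refine J.neg_mem (J.sum_mem fun i hi => ?_)
  rw [smul_eq_mul]
  refine J.mul_mem_right _ (Ideal.pow_le_self ?_ (hcoef i))
  have := Finset.mem_range.mp hi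
  omega

/-- `dim R + #σ ≤ dim R[[σ]]`. -/
lemma ringKrullDim_add_le_mvPowerSeries {R : Type} [CommRing R] (n : ℕ) :
    ringKrullDim R + n ≤ ringKrullDim (MvPowerSeries (Fin n) R) := by
  induction n with
  | zero =>
    rw [Nat.cast_zero, add_zero]
    exact ringKrullDim_le_of_surjective (MvPowerSeries.constantCoeff)
      fun r => ⟨MvPowerSeries.C r, MvPowerSeries.constantCoeff_C r⟩
  | succ n ih =>
    rw [Nat.cast_succ, ← add_assoc]
    refine (add_le_add_left ih 1).trans ?_
    rw [← ringKrullDim_eq_of_ringEquiv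
      (MvPowerSeries.finSuccEquiv R n).toRingEquiv.symm]
    exact ringKrullDim_succ_le_ringKrullDim_powerseries

end Fermat.Agent.Ribet
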