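import Fermat.Agent.Ribet.ThirdQuot
import Fermat.Agent.Ribet.ThirdLimit
import Fermat.Prelude.Thm_IsLocalRing_isAdicComplete_of_module_finite
import Fermat.Prelude.Thm_IsAdicComplete_of_module_finite

/-!
# The level lowering engine: statement

`engine_false`: there are no patching data as described by `EngineLevel` at every `n`.
-/

set_option autoImplicit false

noncomputable section

namespace Fermat.Agent.Ribet

open IsLocalRing

/-- `O[[y_1, ..., y_r]]`, the ring of the diamond variables. -/
abbrev Sinf (O : Type) [CommRing O] (r : ℕ) : Type := MvPowerSeries (Fin r) O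

/-- The quotient of `Sinf O r` by the `n`-th power of its maximal ideal. -/
abbrev SLevel (O : Type) [CommRing O] [IsLocalRing O] (r n : ℕ) : Type :=
  Sinf O r ⧸ maximalIdeal (Sinf O r) ^ n

/-- The element `1 + y_i` of `SLevel O r n`. -/
def diamond (O : Type) [CommRing O] [IsLocalRing O] (r n : ℕ) (i : Fin r) : SLevel O r n :=
  Ideal.Quotient.mk _ (1 + MvPowerSeries.X i)

section

variable {k g : ℕ} {M : Type} [Ring M]

/-- The entry `S_i` (not shifted) of a family of operators. -/
def opS (op : LVar (Fin k) (Fin g) → M) (i : Fin k) (a : Fin 3) : M := op (Sum.inl (i, false, a))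

/-- The entry `F_i` of a family of operators. -/
def opF (op : LVar (Fin k) (Fin g) → M) (i : Fin k) (a : Fin 3) : M := op (Sum.inl (i, true, a))

/-- `v 0 * v 1 + v 2 ^ 2` in a possibly non-commutative ring: minus the determinant of the
trace zero matrix `[[v 2, v 0], [v 1, -v 2]]`. -/
def qdOp (v : Fin 3 → M) : M := v 0 * v 1 + v 2 ^ 2

end

/-- Data at level `n` of the patching engine: commuting operators on a free module of rank `D`
over `SLevel O r n`.  `op (inl (i, false, a))` are the coordinates (upper right, lower left,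
diagonal) of the trace zero part of the inertia generator at the `i`-th prime,
`op (inl (i, true, a))` those of the Frobenius, `op (inr j)` the free generators. -/
structure EngineLevel (O : Type) [CommRing O] [IsLocalRing O] (ϖ δ : O) (k g r E D n : ℕ) where
  /-- the operators -/
  op : LVar (Fin k) (Fin g) → Matrix (Fin D) (Fin D) (SLevel O r n)
  comm : ∀ v w, Commute (op v) (op w)
  nilpotent : ∀ v, ∃ N : ℕ, ∀ a b, (op v ^ N) a b ∈
    (maximalIdeal (Sinf O r)).map (Ideal.Quotient.mk (maximalIdeal (Sinf O r) ^ n))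
  quadric : ∀ i, (qdOp (opS op i) - algebraMap O _ (δ ^ 2)) ^ E = 0
  parallel : ∀ i a b, (opS op i a * opF op i b - opS op i b * opF op i a) ^ E = 0
  diamond_integral : ∀ j, ∃ h ∈ Algebra.adjoin O (Set.range op),
    (algebraMap (SLevel O r n) _ (diamond O r n j) ^ 2 -
      h * algebraMap (SLevel O r n) _ (diamond O r n j) + 1) ^ E = 0
  killed : ∃ A : Matrix (Fin D) (Fin D) (SLevel O r n),
    ((List.ofFn fun i : Fin k => qdOp (opF op i)).prod) ^ E = ϖ • A

/-! ## Reduction of levels -/

section Reduce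

variable {O : Type} [CommRing O] [IsLocalRing O] {r D : ℕ}

/-- Reduction of matrices between levels. -/
def redMat {m n : ℕ} (h : m ≤ n) :
    Matrix (Fin D) (Fin D) (SLevel O r n) →ₐ[O] Matrix (Fin D) (Fin D) (SLevel O r m) :=
  (Ideal.Quotient.factorₐ O (Ideal.pow_le_pow_right h)).mapMatrix

/-- Projection of matrices to a level. -/
def projMat (m : ℕ) :
    Matrix (Fin D) (Fin D) (Sinf O r) →ₐ[O] Matrix (Fin D) (Fin D) (SLevel O r m) :=
  (Ideal.Quotient.mkₐ O (maximalIdeal (Sinf O r) ^ m)).mapMatrix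

lemma redMat_apply {m n : ℕ} (h : m ≤ n) (A : Matrix (Fin D) (Fin D) (SLevel O r n)) (a b : Fin D) :
    redMat h A a b = Ideal.Quotient.factor (Ideal.pow_le_pow_right h) (A a b) := rfl

lemma projMat_apply (m : ℕ) (A : Matrix (Fin D) (Fin D) (Sinf O r)) (a b : Fin D) :
    projMat m A a b = Ideal.Quotient.mk _ (A a b) := rfl

lemma redMat_redMat {l m n : ℕ} (h₁ : l ≤ m) (h₂ : m ≤ n)
    (A : Matrix (Fin D) (Fin D) (SLevel O r n)) :
    redMat h₁ (redMat h₂ A) = redMat (h₁.trans h₂) A := by
  ext a b
  simp only [redMat_apply]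
  exact Ideal.Quotient.factor_comp_apply _ _ _

lemma redMat_algebraMap {m n : ℕ} (h : m ≤ n) (x : SLevel O r n) :
    redMat (D := D) h (algebraMap (SLevel O r n) (Matrix (Fin D) (Fin D) (SLevel O r n)) x) =
      algebraMap (SLevel O r m) (Matrix (Fin D) (Fin D) (SLevel O r m)) (Ideal.Quotient.factor (Ideal.pow_le_pow_right h) x) := by
  ext a b
  rw [redMat_apply, Matrix.algebraMap_matrix_apply, Matrix.algebraMap_matrix_apply]
  split_ifs <;> simp

lemma projMat_algebraMap (m : ℕ) (x : Sinf O r) :
    projMat (D := D) m (algebraMap (Sinf O r) (Matrix (Fin D) (Fin D) (Sinf O r)) x) =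
      algebraMap (SLevel O r m) (Matrix (Fin D) (Fin D) (SLevel O r m)) (Ideal.Quotient.mk _ x) := by
  ext a b
  rw [projMat_apply, Matrix.algebraMap_matrix_apply, Matrix.algebraMap_matrix_apply]
  split_ifs <;> simp

variable {ϖ δ : O} {k g E : ℕ}

/-- Reduction of engine data to a lower level. -/
def EngineLevel.reduce {m n : ℕ} (h : m ≤ n) (L : EngineLevel O ϖ δ k g r E D n) :
    EngineLevel O ϖ δ k g r E D m where
  op v := redMat h (L.op v)
  comm v w := (L.comm v w).map (redMat h)
  nilpotent v := by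
    obtain ⟨N, hN⟩ := L.nilpotent v
    refine ⟨N, fun a b => ?_⟩
    rw [← map_pow, redMat_apply]
    have := Ideal.mem_map_of_mem (Ideal.Quotient.factor (Ideal.pow_le_pow_right h)) (hN a b)
    rwa [Ideal.map_map, Ideal.Quotient.factor_comp_mk] at this
  quadric i := by
    have := congrArg (redMat h) (L.quadric i)
    simpa only [qdOp, opS, map_pow, map_sub, map_add, map_mul, map_zero, AlgHom.commutes] using this
  parallel i a b := by
    have := congrArg (redMat h) (L.parallel i a b)
    simpa only [opS, opF, map_pow, map_sub, map_mul, map_zero] using this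
  diamond_integral j := by
    obtain ⟨hh, hmem, heq⟩ := L.diamond_integral j
    refine ⟨redMat h hh, ?_, ?_⟩
    · rw [show (Set.range fun v => redMat h (L.op v)) = redMat h '' Set.range L.op from
        Set.range_comp _ _, ← AlgHom.map_adjoin]
      exact ⟨hh, hmem, rfl⟩
    · have := congrArg (redMat h) heq
      simpa only [map_pow, map_sub, map_add, map_mul, map_one, map_zero, redMat_algebraMap,
        diamond, Ideal.Quotient.factor_mk] using this
  killed := by
    obtain ⟨A, hA⟩ := L.killed
    refine ⟨redMat h A, ?_⟩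
    have := congrArg (redMat h) hA
    simpa only [map_pow, map_list_prod, List.map_ofFn, Function.comp_def, qdOp, opF, map_add,
      map_mul, map_smul] using this

end Reduce

/-! ## Commutative algebra at a level -/

section AtLevel

variable {O : Type} [CommRing O] [IsDomain O] [IsDiscreteValuationRing O] {ϖ δ : O}
  {k g r E D n : ℕ}

lemma EngineLevel.diamond_pow_mem (hϖ : Irreducible ϖ) (hD : 0 < D) (hn : 1 ≤ n)
    (L : EngineLevel O ϖ δ k g r E D n) (j : Fin r) :
    ∃ (A : Matrix (Fin D) (Fin D) (SLevel O r n))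
      (B : LVar (Fin k) (Fin g) → Matrix (Fin D) (Fin D) (SLevel O r n)),
      algebraMap (SLevel O r n) _ (Ideal.Quotient.mk _ (MvPowerSeries.X j)) ^ (2 * E) =
        ϖ • A + ∑ v, L.op v * B v := by
  classical
  set S' := SLevel O r n
  set mS := maximalIdeal (Sinf O r)
  have : NeZero D := ⟨hD.ne'⟩
  have hnontriv : Nontrivial S' := Ideal.Quotient.nontrivial_iff.mpr fun h => by
    have := (Ideal.pow_le_self (I := mS) (by omega : n ≠ 0))
    rw [h] at this
    exact (maximalIdeal.isMaximal _).ne_top (top_le_iff.mp this)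
  set Mat := Matrix (Fin D) (Fin D) S'
  set C' := Algebra.adjoin S' (Set.range L.op) with hC'
  letI : CommRing C' := Algebra.adjoinCommRingOfComm S' (by
    rintro _ ⟨v, rfl⟩ _ ⟨w, rfl⟩
    exact L.comm v w)
  have hnt : Nontrivial C' := ⟨0, 1, fun h => zero_ne_one (congrArg Subtype.val h)⟩
  let o : LVar (Fin k) (Fin g) → C' := fun v => ⟨L.op v, Algebra.subset_adjoin ⟨v, rfl⟩⟩
  let sc : S' →+* C' := algebraMap S' C'
  have hmS : ∀ x ∈ mS, IsNilpotent (Ideal.Quotient.mk (mS ^ n) x) := fun x hx =>
    ⟨n, by rw [← map_pow]; exact Ideal.Quotient.eq_zero_iff_mem.mpr (Ideal.pow_mem_pow hx n)⟩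
  have ho : ∀ v, IsNilpotent (o v) := by
    intro v
    obtain ⟨N, hN⟩ := L.nilpotent v
    have hpow : ∀ t : ℕ, ∀ a b, (L.op v ^ (N * t)) a b ∈
        (mS.map (Ideal.Quotient.mk (mS ^ n))) ^ t := by
      intro t
      induction t with
      | zero => intro a b; simp
      | succ t ih =>
        intro a b
        rw [Nat.mul_succ, pow_add, Matrix.mul_apply, Submodule.pow_succ]
        exact Ideal.sum_mem _ fun c _ => Ideal.mul_mem_mul (ih a c) (hN c b)
    refine ⟨N * n, Subtype.ext ?_⟩
    ext a b
    have := hpow n a b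
    rw [← Ideal.map_pow, Ideal.map_quotient_self, Ideal.mem_bot] at this
    simpa [o] using this
  set J : Ideal C' := Ideal.span (insert (algebraMap O C' ϖ) (Set.range o)) with hJ
  have hJle : J ≤ nilradical C' := by
    rw [hJ, Ideal.span_le, Set.insert_subset_iff]
    refine ⟨?_, ?_⟩
    · rw [SetLike.mem_coe, mem_nilradical, IsScalarTower.algebraMap_apply O S' C']
      exact (hmS _ (C_mem_maximalIdeal
        ((IsLocalRing.mem_maximalIdeal _).mpr hϖ.not_isUnit))).map sc
    · rintro _ ⟨v, rfl⟩
      exact ho v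
  obtain ⟨h, hmem, heq⟩ := L.diamond_integral j
  have key : ∀ x, ∀ _ : x ∈ Algebra.adjoin O (Set.range L.op), ∃ (hx : x ∈ C') (h0 : O),
      (⟨x, hx⟩ : C') - algebraMap O C' h0 ∈ J := by
    intro x hx
    induction hx using Algebra.adjoin_induction with
    | mem x hx =>
      obtain ⟨v, rfl⟩ := hx
      exact ⟨Algebra.subset_adjoin ⟨v, rfl⟩, 0, by
        rw [map_zero, sub_zero]
        exact Ideal.subset_span (Set.mem_insert_of_mem _ ⟨v, rfl⟩)⟩
    | algebraMap c =>
      refine ⟨?_, c, ?_⟩
      · rw [IsScalarTower.algebraMap_apply O S' Mat]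
        exact C'.algebraMap_mem _
      · have e0 : ∀ hc', (⟨algebraMap O Mat c, hc'⟩ : C') = algebraMap O C' c :=
          fun hc' => Subtype.ext rfl
        rw [e0, sub_self]
        exact J.zero_mem
    | add x y _ _ ihx ihy =>
      obtain ⟨hx, a, ha⟩ := ihx
      obtain ⟨hy, b, hb⟩ := ihy
      refine ⟨C'.add_mem hx hy, a + b, ?_⟩
      convert J.add_mem ha hb using 1
      rw [map_add]
      show (⟨x, hx⟩ : C') + ⟨y, hy⟩ - _ = _
      ring
    | mul x y _ _ ihx ihy =>
      obtain ⟨hx, a, ha⟩ := ihx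
      obtain ⟨hy, b, hb⟩ := ihy
      refine ⟨C'.mul_mem hx hy, a * b, ?_⟩
      convert J.add_mem (J.mul_mem_right ⟨y, hy⟩ ha) (J.mul_mem_left (algebraMap O C' a) hb) using 1
      rw [map_mul]
      show (⟨x, hx⟩ : C') * ⟨y, hy⟩ - _ = _
      ring
  obtain ⟨hh, h0, hh0⟩ := key h hmem
  set y : C' := sc (Ideal.Quotient.mk _ (MvPowerSeries.X j)) with hy
  set c : C' := (⟨h, hh⟩ : C') - 2 with hc
  have hynil : IsNilpotent y := (hmS _ (X_mem_maximalIdeal j)).map sc
  have hdia : sc (diamond O r n j) = 1 + y := by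
    rw [diamond, map_add, map_one, map_add, map_one]
  have heq' : (y ^ 2 - c * (1 + y)) ^ E = 0 := by
    apply Subtype.ext
    have e : y ^ 2 - c * (1 + y) =
        (sc (diamond O r n j)) ^ 2 - (⟨h, hh⟩ : C') * sc (diamond O r n j) + 1 := by
      rw [hdia, hc]; ring
    rw [e]
    exact heq
  have hcy : IsNilpotent (c * (1 + y)) := by
    have h1 : IsNilpotent (y ^ 2 - c * (1 + y)) := ⟨E, heq'⟩
    have h2 := (Commute.all _ _).isNilpotent_sub (hynil.pow_of_pos two_ne_zero) h1
    simpa using h2
  have hcnil : IsNilpotent c := by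
    obtain ⟨N, hN⟩ := hcy
    rw [mul_pow] at hN
    exact ⟨N, (hynil.isUnit_one_add.pow N).mul_left_eq_zero.mp hN⟩
  have hh02 : h0 - 2 ∈ maximalIdeal O := by
    by_contra hu
    have hu' : IsUnit (h0 - 2) := by
      simpa [IsLocalRing.mem_maximalIdeal, mem_nonunits_iff] using hu
    have h3 : IsNilpotent (algebraMap O C' (h0 - 2)) := by
      have h4 := (Commute.all _ _).isNilpotent_sub hcnil (mem_nilradical.mp (hJle hh0))
      have e : algebraMap O C' (h0 - 2) = c - ((⟨h, hh⟩ : C') - algebraMap O C' h0) := by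
        rw [hc, map_sub, map_ofNat]
        ring
      rw [e]
      exact h4
    exact h3.not_isUnit (hu'.map _)
  have hcJ : c ∈ J := by
    rw [hϖ.maximalIdeal_eq, Ideal.mem_span_singleton] at hh02
    obtain ⟨e, he⟩ := hh02
    have : c = ((⟨h, hh⟩ : C') - algebraMap O C' h0) + algebraMap O C' e * algebraMap O C' ϖ := by
      rw [← map_mul, mul_comm e ϖ, ← he, hc, map_sub, map_ofNat]
      ring
    rw [this]
    exact J.add_mem hh0 (J.mul_mem_left _ (Ideal.subset_span (Set.mem_insert _ _)))
  have hyJ : y ^ (2 * E) ∈ J := by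
    have h1 : Ideal.Quotient.mk J ((y ^ 2 - c * (1 + y)) ^ E) = 0 := by rw [heq', map_zero]
    rw [map_pow, map_sub, map_mul, Ideal.Quotient.eq_zero_iff_mem.mpr hcJ, zero_mul, sub_zero,
      ← map_pow, ← pow_mul, Ideal.Quotient.eq_zero_iff_mem] at h1
    exact h1
  obtain ⟨a, z, hz, hyz⟩ := Ideal.mem_span_insert.mp hyJ
  obtain ⟨b, hb⟩ := Ideal.mem_span_range_iff_exists_fun.mp hz
  refine ⟨(a : Mat), fun v => (b v : Mat), ?_⟩
  have := congrArg Subtype.val hyz
  rw [← hb] at this
  push_cast at this
  rw [show ((y : C') : Mat) = algebraMap S' Mat (Ideal.Quotient.mk _ (MvPowerSeries.X j)) from rfl]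
    at this
  rw [this, Algebra.smul_def]
  congr 1
  · exact (Algebra.commutes ϖ (a : Mat)).symm
  · refine Finset.sum_congr rfl fun v _ => ?_
    rw [show (b v : Mat) * ((o v : C') : Mat) = (((b v * o v : C')) : Mat) from rfl, mul_comm]
    rfl

end AtLevel

set_option synthInstance.maxHeartbeats 400000 in
set_option maxHeartbeats 3000000 in
/-- **The engine of level lowering.**  Patching data with `g + 3 k ≤ r` cannot exist at all
levels. -/
theorem engine_false {O : Type} [CommRing O] [IsDomain O] [IsDiscreteValuationRing O]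
    [IsAdicComplete (maximalIdeal O) O] [Finite (ResidueField O)]
    {ϖ δ : O} (hϖ : Irreducible ϖ) (hδ : δ ∈ maximalIdeal O) (hδ0 : δ ≠ 0)
    {k g r : ℕ} (hcount : g + 3 * k ≤ r) (E Dmax : ℕ)
    (h : ∀ n : ℕ, ∃ D : ℕ, 0 < D ∧ D ≤ Dmax ∧ Nonempty (EngineLevel O ϖ δ k g r E D n)) :
    False := by
  classical
  set S := Sinf O r
  set mS := maximalIdeal S
  have : IsDomain S := NoZeroDivisors.to_isDomain _
  have hϖm : ϖ ∈ maximalIdeal O := (IsLocalRing.mem_maximalIdeal _).mpr hϖ.not_isUnit
  have hCS : ∀ a ∈ maximalIdeal O, algebraMap O S a ∈ mS := fun a ha => C_mem_maximalIdeal ha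
  -- finiteness of the levels
  have hfin1 : Finite (S ⧸ mS) := by
    refine Finite.of_surjective (α := ResidueField O) (Ideal.Quotient.lift (maximalIdeal O)
      ((Ideal.Quotient.mk mS).comp (algebraMap O S))
      fun a ha => Ideal.Quotient.eq_zero_iff_mem.mpr (hCS a ha)) ?_
    intro x
    obtain ⟨f, rfl⟩ := Ideal.Quotient.mk_surjective x
    refine ⟨Ideal.Quotient.mk _ (MvPowerSeries.constantCoeff f), ?_⟩
    show Ideal.Quotient.mk mS (MvPowerSeries.C (MvPowerSeries.constantCoeff f)) = _
    rw [eq_comm, Ideal.Quotient.mk_eq_mk_iff_sub_mem]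
    exact varIdeal_le_maximalIdeal (Deform.sub_C_constantCoeff_mem f)
  have hfin : ∀ m, Finite (SLevel O r m) := fun m =>
    Ideal.finite_quotient_pow (IsNoetherian.noetherian mS) m
  -- one rank occurs infinitely often
  choose Dn hDn hDle hL using h
  obtain ⟨D, hI⟩ : ∃ D, {n | Dn n = D}.Infinite := by
    by_contra hcon
    push Not at hcon
    refine Set.infinite_univ (α := ℕ)
      (((Set.finite_Iic Dmax).biUnion fun D _ => hcon D).subset ?_)
    intro n _
    exact Set.mem_biUnion (hDle n) rfl
  have hD : 0 < D := by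
    obtain ⟨n, hn⟩ := hI.nonempty
    exact (hn : Dn n = D) ▸ hDn n
  have hlev : ∀ n ∈ {n | Dn n = D}, Nonempty (EngineLevel O ϖ δ k g r E D n) :=
    fun n hn => (hn : Dn n = D) ▸ hL n
  let Lv := fun n hn => (hlev n hn).some
  -- a compatible family and its limit
  obtain ⟨x, hxred, hxex⟩ := exists_compatible
    (T := fun m => LVar (Fin k) (Fin g) → Matrix (Fin D) (Fin D) (SLevel O r m))
    (fun {m n} h X v => redMat h (X v)) (fun h₁ h₂ X => funext fun v => redMat_redMat h₁ h₂ (X v))
    hI fun n hn => (Lv n hn).op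
  have hlim : ∀ v a b, ∃ L : S, ∀ m, Ideal.Quotient.mk (mS ^ m) L = x m v a b := by
    intro v a b
    choose f hf using fun m => Ideal.Quotient.mk_surjective (x m v a b)
    have hc : ∀ {m n}, m ≤ n → f m ≡ f n [SMOD (mS ^ m • ⊤ : Ideal S)] := by
      intro m n hmn
      rw [SModEq.sub_mem, smul_eq_mul, Ideal.mul_top, ← Ideal.Quotient.mk_eq_mk_iff_sub_mem, hf]
      induction hmn with
      | refl => exact (hf m).symm
      | @step n hmn ih =>
        have := congrFun (congrFun (congrFun (hxred n) v) a) b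
        rw [redMat_apply, ← hf (n + 1), Ideal.Quotient.factor_mk, ← hf n] at this
        have h2 := congrArg (Ideal.Quotient.factor (Ideal.pow_le_pow_right hmn)) this
        rw [Ideal.Quotient.factor_mk, Ideal.Quotient.factor_mk] at h2
        rw [h2, ← ih]
    obtain ⟨L, hL⟩ := IsPrecomplete.prec inferInstance hc
    refine ⟨L, fun m => ?_⟩
    have := hL m
    rw [SModEq.sub_mem, smul_eq_mul, Ideal.mul_top, ← Ideal.Quotient.mk_eq_mk_iff_sub_mem] at this
    rw [← this, hf]
  choose L0 hL0 using hlim
  set MS := Matrix (Fin D) (Fin D) S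
  let OP : LVar (Fin k) (Fin g) → MS := fun v => Matrix.of fun a b => L0 v a b
  have hOP : ∀ m v, projMat (r := r) (O := O) m (OP v) = x m v := fun m v => by
    ext a b
    exact hL0 v a b m
  have hlvl : ∀ m, ∃ L : EngineLevel O ϖ δ k g r E D m, ∀ v, L.op v = projMat m (OP v) := by
    intro m
    obtain ⟨n, hn, hmn, hx⟩ := hxex m
    exact ⟨(Lv n hn).reduce hmn, fun v => (congrFun hx v).trans (hOP m v).symm⟩
  choose L hLop using hlvl
  have hext : ∀ A B : MS, (∀ m, projMat m A = projMat m B) → A = B := by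
    intro A B h
    refine Matrix.ext fun a b => ?_
    refine Deform.eq_of_forall_sub_mem_pow mS fun m => ?_
    rw [← Ideal.Quotient.mk_eq_mk_iff_sub_mem]
    exact congrFun (congrFun (h m) a) b
  -- the algebra generated by the operators
  have hcomm : ∀ v w, Commute (OP v) (OP w) := fun v w => hext _ _ fun m => by
    rw [map_mul, map_mul, ← hLop, ← hLop]
    exact (L m).comm v w
  set C := Algebra.adjoin S (Set.range OP) with hCdef
  letI : CommRing C := Algebra.adjoinCommRingOfComm S (by
    rintro _ ⟨v, rfl⟩ _ ⟨w, rfl⟩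
    exact hcomm v w)
  let o : LVar (Fin k) (Fin g) → C := fun v => ⟨OP v, Algebra.subset_adjoin ⟨v, rfl⟩⟩
  have hCinj : Function.Injective (algebraMap S C) := by
    intro a b hab
    have h1 : algebraMap S MS a = algebraMap S MS b := congrArg Subtype.val hab
    have h2 := congrFun (congrFun h1 ⟨0, hD⟩) ⟨0, hD⟩
    rwa [Matrix.algebraMap_matrix_apply, Matrix.algebraMap_matrix_apply, if_pos rfl,
      if_pos rfl] at h2
  have : IsNoetherian S MS := isNoetherian_of_isNoetherianRing_of_finite S MS
  have : Module.Finite S C := Module.Finite.of_injective C.val.toLinearMap Subtype.val_injective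
  have : FaithfulSMul C MS := ⟨fun {c d} h => Subtype.ext (by simpa [Subalgebra.smul_def] using h 1)⟩
  have : Module.Finite C MS := Module.Finite.of_restrictScalars_finite S C MS
  -- elements of `J • MS`, detected level by level
  have hclosed : ∀ (J : Ideal C) (A : MS), (∀ m, 1 ≤ m → ∃ W ∈ (J • ⊤ : Submodule C MS),
      projMat m A = projMat m W) → A ∈ (J • ⊤ : Submodule C MS) := by
    intro J A hA
    set W := (J • ⊤ : Submodule C MS).restrictScalars S
    suffices hq : W.mkQ A = 0 by
      exact (Submodule.Quotient.mk_eq_zero W).mp hq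
    refine IsHausdorff.haus (inferInstance : IsHausdorff mS (MS ⧸ W)) _ fun m => ?_
    rw [SModEq.zero]
    obtain ⟨B, hB, hAB⟩ := hA (m + 1) (by omega)
    have hsub : A - B ∈ (mS ^ m • ⊤ : Submodule S MS) := by
      rw [Matrix.matrix_eq_sum_single (A - B)]
      refine Submodule.sum_mem _ fun a _ => Submodule.sum_mem _ fun b _ => ?_
      rw [show Matrix.single a b ((A - B) a b) = (A - B) a b • Matrix.single a b (1 : S) by simp]
      refine Submodule.smul_mem_smul (Ideal.pow_le_pow_right m.le_succ ?_) Submodule.mem_top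
      rw [Matrix.sub_apply, ← Ideal.Quotient.mk_eq_mk_iff_sub_mem]
      exact congrFun (congrFun hAB a) b
    have hmap := Submodule.mem_map_of_mem (f := W.mkQ) hsub
    rw [Submodule.map_smul'', Submodule.map_top, Submodule.range_mkQ, map_sub,
      show W.mkQ B = 0 from (Submodule.Quotient.mk_eq_zero W).mpr hB, sub_zero] at hmap
    exact hmap
  have hrad : ∀ (J : Ideal C) (c : C), (∀ m, 1 ≤ m → ∃ W ∈ (J • ⊤ : Submodule C MS),
      projMat m (c : MS) = projMat m W) → ∃ N, c ^ N ∈ J := by
    intro J c hc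
    refine exists_pow_mem_of_smul_mem (M := MS) c J fun X => ?_
    refine hclosed J _ fun m hm => ?_
    obtain ⟨W, hW, hWc⟩ := hc m hm
    refine ⟨W * X, ?_, ?_⟩
    · refine Submodule.smul_induction_on hW (fun j hj Y _ => ?_) (fun Y Z hY hZ => ?_)
      · rw [Subalgebra.smul_def, smul_eq_mul, mul_assoc,
          show (j : MS) * (Y * X) = j • (Y * X) from rfl]
        exact Submodule.smul_mem_smul hj Submodule.mem_top
      · rw [add_mul]
        exact add_mem hY hZ
    · rw [Subalgebra.smul_def, smul_eq_mul, map_mul, map_mul, hWc]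
  have hnil : ∀ v, ∃ N, o v ^ N ∈ mS.map (algebraMap S C) := by
    intro v
    obtain ⟨N, hN⟩ := (L 1).nilpotent v
    have h1 : ∀ a b, (OP v ^ N) a b ∈ mS := by
      intro a b
      have := hN a b
      rw [hLop, ← map_pow, projMat_apply] at this
      obtain ⟨y, hy, hxy⟩ := (Ideal.mem_map_iff_of_surjective _ Ideal.Quotient.mk_surjective).mp this
      rw [Ideal.Quotient.mk_eq_mk_iff_sub_mem, pow_one] at hxy
      have := Ideal.sub_mem _ hy hxy
      rwa [sub_sub_cancel] at this
    obtain ⟨N', hN'⟩ := hrad (mS.map (algebraMap S C)) (o v ^ N) fun m _ => ⟨OP v ^ N, by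
      rw [Matrix.matrix_eq_sum_single (OP v ^ N)]
      refine Submodule.sum_mem _ fun a _ => Submodule.sum_mem _ fun b _ => ?_
      rw [show Matrix.single a b ((OP v ^ N) a b) =
        algebraMap S C ((OP v ^ N) a b) • Matrix.single a b (1 : S) by
          rw [algebraMap_smul]; simp]
      exact Submodule.smul_mem_smul (Ideal.mem_map_of_mem _ (h1 a b)) Submodule.mem_top, rfl⟩
    exact ⟨N * N', by rwa [pow_mul]⟩
  set J : Ideal C := Ideal.span (insert (algebraMap O C ϖ) (Set.range o))
  have hdiam : ∀ j : Fin r, ∃ N, algebraMap S C (MvPowerSeries.X j) ^ N ∈ J := by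
    intro j
    obtain ⟨N, hN⟩ := hrad J (algebraMap S C (MvPowerSeries.X j) ^ (2 * E)) fun m hm => by
      obtain ⟨A, B, hAB⟩ := (L m).diamond_pow_mem hϖ hD hm j
      choose A' hA' using fun a b => Ideal.Quotient.mk_surjective (A a b)
      choose B' hB' using fun v a b => Ideal.Quotient.mk_surjective (B v a b)
      refine ⟨algebraMap O C ϖ • Matrix.of A' + ∑ v, o v • Matrix.of (B' v), ?_, ?_⟩
      · exact Submodule.add_mem _
          (Submodule.smul_mem_smul (Ideal.subset_span (Set.mem_insert _ _)) Submodule.mem_top)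
          (Submodule.sum_mem _ fun v _ => Submodule.smul_mem_smul
            (Ideal.subset_span (Set.mem_insert_of_mem _ ⟨v, rfl⟩)) Submodule.mem_top)
      · rw [show (((algebraMap S C (MvPowerSeries.X j)) ^ (2 * E) : C) : MS) =
            algebraMap S MS (MvPowerSeries.X j) ^ (2 * E) from rfl, map_pow, projMat_algebraMap,
          hAB, map_add, map_sum]
        congr 1
        · rw [algebraMap_smul, map_smul]
          congr 1
          ext a b
          exact (hA' a b).symm
        · refine Finset.sum_congr rfl fun v _ => ?_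
          rw [show o v • Matrix.of (B' v) = OP v * Matrix.of (B' v) from rfl, map_mul, ← hLop]
          congr 1
          ext a b
          exact (hB' v a b).symm
    exact ⟨2 * E * N, by rwa [pow_mul]⟩
  set P0 : C := ∏ i, qd (fun a => o (Sum.inl (i, true, a)))
  have hkill : ∃ N, P0 ^ N ∈ Ideal.span {algebraMap O C ϖ} := by
    obtain ⟨N, hN⟩ := hrad (Ideal.span {algebraMap O C ϖ}) (P0 ^ E) fun m hm => by
      obtain ⟨A, hA⟩ := (L m).killed
      choose A' hA' using fun a b => Ideal.Quotient.mk_surjective (A a b)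
      refine ⟨algebraMap O C ϖ • Matrix.of A', Submodule.smul_mem_smul
        (Ideal.mem_span_singleton_self _) Submodule.mem_top, ?_⟩
      rw [algebraMap_smul, map_smul, show projMat m (Matrix.of A') = A from by
        ext a b; exact hA' a b, ← hA]
      have hP0 : P0 = (List.ofFn fun i => qd (fun a => o (Sum.inl (i, true, a)))).prod :=
        (List.prod_ofFn).symm
      rw [SubmonoidClass.coe_pow, map_pow, hP0, SubmonoidClass.coe_list_prod, map_list_prod,
        List.map_ofFn, List.map_ofFn]
      congr 2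
      congr 1
      funext i
      simp [qdOp, opF, qd, hLop, o]
    exact ⟨E * N, by rwa [pow_mul]⟩
  -- a minimal prime over zero
  obtain ⟨Q, -, hQ, hQcomap⟩ := Ideal.exists_ideal_over_prime_of_isIntegral (⊥ : Ideal S)
    (⊥ : Ideal C) (fun a ha => Ideal.mem_bot.mpr (hCinj (by simpa using ha)))
  let B := C ⧸ Q
  have hBinj : Function.Injective (algebraMap S B) := by
    rw [injective_iff_map_eq_zero]
    intro a ha
    have : a ∈ Q.comap (algebraMap S C) := (Ideal.Quotient.eq_zero_iff_mem (I := Q)).mp ha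
    rwa [hQcomap, Ideal.mem_bot] at this
  let ob : LVar (Fin k) (Fin g) → B := fun v => Ideal.Quotient.mk Q (o v)
  have hmax : ∀ P : Ideal B, P.IsMaximal →
      mS.map (algebraMap S B) ≤ P ∧ ∀ v, ob v ∈ P := by
    intro P hP
    have hmS : mS.map (algebraMap S B) ≤ P := by
      rw [Ideal.map_le_iff_le_comap]
      have := Ideal.isMaximal_comap_of_isIntegral_of_isMaximal (R := S) P
      exact (IsLocalRing.eq_maximalIdeal this).ge
    refine ⟨hmS, fun v => ?_⟩
    obtain ⟨N, hN⟩ := hnil v
    have := Ideal.mem_map_of_mem (Ideal.Quotient.mk Q) hN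
    rw [Ideal.map_map, map_pow] at this
    exact hP.isPrime.mem_of_pow_mem N (hmS this)
  set mB : Ideal B := mS.map (algebraMap S B) ⊔ Ideal.span (Set.range ob)
  have hle : ∀ P : Ideal B, P.IsMaximal → mB ≤ P := fun P hP =>
    sup_le (hmax P hP).1 (Ideal.span_le.mpr (by rintro _ ⟨v, rfl⟩; exact (hmax P hP).2 v))
  have hrep : ∀ b : B, ∃ s : S, b - algebraMap S B s ∈ mB := by
    intro b
    obtain ⟨⟨c, hc⟩, rfl⟩ := Ideal.Quotient.mk_surjective b
    induction hc using Algebra.adjoin_induction with
    | mem c hc =>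
      obtain ⟨v, rfl⟩ := hc
      exact ⟨0, by rw [map_zero, sub_zero]; exact Ideal.mem_sup_right (Ideal.subset_span ⟨v, rfl⟩)⟩
    | algebraMap c =>
      refine ⟨c, ?_⟩
      have e : ∀ h', Ideal.Quotient.mk Q (⟨algebraMap S MS c, h'⟩ : C) = algebraMap S B c :=
        fun h' => rfl
      rw [e, sub_self]
      exact mB.zero_mem
    | add c d hc hd ihc ihd =>
      obtain ⟨s, hs⟩ := ihc
      obtain ⟨t, ht⟩ := ihd
      refine ⟨s + t, ?_⟩
      have e : Ideal.Quotient.mk Q (⟨c + d, add_mem hc hd⟩ : C) =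
          Ideal.Quotient.mk Q ⟨c, hc⟩ + Ideal.Quotient.mk Q ⟨d, hd⟩ := rfl
      rw [e, map_add, add_sub_add_comm]
      exact mB.add_mem hs ht
    | mul c d hc hd ihc ihd =>
      obtain ⟨s, hs⟩ := ihc
      obtain ⟨t, ht⟩ := ihd
      refine ⟨s * t, ?_⟩
      have e : Ideal.Quotient.mk Q (⟨c * d, mul_mem hc hd⟩ : C) =
          Ideal.Quotient.mk Q ⟨c, hc⟩ * Ideal.Quotient.mk Q ⟨d, hd⟩ := rfl
      rw [e, map_mul, ← sub_add_sub_cancel _ (algebraMap S B s * Ideal.Quotient.mk Q (⟨d, hd⟩ : C)),
        ← sub_mul, ← mul_sub]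
      exact mB.add_mem (mB.mul_mem_right _ hs) (mB.mul_mem_left _ ht)
  obtain ⟨P, hP⟩ := Ideal.exists_maximal B
  have hPeq : ∀ P' : Ideal B, P'.IsMaximal → P' = mB := by
    intro P' hP'
    refine le_antisymm (fun q hq => ?_) (hle P' hP')
    obtain ⟨s, hs⟩ := hrep q
    have hsP : algebraMap S B s ∈ P' := by
      have := P'.sub_mem hq (hle P' hP' hs)
      rwa [sub_sub_cancel] at this
    have hsm : s ∈ mS := by
      have := Ideal.isMaximal_comap_of_isIntegral_of_isMaximal (R := S) P'
      show s ∈ maximalIdeal S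
      rw [← IsLocalRing.eq_maximalIdeal this]
      exact hsP
    have := mB.add_mem hs (Ideal.mem_sup_left (Ideal.mem_map_of_mem (algebraMap S B) hsm))
    rwa [sub_add_cancel] at this
  have : IsLocalRing B := IsLocalRing.of_unique_max_ideal
    ⟨mB, hPeq P hP ▸ hP, fun P' hP' => hPeq P' hP'⟩
  have : IsNoetherianRing B := IsNoetherianRing.of_finite S B
  have : IsLocalHom (algebraMap S B) := ⟨fun a ha => by
    by_contra hna
    have := (hmax (maximalIdeal B) inferInstance).1
      (Ideal.mem_map_of_mem _ ((IsLocalRing.mem_maximalIdeal a).mpr hna))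
    exact this ha⟩
  have : IsAdicComplete (maximalIdeal B) B := IsLocalRing.isAdicComplete_of_module_finite (𝒪 := S)
  have hOB : ∀ a, algebraMap O B a = algebraMap S B (algebraMap O S a) :=
    fun a => IsScalarTower.algebraMap_apply O S B a
  have hSm : ∀ s ∈ mS, algebraMap S B s ∈ maximalIdeal B := fun s hs =>
    (hmax _ inferInstance).1 (Ideal.mem_map_of_mem _ hs)
  have hδB : algebraMap O B δ ∈ maximalIdeal B := hOB δ ▸ hSm _ (hCS δ hδ)
  have hδB0 : algebraMap O B δ ≠ 0 := by
    rw [hOB]
    exact fun h => hδ0 (MvPowerSeries.C_injective (σ := Fin r)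
      ((hBinj (h.trans (map_zero _).symm)).trans (map_zero _).symm))
  -- the point
  let P' : LVar (Fin k) (Fin g) → B := fun v =>
    Sum.elim (fun w => if w.2.1 = false ∧ w.2.2 = 2 then ob v - algebraMap O B δ else ob v)
      (fun _ => ob v) v
  have hP' : ∀ v, P' v ∈ maximalIdeal B := by
    rintro (⟨i, b, a⟩ | t)
    · simp only [P', Sum.elim_inl]
      split_ifs
      · exact sub_mem ((hmax _ inferInstance).2 _) hδB
      · exact (hmax _ inferInstance).2 _
    · exact (hmax _ inferInstance).2 _
  have hus : ∀ i a, unshift (algebraMap O B δ) (sCoord P' i) a =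
      ob (Sum.inl (i, false, a)) := by
    intro i a
    fin_cases a <;> simp [unshift, sCoord, P']
  have hfc : ∀ i a, fCoord P' i a = ob (Sum.inl (i, true, a)) := by
    intro i a
    simp [fCoord, P']
  have hpowzero : ∀ c : C, ((c : MS) ^ E = 0) → Ideal.Quotient.mk Q c = 0 := by
    intro c hc
    have : c ^ E = 0 := Subtype.ext (by simpa using hc)
    refine eq_zero_of_pow_eq_zero (n := E) ?_
    rw [← map_pow, this, map_zero]
  have hpt : IsPoint (algebraMap O B δ) P' := by
    intro i
    refine ⟨?_, fun a b => ?_⟩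
    · rw [show unshift (algebraMap O B δ) (sCoord P' i) = fun a => ob (Sum.inl (i, false, a))
        from funext (hus i), ← sub_eq_zero]
      have h2 := hpowzero (qd (fun a => o (Sum.inl (i, false, a))) - algebraMap O C (δ ^ 2))
        (hext _ _ fun m => by
          rw [map_zero, ← (L m).quadric i]
          simp [qdOp, opS, qd, hLop, o]
          rw [show projMat (r := r) m (algebraMap O MS δ) = algebraMap O _ δ from
            AlgHom.commutes _ δ])
      rw [map_sub, map_qd, map_pow] at h2
      exact h2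
    · rw [hus, hus, hfc, hfc, ← sub_eq_zero]
      have h2 := hpowzero (o (Sum.inl (i, false, a)) * o (Sum.inl (i, true, b)) -
          o (Sum.inl (i, false, b)) * o (Sum.inl (i, true, a)))
        (hext _ _ fun m => by
          rw [map_zero, ← (L m).parallel i a b]
          simp [opS, opF, hLop, o])
      rw [map_sub, map_mul, map_mul] at h2
      exact h2
  let R := LocalRing (Fin k) (Fin g) δ
  let φ : R →ₐ[O] B := lift δ hδ0 hδB hδB0 P' hP' hpt
  have hφgen : ∀ v, φ (gen δ v) = P' v := lift_gen δ hδ0 hδB hδB0 P' hP' hpt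
  -- `B` is finite over `R`
  set JB : Ideal B := (maximalIdeal R).map φ.toRingHom
  have hOJ : ∀ a ∈ maximalIdeal O, algebraMap O B a ∈ JB := by
    intro a ha
    rw [← φ.commutes a]
    refine Ideal.mem_map_of_mem φ.toRingHom ?_
    rw [maximalIdeal_localRing]
    exact Ideal.mem_map_of_mem _ (C_mem_maximalIdeal ha)
  have hobJ : ∀ v, ob v ∈ JB := by
    intro v
    have h1 : P' v ∈ JB := hφgen v ▸ Ideal.mem_map_of_mem φ.toRingHom (gen_mem δ v)
    rcases v with ⟨i, b, a⟩ | t
    · simp only [P', Sum.elim_inl] at h1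
      split_ifs at h1
      · simpa using JB.add_mem h1 (hOJ δ hδ)
      · exact h1
    · exact h1
  have hJJ : J.map (Ideal.Quotient.mk Q) ≤ JB := by
    rw [Ideal.map_le_iff_le_comap, Ideal.span_le, Set.insert_subset_iff]
    refine ⟨hOJ ϖ hϖm, ?_⟩
    rintro _ ⟨v, rfl⟩
    exact hobJ v
  have hXJ : ∀ j, algebraMap S B (MvPowerSeries.X j) ∈ JB.radical := by
    intro j
    obtain ⟨N, hN⟩ := hdiam j
    exact ⟨N, hJJ (by
      have := Ideal.mem_map_of_mem (Ideal.Quotient.mk Q) hN
      rwa [map_pow] at this)⟩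
  have hmSJ : mS.map (algebraMap S B) ≤ JB.radical := by
    rw [show mS = maximalIdeal S from rfl, maximalIdeal_mvPowerSeries, Ideal.map_sup, sup_le_iff,
      Ideal.map_map, Ideal.map_le_iff_le_comap]
    refine ⟨fun a ha => Ideal.le_radical ?_, ?_⟩
    · show algebraMap S B (MvPowerSeries.C a) ∈ JB
      exact hOB a ▸ hOJ a ha
    · rw [Deform.varIdeal, Ideal.map_span, Ideal.span_le]
      rintro _ ⟨_, ⟨j, rfl⟩, rfl⟩
      exact hXJ j
  obtain ⟨N, hN⟩ := Ideal.exists_pow_le_of_le_radical_of_fg hmSJ (IsNoetherian.noetherian _)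
  have hBJfin : Finite (B ⧸ JB) := by
    obtain ⟨t, f, hf⟩ := Module.Finite.exists_fin' S B
    have := hfin N
    refine Finite.of_surjective
      (fun c : Fin t → SLevel O r N =>
        Ideal.Quotient.mk JB (f fun i => Function.surjInv Ideal.Quotient.mk_surjective (c i))) ?_
    intro y
    obtain ⟨y, rfl⟩ := Ideal.Quotient.mk_surjective y
    obtain ⟨w, rfl⟩ := hf y
    refine ⟨fun i => Ideal.Quotient.mk _ (w i), ?_⟩
    rw [Ideal.Quotient.mk_eq_mk_iff_sub_mem, ← map_sub, ← Finset.univ_sum_single
      ((fun i => Function.surjInv Ideal.Quotient.mk_surjective (Ideal.Quotient.mk (mS ^ N) (w i))) - w),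
      map_sum]
    refine Ideal.sum_mem _ fun i _ => ?_
    set z := ((fun i => Function.surjInv Ideal.Quotient.mk_surjective
      (Ideal.Quotient.mk (mS ^ N) (w i))) - w) i
    have hz : z ∈ mS ^ N := by
      show Function.surjInv Ideal.Quotient.mk_surjective (Ideal.Quotient.mk (mS ^ N) (w i)) - w i ∈
        mS ^ N
      rw [← Ideal.Quotient.mk_eq_mk_iff_sub_mem]
      exact Function.surjInv_eq _ _
    rw [show (Pi.single i z : Fin t → S) = z • Pi.single i 1 by
      rw [← Pi.single_smul]; simp, map_smul, Algebra.smul_def]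
    refine JB.mul_mem_right _ (hN ?_)
    rw [← Ideal.map_pow]
    exact Ideal.mem_map_of_mem _ hz
  algebraize [φ.toRingHom]
  have hfinB : Module.Finite R B := by
    cases nonempty_fintype (B ⧸ JB)
    choose rep hrepB using (Ideal.Quotient.mk_surjective : Function.Surjective (Ideal.Quotient.mk JB))
    let f : ((B ⧸ JB) → R) →ₗ[R] B := Fintype.linearCombination R rep
    have hf : Function.Surjective f := by
      have : IsAdicComplete (maximalIdeal R) R := {}
      have : IsAdicComplete (maximalIdeal R) ((B ⧸ JB) → R) :=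
        IsAdicComplete.of_module_finite _ _
      have htop : (maximalIdeal R • ⊤ : Submodule R B) = JB.restrictScalars R := by
        rw [Ideal.smul_top_eq_map]
        rfl
      have : IsHausdorff (maximalIdeal R) B := by
        have hle : JB ≤ maximalIdeal B := by
          refine IsLocalRing.le_maximalIdeal fun h => ?_
          have h1 : ∀ x ∈ maximalIdeal R, φ x ∈ maximalIdeal B := by
            intro x hx
            rw [maximalIdeal_localRing] at hx
            obtain ⟨p, hp, rfl⟩ :=
              (Ideal.mem_map_iff_of_surjective _ Ideal.Quotient.mk_surjective).mp hx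
            have e : φ (Ideal.Quotient.mk _ p) = Deform.pev (maximalIdeal B) P' hP' p := rfl
            rw [e]
            have h2 : (maximalIdeal (MvPowerSeries (LVar (Fin k) (Fin g)) O)).map
                (Deform.pev (maximalIdeal B) P' hP').toRingHom ≤ maximalIdeal B := by
              rw [maximalIdeal_mvPowerSeries, Ideal.map_sup, sup_le_iff, Ideal.map_map,
                Ideal.map_le_iff_le_comap]
              refine ⟨fun a ha => ?_, ?_⟩
              · show Deform.pev (maximalIdeal B) P' hP' (MvPowerSeries.C a) ∈ maximalIdeal B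
                rw [algHom_C, hOB]
                exact hSm _ (hCS a ha)
              · rw [Deform.varIdeal, Ideal.map_span, Ideal.span_le]
                rintro _ ⟨_, ⟨v, rfl⟩, rfl⟩
                show Deform.pev (maximalIdeal B) P' hP' (MvPowerSeries.X v) ∈ maximalIdeal B
                rw [Deform.pev_X]
                exact hP' v
            exact h2 (Ideal.mem_map_of_mem _ hp)
          have h3 : JB ≤ maximalIdeal B := Ideal.map_le_iff_le_comap.mpr h1
          rw [h] at h3
          exact (maximalIdeal.isMaximal B).ne_top (top_le_iff.mp h3)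
        refine (IsHausdorff.map_algebraMap_iff (S := B) (I := maximalIdeal R) (M := B)).mp ?_
        exact IsHausdorff.of_le_jacobson _ _ (hle.trans (maximalIdeal_le_jacobson _))
      refine surjective_of_mkQ_comp_surjective (I := maximalIdeal R) ?_
      intro y
      obtain ⟨y, rfl⟩ := Submodule.Quotient.mk_surjective _ y
      refine ⟨Pi.single (Ideal.Quotient.mk JB y) 1, ?_⟩
      show Submodule.Quotient.mk (f (Pi.single (Ideal.Quotient.mk JB y) 1)) = Submodule.Quotient.mk y
      rw [Submodule.Quotient.eq, htop]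
      simp only [f, Fintype.linearCombination_apply_single, one_smul]
      exact (Ideal.Quotient.mk_eq_mk_iff_sub_mem _ _).mp (hrepB _)
    exact Module.Finite.of_surjective f hf
  have : Algebra.IsIntegral R B := Algebra.IsIntegral.of_finite R B
  -- dimensions
  have hdimS : ((1 + r : ℕ) : WithBot ℕ∞) ≤ ringKrullDim S := by
    refine le_trans ?_ (ringKrullDim_add_le_mvPowerSeries r)
    rw [show ringKrullDim O = 1 from (IsPrincipalIdealRing.ringKrullDim_eq_one O
      (IsDiscreteValuationRing.not_isField O))]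
    norm_cast
  have hdimB : ringKrullDim B ≤ ringKrullDim R := ringKrullDim_le_of_isIntegral
  have hdimS' : ringKrullDim S ≤ ringKrullDim B := ringKrullDim_le_of_injective hBinj
  have hR := ringKrullDim_le (ι := Fin k) (τ := Fin g) δ hδ
  rw [Fintype.card_fin, Fintype.card_fin] at hR
  have hinj : Function.Injective φ := by
    by_contra hni
    obtain ⟨x, hx, hx0⟩ : ∃ x, φ x = 0 ∧ x ≠ 0 := by
      simpa [injective_iff_map_eq_zero] using hni
    letI : Algebra (R ⧸ RingHom.ker φ.toRingHom) B := (RingHom.kerLift φ.toRingHom).toAlgebra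
    have : Algebra.IsIntegral (R ⧸ RingHom.ker φ.toRingHom) B := ⟨fun b => by
      obtain ⟨p, hp, hev⟩ := Algebra.IsIntegral.isIntegral (R := R) b
      exact ⟨p.map (Ideal.Quotient.mk _), hp.map _, by rw [Polynomial.eval₂_map]; exact hev⟩⟩
    have h1 := ringKrullDim_le_of_isIntegral (R := R ⧸ RingHom.ker φ.toRingHom) (B := B)
    have h2 := ringKrullDim_succ_le_of_surjective (R := R) (S := R ⧸ RingHom.ker φ.toRingHom)
      (Ideal.Quotient.mk (RingHom.ker φ.toRingHom))
      Ideal.Quotient.mk_surjective (mem_nonZeroDivisors_of_ne_zero hx0)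
      (show Ideal.Quotient.mk (RingHom.ker φ.toRingHom) x = 0 from
        Ideal.Quotient.eq_zero_iff_mem.mpr hx)
    have h3 : ((1 + r : ℕ) : WithBot ℕ∞) + 1 ≤ ((1 + r : ℕ) : WithBot ℕ∞) :=
      ((add_le_add_left ((hdimS.trans hdimS').trans h1) 1).trans h2).trans (hR.trans (by
        exact_mod_cast (by omega : 1 + 3 * k + g ≤ 1 + r)))
    norm_cast at h3
    omega
  -- the test point
  obtain ⟨N, hN⟩ := hkill
  have hmem : φ (prodQdF δ) ^ N ∈ Ideal.span {algebraMap O B ϖ} := by
    have h1 := Ideal.mem_map_of_mem (Ideal.Quotient.mk Q) hN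
    rw [Ideal.map_span, Set.image_singleton, map_pow] at h1
    have e : φ (prodQdF δ) = Ideal.Quotient.mk Q P0 := by
      rw [prodQdF, map_prod, map_prod]
      refine Finset.prod_congr rfl fun i _ => ?_
      rw [map_qd, map_qd]
      congr 1
      funext a
      rw [show fCoord (gen δ) i a = gen δ (Sum.inl (i, true, a)) from rfl, hφgen]
      simp [P', ob]
    rwa [e]
  set z := prodQdF (ι := Fin k) (τ := Fin g) δ ^ N
  obtain ⟨b, hb⟩ := Ideal.mem_span_singleton.mp hmem
  have hzin : ∃ M, φ z ^ M ∈ φ.toRingHom '' ((maximalIdeal O).map (algebraMap O R) : Ideal R) := by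
    obtain ⟨p, hp, hpe⟩ := Algebra.IsIntegral.isIntegral (R := R) b
    refine ⟨p.natDegree, ?_⟩
    rw [← Polynomial.aeval_def, Polynomial.aeval_eq_sum_range, Finset.sum_range_succ,
      hp.coeff_natDegree, one_smul] at hpe
    set ϖR := algebraMap O R ϖ
    refine ⟨-∑ i ∈ Finset.range p.natDegree, p.coeff i * ϖR ^ (p.natDegree - i) * z ^ i, ?_, ?_⟩
    · refine Submodule.neg_mem _ (Ideal.sum_mem _ fun i hi => ?_)
      refine Ideal.mul_mem_right _ _ (Ideal.mul_mem_left _ _ (Ideal.pow_mem_of_mem _
        (Ideal.mem_map_of_mem _ hϖm) _ ?_))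
      have := Finset.mem_range.mp hi
      omega
    · have hz : φ z = algebraMap O B ϖ * b := by rw [← hb, map_pow]
      show φ (-∑ i ∈ Finset.range p.natDegree, p.coeff i * ϖR ^ (p.natDegree - i) * z ^ i) = _
      rw [hz, mul_pow, eq_neg_of_add_eq_zero_right hpe, map_neg, map_sum, mul_neg, Finset.mul_sum]
      congr 1
      refine Finset.sum_congr rfl fun i hi => ?_
      rw [map_mul, map_mul, map_pow, map_pow, φ.commutes, hz, Algebra.smul_def,
        show algebraMap R B (p.coeff i) = φ (p.coeff i) from rfl,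
        show p.natDegree = p.natDegree - i + i by
          have := Finset.mem_range.mp hi; omega, pow_add, Nat.add_sub_cancel, mul_pow]
      ring
  obtain ⟨M, w, hw, hwz⟩ := hzin
  have hzw : w = z ^ M := hinj (by rw [map_pow]; exact hwz)
  rw [hzw, ← pow_mul] at hw
  exact prodQdF_pow_notMem δ hδ hδ0 _ hw

end Fermat.Agent.Ribet
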