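import Fermat.Prelude.Thm_IsLocalRing_isAdicComplete_of_module_finite
import Mathlib.RingTheory.WittVector.DiscreteValuationRing
import Mathlib.RingTheory.WittVector.Complete
import Mathlib.RingTheory.WittVector.Domain
import Mathlib.RingTheory.Polynomial.Eisenstein.IsIntegral
import Mathlib.RingTheory.Polynomial.Cyclotomic.Roots
import Mathlib.RingTheory.AdjoinRoot
import Mathlib.RingTheory.Polynomial.Cyclotomic.Eval
import Mathlib.RingTheory.DiscreteValuationRing.TFAE
import Mathlib.FieldTheory.Finite.Basic
import Mathlib.FieldTheory.Perfect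

/-!
# A complete discrete valuation ring with a `p`-th root of unity `ξ`, `ξ - 1` a uniformiser
-/

set_option autoImplicit false
set_option linter.style.haveILetI false

noncomputable section

namespace Fermat.Agent.Ribet

open Polynomial IsLocalRing

/-- Adjoining a root of an Eisenstein polynomial to a complete discrete valuation ring gives a
complete discrete valuation ring with the same residue field and the root as uniformiser. -/
theorem adjoinRoot_isEisenstein {R : Type} [CommRing R] [IsDomain R] [IsDiscreteValuationRing R]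
    [IsAdicComplete (maximalIdeal R) R] {k : Type} [Field k] (π : R →+* k)
    (hπ : Function.Surjective π) (f : R[X]) (hf : f.Monic) (hd : 0 < f.natDegree)
    (he : f.IsEisensteinAt (maximalIdeal R)) :
    ∃ (_ : IsDomain (AdjoinRoot f)) (_ : IsDiscreteValuationRing (AdjoinRoot f))
      (_ : IsAdicComplete (maximalIdeal (AdjoinRoot f)) (AdjoinRoot f))
      (φ : AdjoinRoot f →+* k), Function.Surjective φ ∧ RingHom.ker φ = maximalIdeal (AdjoinRoot f) ∧
      Irreducible (AdjoinRoot.root f) := by
  have hker : RingHom.ker π = maximalIdeal R :=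
    eq_maximalIdeal (RingHom.ker_isMaximal_of_surjective π hπ)
  have hπ0 : ∀ a ∈ maximalIdeal R, π a = 0 := fun a ha =>
    RingHom.mem_ker.mp (hker ▸ ha)
  have hirr : Irreducible f :=
    he.irreducible (maximalIdeal.isMaximal R).isPrime hf.isPrimitive hd
  haveI : IsDomain (AdjoinRoot f) := AdjoinRoot.isDomain_of_prime hirr.prime
  haveI : Module.Finite R (AdjoinRoot f) := hf.finite_adjoinRoot
  set x := AdjoinRoot.root f with hx
  let φ : AdjoinRoot f →+* k := AdjoinRoot.lift π 0 (by
    rw [eval₂_at_zero]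
    exact hπ0 _ (he.mem hd))
  have hφsurj : Function.Surjective φ := fun c => by
    obtain ⟨r, rfl⟩ := hπ c
    exact ⟨AdjoinRoot.of f r, AdjoinRoot.lift_of _⟩
  -- the uniformiser of `R` is a multiple of the root
  obtain ⟨ϖ, hϖ⟩ := IsDiscreteValuationRing.exists_irreducible R
  have hϖm : maximalIdeal R = Ideal.span {ϖ} :=
    (IsDiscreteValuationRing.irreducible_iff_uniformizer ϖ).mp hϖ
  obtain ⟨g, hg⟩ : X ∣ f - C (f.coeff 0) := X_dvd_iff.mpr (by simp)
  have hroot0 : x * AdjoinRoot.mk f g = - AdjoinRoot.of f (f.coeff 0) := by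
    have h := congrArg (AdjoinRoot.mk f) hg
    rw [map_sub, AdjoinRoot.mk_self, zero_sub, map_mul, AdjoinRoot.mk_X, AdjoinRoot.mk_C] at h
    exact h.symm
  have h0mem := he.mem hd
  rw [hϖm, Ideal.mem_span_singleton] at h0mem
  obtain ⟨u, hu⟩ := h0mem
  have hu' : IsUnit u := by
    by_contra h
    refine he.notMem ?_
    have hu2 : u ∈ maximalIdeal R := h
    rw [hu, pow_two]
    exact Ideal.mul_mem_mul (hϖm ▸ Ideal.mem_span_singleton_self ϖ) hu2
  have hϖx : AdjoinRoot.of f ϖ ∈ Ideal.span {x} := by
    obtain ⟨v, hv⟩ := hu'.exists_right_inv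
    rw [Ideal.mem_span_singleton]
    refine ⟨- AdjoinRoot.mk f g * AdjoinRoot.of f v, ?_⟩
    rw [neg_mul, mul_neg, ← mul_assoc, hroot0, neg_mul, neg_neg, hu, ← map_mul, mul_assoc, hv,
      mul_one]
  have hkx : RingHom.ker φ = Ideal.span {x} := by
    refine le_antisymm (fun y hy => ?_) ((Ideal.span_singleton_le_iff_mem _).mpr ?_)
    · obtain ⟨q, rfl⟩ := AdjoinRoot.mk_surjective y
      have hy' : π (q.coeff 0) = 0 := by
        have := RingHom.mem_ker.mp hy
        rwa [AdjoinRoot.lift_mk, eval₂_at_zero] at this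
      have hq : q.coeff 0 ∈ maximalIdeal R := hker ▸ RingHom.mem_ker.mpr hy'
      rw [hϖm, Ideal.mem_span_singleton] at hq
      obtain ⟨w, hw⟩ := hq
      rw [← q.X_mul_divX_add, map_add, map_mul, AdjoinRoot.mk_X, AdjoinRoot.mk_C, hw, map_mul]
      exact Ideal.add_mem _ (Ideal.mul_mem_right _ _ (Ideal.mem_span_singleton_self x))
        (Ideal.mul_mem_right _ _ hϖx)
    · exact RingHom.mem_ker.mpr (AdjoinRoot.lift_root _)
  have hmax : (Ideal.span {x}).IsMaximal := hkx ▸ RingHom.ker_isMaximal_of_surjective φ hφsurj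
  have huniq : ∀ M : Ideal (AdjoinRoot f), M.IsMaximal → M = Ideal.span {x} := by
    intro M hM
    haveI : (M.comap (algebraMap R (AdjoinRoot f))).IsMaximal :=
      Ideal.isMaximal_comap_of_isIntegral_of_isMaximal M
    have hc : M.comap (algebraMap R (AdjoinRoot f)) = maximalIdeal R := eq_maximalIdeal inferInstance
    have hsum : AdjoinRoot.mk f (f - X ^ f.natDegree) ∈ M := by
      rw [show f - X ^ f.natDegree = f.eraseLead by
        rw [← self_sub_C_mul_X_pow, hf.leadingCoeff, C_1, one_mul]]
      rw [f.eraseLead.as_sum_range_C_mul_X_pow, map_sum]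
      refine M.sum_mem fun i hi => ?_
      rw [map_mul, AdjoinRoot.mk_C]
      refine M.mul_mem_right _ ?_
      show f.eraseLead.coeff i ∈ M.comap (algebraMap R (AdjoinRoot f))
      rw [hc, eraseLead_coeff]
      split_ifs with h
      · exact zero_mem _
      · have hle : f.eraseLead.natDegree ≤ f.natDegree - 1 := f.eraseLead_natDegree_le
        have := Finset.mem_range.mp hi
        exact he.mem (by omega)
    rw [map_sub, AdjoinRoot.mk_self, zero_sub, map_pow, AdjoinRoot.mk_X, neg_mem_iff] at hsum
    have hxM : x ∈ M := hM.isPrime.mem_of_pow_mem _ hsum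
    exact (hmax.eq_of_le hM.ne_top ((Ideal.span_singleton_le_iff_mem _).mpr hxM)).symm
  haveI : IsLocalRing (AdjoinRoot f) :=
    IsLocalRing.of_unique_max_ideal ⟨Ideal.span {x}, hmax, huniq⟩
  have hm : maximalIdeal (AdjoinRoot f) = Ideal.span {x} :=
    huniq _ (maximalIdeal.isMaximal _)
  have hx0 : x ≠ 0 := by
    intro h
    have h2 : AdjoinRoot.of f ϖ = 0 := by
      rw [h, Ideal.span_singleton_eq_bot.mpr rfl, Ideal.mem_bot] at hϖx
      exact hϖx
    exact hϖ.ne_zero (AdjoinRoot.of.injective_of_degree_ne_zero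
      (by rw [degree_eq_natDegree hf.ne_zero]; exact_mod_cast hd.ne') (h2.trans (map_zero _).symm))
  haveI : IsNoetherianRing (AdjoinRoot f) := isNoetherian_of_tower R inferInstance
  have hfield : ¬ IsField (AdjoinRoot f) := by
    intro h
    rw [IsLocalRing.isField_iff_maximalIdeal_eq, hm, Ideal.span_singleton_eq_bot] at h
    exact hx0 h
  haveI : IsDiscreteValuationRing (AdjoinRoot f) :=
    ((IsDiscreteValuationRing.TFAE (AdjoinRoot f) hfield).out 0 4).mpr
      (by rw [hm]; exact ⟨⟨x, rfl⟩⟩)
  haveI : IsLocalHom (algebraMap R (AdjoinRoot f)) := by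
    refine ((local_hom_TFAE _).out 0 3).mpr fun a ha => ?_
    rw [hm, ← hkx]
    exact RingHom.mem_ker.mpr ((AdjoinRoot.lift_of _).trans (hπ0 a ha))
  exact ⟨inferInstance, inferInstance,
    IsLocalRing.isAdicComplete_of_module_finite (𝒪 := R), φ, hφsurj, hkx.trans hm.symm,
    (IsDiscreteValuationRing.irreducible_iff_uniformizer x).mpr hm⟩

/-- There is a complete discrete valuation ring of characteristic zero with residue field `k` and
a primitive `p`-th root of unity `ξ` such that `ξ - 1` is a uniformiser. -/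
theorem exists_cyclotomicDVR (p : ℕ) [hp : Fact p.Prime] (k : Type) [Field k] [Finite k]
    [CharP k p] :
    ∃ (O : Type) (_ : CommRing O) (_ : IsDomain O) (_ : IsDiscreteValuationRing O)
      (_ : IsAdicComplete (maximalIdeal O) O) (_ : CharZero O) (ξ : O)
      (_ : ResidueField O ≃+* k),
      (p : O) ∈ maximalIdeal O ∧ IsPrimitiveRoot ξ p ∧ Irreducible (ξ - 1) := by
  haveI : PerfectRing k p := PerfectRing.ofFiniteOfIsReduced (p := p) (R := k)
  let R := WittVector p k
  have hpirr : Irreducible (p : R) := WittVector.irreducible p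
  have hm : maximalIdeal R = Ideal.span {(p : R)} :=
    (IsDiscreteValuationRing.irreducible_iff_uniformizer _).mp hpirr
  haveI : IsAdicComplete (maximalIdeal R) R := by rw [hm]; infer_instance
  haveI : CharZero R := by
    refine charZero_of_inj_zero fun n hn => ?_
    by_contra hn0
    obtain ⟨e, m, hdvd, hnm⟩ := Nat.exists_eq_pow_mul_and_not_dvd hn0 p hp.out.ne_one
    rw [hnm, Nat.cast_mul, Nat.cast_pow] at hn
    rcases mul_eq_zero.mp hn with h | h
    · exact hpirr.ne_zero (pow_eq_zero_iff'.mp h).1
    · have h2 := congrArg (WittVector.constantCoeff : R →+* k) h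
      rw [map_natCast, map_zero, CharP.cast_eq_zero_iff k p] at h2
      exact hdvd h2
  let f : R[X] := ((cyclotomic p ℤ).comp (X + 1)).map (Int.castRingHom R)
  have hE := cyclotomic_comp_X_add_one_isEisensteinAt (p := p)
  have hmonicZ : ((cyclotomic p ℤ).comp (X + 1)).Monic := by
    rw [← C_1]
    exact (cyclotomic.monic p ℤ).comp (monic_X_add_C 1) (by rw [natDegree_X_add_C]; norm_num)
  have hf : f.Monic := hmonicZ.map _
  have hdeg : f.natDegree = p - 1 := by
    rw [hmonicZ.natDegree_map, natDegree_comp, natDegree_cyclotomic, Nat.totient_prime hp.out,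
      ← C_1, natDegree_X_add_C, mul_one]
  have hd : 0 < f.natDegree := hdeg ▸ by have := hp.out.two_le; omega
  have he : f.IsEisensteinAt (maximalIdeal R) := by
    refine hf.isEisensteinAt_of_mem_of_notMem (maximalIdeal.isMaximal R).ne_top (fun {i} hi => ?_) ?_
    · rw [hmonicZ.natDegree_map] at hi
      rw [coeff_map, hm, Ideal.mem_span_singleton]
      have h1 := hE.mem hi
      rw [Submodule.mem_span_singleton] at h1
      obtain ⟨c, hc⟩ := h1
      exact ⟨(c : R), by rw [← hc]; simp [mul_comm]⟩
    · have h0 : f.coeff 0 = (p : R) := by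
        rw [coeff_map, coeff_zero_eq_eval_zero, eval_comp]
        simp [eval_one_cyclotomic_prime]
      rw [h0, hm, Ideal.span_singleton_pow, Ideal.mem_span_singleton, pow_two]
      rintro ⟨c, hc⟩
      exact hpirr.not_isUnit (IsUnit.of_mul_eq_one c
        (mul_left_cancel₀ hpirr.ne_zero (by rw [← mul_assoc, mul_one]; exact hc.symm)))
  obtain ⟨_, hdvr, hcomp, φ, hφ, hker, hirr⟩ := adjoinRoot_isEisenstein
    (WittVector.constantCoeff : R →+* k)
    (fun a => ⟨WittVector.teichmuller p a, WittVector.teichmuller_coeff_zero p a⟩) f hf hd he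
  have hinj : Function.Injective (AdjoinRoot.of f) := AdjoinRoot.of.injective_of_degree_ne_zero
    (by rw [degree_eq_natDegree hf.ne_zero]; exact_mod_cast hd.ne')
  haveI : CharZero (AdjoinRoot f) := charZero_of_injective_ringHom hinj
  refine ⟨AdjoinRoot f, inferInstance, inferInstance, hdvr, hcomp, inferInstance,
    1 + AdjoinRoot.root f,
    (Ideal.quotEquivOfEq hker.symm).trans (RingHom.quotientKerEquivOfSurjective hφ), ?_, ?_, ?_⟩
  · rw [← hker, RingHom.mem_ker, map_natCast, CharP.cast_eq_zero]
  · rw [← isRoot_cyclotomic_iff, IsRoot.def]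
    have h := AdjoinRoot.eval₂_root f
    rw [eval₂_map, eval₂_comp] at h
    rw [← map_cyclotomic p ((AdjoinRoot.of f).comp (Int.castRingHom R)),
      eval_map]
    simpa [add_comm] using h
  · rwa [add_sub_cancel_left]

end Fermat.Agent.Ribet
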