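/-
Mazur's principle at `q ≠ p`: the dimension count.

`f` is fixed by an inertial `g`; `b i ^ p` scales `f` to a non-zero residue `h i` on the component
`i`, and `g` moves the roots `b i` by roots of unity with different residues on different
components.  The spaces `{ψ | ψ ^ p * f^{±1} has poles bounded by p N poleX}` reduce componentwise
to functions vanishing at the branches; comparing dimensions bounds the residual orders prime to
`p` away from the branches and the branches with residual order divisible by `p` by the places of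
`f` of order prime to `p`.
-/
import Fermat.Agent.Ribet.SecondMPSlot
import Fermat.Agent.Bad.GluingFibre

set_option autoImplicit false

noncomputable section

namespace Fermat.Agent.Ribet.Slot

open AlgebraicCurve Fermat.Agent.Bad Fermat.Agent.Bad.MultiReduction Fermat.Agent.Curve
  Fermat.Agent.Curve.RedAux

universe uK uF uι uk uFb

section Divisors

variable {K : Type uK} [Field K] {F : Type uF} [Field F] [Algebra K F]

/-- `⌊D / p⌋`. -/
def floorDiv (p : ℕ) (D : Divisor K F) : Divisor K F :=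
  D.mapRange (fun a => a / (p : ℤ)) (Int.zero_ediv _)

@[simp]
theorem floorDiv_apply (p : ℕ) (D : Divisor K F) (v : Place K F) :
    floorDiv p D v = D v / (p : ℤ) := Finsupp.mapRange_apply

theorem ediv_add_neg_ediv {p : ℕ} (hp : 0 < p) (a : ℤ) :
    a / (p : ℤ) + -a / (p : ℤ) = if (p : ℤ) ∣ a then 0 else -1 := by
  rw [Int.neg_ediv]
  split_ifs with h
  · ring
  · rw [Int.sign_natCast_of_ne_zero hp.ne']
    ring

theorem sub_one_ediv_add_neg_sub_one_ediv {p : ℕ} (hp : 0 < p) (a : ℤ) :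
    (a - 1) / (p : ℤ) + (-a - 1) / (p : ℤ) = if (p : ℤ) ∣ a then -2 else -1 := by
  have hp' : (0 : ℤ) < p := by exact_mod_cast hp
  obtain ⟨r, q, h0, h1, rfl⟩ : ∃ r q : ℤ, 0 ≤ r ∧ r < p ∧ a = r + p * q :=
    ⟨a % p, a / p, Int.emod_nonneg a hp'.ne', Int.emod_lt_of_pos a hp',
      (Int.emod_add_mul_ediv a p).symm⟩
  have key : ∀ x y : ℤ, 0 ≤ x → x < p → (x + (p : ℤ) * y) / p = y := fun x y hx hx' => by
    rw [Int.add_mul_ediv_left _ _ hp'.ne', Int.ediv_eq_zero_of_lt hx hx', zero_add]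
  have hd : (p : ℤ) ∣ r + p * q ↔ r = 0 := by
    rw [dvd_add_left (dvd_mul_right _ _)]
    exact ⟨fun h => Int.eq_zero_of_dvd_of_nonneg_of_lt h0 h1 h |>.trans rfl,
      fun h => h ▸ dvd_zero _⟩
  rcases eq_or_lt_of_le h0 with rfl | h
  · rw [if_pos (hd.2 rfl), show (0 : ℤ) + p * q - 1 = (p - 1) + p * (q - 1) by ring,
      show -((0 : ℤ) + p * q) - 1 = (p - 1) + p * (-q - 1) by ring,
      key _ _ (by omega) (by omega), key _ _ (by omega) (by omega)]
    ring
  · rw [if_neg (fun hh => h.ne' (hd.1 hh)),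
      show r + (p : ℤ) * q - 1 = (r - 1) + p * q by ring,
      show -(r + (p : ℤ) * q) - 1 = (p - 1 - r) + p * (-q - 1) by ring,
      key _ _ (by omega) (by omega), key _ _ (by omega) (by omega)]
    ring

variable [IsAlgClosed K] [IsFunctionFieldOne K F]

theorem degree_eq_finset_sum (D : Divisor K F) {T : Finset (Place K F)} (hT : D.support ⊆ T) :
    Divisor.degree D = ∑ v ∈ T, D v := by
  rw [degree_eq_sum, Finsupp.sum_of_support_subset _ hT _ (fun _ _ => rfl)]

/-- The two roundings of a divisor by `p` lose the places of order prime to `p`. -/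
theorem degree_floorDiv_add_neg {p : ℕ} (hp : 0 < p) (D : Divisor K F) :
    Divisor.degree (floorDiv p D) + Divisor.degree (floorDiv p (-D))
      = -(({v | ¬ (p : ℤ) ∣ D v} : Set (Place K F)).ncard : ℤ) := by
  classical
  rw [← map_add, degree_eq_finset_sum _ (T := D.support) fun v hv => by
    rw [Finsupp.mem_support_iff] at hv ⊢
    intro h0
    simp [h0] at hv]
  have hs : ({v | ¬ (p : ℤ) ∣ D v} : Set (Place K F)) =
      ↑(D.support.filter fun v => ¬ (p : ℤ) ∣ D v) := by
    ext v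
    simp only [Finset.coe_filter, Finsupp.mem_support_iff, Set.mem_ofPred_eq]
    exact ⟨fun h => ⟨fun h0 => h (h0 ▸ dvd_zero _), h⟩, fun h => h.2⟩
  rw [hs, Set.ncard_coe_finset, Finset.card_filter, Nat.cast_sum, ← Finset.sum_neg_distrib]
  refine Finset.sum_congr rfl fun v _ => ?_
  rw [Finsupp.add_apply, floorDiv_apply, floorDiv_apply, Finsupp.neg_apply,
    ediv_add_neg_ediv hp]
  split_ifs <;> simp

/-- The same with one condition at each place of `s`. -/
theorem degree_floorDiv_sub_add_neg_sub {p : ℕ} (hp : 0 < p) (D : Divisor K F)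
    (s : Finset (Place K F)) :
    Divisor.degree (floorDiv p (D - Finsupp.indicator s fun _ _ => (1 : ℤ)))
        + Divisor.degree (floorDiv p (-D - Finsupp.indicator s fun _ _ => (1 : ℤ)))
      = -(((({v | v ∉ s ∧ ¬ (p : ℤ) ∣ D v} : Set (Place K F)).ncard : ℕ) : ℤ)
          + s.card + ((s.filter fun v => (p : ℤ) ∣ D v).card : ℕ)) := by
  classical
  rw [← map_add, degree_eq_finset_sum _ (T := (D.support \ s) ∪ s) fun v hv => by
    rw [Finsupp.mem_support_iff] at hv
    by_contra h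
    rw [Finset.mem_union, Finset.mem_sdiff, Finsupp.mem_support_iff] at h
    push Not at h
    have h0 : D v = 0 := by
      by_contra h0
      exact h.2 (h.1 h0)
    simp [h0, h.2] at hv,
    Finset.sum_union Finset.sdiff_disjoint]
  have hs : ({v | v ∉ s ∧ ¬ (p : ℤ) ∣ D v} : Set (Place K F)) =
      ↑((D.support \ s).filter fun v => ¬ (p : ℤ) ∣ D v) := by
    ext v
    simp only [Finset.coe_filter, Finset.mem_sdiff, Finsupp.mem_support_iff, Set.mem_ofPred_eq]
    exact ⟨fun h => ⟨⟨fun h0 => h.2 (h0 ▸ dvd_zero _), h.1⟩, h.2⟩, fun h => ⟨h.1.2, h.2⟩⟩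
  have e1 : ∑ v ∈ D.support \ s, (floorDiv p (D - Finsupp.indicator s fun _ _ => (1 : ℤ))
      + floorDiv p (-D - Finsupp.indicator s fun _ _ => (1 : ℤ))) v
      = -(((D.support \ s).filter fun v => ¬ (p : ℤ) ∣ D v).card : ℤ) := by
    rw [Finset.card_filter, Nat.cast_sum, ← Finset.sum_neg_distrib]
    refine Finset.sum_congr rfl fun v hv => ?_
    rw [Finset.mem_sdiff] at hv
    simp only [Finsupp.add_apply, floorDiv_apply, Finsupp.sub_apply, Finsupp.neg_apply,
      Finsupp.indicator_apply, dif_neg hv.2, sub_zero, ediv_add_neg_ediv hp]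
    split_ifs <;> simp
  have e2 : ∑ v ∈ s, (floorDiv p (D - Finsupp.indicator s fun _ _ => (1 : ℤ))
      + floorDiv p (-D - Finsupp.indicator s fun _ _ => (1 : ℤ))) v
      = -((s.card : ℤ) + ((s.filter fun v => (p : ℤ) ∣ D v).card : ℕ)) := by
    rw [Finset.card_filter, Finset.card_eq_sum_ones, Nat.cast_sum, Nat.cast_sum,
      ← Finset.sum_add_distrib, ← Finset.sum_neg_distrib]
    refine Finset.sum_congr rfl fun v hv => ?_
    simp only [Finsupp.add_apply, floorDiv_apply, Finsupp.sub_apply, Finsupp.neg_apply,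
      Finsupp.indicator_apply, dif_pos hv, sub_one_ediv_add_neg_sub_one_ediv hp]
    split_ifs <;> simp
  rw [e1, e2, hs, Set.ncard_coe_finset]
  ring

end Divisors

variable {K : Type uK} [Field K] {A : ValuationSubring K}
  {F : Type uF} [Field F] [Algebra K F] {ι : Type uι} [Fintype ι]
  {k : Type uk} [Field k] {Fb : ι → Type uFb} [∀ i, Field (Fb i)] [∀ i, Algebra k (Fb i)]
  [IsAlgClosed K] [IsFunctionFieldOne K F] [∀ i, IsFunctionFieldOne k (Fb i)]
  {R : MultiReduction A F k Fb}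

variable (R) in
/-- Functions `ψ` with the poles of `ψ ^ p * f` bounded by `p N` times those of `x`. -/
def slotSp (p : ℕ) (f : F) (N : ℕ) : Submodule K F :=
  R.twistSp (floorDiv p (divisorOf K f)) N

theorem pow_mul_mem_polarSp {p : ℕ} (hp : 0 < p) {f ψ : F} (hf : f ≠ 0) {N : ℕ}
    (hψ : ψ ∈ slotSp R p f N) : ψ ^ p * f ∈ R.polarSp (p * N) := by
  rcases eq_or_ne ψ 0 with rfl | h0
  · rw [zero_pow hp.ne', zero_mul]; exact zero_mem _
  refine (mem_L_iff (mul_ne_zero (pow_ne_zero _ h0) hf)).2 fun v => ?_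
  have h1 := (mem_L_iff h0).1 hψ v
  have h2 : (p : ℤ) * (v.ord f / (p : ℤ)) ≤ v.ord f :=
    Int.mul_ediv_self_le (by exact_mod_cast hp.ne')
  rw [v.ord_mul (pow_ne_zero _ h0) hf, ord_pow]
  simp only [Finsupp.add_apply, Finsupp.smul_apply, nsmul_eq_mul, floorDiv_apply,
    divisorOf_apply] at h1 ⊢
  push_cast
  nlinarith [mul_le_mul_of_nonneg_left h1 (Int.natCast_nonneg p)]

theorem smul_mem_slotSp {g : SemilinearAut K F} (hx : g • R.poleX = R.poleX) {p : ℕ} {f : F}
    (hgf : g • f = f) {N : ℕ} {ψ : F} (hψ : ψ ∈ slotSp R p f N) : g • ψ ∈ slotSp R p f N := by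
  rcases eq_or_ne ψ 0 with rfl | h0
  · rw [smul_zero]; exact zero_mem _
  have h0' : g • ψ ≠ 0 := by
    rw [SemilinearAut.smul_def]
    exact fun h => h0 ((map_eq_zero_iff _ (RingEquiv.injective _)).1 h)
  refine (mem_L_iff h0').2 fun w => ?_
  obtain ⟨v, rfl⟩ : ∃ v, w = g • v := ⟨g⁻¹ • w, (smul_inv_smul g w).symm⟩
  have h1 := (mem_L_iff h0).1 hψ v
  rw [SemilinearAut.ord_smul]
  have e1 : R.poleX (g • v) = R.poleX v := by
    conv_lhs => rw [← hx]
    exact SemilinearAut.divisor_smul_apply_smul g R.poleX v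
  have e2 : (g • v).ord f = v.ord f := by
    conv_lhs => rw [← hgf]
    exact SemilinearAut.ord_smul g v f
  simp only [Finsupp.add_apply, Finsupp.smul_apply, nsmul_eq_mul, floorDiv_apply,
    divisorOf_apply, e1, e2] at h1 ⊢
  exact h1

variable (G : Gluing R)

/-- The branches on the component `i`. -/
def branchesOn (i : ι) : Finset (Place k (Fb i)) :=
  G.B.preimage (fun v => (⟨i, v⟩ : Σ i, Place k (Fb i)))
    (fun x _ y _ h => by simpa using h)

theorem mem_branchesOn {i : ι} {v : Place k (Fb i)} : v ∈ branchesOn G i ↔ ⟨i, v⟩ ∈ G.B :=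
  Finset.mem_preimage

/-- The bound for the reduction on the component `i`. -/
def compBound (p : ℕ) (h : ∀ i, Fb i) (N : ℕ) (i : ι) : Divisor k (Fb i) :=
  N • poleDivisor k (R.xb i)
    + floorDiv p (divisorOf k (h i) - Finsupp.indicator (branchesOn G i) fun _ _ => (1 : ℤ))

variable {G}

/-- A component of the scaled reduction of `slotSp` obeys the bound `compBound`. -/
theorem apply_mem_compBound [DecidableEq ι]
    (hpart : ∀ b : ↥G.B, ∃ b' : ↥G.B, G.pt b = G.pt b' ∧
      (b : Σ i, Place k (Fb i)).1 ≠ (b' : Σ i, Place k (Fb i)).1)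
    {p : ℕ} (hp : 0 < p) {f : F} (hf : f ≠ 0) {g : SemilinearAut K F} (hg : IsInertial R g)
    (hgf : g • f = f) {b : ι → K} (hb : ∀ i, b i ≠ 0) {h : ∀ i, Fb i} (hh : ∀ i, h i ≠ 0)
    (hslot : IsSlot R ((b ^ p)⁻¹) f h) (z : ι → A)
    (hz : ∀ i, ((z i : A) : K) * SemilinearAut.baseAut g (b i) = b i)
    (hsep : ∀ i j, i ≠ j → R.π (z i) ≠ R.π (z j)) {N : ℕ} {r : ∀ i, Fb i}
    (hr : r ∈ slotFibre (R := R) b (slotSp R p f N)) (i : ι) :
    r i ∈ riemannRochSpace (compBound G p h N i) := by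
  classical
  have := R.isAlgClosed_residue
  rcases eq_or_ne (r i) 0 with h0 | h0
  · rw [h0]; exact zero_mem _
  obtain ⟨ψ, hψ, hs⟩ := single_mem_slotFibre hg
    (fun ψ hψ => smul_mem_slotSp hg.smul_poleX hgf hψ) z hz hsep hr i
  have hu := (hs.pow p).mul hslot
  rw [show b ^ p * (b ^ p)⁻¹ = (1 : ι → K) from funext fun j =>
    mul_inv_cancel₀ (pow_ne_zero p (hb j))] at hu
  have hmem : ψ ^ p * f ∈ R.integers := R.mem_integers.2 fun j => by
    obtain ⟨h1, -⟩ := hu j
    simpa using h1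
  have hred : R.red ⟨_, hmem⟩ = Pi.single i (r i) ^ p * h := funext fun j => by
    obtain ⟨h1, e1⟩ := hu j
    rw [R.red_apply, ← e1]
    exact congrArg _ (Subtype.ext (by simp))
  have hfib : Pi.single i (r i) ^ p * h ∈ R.spFibre (R.polarSp (p * N)) :=
    ⟨⟨_, hmem⟩, pow_mul_mem_polarSp hp hf hψ, hred⟩
  have hpol := R.mem_polarFibre_iff_ord.1 (R.spFibre_polar_le (p * N) hfib) i
  refine (mem_L_iff h0).2 fun v => ?_
  have hne : r i ^ p * h i ≠ 0 := mul_ne_zero (pow_ne_zero _ h0) (hh i)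
  have h1 := (hpol v).resolve_left (by simpa using hne)
  simp only [Pi.mul_apply, Pi.pow_apply, Pi.single_eq_same] at h1
  rw [v.ord_mul (pow_ne_zero _ h0) (hh i), ord_pow] at h1
  have key : 0 ≤ (p : ℤ) * v.ord (r i) + (v.ord (h i)
      - (if v ∈ branchesOn G i then 1 else 0)) + (p : ℤ) * ((N : ℤ) * max (-(v.ord (R.xb i))) 0) := by
    split_ifs with hv
    · rw [mem_branchesOn] at hv
      have hreg : max (-(v.ord (R.xb i))) 0 = 0 := max_eq_right (by
        have := G.regular _ hv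
        try simp only at this
        omega)
      obtain ⟨b', hbb', hne'⟩ := hpart ⟨_, hv⟩
      have hm := G.matched (p * N) _ hfib ⟨_, hv⟩ b' hbb'
      have h00 : (Pi.single i (r i) ^ p * h : ∀ i, Fb i) (b' : Σ i, Place k (Fb i)).1 = 0 := by
        simp only [Pi.mul_apply, Pi.pow_apply]
        rw [Pi.single_eq_of_ne (Ne.symm hne'), zero_pow hp.ne', zero_mul]
      simp only [bval, h00, placeValue_zero] at hm
      simp only [Pi.mul_apply, Pi.pow_apply, Pi.single_eq_same] at hm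
      rw [hreg] at h1 ⊢
      simp only [mul_zero, neg_zero, Nat.cast_mul] at h1
      have hord : 0 ≤ v.ord (r i ^ p * h i) := by
        rw [v.ord_mul (pow_ne_zero _ h0) (hh i), ord_pow]; omega
      have h2 := ((placeValue_eq_zero_iff v (mem_of_ord_nonneg v hord)).1 hm).resolve_left hne
      rw [v.ord_mul (pow_ne_zero _ h0) (hh i), ord_pow] at h2
      omega
    · push_cast at h1
      nlinarith
  have hp' : (0 : ℤ) < p := by exact_mod_cast hp
  simp only [compBound, Finsupp.add_apply, Finsupp.smul_apply, nsmul_eq_mul, floorDiv_apply,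
    Finsupp.sub_apply, divisorOf_apply, Finsupp.indicator_apply, poleDivisor_apply, dite_eq_ite]
  generalize v.ord (h i) - (if v ∈ branchesOn G i then 1 else 0) = o at key ⊢
  have h3 : -(v.ord (r i)) - (N : ℤ) * max (-(v.ord (R.xb i))) 0 ≤ o / (p : ℤ) :=
    (Int.le_ediv_iff_mul_le hp').2 (by nlinarith)
  omega

/-- The dimension of `slotSp` is bounded by those of the component bounds. -/
theorem finrank_slotSp_le (hA : RankLeOne A)
    (hpart : ∀ b : ↥G.B, ∃ b' : ↥G.B, G.pt b = G.pt b' ∧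
      (b : Σ i, Place k (Fb i)).1 ≠ (b' : Σ i, Place k (Fb i)).1)
    {p : ℕ} (hp : 0 < p) {f : F} (hf : f ≠ 0) {g : SemilinearAut K F} (hg : IsInertial R g)
    (hgf : g • f = f) {b : ι → K} (hb : ∀ i, b i ≠ 0) {h : ∀ i, Fb i} (hh : ∀ i, h i ≠ 0)
    (hslot : IsSlot R ((b ^ p)⁻¹) f h) (z : ι → A)
    (hz : ∀ i, ((z i : A) : K) * SemilinearAut.baseAut g (b i) = b i)
    (hsep : ∀ i j, i ≠ j → R.π (z i) ≠ R.π (z j)) (N : ℕ) :
    Module.finrank K (slotSp R p f N)
      ≤ ∑ i, Module.finrank k (riemannRochSpace (compBound G p h N i)) := by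
  classical
  have := R.isAlgClosed_residue
  have : FiniteDimensional K (slotSp R p f N) := finite_L _
  have := fun i => finite_L (compBound G p h N i)
  rw [← finrank_slotFibre R hA b hb, ← Module.finrank_pi_fintype k]
  let L : slotFibre (R := R) b (slotSp R p f N) →ₗ[k]
      (∀ i, riemannRochSpace (compBound G p h N i)) :=
    { toFun := fun r i => ⟨r.1 i, apply_mem_compBound hpart hp hf hg hgf hb hh hslot z hz hsep r.2 i⟩
      map_add' := fun _ _ => rfl
      map_smul' := fun _ _ => rfl }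
  exact LinearMap.finrank_le_finrank_of_injective (f := L) fun r s hrs =>
    Subtype.ext (funext fun i => congrArg Subtype.val (congrFun hrs i))

/-- **The dimension count.** -/
theorem card_le_of_isInertial (hA : RankLeOne A) (hG : G.IsSeminormal)
    (hpart : ∀ b : ↥G.B, ∃ b' : ↥G.B, G.pt b = G.pt b' ∧
      (b : Σ i, Place k (Fb i)).1 ≠ (b' : Σ i, Place k (Fb i)).1)
    (hB : G.B.card ≤ 2 * Nat.card G.Pt)
    {p : ℕ} (hp : 0 < p) {f : F} (hf : f ≠ 0) {g : SemilinearAut K F} (hg : IsInertial R g)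
    (hgf : g • f = f) {b : ι → K} (hb : ∀ i, b i ≠ 0) {h : ∀ i, Fb i} (hh : ∀ i, h i ≠ 0)
    (hslot : IsSlot R ((b ^ p)⁻¹) f h) (z : ι → A)
    (hz : ∀ i, ((z i : A) : K) * SemilinearAut.baseAut g (b i) = b i)
    (hz0 : ∀ i, R.π (z i) ≠ 0) (hsep : ∀ i j, i ≠ j → R.π (z i) ≠ R.π (z j))
    [DecidablePred fun b : Σ i, Place k (Fb i) => (p : ℤ) ∣ b.2.ord (h b.1)] :
    (∑ i, ({v | (⟨i, v⟩ : Σ i, Place k (Fb i)) ∉ G.B ∧ ¬ (p : ℤ) ∣ v.ord (h i)}
        : Set (Place k (Fb i))).ncard)
      + (G.B.filter fun b => (p : ℤ) ∣ b.2.ord (h b.1)).card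
      ≤ ({v | ¬ (p : ℤ) ∣ v.ord f} : Set (Place K F)).ncard := by
  classical
  have := R.isAlgClosed_residue
  -- the inverse data
  have hunit : ∀ i, IsUnit (z i) := fun i => by
    by_contra hu
    refine hz0 i ?_
    have hker : RingHom.ker R.π = IsLocalRing.maximalIdeal A :=
      IsLocalRing.eq_maximalIdeal (RingHom.ker_isMaximal_of_surjective _ R.π_surjective)
    rw [← RingHom.mem_ker, hker]
    exact hu
  let z' : ι → A := fun i => ((hunit i).unit⁻¹ : Aˣ)
  have hzz : ∀ i, z' i * z i = 1 := fun i => (hunit i).val_inv_mul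
  have hz' : ∀ i, ((z' i : A) : K) * SemilinearAut.baseAut g (b⁻¹ i) = b⁻¹ i := fun i => by
    have e := congrArg Subtype.val (hzz i)
    push_cast at e
    rw [Pi.inv_apply, map_inv₀, eq_inv_of_mul_eq_one_left e, ← mul_inv, hz i]
  have hsep' : ∀ i j, i ≠ j → R.π (z' i) ≠ R.π (z' j) := fun i j hij e => by
    have e1 : R.π (z' i) * R.π (z i) = 1 := by rw [← map_mul, hzz, map_one]
    have e2 : R.π (z' j) * R.π (z j) = 1 := by rw [← map_mul, hzz, map_one]
    exact hsep i j hij (mul_left_cancel₀ (left_ne_zero_of_mul_eq_one e1)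
      (e1.trans (by rw [e, e2])))
  have hslot' : IsSlot R ((b⁻¹ ^ p)⁻¹) f⁻¹ h⁻¹ := by
    have := hslot.inv hh
    rwa [show ((b ^ p)⁻¹)⁻¹ = (b⁻¹ ^ p)⁻¹ by rw [inv_pow]] at this
  -- Riemann-Roch
  obtain ⟨c, hc⟩ := exists_finrank_L_eq (K := K) (F := F)
  choose c' hc' using fun i => exists_finrank_L_eq (K := k) (F := Fb i)
  set d : ι → ℕ := fun i => Module.finrank (IntermediateField.adjoin k {R.xb i}) (Fb i) with hd
  have hd0 : ∀ i, (1 : ℤ) ≤ (d i : ℤ) := fun i => by
    have h1 : 0 < d i := R.degree_pos i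
    exact_mod_cast h1
  set D := divisorOf K f with hD
  have hDinv : divisorOf K f⁻¹ = -D := by ext v; simp [hD, Place.ord_inv]
  have hdinv : ∀ i, divisorOf k (h⁻¹ i) = -divisorOf k (h i) := fun i => by ext v; simp [Place.ord_inv]
  set Bi : ∀ i, Divisor k (Fb i) := fun i =>
    Finsupp.indicator (branchesOn G i) fun _ _ => (1 : ℤ) with hBi
  set c₁ := Divisor.degree (floorDiv p D) with hc₁
  set c₂ := Divisor.degree (floorDiv p (-D)) with hc₂
  set e₁ : ι → ℤ := fun i => Divisor.degree (floorDiv p (divisorOf k (h i) - Bi i)) with he₁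
  set e₂ : ι → ℤ := fun i => Divisor.degree (floorDiv p (-divisorOf k (h i) - Bi i)) with he₂
  obtain ⟨N, hN0, hN⟩ : ∃ N : ℕ, ((c - c₁).toNat + (c - c₂).toNat : ℕ) ≤ N ∧
      ∀ i, ((c' i - e₁ i).toNat + (c' i - e₂ i).toNat : ℕ) ≤ N :=
    ⟨(c - c₁).toNat + (c - c₂).toNat + ∑ i, ((c' i - e₁ i).toNat + (c' i - e₂ i).toNat), by omega,
      fun i => by
        have := Finset.single_le_sum (f := fun i => (c' i - e₁ i).toNat + (c' i - e₂ i).toNat)
          (fun _ _ => Nat.zero_le _) (Finset.mem_univ i)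
        try simp only at this
        omega⟩
  have hdX : Divisor.degree (N • R.poleX) = (N : ℤ) * ∑ i, (d i : ℤ) := by
    rw [R.degree_nsmul_poleX]; push_cast; rfl
  have hNd : (N : ℤ) ≤ (N : ℤ) * ∑ i, (d i : ℤ) := by
    obtain ⟨i⟩ := R.nonempty
    exact le_mul_of_one_le_right (Int.natCast_nonneg N) ((hd0 i).trans
      (Finset.single_le_sum (f := fun i => (d i : ℤ)) (fun _ _ => Int.natCast_nonneg _)
        (Finset.mem_univ i)))
  have hdP : ∀ i, Divisor.degree (N • poleDivisor k (R.xb i)) = (N : ℤ) * (d i : ℤ) := fun i => by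
    rw [map_nsmul, degree_poleDivisor (t := R.xb i) (R.x_transcendental i), nsmul_eq_mul]
  have hNdi : ∀ i, (N : ℤ) ≤ (N : ℤ) * (d i : ℤ) := fun i =>
    le_mul_of_one_le_right (Int.natCast_nonneg N) (hd0 i)
  have hF1 : (Module.finrank K (slotSp R p f N) : ℤ)
      = (N : ℤ) * (∑ i, (d i : ℤ)) + c₁ + 1 - genusFF K F := by
    rw [show slotSp R p f N = riemannRochSpace (N • R.poleX + floorDiv p D) from rfl,
      hc _ (by rw [map_add, hdX]; omega), map_add, hdX]
  have hF2 : (Module.finrank K (slotSp R p f⁻¹ N) : ℤ)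
      = (N : ℤ) * (∑ i, (d i : ℤ)) + c₂ + 1 - genusFF K F := by
    rw [show slotSp R p f⁻¹ N = riemannRochSpace (N • R.poleX + floorDiv p (-D)) by
        rw [← hDinv]; rfl,
      hc _ (by rw [map_add, hdX]; omega), map_add, hdX]
  have hG1 : ∀ i, (Module.finrank k (riemannRochSpace (compBound G p h N i)) : ℤ)
      = (N : ℤ) * d i + e₁ i + 1 - genusFF k (Fb i) := fun i => by
    have hdeg : Divisor.degree (compBound G p h N i) = (N : ℤ) * d i + e₁ i := by
      rw [compBound, map_add, hdP]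
    have := hN i
    have := hNdi i
    rw [hc' i _ (by rw [hdeg]; omega), hdeg]
  have hG2 : ∀ i, (Module.finrank k (riemannRochSpace (compBound G p h⁻¹ N i)) : ℤ)
      = (N : ℤ) * d i + e₂ i + 1 - genusFF k (Fb i) := fun i => by
    have hdeg : Divisor.degree (compBound G p h⁻¹ N i) = (N : ℤ) * d i + e₂ i := by
      rw [compBound, map_add, hdP, hdinv]
    have := hN i
    have := hNdi i
    rw [hc' i _ (by rw [hdeg]; omega), hdeg]
  have hI1 : (Module.finrank K (slotSp R p f N) : ℤ)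
      ≤ ∑ i, (Module.finrank k (riemannRochSpace (compBound G p h N i)) : ℤ) := by
    exact_mod_cast finrank_slotSp_le hA hpart hp hf hg hgf hb hh hslot z hz hsep N
  have hgf' : g • f⁻¹ = f⁻¹ := by
    rw [SemilinearAut.smul_def, map_inv₀, ← SemilinearAut.smul_def, hgf]
  have hI2 : (Module.finrank K (slotSp R p f⁻¹ N) : ℤ)
      ≤ ∑ i, (Module.finrank k (riemannRochSpace (compBound G p h⁻¹ N i)) : ℤ) := by
    exact_mod_cast finrank_slotSp_le hA hpart hp (inv_ne_zero hf) hg hgf'
      (fun i => inv_ne_zero (hb i)) (fun i => inv_ne_zero (hh i)) hslot' z' hz' hsep' N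
  simp only [hG1, hG2] at hI1 hI2
  simp only [Finset.sum_add_distrib, Finset.sum_sub_distrib, ← Finset.mul_sum, Finset.sum_const,
    Finset.card_univ] at hI1 hI2
  -- the roundings
  have hXF : c₁ + c₂ = -(({v | ¬ (p : ℤ) ∣ v.ord f} : Set (Place K F)).ncard : ℤ) :=
    degree_floorDiv_add_neg hp D
  have hXi : ∀ i, e₁ i + e₂ i =
      -((({v | (⟨i, v⟩ : Σ i, Place k (Fb i)) ∉ G.B ∧ ¬ (p : ℤ) ∣ v.ord (h i)}
          : Set (Place k (Fb i))).ncard : ℤ) + (branchesOn G i).card
        + ((branchesOn G i).filter fun v => (p : ℤ) ∣ v.ord (h i)).card) := fun i => by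
    have := degree_floorDiv_sub_add_neg_sub hp (divisorOf k (h i)) (branchesOn G i)
    simp only [mem_branchesOn, divisorOf_apply] at this
    exact this
  -- the branches, component by component
  have hsigma : G.B = (Finset.univ : Finset ι).sigma (branchesOn G) := by
    ext ⟨i, v⟩
    rw [Finset.mem_sigma, mem_branchesOn]
    simp
  have hcardB : (G.B.card : ℤ) = ∑ i, ((branchesOn G i).card : ℤ) := by
    conv_lhs => rw [hsigma, Finset.card_sigma]
    push_cast
    rfl
  have hcardBp : ((G.B.filter fun b => (p : ℤ) ∣ b.2.ord (h b.1)).card : ℤ)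
      = ∑ i, (((branchesOn G i).filter fun v => (p : ℤ) ∣ v.ord (h i)).card : ℤ) := by
    have : G.B.filter (fun b => (p : ℤ) ∣ b.2.ord (h b.1)) = (Finset.univ : Finset ι).sigma
        fun i => (branchesOn G i).filter fun v => (p : ℤ) ∣ v.ord (h i) := by
      ext ⟨i, v⟩
      simp [Finset.mem_sigma, mem_branchesOn]
    rw [this, Finset.card_sigma]
    push_cast
    rfl
  have hsum : (∑ i, e₁ i) + ∑ i, e₂ i = _ :=
    Finset.sum_add_distrib.symm.trans (Finset.sum_congr rfl fun i _ => hXi i)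
  simp only [Finset.sum_neg_distrib, Finset.sum_add_distrib] at hsum
  rw [← hcardB, ← hcardBp, ← Nat.cast_sum] at hsum
  have hcount := hG.count
  have hB' : (G.B.card : ℤ) ≤ 2 * (Nat.card G.Pt : ℤ) := by exact_mod_cast hB
  simp only [Finset.sum_sub_distrib, Finset.sum_const, Finset.card_univ] at hcount
  omega

end Fermat.Agent.Ribet.Slot

end
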