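import Fermat.Agent.Ribet.ThirdComplete

/-!
# The local ring of "Ihara avoidance"

For each index `i` there are coordinates `S'_i` and `F_i` of two trace-zero matrices, with
`S_i = S'_i + (0, 0, δ)`.  The ring `LocalRing δ ι τ` is the image of the power series ring in these
variables (and extra free variables `τ`) under the chart
`S = (z, 2δy - zy², δ - zy)`, `F = T • S`.  It is a domain; every point with `det S = -δ²` and
`F ∥ S` in a complete local domain factors through it; it has dimension at most
`1 + 3 #ι + #τ`; and `det F_i` is not nilpotent modulo the maximal ideal of the base.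
-/

set_option autoImplicit false

noncomputable section

namespace Fermat.Agent.Ribet

open MvPowerSeries IsLocalRing

/-! ## Elementary matters about power series -/

section General

variable {σ : Type} [Finite σ] {A : Type} [CommRing A]

lemma coeff_eq_zero_of_mem_varIdeal_pow {n : ℕ} {f : MvPowerSeries σ A}
    (hf : f ∈ Deform.varIdeal σ A ^ n) {d : σ →₀ ℕ} (hd : d.degree < n) : coeff d f = 0 := by
  classical
  induction n generalizing f d with
  | zero => omega
  | succ n ih =>
    rw [pow_succ] at hf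
    refine Submodule.mul_induction_on hf (fun a ha b hb => ?_) (fun a b ha hb => ?_)
    · rw [MvPowerSeries.coeff_mul]
      refine Finset.sum_eq_zero fun p hp => ?_
      have hdeg : p.1.degree + p.2.degree = d.degree := by
        rw [← Finset.HasAntidiagonal.mem_antidiagonal.mp hp, map_add]
      by_cases hp2 : p.2 = 0
      · have hb0 : constantCoeff b = 0 := by
          have : Deform.varIdeal σ A ≤ RingHom.ker (constantCoeff (σ := σ) (R := A)) := by
            rw [Deform.varIdeal, Ideal.span_le]
            rintro _ ⟨s, rfl⟩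
            simp
          exact this hb
        rw [hp2, coeff_zero_eq_constantCoeff, hb0, mul_zero]
      · have h2 : p.2.degree ≠ 0 := by simpa [Finsupp.degree_eq_zero_iff] using hp2
        rw [ih ha (by omega), zero_mul]
    · rw [map_add, ha, hb, add_zero]

end General

/-! ## Coordinates -/

section Coordinates

variable {B B' : Type} [CommRing B] [CommRing B']

/-- Coordinates of a point of the chart (shifted by `(0, 0, δ)`). -/
def chartVec (δ y z : B) : Fin 3 → B := ![z, 2 * δ * y - z * y ^ 2, -(z * y)]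

/-- Undo the shift. -/
def unshift (δ : B) (v : Fin 3 → B) : Fin 3 → B := ![v 0, v 1, v 2 + δ]

/-- Minus the determinant of the trace zero matrix with coordinates `v`. -/
def qd (v : Fin 3 → B) : B := v 0 * v 1 + v 2 ^ 2

lemma qd_chartVec (δ y z : B) : qd (unshift δ (chartVec δ y z)) = δ ^ 2 := by
  simp [qd, unshift, chartVec]
  ring

lemma map_unshift {F : Type} [FunLike F B B'] [RingHomClass F B B'] (φ : F) (δ : B)
    (v : Fin 3 → B) (k : Fin 3) : φ (unshift δ v k) = unshift (φ δ) (fun l => φ (v l)) k := by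
  fin_cases k <;> simp [unshift]

lemma map_qd {F : Type} [FunLike F B B'] [RingHomClass F B B'] (φ : F) (v : Fin 3 → B) :
    φ (qd v) = qd fun l => φ (v l) := by
  simp [qd]

end Coordinates

/-- Variables of the local ring: `S'_i` (`false`), `F_i` (`true`), and free variables. -/
abbrev LVar (ι τ : Type) : Type := (ι × Bool × Fin 3) ⊕ τ

/-- Variables after setting `F = T • S`: the `S'_i`, the `T_i`, and free variables. -/
abbrev SVar (ι τ : Type) : Type := (ι × Fin 3) ⊕ τ

/-- Variables of the chart: `(y_i, z_i)` and free variables. -/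
abbrev CVar (ι τ : Type) : Type := (ι × Fin 2) ⊕ τ

variable {ι τ : Type} {O : Type} [CommRing O] (δ : O)

/-! ## Division by the quadric, modulo `δ` -/

section Division

/-- The quotient of `f` by `X_a X_b + X_c ^ 2`. -/
def divQuad {σ : Type} [DecidableEq σ] (a b c : σ) (f : MvPowerSeries σ O) :
    MvPowerSeries σ O :=
  fun d => ∑ l ∈ Finset.range (min (d a) (d b) + 1), (-1) ^ l *
    coeff (d - (Finsupp.single a l + Finsupp.single b l) + Finsupp.single c (2 + 2 * l)) f

variable {σ : Type} [DecidableEq σ] {a b c : σ}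

lemma coeff_divQuad (f : MvPowerSeries σ O) (d : σ →₀ ℕ) :
    coeff d (divQuad a b c f) = ∑ l ∈ Finset.range (min (d a) (d b) + 1), (-1) ^ l *
      coeff (d - (Finsupp.single a l + Finsupp.single b l) + Finsupp.single c (2 + 2 * l)) f :=
  rfl

lemma coeff_quad_mul (g : MvPowerSeries σ O) (d : σ →₀ ℕ) :
    coeff d ((X a * X b + X c ^ 2) * g) =
      (if Finsupp.single a 1 + Finsupp.single b 1 ≤ d then
        coeff (d - (Finsupp.single a 1 + Finsupp.single b 1)) g else 0) +
      (if Finsupp.single c 2 ≤ d then coeff (d - Finsupp.single c 2) g else 0) := by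
  classical
  rw [add_mul, map_add]
  congr 1
  · rw [show (X a * X b : MvPowerSeries σ O) =
        monomial (Finsupp.single a 1 + Finsupp.single b 1) 1 by
      rw [X_def, X_def, monomial_mul_monomial, one_mul], coeff_monomial_mul]
    simp
  · rw [X_pow_eq, coeff_monomial_mul]
    simp

lemma coeff_sub_quad_mul_divQuad (hab : a ≠ b) (hac : a ≠ c) (hbc : b ≠ c)
    (f : MvPowerSeries σ O) {d : σ →₀ ℕ} (hd : 2 ≤ d c) :
    coeff d (f - (X a * X b + X c ^ 2) * divQuad a b c f) = 0 := by
  classical
  rw [map_sub, coeff_quad_mul, sub_eq_zero]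
  have h2 : Finsupp.single c 2 ≤ d := Finsupp.single_le_iff.mpr hd
  rw [if_pos h2, coeff_divQuad f (d - Finsupp.single c 2)]
  have e0 : ∀ l, (d - Finsupp.single c 2) - (Finsupp.single a l + Finsupp.single b l) +
      Finsupp.single c (2 + 2 * l) =
      d - (Finsupp.single a l + Finsupp.single b l) + Finsupp.single c (2 * l) := by
    intro l
    ext x
    simp only [Finsupp.coe_add, Finsupp.coe_tsub, Pi.add_apply, Pi.sub_apply, Finsupp.single_apply]
    by_cases hxc : c = x
    · subst hxc
      simp [hac, hbc]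
      omega
    · simp [hxc]
  have eA : (d - Finsupp.single c 2 : σ →₀ ℕ) a = d a := by simp [Finsupp.single_apply, hac.symm]
  have eB : (d - Finsupp.single c 2 : σ →₀ ℕ) b = d b := by simp [Finsupp.single_apply, hbc.symm]
  simp only [e0, eA, eB]
  rw [Finset.sum_range_succ']
  have hhead : coeff (d - (Finsupp.single a 0 + Finsupp.single b 0) +
      Finsupp.single c (2 * 0)) f = coeff d f := by simp
  rw [hhead]
  by_cases hle : Finsupp.single a 1 + Finsupp.single b 1 ≤ d
  · have hA : 1 ≤ d a := by
      have := hle a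
      simpa [Finsupp.single_apply, hab.symm] using this
    have hB : 1 ≤ d b := by
      have := hle b
      simpa [Finsupp.single_apply, hab] using this
    rw [if_pos hle, coeff_divQuad]
    have eA' : (d - (Finsupp.single a 1 + Finsupp.single b 1) : σ →₀ ℕ) a = d a - 1 := by
      simp [Finsupp.single_apply, hab.symm]
    have eB' : (d - (Finsupp.single a 1 + Finsupp.single b 1) : σ →₀ ℕ) b = d b - 1 := by
      simp [Finsupp.single_apply, hab]
    have e1 : ∀ l, d - (Finsupp.single a 1 + Finsupp.single b 1) -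
        (Finsupp.single a l + Finsupp.single b l) + Finsupp.single c (2 + 2 * l) =
        d - (Finsupp.single a (l + 1) + Finsupp.single b (l + 1)) +
          Finsupp.single c (2 * (l + 1)) := by
      intro l
      ext x
      simp only [Finsupp.coe_add, Finsupp.coe_tsub, Pi.add_apply, Pi.sub_apply,
        Finsupp.single_apply]
      by_cases hxc : c = x
      · subst hxc
        simp [hac, hbc]
        omega
      · simp [hxc]
        split_ifs <;> omega
    rw [eA', eB']
    simp only [e1]
    have hm : min (d a - 1) (d b - 1) + 1 = min (d a) (d b) := by omega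
    rw [hm]
    simp only [pow_succ, mul_neg, mul_one, neg_mul, Finset.sum_neg_distrib, pow_zero, one_mul]
    ring
  · have hm : min (d a) (d b) = 0 := by
      by_contra hne
      apply hle
      intro x
      simp only [Finsupp.coe_add, Pi.add_apply, Finsupp.single_apply]
      by_cases hxa : a = x
      · subst hxa; simp [hab.symm]; omega
      · by_cases hxb : b = x
        · subst hxb; simp [hxa]; omega
        · simp [hxa, hxb]
    simp [if_neg hle, hm]

lemma coeff_sub_quad_mul_divQuad_of_zero {j : σ} (hja : j ≠ a) (hjb : j ≠ b) (hjc : j ≠ c)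
    (f : MvPowerSeries σ O) (hf : ∀ d : σ →₀ ℕ, 2 ≤ d j → coeff d f = 0)
    {d : σ →₀ ℕ} (hd : 2 ≤ d j) :
    coeff d (f - (X a * X b + X c ^ 2) * divQuad a b c f) = 0 := by
  classical
  have hg : ∀ e : σ →₀ ℕ, 2 ≤ e j → coeff e (divQuad a b c f) = 0 := by
    intro e he
    rw [coeff_divQuad]
    refine Finset.sum_eq_zero fun l _ => ?_
    rw [hf _ (by simpa [Finsupp.single_apply, hja.symm, hjb.symm, hjc.symm] using he), mul_zero]
  rw [map_sub, coeff_quad_mul, hf d hd, hg _ (by simpa [Finsupp.single_apply, hja.symm, hjb.symm]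
      using hd), hg _ (by simpa [Finsupp.single_apply, hjc.symm] using hd)]
  simp

end Division

/-- The quadric `S'_0 S'_1 + S'_2 ^ 2`. -/
def quad0 (i : ι) : MvPowerSeries (SVar ι τ) O :=
  X (Sum.inl (i, 0)) * X (Sum.inl (i, 1)) + X (Sum.inl (i, 2)) ^ 2

/-- The equation `qd S - δ ^ 2` of the quadric in shifted coordinates. -/
def quad (i : ι) : MvPowerSeries (SVar ι τ) O :=
  qd (unshift (C δ) fun k => X (Sum.inl (i, k))) - C δ ^ 2

lemma quad_eq (i : ι) :
    (quad δ i : MvPowerSeries (SVar ι τ) O) = quad0 i + C δ * (2 * X (Sum.inl (i, 2))) := by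
  simp [quad, quad0, qd, unshift]
  ring

lemma exists_division [Fintype ι] (f : MvPowerSeries (SVar ι τ) O) :
    ∃ (g : ι → MvPowerSeries (SVar ι τ) O) (r : MvPowerSeries (SVar ι τ) O),
      f = (∑ i, quad0 i * g i) + r ∧ ∀ i (d : SVar ι τ →₀ ℕ), 2 ≤ d (Sum.inl (i, 2)) →
        coeff d r = 0 := by
  classical
  suffices ∀ s : Finset ι, ∃ (g : ι → MvPowerSeries (SVar ι τ) O) (r : MvPowerSeries (SVar ι τ) O),
      f = (∑ i ∈ s, quad0 i * g i) + r ∧ ∀ i ∈ s, ∀ (d : SVar ι τ →₀ ℕ),
        2 ≤ d (Sum.inl (i, 2)) → coeff d r = 0 by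
    obtain ⟨g, r, h, hr⟩ := this Finset.univ
    exact ⟨g, r, h, fun i => hr i (Finset.mem_univ i)⟩
  intro s
  induction s using Finset.induction_on with
  | empty => exact ⟨0, f, by simp, by simp⟩
  | insert i s his ih =>
    obtain ⟨g, r, h, hr⟩ := ih
    refine ⟨Function.update g i (divQuad (Sum.inl (i, 0)) (Sum.inl (i, 1)) (Sum.inl (i, 2)) r),
      r - quad0 i * divQuad (Sum.inl (i, 0)) (Sum.inl (i, 1)) (Sum.inl (i, 2)) r, ?_, ?_⟩
    · rw [Finset.sum_insert his, Function.update_self]
      have hcongr : ∀ j ∈ s, quad0 j * Function.update g i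
          (divQuad (Sum.inl (i, 0)) (Sum.inl (i, 1)) (Sum.inl (i, 2)) r) j = quad0 j * g j := by
        intro j hj
        rw [Function.update_of_ne]
        rintro rfl
        exact his hj
      rw [Finset.sum_congr rfl hcongr, h]
      ring
    · intro j hj d hd
      rcases Finset.mem_insert.mp hj with rfl | hj'
      · exact coeff_sub_quad_mul_divQuad (by simp) (by simp) (by simp) r hd
      · have hne : j ≠ i := fun e => his (e ▸ hj')
        exact coeff_sub_quad_mul_divQuad_of_zero (by simp [hne]) (by simp [hne]) (by simp [hne])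
          r (hr j hj') hd

/-! ## The chart of the quadric -/

/-- Values of the variables `SVar` in the chart. -/
def chartS : SVar ι τ → MvPowerSeries (CVar ι τ) O :=
  Sum.elim (fun v => chartVec (C δ) (X (Sum.inl (v.1, 0))) (X (Sum.inl (v.1, 1))) v.2)
    fun t => X (Sum.inr t)

lemma X_mem_varIdeal {σ A : Type} [CommRing A] (s : σ) :
    (X s : MvPowerSeries σ A) ∈ Deform.varIdeal σ A :=
  Ideal.subset_span ⟨s, rfl⟩

lemma chartS_mem (v : SVar ι τ) : chartS δ v ∈ Deform.varIdeal (CVar ι τ) O := by
  rcases v with ⟨i, k⟩ | t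
  · fin_cases k <;> simp only [chartS, chartVec, Sum.elim_inl] <;>
      simp only [Matrix.cons_val_zero, Matrix.cons_val_one, Matrix.cons_val,
        Fin.zero_eta, Fin.mk_one, Fin.reduceFinMk]
    · exact X_mem_varIdeal _
    · exact Ideal.sub_mem _ (Ideal.mul_mem_left _ _ (X_mem_varIdeal _))
        (Ideal.mul_mem_right _ _ (X_mem_varIdeal _))
    · exact Submodule.neg_mem _ (Ideal.mul_mem_left _ _ (X_mem_varIdeal _))
  · exact X_mem_varIdeal _

variable [Finite ι] [Finite τ]

instance isAdicComplete_varIdeal {σ A : Type} [Finite σ] [CommRing A] :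
    IsAdicComplete (Deform.varIdeal σ A) (MvPowerSeries σ A) :=
  inferInstanceAs (IsAdicComplete (Ideal.span (Set.range (X : σ → MvPowerSeries σ A))) _)

/-- The chart, as a ring homomorphism. -/
def chartHom : MvPowerSeries (SVar ι τ) O →ₐ[O] MvPowerSeries (CVar ι τ) O :=
  Deform.pev (Deform.varIdeal (CVar ι τ) O) (chartS δ) (chartS_mem δ)

@[simp] lemma chartHom_X (v : SVar ι τ) :
    chartHom δ (X v : MvPowerSeries (SVar ι τ) O) = chartS δ v :=
  Deform.pev_X _ _ _ _

lemma algHom_C {σ B : Type} [CommRing B] [Algebra O B] (φ : MvPowerSeries σ O →ₐ[O] B) (a : O) :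
    φ (C a) = algebraMap O B a := by
  rw [show (C a : MvPowerSeries σ O) = algebraMap O (MvPowerSeries σ O) a from rfl, AlgHom.commutes]

lemma algebraMap_eq_C {σ : Type} (a : O) :
    algebraMap O (MvPowerSeries σ O) a = C a := rfl

lemma chartHom_quad (i : ι) : chartHom (τ := τ) δ (quad δ i) = 0 := by
  rw [quad, map_sub, map_pow, map_qd, sub_eq_zero, algHom_C, algebraMap_eq_C]
  conv_lhs => arg 1; ext l; rw [map_unshift, algHom_C, algebraMap_eq_C]
  rw [show (fun l => chartHom δ (X (Sum.inl (i, l)) : MvPowerSeries (SVar ι τ) O)) =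
    chartVec (C δ) (X (Sum.inl (i, 0))) (X (Sum.inl (i, 1))) from funext fun l => by simp [chartS]]
  exact qd_chartVec _ _ _

section Leading

/-- The exponent of the image, modulo `δ`, of a monomial under the chart. -/
def chartExp (v : SVar ι τ) : CVar ι τ →₀ ℕ :=
  Sum.elim (fun v => ![Finsupp.single (Sum.inl (v.1, 1)) 1,
      Finsupp.single (Sum.inl (v.1, 1)) 1 + Finsupp.single (Sum.inl (v.1, 0)) 2,
      Finsupp.single (Sum.inl (v.1, 1)) 1 + Finsupp.single (Sum.inl (v.1, 0)) 1] v.2)
    (fun t => Finsupp.single (Sum.inr t) 1) v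

/-- The sign of the image, modulo `δ`, of a variable under the chart. -/
def chartSign {A : Type} [CommRing A] (v : SVar ι τ) : A :=
  Sum.elim (fun v => ![1, -1, -1] v.2) (fun _ => 1) v

lemma map_chartS (v : SVar ι τ) :
    MvPowerSeries.map (Ideal.Quotient.mk (Ideal.span {δ})) (chartS δ v) =
      monomial (chartExp v) (chartSign v) := by
  have hδ : (MvPowerSeries.map (Ideal.Quotient.mk (Ideal.span {δ})))
      (C δ : MvPowerSeries (CVar ι τ) O) = 0 := by
    rw [map_C, Ideal.Quotient.eq_zero_iff_mem.mpr (Ideal.mem_span_singleton_self δ), map_zero]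
  rcases v with ⟨i, k⟩ | t
  · fin_cases k <;>
      simp [chartS, chartVec, chartExp, chartSign, hδ, X_def, monomial_pow,
        monomial_mul_monomial]
  · simp [chartS, chartExp, chartSign, X_def]

lemma weight_chartExp_injOn [Fintype ι] {d e : SVar ι τ →₀ ℕ}
    (hd : ∀ i, d (Sum.inl (i, 2)) < 2) (he : ∀ i, e (Sum.inl (i, 2)) < 2)
    (h : d.sum (fun v m => m • chartExp v) = e.sum fun v m => m • chartExp v) : d = e := by
  classical
  cases nonempty_fintype τ
  have key : ∀ (d : SVar ι τ →₀ ℕ) (u : CVar ι τ),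
      (d.sum fun v m => m • chartExp v) u = ∑ v, d v * chartExp v u := by
    intro d u
    rw [Finsupp.sum_fintype d _ (fun v => by simp), Finsupp.finsetSum_apply]
    simp
  have evalInl : ∀ (d : SVar ι τ →₀ ℕ) (i : ι) (j : Fin 2),
      (∑ v, d v * chartExp v (Sum.inl (i, j))) =
        if j = 0 then 2 * d (Sum.inl (i, 1)) + d (Sum.inl (i, 2))
        else d (Sum.inl (i, 0)) + d (Sum.inl (i, 1)) + d (Sum.inl (i, 2)) := by
    intro d i j
    rw [Fintype.sum_sum_type, Fintype.sum_prod_type, Finset.sum_eq_single i]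
    · fin_cases j <;> simp [chartExp, Fin.sum_univ_three, Finsupp.single_apply] <;> ring
    · intro i' _ hne
      refine Finset.sum_eq_zero fun k _ => ?_
      fin_cases k <;> simp [chartExp, Finsupp.single_apply, hne]
    · simp
  have evalInr : ∀ (d : SVar ι τ →₀ ℕ) (t : τ),
      (∑ v, d v * chartExp v (Sum.inr t)) = d (Sum.inr t) := by
    intro d t
    rw [Finset.sum_eq_single (Sum.inr t : SVar ι τ)]
    · simp [chartExp]
    · rintro (⟨i, k⟩ | t') _ hne
      · fin_cases k <;> simp [chartExp, Finsupp.single_apply]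
      · have : t' ≠ t := fun e => hne (by rw [e])
        simp [chartExp, Finsupp.single_apply, this]
    · simp
  ext v
  rcases v with ⟨i, k⟩ | t
  · have h0 := DFunLike.congr_fun h (Sum.inl (i, 0))
    have h1 := DFunLike.congr_fun h (Sum.inl (i, 1))
    rw [key, key, evalInl, evalInl] at h0 h1
    simp only [if_true, one_ne_zero, if_false, Fin.isValue] at h0 h1
    have := hd i
    have := he i
    fin_cases k <;> simp only [Fin.zero_eta, Fin.mk_one, Fin.reduceFinMk] <;> omega
  · have h0 := DFunLike.congr_fun h (Sum.inr t)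
    rw [key, key, evalInr, evalInr] at h0
    exact h0

lemma dvd_coeff_of_chartHom {r : MvPowerSeries (SVar ι τ) O}
    (hr : ∀ i (d : SVar ι τ →₀ ℕ), 2 ≤ d (Sum.inl (i, 2)) → coeff d r = 0)
    (h : MvPowerSeries.map (Ideal.Quotient.mk (Ideal.span {δ})) (chartHom δ r) = 0)
    (d : SVar ι τ →₀ ℕ) : δ ∣ coeff d r := by
  classical
  cases nonempty_fintype ι
  cases nonempty_fintype τ
  by_cases hd : ∃ i, 2 ≤ d (Sum.inl (i, 2))
  · obtain ⟨i, hi⟩ := hd
    simp [hr i d hi]
  push Not at hd
  set q := Ideal.Quotient.mk (Ideal.span {δ})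
  set e : (SVar ι τ →₀ ℕ) → (CVar ι τ →₀ ℕ) := fun d => d.sum fun v m => m • chartExp v
  set n := (e d).degree + d.degree + 1 with hn
  have h1 : coeff (e d) (chartHom δ r) =
      coeff (e d) (MvPolynomial.aeval (chartS δ) (truncTotal n r)) := by
    rw [← sub_eq_zero, ← map_sub]
    refine coeff_eq_zero_of_mem_varIdeal_pow (n := n) ?_ (by omega)
    rw [← Ideal.Quotient.mk_eq_mk_iff_sub_mem]
    exact Deform.mk_pev _ _ _ n r
  have h2 : q (coeff (e d) (chartHom δ r)) = 0 := by
    rw [← coeff_map, h, map_zero]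
  rw [h1, MvPolynomial.as_sum (truncTotal n r), map_sum, map_sum, map_sum,
    Finset.sum_eq_single d] at h2
  · rw [coeff_truncTotal _ (by omega)] at h2
    rw [MvPolynomial.aeval_monomial, algebraMap_eq_C, ← coeff_map, map_mul, map_C,
      map_finsuppProd] at h2
    simp only [map_pow, q, map_chartS, monomial_pow] at h2
    rw [Finsupp.prod, prod_monomial, coeff_C_mul,
      show (∑ v ∈ d.support, d v • chartExp v) = e d from rfl, coeff_monomial, if_pos rfl] at h2
    have hu : IsUnit (∏ v ∈ d.support, (chartSign v : O ⧸ Ideal.span {δ}) ^ d v) := by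
      refine IsUnit.prod_iff.mpr fun v _ => IsUnit.pow _ ?_
      rcases v with ⟨i, k⟩ | t
      · fin_cases k <;> simp [chartSign]
      · simp [chartSign]
    rwa [hu.mul_left_eq_zero, Ideal.Quotient.eq_zero_iff_mem, Ideal.mem_span_singleton] at h2
  · intro d' hd' hne
    rw [coeff_truncTotal r (by
      by_contra hc
      exact (MvPolynomial.mem_support_iff.mp hd') (coeff_truncTotal_eq_zero _ (by omega)))]
    by_cases hd2 : ∃ i, 2 ≤ d' (Sum.inl (i, 2))
    · obtain ⟨i, hi⟩ := hd2
      simp [hr i d' hi]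
    push Not at hd2
    rw [MvPolynomial.aeval_monomial, algebraMap_eq_C, ← coeff_map, map_mul, map_C,
      map_finsuppProd]
    simp only [map_pow, q, map_chartS, monomial_pow]
    rw [Finsupp.prod, prod_monomial, coeff_C_mul, coeff_monomial,
      if_neg (show e d ≠ ∑ v ∈ d'.support, d' v • chartExp v from
        fun he => hne (weight_chartExp_injOn hd2 hd he.symm)), mul_zero]
  · intro hd'
    rw [MvPolynomial.notMem_support_iff.mp hd']
    simp

end Leading

variable [IsDomain O]

lemma exists_step (hδ : δ ≠ 0) (f : MvPowerSeries (SVar ι τ) O) (hf : chartHom δ f = 0) :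
    ∃ f₁, f - C δ * f₁ ∈ Ideal.span (Set.range (quad (τ := τ) δ)) ∧ chartHom δ f₁ = 0 := by
  classical
  cases nonempty_fintype ι
  obtain ⟨g, r, hfr, hr⟩ := exists_division f
  set e : MvPowerSeries (SVar ι τ) O := ∑ i, 2 * X (Sum.inl (i, 2)) * g i
  have hf2 : f = (∑ i, quad δ i * g i) + (r - C δ * e) := by
    rw [hfr, Finset.mul_sum]
    have : ∀ i : ι, quad δ i * g i =
        quad0 i * g i + C δ * (2 * X (Sum.inl (i, 2)) * g i) := fun i => by
      rw [quad_eq]; ring
    rw [Finset.sum_congr rfl fun i _ => this i, Finset.sum_add_distrib]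
    ring
  have hc : chartHom δ (r - C δ * e) = 0 := by
    have := hf
    rw [hf2, map_add, map_sum] at this
    simpa [chartHom_quad] using this
  have hdvd : ∀ d, δ ∣ coeff d r := by
    refine dvd_coeff_of_chartHom δ hr ?_
    rw [map_sub, map_mul, sub_eq_zero] at hc
    rw [hc, map_mul, algHom_C, algebraMap_eq_C, map_C,
      Ideal.Quotient.eq_zero_iff_mem.mpr (Ideal.mem_span_singleton_self δ), map_zero, zero_mul]
  choose r₁ hr₁ using hdvd
  let r' : MvPowerSeries (SVar ι τ) O := fun d => r₁ d
  have hr' : r = C δ * r' := by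
    ext d
    rw [coeff_C_mul]
    exact hr₁ d
  refine ⟨r' - e, ?_, ?_⟩
  · have : f - C δ * (r' - e) = ∑ i, quad δ i * g i := by
      rw [hf2, hr']
      ring
    rw [this]
    exact Ideal.sum_mem _ fun i _ => Ideal.mul_mem_right _ _ (Ideal.subset_span ⟨i, rfl⟩)
  · have h0 : (algebraMap O (MvPowerSeries (CVar ι τ) O) δ) * chartHom δ (r' - e) = 0 := by
      rw [← algHom_C (chartHom δ), ← map_mul]
      convert hc using 2
      rw [hr']
      ring
    refine (mul_eq_zero.mp h0).resolve_left fun h => hδ ?_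
    rw [algebraMap_eq_C] at h
    exact C_injective (σ := CVar ι τ) (by rw [h, map_zero])

lemma exists_iterate (hδ : δ ≠ 0) (n : ℕ) (f : MvPowerSeries (SVar ι τ) O)
    (hf : chartHom δ f = 0) :
    ∃ f₁, f - C δ ^ n * f₁ ∈ Ideal.span (Set.range (quad (τ := τ) δ)) ∧ chartHom δ f₁ = 0 := by
  induction n with
  | zero => exact ⟨f, by simp, hf⟩
  | succ n ih =>
    obtain ⟨f₁, h₁, hf₁⟩ := ih
    obtain ⟨f₂, h₂, hf₂⟩ := exists_step δ hδ f₁ hf₁
    refine ⟨f₂, ?_, hf₂⟩
    have := Ideal.add_mem _ h₁ (Ideal.mul_mem_left _ (C δ ^ n) h₂)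
    convert this using 1
    ring

section Points

variable {B : Type} [CommRing B] [IsDomain B] [IsLocalRing B] [IsNoetherianRing B]
  [IsAdicComplete (maximalIdeal B) B] [Algebra O B]

/-- A power series killed by the chart vanishes at every point of the quadric. -/
theorem pev_eq_zero_of_chartHom (hδ : δ ≠ 0) (hδB : algebraMap O B δ ∈ maximalIdeal B)
    (P : SVar ι τ → B) (hP : ∀ v, P v ∈ maximalIdeal B)
    (hq : ∀ i, qd (unshift (algebraMap O B δ) fun k => P (Sum.inl (i, k))) = algebraMap O B δ ^ 2)
    (f : MvPowerSeries (SVar ι τ) O) (hf : chartHom δ f = 0) :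
    Deform.pev (maximalIdeal B) P hP f = 0 := by
  set φ : MvPowerSeries (SVar ι τ) O →ₐ[O] B := Deform.pev (maximalIdeal B) P hP with hφ
  refine Deform.eq_of_forall_sub_mem_pow (maximalIdeal B) fun n => ?_
  obtain ⟨f₁, h₁, -⟩ := exists_iterate δ hδ n f hf
  have hker : Ideal.span (Set.range (quad (τ := τ) δ)) ≤ RingHom.ker φ := by
    rw [Ideal.span_le]
    rintro _ ⟨i, rfl⟩
    rw [SetLike.mem_coe, RingHom.mem_ker, quad, map_sub, map_pow, map_qd, sub_eq_zero, algHom_C]
    conv_lhs => arg 1; ext l; rw [map_unshift, algHom_C]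
    simp only [hφ, Deform.pev_X]
    exact hq i
  have h2 := hker h₁
  rw [RingHom.mem_ker, map_sub, map_mul, map_pow, algHom_C, sub_eq_zero] at h2
  rw [sub_zero, h2]
  exact Ideal.mul_mem_right _ _ (Ideal.pow_mem_pow hδB n)

end Points

end Fermat.Agent.Ribet
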