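import Fermat.Agent.Ribet.ThirdRing

/-!
# The local ring of "Ihara avoidance" as a complete local domain
-/

set_option autoImplicit false

noncomputable section

namespace Fermat.Agent.Ribet

open MvPowerSeries IsLocalRing

variable {ι τ : Type} [Finite ι] [Finite τ] {O : Type} [CommRing O] (δ : O)

variable (ι τ) in
/-- The ideal of relations of the local ring. -/
def locKer : Ideal (MvPowerSeries (LVar ι τ) O) := RingHom.ker (locHom (τ := τ) δ)

variable (ι τ) in
/-- The local ring of "Ihara avoidance". -/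
abbrev LocalRing : Type := MvPowerSeries (LVar ι τ) O ⧸ locKer ι τ δ

variable [IsDomain O]

instance locKer_isPrime : (locKer ι τ δ).IsPrime := by
  have : IsDomain (MvPowerSeries (CVar ι (ι ⊕ τ)) O) := NoZeroDivisors.to_isDomain _
  exact RingHom.ker_isPrime _

instance : IsDomain (LocalRing ι τ δ) := Ideal.Quotient.isDomain _

/-- The images of the variables. -/
def gen (v : LVar ι τ) : LocalRing ι τ δ := Ideal.Quotient.mk _ (X v)

omit [IsDomain O] in
lemma locHom_X (v : LVar ι τ) :
    locHom δ (X v : MvPowerSeries (LVar ι τ) O) = chartHom δ (splitVal δ v) := by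
  simp [locHom]

lemma isPoint_gen : IsPoint (algebraMap O (LocalRing ι τ δ) δ) (gen δ) := by
  intro i
  have hδ : algebraMap O (LocalRing ι τ δ) δ = Ideal.Quotient.mk _ (C δ) := rfl
  set s : Fin 3 → MvPowerSeries (LVar ι τ) O := fun a => X (Sum.inl (i, false, a)) with hs
  have hsC : ∀ a, sCoord (gen (τ := τ) δ) i a = Ideal.Quotient.mk _ (s a) := fun a => rfl
  have hu : ∀ a, unshift (algebraMap O (LocalRing ι τ δ) δ) (sCoord (gen δ) i) a =
      Ideal.Quotient.mk _ (unshift (C δ) s a) := by
    intro a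
    rw [hδ, map_unshift]
    rfl
  have hloc : (fun a => locHom δ (s a)) =
      chartVec (C δ) (X (Sum.inl (i, 0)) : MvPowerSeries (CVar ι (ι ⊕ τ)) O)
        (X (Sum.inl (i, 1))) := by
    funext a
    rw [hs, locHom_X]
    simp [splitVal, chartS]
  refine ⟨?_, fun a b => ?_⟩
  · rw [show unshift (algebraMap O (LocalRing ι τ δ) δ) (sCoord (gen δ) i) =
      fun a => Ideal.Quotient.mk (locKer ι τ δ) (unshift (C δ) s a) from funext hu, ← map_qd, hδ,
      ← map_pow, Ideal.Quotient.mk_eq_mk_iff_sub_mem, locKer, RingHom.mem_ker, map_sub, map_pow,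
      map_qd, sub_eq_zero]
    rw [show (fun l => locHom δ (unshift (C δ) s l)) =
      unshift (C δ) (fun a => locHom δ (s a)) from funext fun l => by
        rw [map_unshift, algHom_C, algebraMap_eq_C], algHom_C, algebraMap_eq_C, hloc]
    exact qd_chartVec _ _ _
  · rw [hu, hu]
    show Ideal.Quotient.mk _ (unshift (C δ) s a) * Ideal.Quotient.mk _ (X (Sum.inl (i, true, b))) =
      Ideal.Quotient.mk _ (unshift (C δ) s b) * Ideal.Quotient.mk _ (X (Sum.inl (i, true, a)))
    rw [← map_mul, ← map_mul, Ideal.Quotient.mk_eq_mk_iff_sub_mem, locKer, RingHom.mem_ker,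
      map_sub, map_mul, map_mul, sub_eq_zero]
    have hF : ∀ c, locHom δ (X (Sum.inl (i, true, c)) : MvPowerSeries (LVar ι τ) O) =
        X (Sum.inr (Sum.inl i)) * locHom δ (unshift (C δ) s c) := by
      intro c
      rw [locHom_X, map_unshift, algHom_C, algebraMap_eq_C, hloc]
      simp only [splitVal, Sum.elim_inl, cond_true, map_mul, map_unshift, chartHom_X]
      rw [algHom_C, algebraMap_eq_C]
      simp [chartS]
    rw [hF, hF]
    ring

variable [IsLocalRing O]

instance : IsLocalRing (LocalRing ι τ δ) :=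
  .of_surjective' (Ideal.Quotient.mk _) Ideal.Quotient.mk_surjective

lemma maximalIdeal_localRing :
    maximalIdeal (LocalRing ι τ δ) =
      (maximalIdeal (MvPowerSeries (LVar ι τ) O)).map (Ideal.Quotient.mk _) :=
  (IsLocalRing.map_maximalIdeal_of_surjective _ Ideal.Quotient.mk_surjective).symm

instance isPrecomplete_localRing [IsNoetherianRing O] [IsAdicComplete (maximalIdeal O) O] :
    IsPrecomplete (maximalIdeal (LocalRing ι τ δ)) (LocalRing ι τ δ) := by
  rw [maximalIdeal_localRing]
  exact Deform.isPrecomplete_map_of_surjective _ Ideal.Quotient.mk_surjective _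

lemma gen_mem (v : LVar ι τ) : gen δ v ∈ maximalIdeal (LocalRing ι τ δ) := by
  rw [maximalIdeal_localRing]
  exact Ideal.mem_map_of_mem _ (X_mem_maximalIdeal v)

section Lift

variable {B : Type} [CommRing B] [IsDomain B] [IsLocalRing B] [IsNoetherianRing B]
  [IsAdicComplete (maximalIdeal B) B] [Algebra O B]

/-- The homomorphism out of the local ring defined by a point. -/
def lift (hδ : δ ≠ 0) (hδB : algebraMap O B δ ∈ maximalIdeal B) (hδB0 : algebraMap O B δ ≠ 0)
    (P : LVar ι τ → B) (hP : ∀ v, P v ∈ maximalIdeal B) (hpt : IsPoint (algebraMap O B δ) P) :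
    LocalRing ι τ δ →ₐ[O] B :=
  Ideal.Quotient.liftₐ _ (Deform.pev (maximalIdeal B) P hP)
    fun f hf => pev_eq_zero_of_isPoint δ hδ hδB hδB0 P hP hpt f hf

@[simp] lemma lift_gen (hδ : δ ≠ 0) (hδB : algebraMap O B δ ∈ maximalIdeal B)
    (hδB0 : algebraMap O B δ ≠ 0) (P : LVar ι τ → B) (hP : ∀ v, P v ∈ maximalIdeal B)
    (hpt : IsPoint (algebraMap O B δ) P) (v : LVar ι τ) :
    lift δ hδ hδB hδB0 P hP hpt (gen δ v) = P v := by
  show Deform.pev (maximalIdeal B) P hP (X v) = P v
  exact Deform.pev_X _ _ _ _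

end Lift

/-- The product of `-det F_i`. -/
def prodQdF [Fintype ι] : LocalRing ι τ δ := ∏ i, qd (fCoord (gen δ) i)

/-- **The test point**: `∏ᵢ det Fᵢ` is not nilpotent modulo the maximal ideal of the base. -/
theorem prodQdF_pow_notMem [Fintype ι] [IsNoetherianRing O]
    [IsAdicComplete (maximalIdeal O) O] (hδ : δ ∈ maximalIdeal O) (hδ0 : δ ≠ 0) (n : ℕ) :
    prodQdF (τ := τ) δ ^ n ∉ (maximalIdeal O).map (algebraMap O (LocalRing ι τ δ)) := by
  classical
  intro hmem
  let B := MvPowerSeries (Fin 1) O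
  have : IsDomain B := NoZeroDivisors.to_isDomain _
  let P : LVar ι τ → B :=
    Sum.elim (fun v => if v.2.1 = true ∧ v.2.2 = 2 then X 0 else 0) fun _ => 0
  have hP : ∀ v, P v ∈ maximalIdeal B := by
    rintro (⟨i, b, a⟩ | t)
    · simp only [P, Sum.elim_inl]
      split_ifs
      · exact X_mem_maximalIdeal _
      · exact zero_mem _
    · exact zero_mem _
  have hδB : algebraMap O B δ ∈ maximalIdeal B := C_mem_maximalIdeal hδ
  have hδB0 : algebraMap O B δ ≠ 0 := fun h =>
    hδ0 (C_injective (σ := Fin 1) (h.trans (map_zero _).symm))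
  have hpt : IsPoint (algebraMap O B δ) P := by
    intro i
    refine ⟨by simp [qd, unshift, sCoord, P], fun a b => ?_⟩
    fin_cases a <;> fin_cases b <;> simp [unshift, sCoord, fCoord, P]
  let φ := lift δ hδ0 hδB hδB0 P hP hpt
  let ψ : LocalRing ι τ δ →+* MvPowerSeries (Fin 1) (ResidueField O) :=
    (MvPowerSeries.map (residue O)).comp φ.toRingHom
  have hzero : ∀ a ∈ maximalIdeal O, ψ (algebraMap O _ a) = 0 := by
    intro a ha
    show MvPowerSeries.map (residue O) (φ (algebraMap O _ a)) = 0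
    rw [AlgHom.commutes]
    show MvPowerSeries.map (residue O) (C a) = 0
    rw [map_C, (residue_eq_zero_iff a).mpr ha, map_zero]
  have hle : (maximalIdeal O).map (algebraMap O (LocalRing ι τ δ)) ≤ RingHom.ker ψ := by
    rw [Ideal.map_le_iff_le_comap]
    exact hzero
  have h := hle hmem
  rw [RingHom.mem_ker, map_pow, prodQdF, map_prod] at h
  have hval : ∀ i, ψ (qd (fCoord (gen δ) i)) = X 0 ^ 2 := by
    intro i
    rw [map_qd]
    simp [qd, fCoord, ψ, φ, P]
  rw [Finset.prod_congr rfl fun i _ => hval i, Finset.prod_const, ← pow_mul, ← pow_mul] at h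
  have := congrArg (coeff (Finsupp.single (0 : Fin 1) (2 * ((Finset.univ : Finset ι).card * n)))) h
  rw [X_pow_eq, coeff_monomial_same, map_zero] at this
  · exact one_ne_zero this

/-- **Dimension**: at most `1 + 3 #ι + #τ`. -/
theorem ringKrullDim_le [Fintype ι] [Fintype τ] [IsDiscreteValuationRing O]
    [IsAdicComplete (maximalIdeal O) O] (hδ : δ ∈ maximalIdeal O) :
    ringKrullDim (LocalRing ι τ δ) ≤ (1 + 3 * Fintype.card ι + Fintype.card τ : ℕ) := by
  classical
  obtain ⟨ϖ, hϖ⟩ := IsDiscreteValuationRing.exists_irreducible O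
  set R := LocalRing ι τ δ
  let ext : Option (ι × Fin 3 ⊕ τ) → R := fun o => o.elim (algebraMap O R ϖ)
    (Sum.elim (fun v => ![fCoord (gen δ) v.1 0 - sCoord (gen δ) v.1 1,
      fCoord (gen δ) v.1 1 - sCoord (gen δ) v.1 0, fCoord (gen δ) v.1 2] v.2)
      fun t => gen δ (Sum.inr t))
  let s : Finset R := Finset.univ.image ext
  set J := Ideal.span (s : Set R)
  have hmemJ : ∀ o, ext o ∈ J := fun o => Ideal.subset_span (by simp [s])
  have hmO : ∀ a ∈ maximalIdeal O, algebraMap O R a ∈ J := by
    intro a ha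
    rw [hϖ.maximalIdeal_eq, Ideal.mem_span_singleton] at ha
    obtain ⟨c, rfl⟩ := ha
    rw [map_mul]
    exact J.mul_mem_right _ (hmemJ none)
  set π := Ideal.Quotient.mk J.radical
  have hJ0 : ∀ {x : R}, x ∈ J → π x = 0 := fun hx =>
    Ideal.Quotient.eq_zero_iff_mem.mpr (Ideal.le_radical hx)
  have : IsReduced (R ⧸ J.radical) :=
    (Ideal.isRadical_iff_quotient_reduced _).mp J.radical_isRadical
  have hzero : ∀ v, π (gen δ v) = 0 := by
    rintro (⟨i, b, a⟩ | t)
    · obtain ⟨hq, hpar⟩ := isPoint_gen (τ := τ) δ i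
      have hδ0 : π (algebraMap O R δ) = 0 := hJ0 (hmO δ hδ)
      have hu : ∀ c, π (unshift (algebraMap O R δ) (sCoord (gen δ) i) c) =
          π (sCoord (gen δ) i c) := by
        intro c
        fin_cases c <;> simp [unshift, hδ0]
      have h0 := hJ0 (hmemJ (some (Sum.inl (i, 0))))
      have h1 := hJ0 (hmemJ (some (Sum.inl (i, 1))))
      have h2 := hJ0 (hmemJ (some (Sum.inl (i, 2))))
      simp [ext, sub_eq_zero] at h0 h1 h2
      have hq' := congrArg π hq
      have p01 := congrArg π (hpar 0 1)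
      have p02 := congrArg π (hpar 0 2)
      have p12 := congrArg π (hpar 1 2)
      rw [map_qd, map_pow, hδ0] at hq'
      rw [map_mul, map_mul, hu, hu, h0, h1] at p01
      rw [map_mul, map_mul, hu, hu, h2, h0] at p02
      rw [map_mul, map_mul, hu, hu, h2, h1] at p12
      simp only [qd] at hq'
      rw [hu, hu, hu] at hq'
      set a0 := π (sCoord (gen δ) i 0)
      set a1 := π (sCoord (gen δ) i 1)
      set a2 := π (sCoord (gen δ) i 2)
      have e2 : a2 = 0 :=
        eq_zero_of_pow_eq_zero (n := 3) (by linear_combination a2 * hq' + a0 * p02)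
      have e01 : a0 * a1 = 0 := by rw [e2] at hq'; linear_combination hq'
      have e0 : a0 = 0 :=
        eq_zero_of_pow_eq_zero (n := 3) (by linear_combination a0 * p01 + a1 * e01)
      have e1 : a1 = 0 :=
        eq_zero_of_pow_eq_zero (n := 3) (by linear_combination (-a1) * p01 + a0 * e01)
      cases b <;> fin_cases a
      · exact e0
      · exact e1
      · exact e2
      · exact h0.trans e1
      · exact h1.trans e0
      · exact h2
    · exact hJ0 (hmemJ (some (Sum.inr t)))
  have hm : maximalIdeal R ≤ J.radical := by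
    rw [maximalIdeal_localRing, maximalIdeal_mvPowerSeries, Ideal.map_sup, sup_le_iff,
      Ideal.map_map, Ideal.map_le_iff_le_comap]
    refine ⟨fun a ha => Ideal.le_radical (hmO a ha), ?_⟩
    rw [Deform.varIdeal, Ideal.map_span, Ideal.span_le]
    rintro _ ⟨_, ⟨v, rfl⟩, rfl⟩
    exact Ideal.Quotient.eq_zero_iff_mem.mp (hzero v)
  have hJle : J ≤ maximalIdeal R := by
    rw [Ideal.span_le]
    intro x hx
    simp only [s, Finset.coe_image, Finset.coe_univ, Set.image_univ] at hx
    obtain ⟨o, rfl⟩ := hx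
    rcases o with _ | ⟨i, c⟩ | t
    · rw [SetLike.mem_coe, maximalIdeal_localRing]
      exact Ideal.mem_map_of_mem _ (C_mem_maximalIdeal
        ((IsLocalRing.mem_maximalIdeal _).mpr hϖ.not_isUnit))
    · have h0 : ∀ v, gen δ v ∈ maximalIdeal R := gen_mem δ
      fin_cases c
      · exact sub_mem (h0 _) (h0 _)
      · exact sub_mem (h0 _) (h0 _)
      · exact h0 _
    · exact gen_mem δ _
  have hmin : maximalIdeal R ∈ J.minimalPrimes :=
    ⟨⟨inferInstance, hJle⟩, fun P hP _ => hm.trans (hP.1.radical_le_iff.mpr hP.2)⟩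
  rw [← IsLocalRing.maximalIdeal_height_eq_ringKrullDim]
  have hcard : s.card ≤ 1 + 3 * Fintype.card ι + Fintype.card τ := by
    refine Finset.card_image_le.trans ?_
    simp [Fintype.card_option, Fintype.card_sum, Fintype.card_prod]
    omega
  exact WithBot.coe_le_coe.mpr ((Ideal.height_le_card_of_mem_minimalPrimes_span_finset hmin).trans
    (Nat.cast_le.mpr hcard))

end Fermat.Agent.Ribet
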