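import Fermat.Agent.Ribet.ThirdLocalRing

/-!
# The local ring of "Ihara avoidance": points, test point and dimension
-/

set_option autoImplicit false

noncomputable section

namespace Fermat.Agent.Ribet

open MvPowerSeries IsLocalRing

variable {ι τ : Type} [Finite ι] [Finite τ] {O : Type} [CommRing O] (δ : O)

/-- Coordinates of `S'_i` in a family of values of the variables. -/
def sCoord {B : Type} (P : LVar ι τ → B) (i : ι) (k : Fin 3) : B := P (Sum.inl (i, false, k))

/-- Coordinates of `F_i` in a family of values of the variables. -/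
def fCoord {B : Type} (P : LVar ι τ → B) (i : ι) (k : Fin 3) : B := P (Sum.inl (i, true, k))

/-- `qd S = δ ^ 2` and `F ∥ S`, where `S = S' + (0, 0, δ)`. -/
def IsPoint {B : Type} [CommRing B] (δB : B) (P : LVar ι τ → B) : Prop :=
  ∀ i, qd (unshift δB (sCoord P i)) = δB ^ 2 ∧
    ∀ k l, unshift δB (sCoord P i) k * fCoord P i l = unshift δB (sCoord P i) l * fCoord P i k

/-- Images of the variables under `F = T • S`. -/
def splitVal : LVar ι τ → MvPowerSeries (SVar ι (ι ⊕ τ)) O :=
  Sum.elim (fun v => cond v.2.1
      (X (Sum.inr (Sum.inl v.1)) * unshift (C δ) (fun l => X (Sum.inl (v.1, l))) v.2.2)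
      (X (Sum.inl (v.1, v.2.2))))
    fun t => X (Sum.inr (Sum.inr t))

lemma splitVal_mem (v : LVar ι τ) : splitVal δ v ∈ Deform.varIdeal (SVar ι (ι ⊕ τ)) O := by
  rcases v with ⟨i, b, k⟩ | t
  · cases b
    · exact X_mem_varIdeal _
    · exact Ideal.mul_mem_right _ _ (X_mem_varIdeal _)
  · exact X_mem_varIdeal _

/-- The substitution `F = T • S`. -/
def splitHom : MvPowerSeries (LVar ι τ) O →ₐ[O] MvPowerSeries (SVar ι (ι ⊕ τ)) O :=
  Deform.pev _ (splitVal δ) (splitVal_mem δ)

@[simp] lemma splitHom_X (v : LVar ι τ) :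
    splitHom δ (X v : MvPowerSeries (LVar ι τ) O) = splitVal δ v :=
  Deform.pev_X _ _ _ _

/-- The defining homomorphism of the local ring. -/
def locHom : MvPowerSeries (LVar ι τ) O →ₐ[O] MvPowerSeries (CVar ι (ι ⊕ τ)) O :=
  (chartHom δ).comp (splitHom δ)

/-! ## From the graded identity to the value -/

section Graded

variable {σ : Type} [Finite σ] {B : Type} [CommRing B] [IsLocalRing B] [IsNoetherianRing B]
  [IsAdicComplete (maximalIdeal B) B] [Algebra O B]

lemma monomial_mem_maximalIdeal (w : ι →₀ ℕ) {b : B} (hb : b ∈ maximalIdeal B) :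
    (monomial w b : MvPowerSeries ι B) ∈ maximalIdeal (MvPowerSeries ι B) := by
  have := monomial_mem_pow (σ := ι) (n := 1) (d := w) (b := b)
    (Ideal.pow_le_pow_right (by omega : 1 - w.degree ≤ 1) (by simpa using hb))
  simpa using this

lemma pev_eq_zero_of_graded (P : σ → B) (hP : ∀ v, P v ∈ maximalIdeal B) (w : σ → ι →₀ ℕ)
    (hw : ∀ v, (w v).degree ≤ 1) (f : MvPowerSeries σ O)
    (h : Deform.pev (maximalIdeal (MvPowerSeries ι B)) (fun v => monomial (w v) (P v))
      (fun v => monomial_mem_maximalIdeal (w v) (hP v)) f = 0) :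
    Deform.pev (maximalIdeal B) P hP f = 0 := by
  classical
  refine Deform.eq_of_forall_sub_mem_pow (maximalIdeal B) fun k => ?_
  set p := truncTotal (2 * k) f
  have hP' := Ideal.Quotient.mk_eq_mk_iff_sub_mem _ _ |>.mp
    (Deform.mk_pev (maximalIdeal B) P hP (2 * k) f)
  have hQ := Ideal.Quotient.mk_eq_mk_iff_sub_mem _ _ |>.mp
    (Deform.mk_pev (maximalIdeal (MvPowerSeries ι B)) (fun v => monomial (w v) (P v))
      (fun v => monomial_mem_maximalIdeal (w v) (hP v)) (2 * k) f)
  rw [h, zero_sub, Submodule.neg_mem_iff] at hQ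
  suffices h2 : MvPolynomial.aeval P p ∈ maximalIdeal B ^ k by
    rw [sub_zero, ← sub_add_cancel (Deform.pev (maximalIdeal B) P hP f) (MvPolynomial.aeval P p)]
    exact Ideal.add_mem _ (Ideal.pow_le_pow_right (by omega : k ≤ 2 * k) hP') h2
  set wt : (σ →₀ ℕ) → (ι →₀ ℕ) := fun d => d.sum fun v m => m • w v
  set a : (σ →₀ ℕ) → B := fun d => algebraMap O B (p.coeff d) * d.prod fun v m => P v ^ m
  have hmon : ∀ d, MvPolynomial.aeval (fun v => (monomial (w v) (P v) : MvPowerSeries ι B))
      (MvPolynomial.monomial d (p.coeff d)) = monomial (wt d) (a d) := by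
    intro d
    rw [MvPolynomial.aeval_monomial, MvPowerSeries.algebraMap_apply]
    simp only [monomial_pow, Finsupp.prod]
    rw [prod_monomial, ← monomial_zero_eq_C_apply, monomial_mul_monomial, zero_add]
    rfl
  have hsumP : MvPolynomial.aeval P p = ∑ d ∈ p.support, a d := by
    conv_lhs => rw [MvPolynomial.as_sum p, map_sum]
    exact Finset.sum_congr rfl fun d _ => MvPolynomial.aeval_monomial _ _ _
  rw [hsumP, ← Finset.sum_fiberwise_of_maps_to
    (fun d hd => Finset.mem_image_of_mem wt hd) a]
  refine Ideal.sum_mem _ fun e _ => ?_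
  by_cases he : k ≤ e.degree
  · refine Ideal.sum_mem _ fun d hd => ?_
    have hde : wt d = e := (Finset.mem_filter.mp hd).2
    suffices hk : k ≤ d.degree ∧ (d.prod fun v m => P v ^ m) ∈ maximalIdeal B ^ d.degree from
      Ideal.mul_mem_left _ _ (Ideal.pow_le_pow_right hk.1 hk.2)
    refine ⟨?_, ?_⟩
    · have h3 : (wt d).degree ≤ d.degree := by
        simp only [wt, Finsupp.sum, map_sum, Finsupp.degree_apply d]
        refine Finset.sum_le_sum fun v _ => ?_
        rw [map_nsmul, smul_eq_mul]
        exact (Nat.mul_le_mul_left _ (hw v)).trans (mul_one _).le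
      rw [hde] at h3
      omega
    · rw [Finsupp.degree_apply, ← Finset.prod_pow_eq_pow_sum]
      exact Ideal.prod_mem_prod fun v _ => Ideal.pow_mem_pow (hP v) _
  · have hc := coeff_mem_pow_of_mem_pow hQ e
    rw [show MvPolynomial.aeval (fun v => (monomial (w v) (P v) : MvPowerSeries ι B)) p =
      ∑ d ∈ p.support, monomial (wt d) (a d) by
        conv_lhs => rw [MvPolynomial.as_sum p, map_sum]
        exact Finset.sum_congr rfl fun d _ => hmon d, map_sum] at hc
    simp only [coeff_monomial] at hc
    rw [Finset.sum_filter]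
    simp only [eq_comm (a := e)] at hc
    exact Ideal.pow_le_pow_right (by omega) hc

end Graded

/-! ## The vanishing theorem -/

section Rescale

variable {B : Type} [CommRing B] [Algebra O B]

lemma rescale_C (a : ι → B) (b : B) : rescale a (C b : MvPowerSeries ι B) = C b := by
  classical
  ext n
  rw [coeff_rescale, coeff_C]
  split_ifs with h <;> simp [h]

lemma rescale_X (a : ι → B) (i : ι) :
    rescale a (X i : MvPowerSeries ι B) = C (a i) * X i := by
  classical
  ext n
  rw [coeff_rescale, coeff_C_mul, coeff_X]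
  split_ifs with h <;> simp [h]

/-- Rescaling, as a homomorphism over the base. -/
def rescaleHom (a : ι → B) : MvPowerSeries ι B →ₐ[O] MvPowerSeries ι B where
  __ := rescale a
  commutes' r := by
    simp [MvPowerSeries.algebraMap_apply, rescale_C]

@[simp] lemma rescaleHom_apply (a : ι → B) (f : MvPowerSeries ι B) :
    rescaleHom (O := O) a f = rescale a f := rfl

end Rescale

section Vanishing

variable [IsDomain O] {B : Type} [CommRing B] [IsDomain B] [IsLocalRing B] [IsNoetherianRing B]
  [IsAdicComplete (maximalIdeal B) B] [Algebra O B]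

/-- **Vanishing at points**: power series killed by `locHom` vanish at every point. -/
theorem pev_eq_zero_of_isPoint (hδ : δ ≠ 0) (hδB : algebraMap O B δ ∈ maximalIdeal B)
    (hδB0 : algebraMap O B δ ≠ 0) (P : LVar ι τ → B) (hP : ∀ v, P v ∈ maximalIdeal B)
    (hpt : IsPoint (algebraMap O B δ) P) (f : MvPowerSeries (LVar ι τ) O) (hf : locHom δ f = 0) :
    Deform.pev (maximalIdeal B) P hP f = 0 := by
  classical
  cases nonempty_fintype ι
  have : IsDomain (MvPowerSeries ι B) := NoZeroDivisors.to_isDomain _
  set δB := algebraMap O B δ with hδBdef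
  set M := maximalIdeal (MvPowerSeries ι B)
  -- the point of the quadric with free parameters
  let P' : SVar ι (ι ⊕ τ) → MvPowerSeries ι B :=
    Sum.elim (fun v => C (sCoord P v.1 v.2)) (Sum.elim X fun t => C (P (Sum.inr t)))
  have hP' : ∀ v, P' v ∈ M := by
    rintro (⟨i, k⟩ | i | t)
    · exact C_mem_maximalIdeal (hP _)
    · exact X_mem_maximalIdeal i
    · exact C_mem_maximalIdeal (hP _)
  have hδ' : algebraMap O (MvPowerSeries ι B) δ = C δB := MvPowerSeries.algebraMap_apply
  have hg : Deform.pev M P' hP' (splitHom δ f) = 0 := by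
    refine pev_eq_zero_of_chartHom δ hδ (hδ'.symm ▸ C_mem_maximalIdeal hδB) P' hP'
      (fun i => ?_) _ hf
    rw [hδ', ← map_pow]
    rw [show (fun k => P' (Sum.inl (i, k))) = fun k => (C (sCoord P i k) : MvPowerSeries ι B)
      from rfl, ← (hpt i).1, map_qd]
    congr 1
    funext k
    rw [map_unshift]
  -- some coordinate of each `S` is non-zero
  have hne : ∀ i, ∃ r, unshift δB (sCoord P i) r ≠ 0 := by
    intro i
    by_contra h
    push Not at h
    have h2 := (hpt i).1
    rw [qd, h 0, h 1, h 2] at h2
    exact hδB0 (pow_eq_zero_iff two_ne_zero |>.mp (by simpa using h2.symm))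
  choose r hr using hne
  -- `f (S, T F)`
  let w : LVar ι τ → ι →₀ ℕ :=
    Sum.elim (fun v => cond v.2.1 (Finsupp.single v.1 1) 0) fun _ => 0
  let Q : LVar ι τ → MvPowerSeries ι B := fun v => monomial (w v) (P v)
  have hQ : ∀ v, Q v ∈ M := fun v => monomial_mem_maximalIdeal (w v) (hP v)
  let c : ι → B := fun i => unshift δB (sCoord P i) (r i)
  let d : ι → B := fun i => fCoord P i (r i)
  have key : (rescaleHom (O := O) c).comp (Deform.pev M Q hQ) =
      ((rescaleHom (O := O) d).comp (Deform.pev M P' hP')).comp (splitHom δ) := by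
    refine Deform.algHom_ext_of_X M _ _ (fun v => ?_) (fun v => ?_)
    · simp only [AlgHom.comp_apply, Deform.pev_X, rescaleHom_apply]
      rw [mem_maximalIdeal_iff_constantCoeff, ← coeff_zero_eq_constantCoeff, coeff_rescale,
        coeff_zero_eq_constantCoeff]
      exact Ideal.mul_mem_left _ _ ((mem_maximalIdeal_iff_constantCoeff _).mp (hQ v))
    · simp only [AlgHom.comp_apply, Deform.pev_X, rescaleHom_apply, splitHom_X]
      rcases v with ⟨i, _ | _, k⟩ | t
      · rw [show Q (Sum.inl (i, false, k)) = C (sCoord P i k) from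
            monomial_zero_eq_C_apply _,
          show splitVal δ (Sum.inl (i, false, k)) = X (Sum.inl (i, k)) from rfl, Deform.pev_X,
          show P' (Sum.inl (i, k)) = C (sCoord P i k) from rfl, rescale_C, rescale_C]
      · have e1 : Q (Sum.inl (i, true, k)) = C (fCoord P i k) * X i := by
          rw [← monomial_zero_eq_C_apply, X_def, monomial_mul_monomial, zero_add, mul_one]
          rfl
        have e2 : (fun l => (C (sCoord P i l) : MvPowerSeries ι B)) =
            fun l => Deform.pev M P' hP' (X (Sum.inl (i, l)) : MvPowerSeries (SVar ι (ι ⊕ τ)) O) :=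
          funext fun l => by simp [Deform.pev_X, P']
        rw [e1, show splitVal δ (Sum.inl (i, true, k)) = X (Sum.inr (Sum.inl i)) *
          unshift (C δ) (fun l => X (Sum.inl (i, l))) k from rfl,
          map_mul (Deform.pev M P' hP'), map_unshift,
          Deform.pev_X, algHom_C, hδ', ← e2, ← map_unshift (C : B →+* MvPowerSeries ι B),
          show P' (Sum.inr (Sum.inl i)) = X i from rfl, map_mul, map_mul, rescale_C, rescale_C,
          rescale_X, rescale_X, ← mul_assoc, mul_right_comm (C (d i)) (X i), ← map_mul, ← map_mul]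
        congr 2
        show fCoord P i k * unshift δB (sCoord P i) (r i) =
          fCoord P i (r i) * unshift δB (sCoord P i) k
        linear_combination (hpt i).2 (r i) k
      · rw [show Q (Sum.inr t) = C (P (Sum.inr t)) from monomial_zero_eq_C_apply _,
          show splitVal δ (Sum.inr t : LVar ι τ) = X (Sum.inr (Sum.inr t)) from rfl, Deform.pev_X,
          show P' (Sum.inr (Sum.inr t)) = C (P (Sum.inr t)) from rfl, rescale_C, rescale_C]
  have h0 := DFunLike.congr_fun key f
  simp only [AlgHom.comp_apply, hg, map_zero, rescaleHom_apply] at h0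
  refine pev_eq_zero_of_graded P hP w (fun v => ?_) f ?_
  · rcases v with ⟨i, _ | _, k⟩ | t <;> simp [w]
  · ext n
    have := congrArg (coeff n) h0
    rw [coeff_rescale, map_zero, mul_eq_zero] at this
    rcases this with h | h
    · rw [Finsupp.prod, Finset.prod_eq_zero_iff] at h
      obtain ⟨i, _, hi⟩ := h
      exact absurd (pow_eq_zero_iff'.mp hi).1 (hr i)
    · rw [map_zero]
      exact h

end Vanishing

end Fermat.Agent.Ribet
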