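import Mathlib.LinearAlgebra.Matrix.Adjugate
import Mathlib.LinearAlgebra.Matrix.Trace
import Mathlib.LinearAlgebra.Matrix.Notation
import Mathlib.RingTheory.LocalRing.RingHom.Basic
import Mathlib.Tactic.LinearCombination
import Mathlib.Tactic.NoncommRing
import Fermat.Agent.CondLevel.OddIrred

/-!
# An odd two dimensional representation over the ring of its traces

If `R` embeds in a product of rings over which there are representations with traces `t` and
determinants `d` in `R`, with an involution `c` of determinant `-1`, and residually absolutely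
irreducible, then Wiles' formulas define a representation over `R`.
-/

set_option autoImplicit false

noncomputable section

namespace Fermat.Agent.Ribet.TraceRep

open Matrix

section Identities

variable {O : Type*} [CommRing O]

theorem idem_sandwich {P : Matrix (Fin 2) (Fin 2) O} (hd : det P = 0)
    (A : Matrix (Fin 2) (Fin 2) O) : P * A * P = trace (P * A) • P := by
  rw [det_fin_two] at hd
  ext i j
  fin_cases i <;> fin_cases j <;>
    simp [mul_apply, Fin.sum_univ_two, trace_fin_two]
  · linear_combination (-A 1 1) * hd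
  · linear_combination A 0 1 * hd
  · linear_combination A 1 0 * hd
  · linear_combination (-A 0 0) * hd

theorem trace_eq_zero_of_involution {C : Matrix (Fin 2) (Fin 2) O} (h : C * C = 1)
    (hd : det C = -1) : trace C = 0 := by
  have h1 : trace C • C = 0 := by
    have h2 : C * (C + adjugate C) = C * (trace C • 1) := by
      congr 1
      ext i j
      fin_cases i <;> fin_cases j <;> simp [adjugate_fin_two, trace_fin_two]
      all_goals ring
    rw [mul_add, mul_adjugate, h, hd, neg_smul, one_smul, add_neg_cancel, mul_smul_comm,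
      mul_one] at h2
    exact h2.symm
  have h3 : trace C • (1 : Matrix (Fin 2) (Fin 2) O) = 0 := by
    rw [← h, ← smul_mul_assoc, h1, zero_mul]
  simpa using congrFun (congrFun h3 0) 0

/-- The pair of complementary idempotents of an involution of determinant `-1`. -/
structure IsPair (P Q : Matrix (Fin 2) (Fin 2) O) : Prop where
  add_eq : P + Q = 1
  det_left : det P = 0
  det_right : det Q = 0

variable {P Q : Matrix (Fin 2) (Fin 2) O} (hPQ : IsPair P Q)
include hPQ

theorem IsPair.trace_mul (X Y : Matrix (Fin 2) (Fin 2) O) :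
    trace (P * (X * Y)) = trace (P * X) * trace (P * Y) + trace (P * X * Q * Y) := by
  have h : P * X * P * Y = trace (P * X) • (P * Y) := by
    rw [idem_sandwich hPQ.det_left, smul_mul_assoc]
  calc trace (P * (X * Y)) = trace (P * X * (P + Q) * Y) := by
        rw [hPQ.add_eq, mul_one, mul_assoc]
    _ = _ := by rw [mul_add, add_mul, trace_add, h, trace_smul, smul_eq_mul]

theorem IsPair.offDiag_mul (A B C D : Matrix (Fin 2) (Fin 2) O) :
    trace (P * A * Q * B) * trace (P * C * Q * D) =
      trace (P * A * Q * D) * trace (P * C * Q * B) := by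
  have h1 : trace (P * A * Q * D) * trace (P * C * Q * B) =
      trace (P * A * Q * D * (P * C * Q) * B) := by
    have h : P * A * Q * D * P = trace (P * A * Q * D) • P := by
      rw [mul_assoc P A Q, mul_assoc P (A * Q) D, idem_sandwich hPQ.det_left]
    rw [show P * A * Q * D * (P * C * Q) * B = (P * A * Q * D * P) * (C * Q * B) by noncomm_ring,
      h, smul_mul_assoc, trace_smul, smul_eq_mul]
    congr 2
    noncomm_ring
  have h2 : trace (P * A * Q * D * (P * C * Q) * B) =
      trace (P * A * Q * B) * trace (P * C * Q * D) := by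
    rw [show P * A * Q * D * (P * C * Q) * B = P * A * (Q * (D * P * C) * Q) * B by noncomm_ring,
      idem_sandwich hPQ.det_right, mul_smul_comm, smul_mul_assoc, trace_smul, smul_eq_mul,
      trace_mul_comm Q, show D * P * C * Q = D * (P * C * Q) by noncomm_ring,
      trace_mul_comm D, mul_comm]
  rw [h1, h2]

theorem IsPair.trace_left (X : Matrix (Fin 2) (Fin 2) O) :
    trace (P * X) + trace (Q * X) = trace X := by
  rw [← trace_add, ← add_mul, hPQ.add_eq, one_mul]

theorem IsPair.offDiag_mul_left (X Y Z : Matrix (Fin 2) (Fin 2) O) :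
    trace (P * (X * Y) * Q * Z) =
      trace (P * X) * trace (P * Y * Q * Z) + trace (P * X * Q * Z) * trace (Q * Y) := by
  have hP : P * X * P * (Y * Q * Z) = trace (P * X) • (P * (Y * Q * Z)) := by
    rw [idem_sandwich hPQ.det_left, smul_mul_assoc]
  have hQ : P * X * (Q * Y * Q) * Z = trace (Q * Y) • (P * X * Q * Z) := by
    rw [idem_sandwich hPQ.det_right, mul_smul_comm, smul_mul_assoc]
  calc trace (P * (X * Y) * Q * Z) = trace (P * X * (P + Q) * (Y * Q * Z)) := by
        rw [hPQ.add_eq, mul_one]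
        congr 1
        noncomm_ring
    _ = trace (P * X * P * (Y * Q * Z)) + trace (P * X * (Q * Y * Q) * Z) := by
        rw [mul_add, add_mul, trace_add]
        congr 2
        noncomm_ring
    _ = _ := by
        rw [hP, hQ, trace_smul, trace_smul, smul_eq_mul, smul_eq_mul, mul_comm (trace (Q * Y))]
        congr 3
        noncomm_ring

theorem IsPair.offDiag_mul_right (X Y Z : Matrix (Fin 2) (Fin 2) O) :
    trace (P * Z * Q * (X * Y)) =
      trace (P * Z * Q * X) * trace (P * Y) + trace (Q * X) * trace (P * Z * Q * Y) := by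
  have hQ : P * Z * (Q * X * Q) * Y = trace (Q * X) • (P * Z * Q * Y) := by
    rw [idem_sandwich hPQ.det_right, mul_smul_comm, smul_mul_assoc]
  have hP : P * (Z * Q * X) * P * Y = trace (P * Z * Q * X) • (P * Y) := by
    rw [idem_sandwich hPQ.det_left, smul_mul_assoc]
    congr 2
    noncomm_ring
  calc trace (P * Z * Q * (X * Y)) = trace (P * Z * Q * X * (P + Q) * Y) := by
        rw [hPQ.add_eq, mul_one, mul_assoc (P * Z * Q)]
    _ = trace (P * (Z * Q * X) * P * Y) + trace (P * Z * (Q * X * Q) * Y) := by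
        rw [mul_add, add_mul, trace_add]
        congr 2 <;> noncomm_ring
    _ = _ := by rw [hP, hQ, trace_smul, trace_smul, smul_eq_mul, smul_eq_mul]

end Identities

variable {G : Type*} [Group G] {R : Type*} [CommRing R]

/-- A family of representations realising the pseudo-representation `(t, d)`. -/
structure Realisation (t d : G → R) (c : G) where
  /-- The index set. -/
  ι : Type
  /-- The coefficient rings. -/
  O : ι → Type
  [instCommRing : ∀ i, CommRing (O i)]
  /-- The embedding. -/
  f : ∀ i, R →+* O i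
  inj : ∀ x, (∀ i, f i x = 0) → x = 0
  /-- The representations. -/
  rep : ∀ i, G →* Matrix (Fin 2) (Fin 2) (O i)
  trace_rep : ∀ i g, trace (rep i g) = f i (t g)
  det_rep : ∀ i g, det (rep i g) = f i (d g)
  invol : c * c = 1
  det_invol : d c = -1

attribute [instance] Realisation.instCommRing

variable [Invertible (2 : R)]

/-- The upper left entry. -/
def entryA (t : G → R) (c g : G) : R := ⅟2 * (t g + t (c * g))

/-- The lower right entry. -/
def entryD (t : G → R) (c g : G) : R := ⅟2 * (t g - t (c * g))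

/-- The product of an upper right and a lower left entry. -/
def offDiag (t : G → R) (c g h : G) : R := entryA t c (g * h) - entryA t c g * entryA t c h

variable {t d : G → R} {c : G}

namespace Realisation

variable (Z : Realisation t d c)

/-- The idempotent of `+1`. -/
def idemP (i : Z.ι) : Matrix (Fin 2) (Fin 2) (Z.O i) := Z.f i (⅟2) • (1 + Z.rep i c)

/-- The idempotent of `-1`. -/
def idemQ (i : Z.ι) : Matrix (Fin 2) (Fin 2) (Z.O i) := Z.f i (⅟2) • (1 - Z.rep i c)

theorem two_half (i : Z.ι) : 2 * Z.f i (⅟2) = 1 := by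
  rw [← map_ofNat (Z.f i) 2, ← map_mul, mul_invOf_self, map_one]

theorem isPair (i : Z.ι) : IsPair (Z.idemP i) (Z.idemQ i) := by
  have hC : Z.rep i c * Z.rep i c = 1 := by rw [← map_mul, Z.invol, map_one]
  have hdC : det (Z.rep i c) = -1 := by rw [Z.det_rep, Z.det_invol, map_neg, map_one]
  have htr := trace_eq_zero_of_involution hC hdC
  rw [trace_fin_two] at htr
  rw [det_fin_two] at hdC
  refine ⟨?_, ?_, ?_⟩
  · rw [idemP, idemQ, ← smul_add, add_add_sub_cancel, ← two_smul (Z.O i), smul_smul, mul_comm,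
      Z.two_half, one_smul]
  · simp [idemP, det_fin_two]
    linear_combination Z.f i (⅟2) ^ 2 * (hdC + htr)
  · simp [idemQ, det_fin_two]
    linear_combination Z.f i (⅟2) ^ 2 * (hdC - htr)

theorem f_entryA (i : Z.ι) (g : G) :
    Z.f i (entryA t c g) = trace (Z.idemP i * Z.rep i g) := by
  rw [idemP, smul_mul_assoc, trace_smul, add_mul, trace_add, one_mul, ← map_mul, Z.trace_rep,
    Z.trace_rep, smul_eq_mul, entryA, map_mul, map_add]

theorem f_entryD (i : Z.ι) (g : G) :
    Z.f i (entryD t c g) = trace (Z.idemQ i * Z.rep i g) := by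
  rw [idemQ, smul_mul_assoc, trace_smul, sub_mul, trace_sub, one_mul, ← map_mul, Z.trace_rep,
    Z.trace_rep, smul_eq_mul, entryD, map_mul, map_sub]

theorem f_offDiag (i : Z.ι) (g h : G) :
    Z.f i (offDiag t c g h) =
      trace (Z.idemP i * Z.rep i g * Z.idemQ i * Z.rep i h) := by
  rw [offDiag, map_sub, map_mul, Z.f_entryA, Z.f_entryA, Z.f_entryA, map_mul,
    (Z.isPair i).trace_mul, add_sub_cancel_left]

include Z

omit [Invertible (2 : R)] in
theorem ext_eq {x y : R} (h : ∀ i, Z.f i x = Z.f i y) : x = y :=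
  sub_eq_zero.mp (Z.inj _ fun i => by rw [map_sub, h, sub_self])

theorem offDiag_mul (g h g' h' : G) :
    offDiag t c g h * offDiag t c g' h' = offDiag t c g h' * offDiag t c g' h :=
  Z.ext_eq fun i => by
    simp only [map_mul, Z.f_offDiag]
    exact (Z.isPair i).offDiag_mul _ _ _ _

theorem entryA_one : entryA t c 1 = 1 := Z.ext_eq fun i => by
  have hC : Z.rep i c * Z.rep i c = 1 := by rw [← map_mul, Z.invol, map_one]
  have hdC : det (Z.rep i c) = -1 := by rw [Z.det_rep, Z.det_invol, map_neg, map_one]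
  rw [Z.f_entryA, map_one, map_one, mul_one, idemP, trace_smul, trace_add, trace_one,
    trace_eq_zero_of_involution hC hdC, smul_eq_mul, add_zero, mul_comm]
  simpa using Z.two_half i

omit Z in
theorem entryA_mul (g h : G) :
    entryA t c (g * h) = entryA t c g * entryA t c h + offDiag t c g h := by
  simp [offDiag]

theorem entryD_one : entryD t c 1 = 1 := Z.ext_eq fun i => by
  have hC : Z.rep i c * Z.rep i c = 1 := by rw [← map_mul, Z.invol, map_one]
  have hdC : det (Z.rep i c) = -1 := by rw [Z.det_rep, Z.det_invol, map_neg, map_one]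
  rw [Z.f_entryD, map_one, map_one, mul_one, idemQ, trace_smul, trace_sub, trace_one,
    trace_eq_zero_of_involution hC hdC, smul_eq_mul, sub_zero, mul_comm]
  simpa using Z.two_half i

theorem offDiag_one_left (h : G) : offDiag t c 1 h = 0 := by
  simp [offDiag, Z.entryA_one]

theorem offDiag_one_right (g : G) : offDiag t c g 1 = 0 := by
  simp [offDiag, Z.entryA_one]

theorem entryD_mul (g h : G) :
    entryD t c (g * h) = offDiag t c h g + entryD t c g * entryD t c h :=
  Z.ext_eq fun i => by
    rw [map_add, map_mul (Z.f i), Z.f_entryD, Z.f_entryD, Z.f_entryD, Z.f_offDiag, map_mul]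
    have hPQ' : IsPair (Z.idemQ i) (Z.idemP i) :=
      ⟨by rw [add_comm]; exact (Z.isPair i).add_eq, (Z.isPair i).det_right, (Z.isPair i).det_left⟩
    rw [hPQ'.trace_mul, add_comm]
    congr 1
    rw [mul_assoc (Z.idemQ i * Z.rep i g), trace_mul_comm, ← mul_assoc]

theorem offDiag_mul_left (g h z : G) :
    offDiag t c (g * h) z =
      entryA t c g * offDiag t c h z + offDiag t c g z * entryD t c h :=
  Z.ext_eq fun i => by
    simp only [map_add, map_mul, Z.f_entryA, Z.f_entryD, Z.f_offDiag]
    exact (Z.isPair i).offDiag_mul_left _ _ _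

theorem offDiag_mul_right (g h z : G) :
    offDiag t c z (g * h) =
      offDiag t c z g * entryA t c h + entryD t c g * offDiag t c z h :=
  Z.ext_eq fun i => by
    simp only [map_add, map_mul, Z.f_entryA, Z.f_entryD, Z.f_offDiag]
    exact (Z.isPair i).offDiag_mul_right _ _ _

theorem entry_det (g : G) :
    entryA t c g * entryD t c g - offDiag t c g g = d g :=
  Z.ext_eq fun i => by
    have h1 := (Z.isPair i).trace_mul (Z.rep i g) (Z.rep i g)
    rw [map_sub, map_mul, Z.f_entryA, Z.f_entryD, Z.f_offDiag, ← Z.det_rep]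
    have h2 : Z.idemP i * (Z.rep i g * Z.rep i g) =
        trace (Z.rep i g) • (Z.idemP i * Z.rep i g) - det (Z.rep i g) • Z.idemP i := by
      rw [← mul_smul_comm, ← mul_one (det (Z.rep i g) • Z.idemP i), smul_mul_assoc,
        ← mul_smul_comm, ← mul_sub]
      congr 1
      ext a b
      fin_cases a <;> fin_cases b <;>
        simp [mul_apply, Fin.sum_univ_two, det_fin_two, trace_fin_two] <;> ring
    have htP : trace (Z.idemP i) = 1 := by
      have := (Z.f_entryA i 1).symm
      rwa [map_one (Z.rep i), mul_one, Z.entryA_one, map_one] at this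
    rw [h2, trace_sub, trace_smul, trace_smul, htP, smul_eq_mul, smul_eq_mul, mul_one,
      ← (Z.isPair i).trace_left] at h1
    linear_combination h1

theorem entryA_invol : entryA t c c = 1 := Z.ext_eq fun i => by
  have hC : Z.rep i c * Z.rep i c = 1 := by rw [← map_mul, Z.invol, map_one]
  have hdC : det (Z.rep i c) = -1 := by rw [Z.det_rep, Z.det_invol, map_neg, map_one]
  rw [Z.f_entryA, idemP, smul_mul_assoc, add_mul, one_mul, hC, trace_smul, trace_add,
    trace_eq_zero_of_involution hC hdC, trace_one, smul_eq_mul, zero_add, mul_comm, map_one]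
  simpa using Z.two_half i

omit [Invertible (2 : R)] in
theorem trace_cyclic (g h : G) : t (g * h) = t (h * g) :=
  Z.ext_eq fun i => by rw [← Z.trace_rep, ← Z.trace_rep, map_mul, map_mul, trace_mul_comm]

end Realisation

/-- Wiles' representation: `u` is the inverse of the value of `offDiag` at `(h₀, h₁)` and `w`
normalises the basis. -/
def wilesRep (Z : Realisation t d c) (h₀ h₁ : G) (u : R) (hu : offDiag t c h₀ h₁ * u = 1)
    (w : Rˣ) : G →* Matrix (Fin 2) (Fin 2) R where
  toFun g := !![entryA t c g, offDiag t c g h₁ * ((w⁻¹ : Rˣ) : R);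
    offDiag t c h₀ g * u * (w : R), entryD t c g]
  map_one' := by
    ext a b
    fin_cases a <;> fin_cases b <;> simp
    · exact Z.entryA_one
    · exact Z.offDiag_one_left h₁
    · rw [Z.offDiag_one_right h₀, zero_mul]
    · exact Z.entryD_one
  map_mul' g h := by
    have hw : ((w⁻¹ : Rˣ) : R) * (w : R) = 1 := w.inv_mul
    ext a b
    fin_cases a <;> fin_cases b <;> simp [mul_apply, Fin.sum_univ_two]
    · rw [Realisation.entryA_mul]
      linear_combination (-offDiag t c g h) * hu + u * Z.offDiag_mul g h h₀ h₁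
        - offDiag t c g h₁ * offDiag t c h₀ h * u * hw
    · rw [Z.offDiag_mul_left]
      ring
    · rw [Z.offDiag_mul_right]
      ring
    · rw [Z.entryD_mul]
      linear_combination (-offDiag t c h g) * hu + u * Z.offDiag_mul h g h₀ h₁
        - offDiag t c h₀ g * offDiag t c h h₁ * u * hw

section

variable (Z : Realisation t d c) (h₀ h₁ : G) (u : R) (hu : offDiag t c h₀ h₁ * u = 1) (w : Rˣ)

theorem wilesRep_apply (g : G) : wilesRep Z h₀ h₁ u hu w g =
    !![entryA t c g, offDiag t c g h₁ * ((w⁻¹ : Rˣ) : R);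
      offDiag t c h₀ g * u * (w : R), entryD t c g] := rfl

theorem trace_wilesRep (g : G) : trace (wilesRep Z h₀ h₁ u hu w g) = t g := by
  rw [wilesRep_apply, trace_fin_two_of, entryA, entryD, ← mul_add, add_add_sub_cancel,
    ← two_mul, invOf_mul_cancel_left]

theorem det_wilesRep (g : G) : det (wilesRep Z h₀ h₁ u hu w g) = d g := by
  rw [wilesRep_apply, det_fin_two_of, ← Z.entry_det g]
  have hw : ((w⁻¹ : Rˣ) : R) * (w : R) = 1 := w.inv_mul
  linear_combination (-(offDiag t c g h₁ * offDiag t c h₀ g * u)) * hw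
    + u * Z.offDiag_mul g g h₀ h₁ - offDiag t c g g * hu

/-- Congruences of traces give congruences of the representation. -/
theorem wilesRep_congr (I : Ideal R) {σ : G} (hσ : ∀ g, t (g * σ) - t g ∈ I) (a b : Fin 2) :
    wilesRep Z h₀ h₁ u hu w σ a b - (1 : Matrix (Fin 2) (Fin 2) R) a b ∈ I := by
  have hq : ∀ g g', Ideal.Quotient.mk I (t (g * σ * g')) = Ideal.Quotient.mk I (t (g * g')) := by
    intro g g'
    rw [Ideal.Quotient.mk_eq_mk_iff_sub_mem, Z.trace_cyclic (g * σ) g', ← mul_assoc,
      Z.trace_cyclic g g']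
    exact hσ (g' * g)
  have hA : ∀ g g', Ideal.Quotient.mk I (entryA t c (g * σ * g')) =
      Ideal.Quotient.mk I (entryA t c (g * g')) := by
    intro g g'
    simp only [entryA, map_mul, map_add]
    rw [hq, show c * (g * σ * g') = c * g * σ * g' by simp [mul_assoc], hq, mul_assoc c g g']
  have hD : Ideal.Quotient.mk I (entryD t c σ) = 1 := by
    rw [← map_one (Ideal.Quotient.mk I), ← Z.entryD_one]
    simp only [entryD, map_mul, map_sub]
    have h1 := hq 1 1
    have h2 := hq c 1
    simp only [one_mul, mul_one] at h1 h2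
    rw [h1, h2, mul_one]
  have e : Ideal.Quotient.mk I (wilesRep Z h₀ h₁ u hu w σ a b) =
      Ideal.Quotient.mk I (wilesRep Z h₀ h₁ u hu w 1 a b) := by
    rw [wilesRep_apply, wilesRep_apply]
    have e1 := hA 1 1
    have e2 := hA 1 h₁
    have e3 := hA h₀ 1
    simp only [one_mul, mul_one] at e1 e2 e3
    fin_cases a <;> fin_cases b <;>
      simp [offDiag, e1, e2, e3, hD, Z.entryA_one, Z.entryD_one]
  rw [← Ideal.Quotient.eq_zero_iff_mem, map_sub, sub_eq_zero, e,
    map_one (wilesRep Z h₀ h₁ u hu w)]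

end

/-- **The representation over the ring of traces**, reducing to a given residual matrix
representation in which `c` is diagonal. -/
theorem exists_rep [IsLocalRing R] {k : Type*} [Field k] (π : R →+* k)
    (hπ : Function.Surjective π) [IsLocalHom π] (Z : Realisation t d c)
    (ρ₀ : G →* Matrix (Fin 2) (Fin 2) k) (hc : ρ₀ c = !![1, 0; 0, -1])
    (htr : ∀ g, trace (ρ₀ g) = π (t g)) {h₀ h₁ : G} (hb : ρ₀ h₀ 0 1 ≠ 0)
    (hcc : ρ₀ h₁ 1 0 ≠ 0) :
    ∃ ρ : G →* Matrix (Fin 2) (Fin 2) R,
      (∀ g, trace (ρ g) = t g) ∧ (∀ g, det (ρ g) = d g) ∧ (∀ g, (ρ g).map π = ρ₀ g) ∧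
      ∀ (I : Ideal R) (σ : G), (∀ g, t (g * σ) - t g ∈ I) →
        ∀ a b, ρ σ a b - (1 : Matrix (Fin 2) (Fin 2) R) a b ∈ I := by
  have h2 : π (⅟2) * 2 = 1 := by
    rw [← map_ofNat π 2, ← map_mul, invOf_mul_self, map_one]
  have hA : ∀ g, π (entryA t c g) = ρ₀ g 0 0 := by
    intro g
    rw [entryA, map_mul, map_add, ← htr, ← htr, map_mul ρ₀ c g, hc, trace_fin_two, trace_fin_two]
    simp [mul_apply, Fin.sum_univ_two]
    linear_combination ρ₀ g 0 0 * h2
  have hD : ∀ g, π (entryD t c g) = ρ₀ g 1 1 := by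
    intro g
    rw [entryD, map_mul, map_sub, ← htr, ← htr, map_mul ρ₀ c g, hc, trace_fin_two, trace_fin_two]
    simp [mul_apply, Fin.sum_univ_two]
    linear_combination ρ₀ g 1 1 * h2
  have hX : ∀ g h, π (offDiag t c g h) = ρ₀ g 0 1 * ρ₀ h 1 0 := by
    intro g h
    rw [offDiag, map_sub, map_mul, hA, hA, hA, map_mul, mul_apply, Fin.sum_univ_two]
    ring
  have hu : IsUnit (offDiag t c h₀ h₁) :=
    IsUnit.of_map π _ (by rw [hX]; exact IsUnit.mk0 _ (mul_ne_zero hb hcc))
  obtain ⟨u, hu⟩ := hu.exists_right_inv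
  obtain ⟨w₀, hw₀⟩ := hπ (ρ₀ h₁ 1 0)
  obtain ⟨w, rfl⟩ : IsUnit w₀ := IsUnit.of_map π _ (by rw [hw₀]; exact IsUnit.mk0 _ hcc)
  have hwu : π ((w⁻¹ : Rˣ) : R) = (ρ₀ h₁ 1 0)⁻¹ :=
    eq_inv_of_mul_eq_one_left (by rw [← hw₀, ← map_mul, Units.inv_mul, map_one])
  have hπu : ρ₀ h₀ 0 1 * ρ₀ h₁ 1 0 * π u = 1 := by rw [← hX, ← map_mul, hu, map_one]
  refine ⟨wilesRep Z h₀ h₁ u hu w, trace_wilesRep Z h₀ h₁ u hu w, det_wilesRep Z h₀ h₁ u hu w,
    fun g => ?_, fun I σ hσ => wilesRep_congr Z h₀ h₁ u hu w I hσ⟩
  rw [wilesRep_apply]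
  ext a b
  fin_cases a <;> fin_cases b <;> simp [hA, hD, hX, hwu, hw₀]
  · field_simp
  · linear_combination ρ₀ g 1 0 * hπu

section Field

variable {k : Type*} [Field k] {V : Type*} [AddCommGroup V] [Module k V]

/-- An odd irreducible representation over a field in a basis where `c` is diagonal. -/
theorem exists_residual_matrices (h2 : (2 : k) ≠ 0) (hV : Module.finrank k V = 2)
    (ρ : G →* Module.End k V) (hcc : c * c = 1) (hdet : LinearMap.det (ρ c) = -1)
    (hirr : ∀ W : Submodule k V, (∀ σ, ∀ x ∈ W, ρ σ x ∈ W) → W = ⊥ ∨ W = ⊤) :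
    ∃ (b : Module.Basis (Fin 2) k V) (h₀ h₁ : G),
      CondLevel.matrixRep b ρ c = !![1, 0; 0, -1] ∧
      CondLevel.matrixRep b ρ h₀ 0 1 ≠ 0 ∧ CondLevel.matrixRep b ρ h₁ 1 0 ≠ 0 := by
  obtain ⟨b, h0, h1⟩ := CondLevel.exists_eigenbasis_of_involution h2 hV (ρ c)
    (by rw [← map_mul, hcc, map_one]) hdet
  obtain ⟨σ, τ, hne⟩ := CondLevel.exists_oddOffDiag_ne_zero h2 hV ρ hcc hdet hirr
  rw [CondLevel.oddOffDiag_eq_four_mul ρ b h0 h1] at hne
  exact ⟨b, σ, τ, CondLevel.toMatrix_eigenbasis h0 h1,
    right_ne_zero_of_mul (left_ne_zero_of_mul hne), right_ne_zero_of_mul hne⟩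

end Field

end Fermat.Agent.Ribet.TraceRep
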